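import Mathlib

/-!
# Power series in several variables over an infinite field form a unique factorisation domain

`uniqueFactorizationMonoid_mvPowerSeries`, by induction on the variables: a shear makes a series
regular in the first variable. Used for completions of smooth local rings.
-/

set_option autoImplicit false

universe u

open IsLocalRing

namespace FLTAgent.AbelianTorsion

variable {K : Type u} [Field K]

section MaximalIdeal

variable {σ : Type} [Fintype σ]

omit [Fintype σ] in
theorem mem_span_X_image_finset (s : Finset σ) (f : MvPowerSeries σ K)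
    (h : ∀ d : σ →₀ ℕ, (∀ j ∈ s, d j = 0) → MvPowerSeries.coeff d f = 0) :
    f ∈ Ideal.span ((fun j => (MvPowerSeries.X j : MvPowerSeries σ K)) '' (s : Set σ)) := by
  classical
  induction s using Finset.induction_on generalizing f with
  | empty =>
    have : f = 0 := MvPowerSeries.ext fun d => h d (by simp)
    simp [this]
  | @insert a s has ih =>
    rw [Finset.coe_insert, Set.image_insert_eq, Ideal.mem_span_insert]
    let z : MvPowerSeries σ K := fun d => if d a = 0 then MvPowerSeries.coeff d f else 0
    have hzc : ∀ d, MvPowerSeries.coeff d z = if d a = 0 then MvPowerSeries.coeff d f else 0 :=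
      fun d => rfl
    obtain ⟨c, hc⟩ : (MvPowerSeries.X a : MvPowerSeries σ K) ∣ f - z :=
      MvPowerSeries.X_dvd_iff.mpr fun d hd => by rw [map_sub, hzc, if_pos hd, sub_self]
    refine ⟨c, z, ih z fun d hd => ?_, by rw [mul_comm, ← hc, sub_add_cancel]⟩
    rw [hzc]
    split_ifs with hda
    · refine h d fun j hj => ?_
      rcases Finset.mem_insert.mp hj with rfl | hj
      · exact hda
      · exact hd j hj
    · rfl

theorem maximalIdeal_mvPowerSeries :
    maximalIdeal (MvPowerSeries σ K) = Ideal.span (Set.range MvPowerSeries.X) := by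
  classical
  refine le_antisymm (fun f hf => ?_) (Ideal.span_le.mpr ?_)
  · have h0 : MvPowerSeries.constantCoeff f = 0 := by
      rw [IsLocalRing.mem_maximalIdeal, mem_nonunits_iff,
        MvPowerSeries.isUnit_iff_constantCoeff] at hf
      simpa using hf
    have := mem_span_X_image_finset Finset.univ f (fun d hd => by
      have hd0 : d = 0 := Finsupp.ext fun j => hd j (Finset.mem_univ j)
      rw [hd0, MvPowerSeries.coeff_zero_eq_constantCoeff_apply, h0])
    rwa [Finset.coe_univ, Set.image_univ] at this
  · rintro x ⟨j, rfl⟩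
    rw [SetLike.mem_coe, IsLocalRing.mem_maximalIdeal, mem_nonunits_iff,
      MvPowerSeries.isUnit_iff_constantCoeff, MvPowerSeries.constantCoeff_X]
    exact not_isUnit_zero

theorem isAdicComplete_maximalIdeal_mvPowerSeries :
    IsAdicComplete (maximalIdeal (MvPowerSeries σ K)) (MvPowerSeries σ K) := by
  rw [maximalIdeal_mvPowerSeries]
  infer_instance

end MaximalIdeal

/-- Over a complete local UFD, a nonzero prime of the power series ring containing a series that is
nonzero modulo the maximal ideal contains a prime element. -/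
theorem exists_prime_mem_of_map_residue_ne_zero {R : Type u} [CommRing R] [IsDomain R]
    [IsLocalRing R] [UniqueFactorizationMonoid R] [IsAdicComplete (maximalIdeal R) R]
    (P : Ideal (PowerSeries R)) [P.IsPrime] {f : PowerSeries R} (hf : f ∈ P)
    (hres : f.map (residue R) ≠ 0) : ∃ q ∈ P, Prime q := by
  obtain ⟨g, h, H⟩ := PowerSeries.exists_isWeierstrassFactorization hres
  have hgP : (g : PowerSeries R) ∈ P := by
    rw [H.eq_mul] at hf
    exact ((‹P.IsPrime›).mem_or_mem hf).resolve_right
      (fun hh => ‹P.IsPrime›.ne_top (P.eq_top_of_isUnit_mem hh H.isUnit))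
  -- some monic irreducible factor of `g` lies in `P`
  let P' : Ideal (Polynomial R) := P.comap Polynomial.coeToPowerSeries.ringHom
  have hP' : P'.IsPrime := Ideal.IsPrime.comap _
  have hg0 : g ≠ 0 := H.isDistinguishedAt.monic.ne_zero
  obtain ⟨s, hs, hprod⟩ := UniqueFactorizationMonoid.exists_prime_factors g hg0
  have hgP' : g ∈ P' := hgP
  obtain ⟨u, hu⟩ := hprod
  have hsP : s.prod ∈ P' := by
    rw [← hu] at hgP'
    exact (hP'.mem_or_mem hgP').resolve_right (fun hh =>
      hP'.ne_top (P'.eq_top_of_isUnit_mem hh u.isUnit))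
  obtain ⟨q, hqs, hqP⟩ := (hP'.multiset_prod_mem_iff_exists_mem s).mp hsP
  have hqdvd : q ∣ g := (Multiset.dvd_prod hqs).trans ⟨u, hu.symm⟩
  obtain ⟨r, hr⟩ := hqdvd
  have hlc : q.leadingCoeff * r.leadingCoeff = 1 := by
    rw [← Polynomial.leadingCoeff_mul, ← hr, H.isDistinguishedAt.monic.leadingCoeff]
  let c : Rˣ := ⟨q.leadingCoeff, r.leadingCoeff, hlc, by rw [mul_comm]; exact hlc⟩
  let q' : Polynomial R := Polynomial.C ((c⁻¹ : Rˣ) : R) * q
  have hassoc : Associated q q' := by
    refine ⟨(Units.map (Polynomial.C : R →+* Polynomial R).toMonoidHom) c⁻¹, ?_⟩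
    simp [q', mul_comm]
  have hq'monic : q'.Monic := by
    have : q'.leadingCoeff = 1 := by
      simp only [q', Polynomial.leadingCoeff_mul, Polynomial.leadingCoeff_C]
      exact c.inv_mul
    exact this
  have hq'prime : Prime q' := hassoc.prime (hs q hqs)
  -- a monic factor of a distinguished polynomial is distinguished
  have hq'dist : q'.IsDistinguishedAt (maximalIdeal R) := by
    refine ⟨⟨fun {i} hi => ?_⟩, hq'monic⟩
    have hdvd : q'.map (Ideal.Quotient.mk (maximalIdeal R)) ∣
        (Polynomial.X : Polynomial (R ⧸ maximalIdeal R)) ^ g.natDegree := by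
      rw [← H.isDistinguishedAt.map_eq_X_pow]
      exact Polynomial.map_dvd _ (hassoc.symm.dvd.trans ⟨r, hr⟩)
    have : IsDomain (R ⧸ maximalIdeal R) := Ideal.Quotient.isDomain _
    obtain ⟨j, -, hj⟩ := (dvd_prime_pow Polynomial.prime_X _).mp hdvd
    have heq : q'.map (Ideal.Quotient.mk (maximalIdeal R)) = Polynomial.X ^ j :=
      Polynomial.eq_of_monic_of_associated (hq'monic.map _) (Polynomial.monic_X_pow j) hj
    have hdeg : j = q'.natDegree := by
      have h1 := congrArg Polynomial.natDegree heq
      rw [hq'monic.natDegree_map, Polynomial.natDegree_X_pow] at h1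
      exact h1.symm
    rw [← Ideal.Quotient.eq_zero_iff_mem, ← Polynomial.coeff_map, heq, Polynomial.coeff_X_pow,
      if_neg (by omega)]
  refine ⟨(q' : PowerSeries R), ?_, ?_⟩
  · have : q' ∈ P' := P'.mul_mem_left _ hqP
    exact this
  · have hne : (q' : PowerSeries R) ≠ 0 := fun h0 => hq'monic.ne_zero (by
      exact_mod_cast h0)
    rw [← Ideal.span_singleton_prime hne]
    have hp : (Ideal.span {q'}).IsPrime :=
      (Ideal.span_singleton_prime hq'monic.ne_zero).mpr hq'prime
    have : IsDomain (Polynomial R ⧸ Ideal.span {q'}) :=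
      (Ideal.Quotient.isDomain_iff_prime _).mpr hp
    exact (Ideal.Quotient.isDomain_iff_prime _).mp
      (MulEquiv.isDomain (Polynomial R ⧸ Ideal.span {q'})
        hq'dist.algEquivQuotient.symm.toMulEquiv)

section Shear

variable {n : ℕ}

/-- The substitution `X₀ ↦ X₀`, `X_{i+1} ↦ X_{i+1} + c_i X₀`. -/
noncomputable def shearVar (c : Fin n → K) : Fin (n + 1) → MvPowerSeries (Fin (n + 1)) K :=
  Fin.cons (MvPowerSeries.X 0) fun i => MvPowerSeries.X i.succ + c i • MvPowerSeries.X 0

theorem shearVar_zero (c : Fin n → K) : shearVar c 0 = MvPowerSeries.X 0 := rfl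

theorem shearVar_succ (c : Fin n → K) (i : Fin n) :
    shearVar c i.succ = MvPowerSeries.X i.succ + c i • MvPowerSeries.X 0 := by
  simp [shearVar]

theorem hasSubst_shearVar (c : Fin n → K) : MvPowerSeries.HasSubst (shearVar c) :=
  MvPowerSeries.hasSubst_of_constantCoeff_zero fun i => by
    refine Fin.cases ?_ (fun j => ?_) i <;> simp [shearVar]

theorem subst_shearVar_shearVar (c : Fin n → K) (f : MvPowerSeries (Fin (n + 1)) K) :
    MvPowerSeries.subst (shearVar (-c)) (MvPowerSeries.subst (shearVar c) f) = f := by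
  rw [MvPowerSeries.subst_comp_subst_apply (hasSubst_shearVar c) (hasSubst_shearVar (-c))]
  have hvar : (fun s => MvPowerSeries.subst (shearVar (-c)) (shearVar c s)) =
      (MvPowerSeries.X : Fin (n + 1) → MvPowerSeries (Fin (n + 1)) K) := by
    funext s
    have hl : ∀ t, MvPowerSeries.subst (shearVar (-c))
        (MvPowerSeries.X t : MvPowerSeries (Fin (n + 1)) K) = shearVar (-c) t :=
      fun t => MvPowerSeries.subst_X (hasSubst_shearVar (-c)) t
    refine Fin.cases ?_ (fun j => ?_) s
    · rw [shearVar_zero, hl, shearVar_zero]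
    · rw [shearVar_succ, MvPowerSeries.subst_add (hasSubst_shearVar (-c)),
        MvPowerSeries.subst_smul (hasSubst_shearVar (-c)), hl, hl, shearVar_zero, shearVar_succ]
      simp
  rw [hvar, MvPowerSeries.subst_self, id]

/-- The shear as a ring automorphism. -/
noncomputable def shearEquiv (c : Fin n → K) :
    MvPowerSeries (Fin (n + 1)) K ≃ₐ[K] MvPowerSeries (Fin (n + 1)) K :=
  AlgEquiv.ofAlgHom (MvPowerSeries.substAlgHom (hasSubst_shearVar c))
    (MvPowerSeries.substAlgHom (hasSubst_shearVar (-c)))
    (AlgHom.ext fun f => by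
      simp only [AlgHom.comp_apply, MvPowerSeries.substAlgHom_apply, AlgHom.id_apply]
      simpa using subst_shearVar_shearVar (-c) f)
    (AlgHom.ext fun f => by
      simp only [AlgHom.comp_apply, MvPowerSeries.substAlgHom_apply, AlgHom.id_apply]
      exact subst_shearVar_shearVar c f)

/-- Restriction to the line through the origin with direction `b`. -/
noncomputable def lineVar (b : Fin (n + 1) → K) : Fin (n + 1) → MvPowerSeries Unit K :=
  fun i => b i • MvPowerSeries.X ()

theorem hasSubst_lineVar (b : Fin (n + 1) → K) : MvPowerSeries.HasSubst (lineVar b) :=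
  MvPowerSeries.hasSubst_of_constantCoeff_zero fun i => by simp [lineVar]

theorem coeff_subst_lineVar (b : Fin (n + 1) → K) (f : MvPowerSeries (Fin (n + 1)) K) (D : ℕ) :
    MvPowerSeries.coeff (Finsupp.single () D) (MvPowerSeries.subst (lineVar b) f) =
      ∑ d ∈ Finset.univ.finsuppAntidiag D,
        MvPowerSeries.coeff d f * d.prod (fun i e => b i ^ e) := by
  classical
  have key : ∀ d : Fin (n + 1) →₀ ℕ, MvPowerSeries.coeff (Finsupp.single () D)
      (d.prod fun s e => (lineVar b s) ^ e) =
      if d.degree = D then d.prod (fun i e => b i ^ e) else 0 := by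
    intro d
    have h1 : (d.prod fun s e => (lineVar b s) ^ e) =
        (d.prod fun i e => b i ^ e) • (MvPowerSeries.X () : MvPowerSeries Unit K) ^ d.degree := by
      simp only [lineVar, smul_pow, Finsupp.prod]
      rw [Finset.prod_smul, Finset.prod_pow_eq_pow_sum, Finsupp.degree_apply]
    rw [h1, map_smul, MvPowerSeries.coeff_X_pow]
    by_cases h : d.degree = D
    · simp [h]
    · rw [if_neg (fun h' => h ?_), if_neg h, smul_zero]
      exact ((Finsupp.single_injective ()) h').symm
  rw [MvPowerSeries.coeff_subst (hasSubst_lineVar b)]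
  rw [finsum_eq_sum_of_support_subset (s := Finset.univ.finsuppAntidiag D)]
  · refine Finset.sum_congr rfl fun d hd => ?_
    rw [key, if_pos, smul_eq_mul]
    rw [Finset.mem_finsuppAntidiag] at hd
    rw [Finsupp.degree_eq_sum]
    exact hd.1
  · intro d hd
    rw [Function.mem_support, key] at hd
    rw [Finset.mem_coe, Finset.mem_finsuppAntidiag]
    refine ⟨?_, Finset.subset_univ _⟩
    by_contra h
    apply hd
    rw [if_neg, smul_zero]
    rwa [Finsupp.degree_eq_sum]

theorem exists_line_ne_zero [Infinite K] {f : MvPowerSeries (Fin (n + 1)) K} (hf : f ≠ 0) :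
    ∃ c : Fin n → K, MvPowerSeries.subst (lineVar (Fin.cons 1 c)) f ≠ 0 := by
  classical
  obtain ⟨d₀, hd₀⟩ : ∃ d, MvPowerSeries.coeff d f ≠ 0 := by
    by_contra h
    push Not at h
    exact hf (MvPowerSeries.ext h)
  let D := d₀.degree
  -- the degree `D` part, as a polynomial
  let p : MvPolynomial (Fin (n + 1)) K :=
    ∑ d ∈ Finset.univ.finsuppAntidiag D, MvPolynomial.monomial d (MvPowerSeries.coeff d f)
  have hp : p * MvPolynomial.X 0 ≠ 0 := by
    refine mul_ne_zero (fun h => hd₀ ?_) (MvPolynomial.X_ne_zero 0)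
    have := congrArg (MvPolynomial.coeff d₀) h
    simp only [p, MvPolynomial.coeff_sum, MvPolynomial.coeff_monomial, MvPolynomial.coeff_zero,
      Finset.sum_ite_eq'] at this
    rwa [if_pos] at this
    rw [Finset.mem_finsuppAntidiag]
    exact ⟨(Finsupp.degree_eq_sum d₀).symm, Finset.subset_univ _⟩
  obtain ⟨b, hb⟩ : ∃ b, MvPolynomial.eval b (p * MvPolynomial.X 0) ≠ 0 := by
    by_contra h
    push Not at h
    exact hp (MvPolynomial.funext fun b => by simp [h b])
  rw [map_mul, MvPolynomial.eval_X] at hb
  have hb0 : b 0 ≠ 0 := right_ne_zero_of_mul hb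
  refine ⟨fun i => b i.succ / b 0, fun h => left_ne_zero_of_mul hb ?_⟩
  have hvar : (Fin.cons 1 fun i => b i.succ / b 0 : Fin (n + 1) → K) = (b 0)⁻¹ • b := by
    funext i
    refine Fin.cases ?_ (fun j => ?_) i
    · simp [hb0]
    · simp [div_eq_inv_mul]
  have hc := congrArg (MvPowerSeries.coeff (Finsupp.single () D)) h
  rw [map_zero, coeff_subst_lineVar, hvar] at hc
  have hscale : (∑ d ∈ Finset.univ.finsuppAntidiag D,
      MvPowerSeries.coeff d f * d.prod (fun i e => ((b 0)⁻¹ • b) i ^ e)) =
      ((b 0)⁻¹) ^ D * MvPolynomial.eval b p := by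
    simp only [p, map_sum, MvPolynomial.eval_monomial, Finset.mul_sum]
    refine Finset.sum_congr rfl fun d hd => ?_
    rw [Finset.mem_finsuppAntidiag] at hd
    have : d.prod (fun i e => ((b 0)⁻¹ • b) i ^ e) = ((b 0)⁻¹) ^ D *
      d.prod (fun i e => b i ^ e) := by
      rw [Finsupp.prod_fintype _ _ (fun i => pow_zero _),
        Finsupp.prod_fintype _ _ (fun i => pow_zero _)]
      simp only [Pi.smul_apply, smul_eq_mul, mul_pow]
      rw [Finset.prod_mul_distrib, Finset.prod_pow_eq_pow_sum, hd.1]
    rw [this]
    ring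
  rw [hscale] at hc
  exact (mul_eq_zero.mp hc).resolve_left (pow_ne_zero _ (inv_ne_zero hb0))

end Shear

theorem uniqueFactorizationMonoid_mvPowerSeries_succ [Infinite K] {n : ℕ}
    [IsDomain (MvPowerSeries (Fin n) K)] [IsDomain (MvPowerSeries (Fin (n + 1)) K)]
    [UniqueFactorizationMonoid (MvPowerSeries (Fin n) K)]
    [IsAdicComplete (maximalIdeal (MvPowerSeries (Fin n) K)) (MvPowerSeries (Fin n) K)] :
    UniqueFactorizationMonoid (MvPowerSeries (Fin (n + 1)) K) := by
  rw [UniqueFactorizationMonoid.iff_exists_prime_mem_of_isPrime]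
  intro P hP0 hP
  obtain ⟨f, hfP, hf0⟩ := Submodule.exists_mem_ne_zero_of_ne_bot hP0
  obtain ⟨c, hc⟩ := exists_line_ne_zero hf0
  let e : MvPowerSeries (Fin (n + 1)) K ≃+* PowerSeries (MvPowerSeries (Fin n) K) :=
    ((shearEquiv c).trans (MvPowerSeries.finSuccEquiv K n)).toRingEquiv
  have he : e f = MvPowerSeries.finSuccEquiv K n (MvPowerSeries.subst (shearVar c) f) := by
    simp [e, shearEquiv]
  have hres : (e f).map (residue (MvPowerSeries (Fin n) K)) ≠ 0 := by
    intro h
    apply hc
    have hcomp : MvPowerSeries.subst (lineVar (Fin.cons 1 c)) f =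
        MvPowerSeries.subst (lineVar (Fin.cons 1 0)) (MvPowerSeries.subst (shearVar c) f) := by
      rw [MvPowerSeries.subst_comp_subst_apply (hasSubst_shearVar c) (hasSubst_lineVar _)]
      congr 1
      funext s
      have hl : ∀ t, MvPowerSeries.subst (lineVar (Fin.cons (1 : K) (0 : Fin n → K)))
          (MvPowerSeries.X t : MvPowerSeries (Fin (n + 1)) K) =
            lineVar (Fin.cons (1 : K) (0 : Fin n → K)) t :=
        fun t => MvPowerSeries.subst_X (hasSubst_lineVar _) t
      refine Fin.cases ?_ (fun j => ?_) s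
      · simp [shearVar, hl, lineVar]
      · simp only [shearVar, Fin.cons_succ]
        rw [MvPowerSeries.subst_add (hasSubst_lineVar _),
          MvPowerSeries.subst_smul (hasSubst_lineVar _), hl, hl]
        simp [lineVar]
    rw [hcomp]
    refine MvPowerSeries.ext fun d => ?_
    obtain ⟨k, rfl⟩ : ∃ k, Finsupp.single () k = d := ⟨d (), by ext; simp⟩
    rw [map_zero, coeff_subst_lineVar]
    refine Finset.sum_eq_zero fun d hd => ?_
    rw [Finset.mem_finsuppAntidiag] at hd
    by_cases htail : ∀ j : Fin n, d j.succ = 0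
    · have hdk : d = Finsupp.cons k (0 : Fin n →₀ ℕ) := by
        have h0 : d 0 = k := by
          rw [← hd.1, Fin.sum_univ_succ]
          simp [htail]
        ext i
        refine Fin.cases ?_ (fun j => ?_) i
        · simpa using h0
        · simpa using htail j
      have h1 := congrArg (PowerSeries.coeff k) h
      rw [PowerSeries.coeff_map, map_zero, residue_eq_zero_iff, IsLocalRing.mem_maximalIdeal,
        mem_nonunits_iff, MvPowerSeries.isUnit_iff_constantCoeff, isUnit_iff_ne_zero,
        not_not, ← MvPowerSeries.coeff_zero_eq_constantCoeff_apply] at h1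
      have h2 : MvPowerSeries.coeff d (MvPowerSeries.subst (shearVar c) f) = 0 := by
        rw [hdk, ← MvPowerSeries.coeff_coeff_finSuccEquiv, ← he]
        exact h1
      rw [h2, zero_mul]
    · push Not at htail
      obtain ⟨j, hj⟩ := htail
      have : d.prod
          (fun i e => (Fin.cons (1 : K) (0 : Fin n → K) : Fin (n + 1) → K) i ^ e) = 0 := by
        rw [Finsupp.prod_fintype _ _ (fun i => pow_zero _)]
        exact Finset.prod_eq_zero (Finset.mem_univ j.succ) (by simp [hj])
      rw [this, mul_zero]
  have hP' : (P.comap e.symm.toRingHom).IsPrime := Ideal.IsPrime.comap _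
  have hef : e f ∈ P.comap e.symm.toRingHom := by
    rw [Ideal.mem_comap, RingEquiv.toRingHom_eq_coe, RingEquiv.coe_toRingHom,
      RingEquiv.symm_apply_apply]
    exact hfP
  obtain ⟨q, hq, hqp⟩ :=
    exists_prime_mem_of_map_residue_ne_zero (P.comap e.symm.toRingHom) hef hres
  exact ⟨e.symm q, hq, (MulEquiv.prime_iff e.symm).mpr hqp⟩

/-- Power series in finitely many variables over an infinite field form a UFD. -/
theorem uniqueFactorizationMonoid_mvPowerSeries [Infinite K] (n : ℕ) :
    UniqueFactorizationMonoid (MvPowerSeries (Fin n) K) := by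
  induction n with
  | zero =>
    exact (MvPowerSeries.isEmptyEquiv (Fin 0) K).symm.toMulEquiv.uniqueFactorizationMonoid
      inferInstance
  | succ n ih =>
    have := isAdicComplete_maximalIdeal_mvPowerSeries (K := K) (σ := Fin n)
    have : IsDomain (MvPowerSeries (Fin n) K) := NoZeroDivisors.to_isDomain _
    have : IsDomain (MvPowerSeries (Fin (n + 1)) K) := NoZeroDivisors.to_isDomain _
    exact uniqueFactorizationMonoid_mvPowerSeries_succ

end FLTAgent.AbelianTorsion
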