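import Mathlib

/-!
# Unique factorisation descends along faithfully flat maps of Noetherian local rings

`uniqueFactorizationMonoid_of_flat_local`, through colon ideals of principal ideals.
Used with the completion of a smooth local ring.
-/

set_option autoImplicit false

universe u v

open IsLocalRing

namespace FLTAgent.AbelianTorsion

variable {A : Type u} {B : Type v} [CommRing A] [CommRing B] [Algebra A B]

/-- Colon ideals of principal ideals commute with flat extensions. -/
theorem mem_map_colon_of_flat [Module.Flat A B] (a b : A) {z : B}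
    (hz : algebraMap A B a ∣ algebraMap A B b * z) :
    z ∈ ((Ideal.span {a}).colon ((Ideal.span {b} : Ideal A) : Set A)).map (algebraMap A B) := by
  classical
  obtain ⟨w, hw⟩ := hz
  have hrel : ∑ i : Fin 2, (![b, -a] : Fin 2 → A) i • (![z, w] : Fin 2 → B) i = 0 := by
    rw [Fin.sum_univ_two]
    simp [Algebra.smul_def, hw]
  let : Module A B := Algebra.toModule
  obtain ⟨k, c, y, hy, hc⟩ := Module.Flat.isTrivialRelation_of_sum_smul_eq_zero
    (R := A) (M := B) (f := ![b, -a]) (x := ![z, w]) (by convert hrel using 1)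
  have hz' : z = ∑ j, c 0 j • y j := hy 0
  rw [hz']
  refine Ideal.sum_mem _ fun j _ => ?_
  rw [Algebra.smul_def]
  refine Ideal.mul_mem_right _ _ (Ideal.mem_map_of_mem _ ?_)
  rw [Submodule.mem_colon]
  intro p hp
  obtain ⟨r, rfl⟩ := Ideal.mem_span_singleton'.mp hp
  have := hc j
  rw [Fin.sum_univ_two] at this
  simp only [Matrix.cons_val_zero, Matrix.cons_val_one] at this
  rw [smul_eq_mul, Ideal.mem_span_singleton]
  exact ⟨r * c 1 j, by linear_combination r * this⟩

variable [IsLocalRing A] [IsNoetherianRing A] [IsLocalRing B] [IsDomain B]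
  [UniqueFactorizationMonoid B] [Module.Flat A B] [IsLocalHom (algebraMap A B)]

omit [UniqueFactorizationMonoid B] in
/-- An ideal whose extension to a flat local domain is principal is principal. -/
theorem exists_eq_span_singleton_of_map {I : Ideal A} {g : B}
    (hg : I.map (algebraMap A B) = Ideal.span {g}) : ∃ x : A, I = Ideal.span {x} := by
  classical
  have : Module.FaithfullyFlat A B := Module.FaithfullyFlat.of_flat_of_isLocalHom
  by_cases hg0 : g = 0
  · refine ⟨0, ?_⟩
    rw [← I.comap_map_eq_self_of_faithfullyFlat (B := B), hg, hg0]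
    rw [Ideal.span_singleton_zero, Ideal.span_singleton_zero]
    refine le_antisymm (fun x hx => ?_) bot_le
    have h0 : (⊥ : Ideal A).map (algebraMap A B) = ⊥ := Ideal.map_bot
    rw [← h0, Ideal.comap_map_eq_self_of_faithfullyFlat] at hx
    exact hx
  obtain ⟨s, hs⟩ := IsNoetherian.noetherian I
  have hgmem : g ∈ Ideal.span ((s.image (algebraMap A B) : Finset B) : Set B) := by
    rw [Finset.coe_image, ← Ideal.map_span]
    change g ∈ Ideal.map (algebraMap A B) (Submodule.span A (s : Set A))
    rw [hs, hg]
    exact Ideal.mem_span_singleton_self g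
  have hdvd : ∀ x ∈ s, g ∣ algebraMap A B x := fun x hx => by
    rw [← Ideal.mem_span_singleton, ← hg]
    exact Ideal.mem_map_of_mem _ (by rw [← hs]; exact Submodule.subset_span hx)
  have : ∃ x ∈ s, algebraMap A B x ∣ g := by
    by_contra hne
    push Not at hne
    -- then every quotient lies in the maximal ideal
    have hle : Ideal.span ((s.image (algebraMap A B) : Finset B) : Set B) ≤
        Ideal.span {g} * maximalIdeal B := by
      rw [Ideal.span_le]
      intro y hy
      simp only [Finset.coe_image, Set.mem_image] at hy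
      obtain ⟨x, hx, rfl⟩ := hy
      obtain ⟨d, hd⟩ := hdvd x hx
      refine Ideal.mem_span_singleton_mul.mpr ⟨d, ?_, hd.symm⟩
      rw [mem_maximalIdeal, mem_nonunits_iff]
      intro hu
      exact hne x hx (hd ▸ (associated_mul_unit_right g d hu).symm.dvd)
    obtain ⟨d, hd, hgd⟩ := Ideal.mem_span_singleton_mul.mp (hle hgmem)
    have : d = 1 := mul_left_cancel₀ hg0 (hgd.trans (mul_one g).symm)
    rw [mem_maximalIdeal, mem_nonunits_iff, this] at hd
    exact hd isUnit_one
  obtain ⟨x, hx, hxg⟩ := this
  refine ⟨x, ?_⟩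
  rw [← I.comap_map_eq_self_of_faithfullyFlat (B := B),
    ← (Ideal.span {x}).comap_map_eq_self_of_faithfullyFlat (B := B), hg, Ideal.map_span,
    Set.image_singleton]
  congr 1
  exact Ideal.span_singleton_eq_span_singleton.mpr (associated_of_dvd_dvd (hdvd x hx) hxg)

/-- A Noetherian local ring with a flat local extension that is a UFD is itself a UFD. -/
theorem uniqueFactorizationMonoid_of_flat_local (A : Type u) (B : Type v) [CommRing A] [CommRing B]
    [Algebra A B] [IsLocalRing A] [IsNoetherianRing A] [IsLocalRing B] [IsDomain A] [IsDomain B]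
    [UniqueFactorizationMonoid B] [Module.Flat A B] [IsLocalHom (algebraMap A B)] :
    UniqueFactorizationMonoid A := by
  classical
  have : Module.FaithfullyFlat A B := Module.FaithfullyFlat.of_flat_of_isLocalHom
  refine { irreducible_iff_prime := fun {a} => ⟨fun ha => ?_, fun h => h.irreducible⟩ }
  refine ⟨ha.ne_zero, ha.not_isUnit, fun b c hbc => ?_⟩
  let I : Ideal A := (Ideal.span {a}).colon ((Ideal.span {b} : Ideal A) : Set A)
  have hmem : ∀ x, x ∈ I ↔ a ∣ b * x := fun x => by
    rw [Submodule.mem_colon]
    constructor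
    · intro h
      rw [← Ideal.mem_span_singleton, mul_comm]
      exact h b (Ideal.mem_span_singleton_self b)
    · intro h p hp
      obtain ⟨r, rfl⟩ := Ideal.mem_span_singleton'.mp hp
      rw [smul_eq_mul, Ideal.mem_span_singleton]
      exact h.trans ⟨r, by ring⟩
  let : GCDMonoid B := UniqueFactorizationMonoid.toGCDMonoid B
  have ha' : algebraMap A B a ≠ 0 := fun h =>
    ha.ne_zero ((FaithfulSMul.algebraMap_injective A B) (by rw [h, map_zero]))
  obtain ⟨a₁, b₁, ha₁, hb₁, hunit⟩ : ∃ a₁ b₁ : B,
      algebraMap A B a = gcd (algebraMap A B a) (algebraMap A B b) * a₁ ∧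
      algebraMap A B b = gcd (algebraMap A B a) (algebraMap A B b) * b₁ ∧
      IsUnit (gcd a₁ b₁) :=
    extract_gcd _ _
  have hg0 : gcd (algebraMap A B a) (algebraMap A B b) ≠ 0 := fun h => by
    rw [h, zero_mul] at ha₁
    exact ha' ha₁
  have hImap : I.map (algebraMap A B) = Ideal.span {a₁} := by
    apply le_antisymm
    · rw [Ideal.map_le_iff_le_comap]
      intro x hx
      obtain ⟨t, ht⟩ := (hmem x).mp hx
      rw [Ideal.mem_comap, Ideal.mem_span_singleton]
      have h1 : a₁ ∣ b₁ * algebraMap A B x := ⟨algebraMap A B t, mul_left_cancel₀ hg0 (by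
        rw [← mul_assoc, ← hb₁, ← mul_assoc, ← ha₁, ← map_mul, ← map_mul, ht])⟩
      exact (dvd_gcd (dvd_mul_right a₁ (algebraMap A B x)) h1).trans
        ((gcd_mul_right' (algebraMap A B x) a₁ b₁).dvd.trans
          (by rw [(hunit.mul_left_dvd)]))
    · rw [Ideal.span_le, Set.singleton_subset_iff]
      exact mem_map_colon_of_flat a b ⟨b₁, by
        generalize gcd (algebraMap A B a) (algebraMap A B b) = G at ha₁ hb₁
        rw [hb₁, ha₁]
        ring⟩
  obtain ⟨d, hd⟩ := exists_eq_span_singleton_of_map hImap
  have haI : d ∣ a := by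
    rw [← Ideal.mem_span_singleton, ← hd, hmem]
    exact dvd_mul_left a b
  have hcI : d ∣ c := by
    rw [← Ideal.mem_span_singleton, ← hd, hmem]
    exact hbc
  obtain ⟨e, he⟩ := haI
  rcases ha.isUnit_or_isUnit he with hu | hu
  · left
    have : (1 : A) ∈ I := by
      rw [hd, Ideal.mem_span_singleton]
      exact hu.dvd
    simpa using (hmem 1).mp this
  · right
    exact (he ▸ (associated_mul_unit_right d e hu).symm.dvd).trans hcI

end FLTAgent.AbelianTorsion
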