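import Mathlib
import Fermat.Agent.AbelianTorsion.PowerSeriesUFD
import Fermat.Agent.AbelianTorsion.UFDDescent

/-!
# Formally smooth local algebras over a field with trivial residue extension

The completion is a power series ring; in particular the algebra is a factorial domain.
-/

set_option autoImplicit false

universe u

open IsLocalRing

namespace FLTAgent.AbelianTorsion

variable {K : Type u} [Field K] {O : Type u} [CommRing O] [IsLocalRing O] [Algebra K O]

/-- Regular parameters: a minimal system of generators of the maximal ideal of a local algebra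
with trivial residue extension. -/
structure IsParameterSystem {g : ℕ} (x : Fin g → O) : Prop where
  residue_surjective : Function.Surjective (algebraMap K (ResidueField O))
  span_eq : Ideal.span (Set.range x) = maximalIdeal O
  eq_zero_of_mem_sq : ∀ c : Fin g → K, ∑ i, c i • x i ∈ maximalIdeal O ^ 2 → c = 0

namespace IsParameterSystem

variable {g : ℕ} {x : Fin g → O} (hx : IsParameterSystem (K := K) x)

local notation "P" => MvPolynomial (Fin g) K
local notation "I₀" => MvPolynomial.idealOfVars (Fin g) K

include hx

theorem map_idealOfVars :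
    Ideal.map (MvPolynomial.aeval (R := K) x) I₀ = maximalIdeal O := by
  rw [MvPolynomial.idealOfVars, Ideal.map_span, ← Set.range_comp, ← hx.span_eq]
  congr 1
  ext y
  simp

theorem idealOfVars_pow_le (N : ℕ) :
    I₀ ^ N ≤ Ideal.comap (MvPolynomial.aeval (R := K) x) (maximalIdeal O ^ N) := by
  rw [← Ideal.map_le_iff_le_comap, Ideal.map_pow, hx.map_idealOfVars]

/-- The comparison of truncations. -/
noncomputable def truncMap (N : ℕ) : (P ⧸ I₀ ^ N) →ₐ[K] (O ⧸ maximalIdeal O ^ N) :=
  Ideal.quotientMapₐ _ (MvPolynomial.aeval (R := K) x) (hx.idealOfVars_pow_le N)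

theorem truncMap_mk (N : ℕ) (p : P) :
    hx.truncMap N (Ideal.Quotient.mk _ p) = Ideal.Quotient.mk _ (MvPolynomial.aeval x p) := rfl

theorem exists_sub_mem (N : ℕ) (o : O) :
    ∃ p : P, o - MvPolynomial.aeval x p ∈ maximalIdeal O ^ N := by
  induction N generalizing o with
  | zero => exact ⟨0, by simp⟩
  | succ N ih =>
    obtain ⟨a, ha⟩ := hx.residue_surjective (residue O o)
    have hm : o - algebraMap K O a ∈ maximalIdeal O := by
      rw [← residue_eq_zero_iff, map_sub, sub_eq_zero, ← ha]
      rfl
    rw [← hx.span_eq] at hm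
    obtain ⟨b, hb⟩ := Ideal.mem_span_range_iff_exists_fun.mp hm
    choose q hq using fun i => ih (b i)
    refine ⟨MvPolynomial.C a + ∑ i, q i * MvPolynomial.X i, ?_⟩
    have : o - MvPolynomial.aeval x (MvPolynomial.C a + ∑ i, q i * MvPolynomial.X i) =
        ∑ i, (b i - MvPolynomial.aeval x (q i)) * x i := by
      simp only [map_add, MvPolynomial.aeval_C, map_sum, map_mul, MvPolynomial.aeval_X, sub_mul,
        Finset.sum_sub_distrib, hb]
      ring
    rw [this, pow_succ]
    exact Ideal.sum_mem _ fun i _ => Ideal.mul_mem_mul (hq i)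
      (by rw [← hx.span_eq]; exact Ideal.subset_span ⟨i, rfl⟩)

theorem truncMap_surjective (N : ℕ) : Function.Surjective (hx.truncMap N) := by
  intro y
  obtain ⟨o, rfl⟩ := Ideal.Quotient.mk_surjective y
  obtain ⟨p, hp⟩ := hx.exists_sub_mem N o
  exact ⟨Ideal.Quotient.mk _ p, by
    rw [hx.truncMap_mk]
    exact (Ideal.Quotient.mk_eq_mk_iff_sub_mem _ _).mpr hp |>.symm⟩

/-- A polynomial whose value lies in the square of the maximal ideal has no constant and no linear
part. -/
theorem mem_sq_of_aeval_mem (p : P) (hp : MvPolynomial.aeval x p ∈ maximalIdeal O ^ 2) :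
    p ∈ I₀ ^ 2 := by
  classical
  have hX : ∀ i : Fin g, (MvPolynomial.X i : P) ∈ I₀ := fun i => Ideal.subset_span ⟨i, rfl⟩
  have hc : p - MvPolynomial.C p.constantCoeff ∈ I₀ := by
    have := (MvPolynomial.mem_pow_idealOfVars_iff' 1 (p - MvPolynomial.C p.constantCoeff)).mpr
      (fun d hd => by
        have : d = 0 := (Finsupp.degree_eq_zero_iff d).mp (by omega)
        simp [this, MvPolynomial.constantCoeff_eq])
    simpa using this
  have hc0 : p.constantCoeff = 0 := by
    by_contra h
    have h1 : MvPolynomial.aeval x (p - MvPolynomial.C p.constantCoeff) ∈ maximalIdeal O := by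
      rw [← hx.map_idealOfVars]
      exact Ideal.mem_map_of_mem _ hc
    have h2 : MvPolynomial.aeval x p ∈ maximalIdeal O := Ideal.pow_le_self two_ne_zero hp
    rw [map_sub, MvPolynomial.aeval_C] at h1
    have h3 : algebraMap K O p.constantCoeff ∈ maximalIdeal O := by
      simpa using Ideal.sub_mem _ h2 h1
    rw [mem_maximalIdeal, mem_nonunits_iff] at h3
    exact h3 ((Ne.isUnit h).map _)
  rw [hc0, map_zero, sub_zero, MvPolynomial.idealOfVars] at hc
  obtain ⟨b, hb⟩ := Ideal.mem_span_range_iff_exists_fun.mp hc
  have hsplit : p - ∑ i, MvPolynomial.C (b i).constantCoeff * MvPolynomial.X i ∈ I₀ ^ 2 := by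
    have heq : p - ∑ i, MvPolynomial.C (b i).constantCoeff * MvPolynomial.X i =
        ∑ i, (b i - MvPolynomial.C (b i).constantCoeff) * MvPolynomial.X i := by
      simp only [sub_mul, Finset.sum_sub_distrib]
      rw [← hb]
    rw [heq, pow_two]
    refine Ideal.sum_mem _ fun i _ => Ideal.mul_mem_mul ?_ (hX i)
    have := (MvPolynomial.mem_pow_idealOfVars_iff' 1 (b i - MvPolynomial.C (b i).constantCoeff)).mpr
      (fun d hd => by
        have : d = 0 := (Finsupp.degree_eq_zero_iff d).mp (by omega)
        simp [this, MvPolynomial.constantCoeff_eq])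
    simpa using this
  have hlin : ∑ i, (b i).constantCoeff • x i ∈ maximalIdeal O ^ 2 := by
    have h1 := hx.idealOfVars_pow_le 2 hsplit
    rw [Ideal.mem_comap, map_sub, map_sum] at h1
    have h2 := Ideal.sub_mem _ hp h1
    simpa [Algebra.smul_def] using h2
  have hb0 := hx.eq_zero_of_mem_sq _ hlin
  simpa [show ∀ i, (b i).constantCoeff = 0 from fun i => congrFun hb0 i] using hsplit

variable [Algebra.FormallySmooth K O]

theorem truncMap_injective (N : ℕ) : Function.Injective (hx.truncMap N) := by
  classical
  rcases Nat.lt_or_ge N 2 with hN | hN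
  · rw [injective_iff_map_eq_zero]
    intro t ht
    obtain ⟨p, rfl⟩ := Ideal.Quotient.mk_surjective t
    rw [hx.truncMap_mk, Ideal.Quotient.eq_zero_iff_mem] at ht
    rw [Ideal.Quotient.eq_zero_iff_mem]
    interval_cases N
    · simp
    · rw [pow_one] at ht ⊢
      have hmem := (MvPolynomial.mem_pow_idealOfVars_iff' 1 p).mpr (fun d hd => by
        have hd0 : d = 0 := (Finsupp.degree_eq_zero_iff d).mp (by omega)
        subst hd0
        by_contra h
        have h1 : MvPolynomial.aeval x (p - MvPolynomial.C (MvPolynomial.coeff 0 p)) ∈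
            maximalIdeal O := by
          rw [← hx.map_idealOfVars]
          refine Ideal.mem_map_of_mem _ ?_
          have := (MvPolynomial.mem_pow_idealOfVars_iff' 1
            (p - MvPolynomial.C (MvPolynomial.coeff 0 p))).mpr (fun d hd => by
              have : d = 0 := (Finsupp.degree_eq_zero_iff d).mp (by omega)
              simp [this])
          simpa using this
        have h2 := Ideal.sub_mem _ ht h1
        rw [map_sub, MvPolynomial.aeval_C, sub_sub_cancel, mem_maximalIdeal,
          mem_nonunits_iff] at h2
        exact h2 ((Ne.isUnit h).map _))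
      simpa using hmem
  -- the main case
  let T := P ⧸ I₀ ^ N
  let J : Ideal T := Ideal.map (Ideal.Quotient.mk (I₀ ^ N)) I₀
  have hJN : J ^ N = ⊥ := by
    rw [← Ideal.map_pow]
    exact Ideal.map_quotient_self _
  have hker : RingHom.ker (hx.truncMap N).toRingHom ≤ J ^ 2 := by
    intro t ht
    obtain ⟨p, rfl⟩ := Ideal.Quotient.mk_surjective t
    rw [RingHom.mem_ker, AlgHom.toRingHom_eq_coe, RingHom.coe_coe, hx.truncMap_mk,
      Ideal.Quotient.eq_zero_iff_mem] at ht
    rw [← Ideal.map_pow]
    exact Ideal.mem_map_of_mem _ (hx.mem_sq_of_aeval_mem p (Ideal.pow_le_pow_right hN ht))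
  have hnil : IsNilpotent (RingHom.ker (hx.truncMap N).toRingHom) := by
    refine ⟨N, eq_bot_iff.mpr ((Ideal.pow_right_mono (hker.trans ?_) N).trans hJN.le)⟩
    exact Ideal.pow_le_self two_ne_zero
  let s : O →ₐ[K] T := Algebra.FormallySmooth.liftOfSurjective
    (Ideal.Quotient.mkₐ K (maximalIdeal O ^ N)) (hx.truncMap N) (hx.truncMap_surjective N) hnil
  have hs : ∀ o, hx.truncMap N (s o) = Ideal.Quotient.mk _ o := fun o =>
    Algebra.FormallySmooth.liftOfSurjective_apply _ _ _ hnil o
  -- the lift is surjective
  have hsx : ∀ i, s (x i) - Ideal.Quotient.mk _ (MvPolynomial.X i) ∈ J ^ 2 := fun i => by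
    refine hker ?_
    rw [RingHom.mem_ker, AlgHom.toRingHom_eq_coe, RingHom.coe_coe, map_sub, hs, hx.truncMap_mk,
      MvPolynomial.aeval_X,
      sub_self]
  have hJ : J = Ideal.span (Set.range fun i => Ideal.Quotient.mk (I₀ ^ N) (MvPolynomial.X i)) := by
    simp only [J, MvPolynomial.idealOfVars, Ideal.map_span, ← Set.range_comp]
    rfl
  have hgen : ∀ i, s (x i) ∈ J := fun i => by
    have h1 : Ideal.Quotient.mk (I₀ ^ N) (MvPolynomial.X i) ∈ J :=
      Ideal.mem_map_of_mem _ (Ideal.subset_span ⟨i, rfl⟩)
    simpa using J.add_mem (Ideal.pow_le_self two_ne_zero (hsx i)) h1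
  have hsurj : ∀ k, ∀ t : T, ∃ o : O, t - s o ∈ J ^ k := by
    intro k
    induction k with
    | zero => exact fun t => ⟨0, by simp⟩
    | succ k ih =>
      -- first, the ideal `J ^ k` is reached modulo `J ^ (k + 1)`
      have hstep : ∀ j, ∀ t ∈ J ^ j, ∃ o : O, t - s o ∈ J ^ (j + 1) := by
        intro j
        induction j with
        | zero =>
          intro t _
          obtain ⟨p, rfl⟩ := Ideal.Quotient.mk_surjective t
          refine ⟨algebraMap K O p.constantCoeff, ?_⟩
          rw [zero_add, AlgHom.commutes,
            show algebraMap K T p.constantCoeff = Ideal.Quotient.mk _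
            (MvPolynomial.C p.constantCoeff)
              from rfl, ← map_sub]
          refine (le_of_eq (pow_one J).symm) (Ideal.mem_map_of_mem _ ?_)
          have := (MvPolynomial.mem_pow_idealOfVars_iff' 1
            (p - MvPolynomial.C p.constantCoeff)).mpr (fun d hd => by
              have : d = 0 := (Finsupp.degree_eq_zero_iff d).mp (by omega)
              simp [this, MvPolynomial.constantCoeff_eq])
          simpa using this
        | succ j ihj =>
          intro t ht
          rw [pow_succ] at ht
          refine Submodule.mul_induction_on ht (fun a ha b hb => ?_) (fun a b ha hb => ?_)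
          · obtain ⟨o, ho⟩ := ihj a ha
            rw [hJ] at hb
            obtain ⟨c, hc⟩ := Ideal.mem_span_range_iff_exists_fun.mp hb
            choose oc hoc using fun i => ih (c i)
            obtain ⟨o₀, ho₀⟩ : ∃ o₀ : O, b - s o₀ ∈ J ^ 2 := by
              have hc0 : ∀ i, ∃ a₀ : K, c i - algebraMap K T a₀ ∈ J := fun i => by
                obtain ⟨p, hp⟩ := Ideal.Quotient.mk_surjective (c i)
                refine ⟨p.constantCoeff, ?_⟩
                rw [← hp, show algebraMap K T p.constantCoeff =
                  Ideal.Quotient.mk _ (MvPolynomial.C p.constantCoeff) from rfl, ← map_sub]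
                refine Ideal.mem_map_of_mem _ ?_
                have := (MvPolynomial.mem_pow_idealOfVars_iff' 1
                  (p - MvPolynomial.C p.constantCoeff)).mpr (fun d hd => by
                    have : d = 0 := (Finsupp.degree_eq_zero_iff d).mp (by omega)
                    simp [this, MvPolynomial.constantCoeff_eq])
                simpa using this
              choose a₀ ha₀ using hc0
              refine ⟨∑ i, algebraMap K O (a₀ i) * x i, ?_⟩
              have : b - s (∑ i, algebraMap K O (a₀ i) * x i) =
                  ∑ i, ((c i - algebraMap K T (a₀ i)) *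
                    Ideal.Quotient.mk _ (MvPolynomial.X i) -
                    algebraMap K T (a₀ i) * (s (x i) - Ideal.Quotient.mk _
                        (MvPolynomial.X i))) := by
                rw [← hc, map_sum, ← Finset.sum_sub_distrib]
                refine Finset.sum_congr rfl fun i _ => ?_
                rw [map_mul, AlgHom.commutes]
                ring
              rw [this]
              refine Ideal.sum_mem _ fun i _ => Ideal.sub_mem _ ?_ (Ideal.mul_mem_left _ _ (hsx i))
              rw [pow_two]
              exact Ideal.mul_mem_mul (ha₀ i)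
                (Ideal.mem_map_of_mem _ (Ideal.subset_span ⟨i, rfl⟩))
            refine ⟨o * o₀, ?_⟩
            have hbJ : b ∈ J := by rw [hJ]; exact Ideal.mem_span_range_iff_exists_fun.mpr ⟨c, hc⟩
            have hso₀ : s o₀ ∈ J := by
              simpa using J.sub_mem hbJ (Ideal.pow_le_self two_ne_zero ho₀)
            have : a * b - s (o * o₀) = a * (b - s o₀) + (a - s o) * s o₀ := by
              rw [map_mul]; ring
            rw [this]
            refine Ideal.add_mem _ ?_ ?_
            · exact (le_of_eq (pow_add J j 2).symm) (Ideal.mul_mem_mul ha ho₀)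
            · exact (le_of_eq (pow_succ J (j + 1)).symm) (Ideal.mul_mem_mul ho hso₀)
          · obtain ⟨o₁, ho₁⟩ := ha
            obtain ⟨o₂, ho₂⟩ := hb
            exact ⟨o₁ + o₂, by rw [map_add, add_sub_add_comm]; exact Ideal.add_mem _ ho₁ ho₂⟩
      intro t
      obtain ⟨o, ho⟩ := ih t
      obtain ⟨o', ho'⟩ := hstep k _ ho
      exact ⟨o + o', by rwa [map_add, ← sub_sub]⟩
  have hsmax : ∀ o ∈ maximalIdeal O, s o ∈ J := by
    intro o ho
    rw [← hx.span_eq] at ho
    obtain ⟨c, rfl⟩ := Ideal.mem_span_range_iff_exists_fun.mp ho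
    rw [map_sum]
    exact Ideal.sum_mem _ fun i _ => by rw [map_mul]; exact J.mul_mem_left _ (hgen i)
  rw [injective_iff_map_eq_zero]
  intro t ht
  obtain ⟨o, ho⟩ := hsurj N t
  rw [hJN, Ideal.mem_bot, sub_eq_zero] at ho
  subst ho
  rw [hs, Ideal.Quotient.eq_zero_iff_mem] at ht
  have : s o ∈ (maximalIdeal O ^ N).map s := Ideal.mem_map_of_mem _ ht
  rw [Ideal.map_pow] at this
  have hle : (maximalIdeal O).map s ≤ J := Ideal.map_le_iff_le_comap.mpr hsmax
  have h0 := Ideal.pow_right_mono hle N this
  rwa [hJN] at h0

/-- The truncations are isomorphisms. -/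
noncomputable def truncEquiv (N : ℕ) : (P ⧸ I₀ ^ N) ≃ₐ[K] (O ⧸ maximalIdeal O ^ N) :=
  AlgEquiv.ofBijective (hx.truncMap N) ⟨hx.truncMap_injective N, hx.truncMap_surjective N⟩

theorem truncEquiv_factor {m n : ℕ} (hle : m ≤ n) (t : P ⧸ I₀ ^ n) :
    Ideal.Quotient.factorPow _ hle (hx.truncEquiv n t) =
      hx.truncEquiv m (Ideal.Quotient.factorPow _ hle t) := by
  obtain ⟨p, rfl⟩ := Ideal.Quotient.mk_surjective t
  rfl

theorem truncEquiv_symm_factor {m n : ℕ} (hle : m ≤ n) (t : O ⧸ maximalIdeal O ^ n) :
    Ideal.Quotient.factorPow _ hle ((hx.truncEquiv n).symm t) =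
      (hx.truncEquiv m).symm (Ideal.Quotient.factorPow _ hle t) := by
  apply (hx.truncEquiv m).injective
  rw [← hx.truncEquiv_factor, AlgEquiv.apply_symm_apply, AlgEquiv.apply_symm_apply]

theorem toCompleted_compat {m n : ℕ} (hle : m ≤ n) :
    (Ideal.Quotient.factorPow I₀ hle).comp (((hx.truncEquiv n).symm.toRingEquiv.toRingHom).comp
        (AdicCompletion.evalₐ (maximalIdeal O) n).toRingHom) =
            ((hx.truncEquiv m).symm.toRingEquiv.toRingHom).comp
        (AdicCompletion.evalₐ (maximalIdeal O) m).toRingHom := by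
    ext y
    obtain ⟨c, rfl⟩ := AdicCompletion.mk_surjective (maximalIdeal O) O y
    simp only [RingHom.comp_apply, AlgHom.toRingHom_eq_coe, RingHom.coe_coe,
      AdicCompletion.evalₐ_mk]
    refine (hx.truncEquiv_symm_factor hle _).trans (congrArg _ ?_)
    exact (Ideal.Quotient.eq.mpr (by simpa [SModEq.sub_mem] using c.2 hle)).symm

/-- The comparison map to the completed polynomial ring. -/
noncomputable def toCompletedPolynomial :
    AdicCompletion (maximalIdeal O) O →+* AdicCompletion I₀ P :=
    AdicCompletion.liftRingHom I₀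
      (fun n => ((hx.truncEquiv n).symm.toRingEquiv.toRingHom).comp
        (AdicCompletion.evalₐ (maximalIdeal O) n).toRingHom)
      (fun {_m _n} hle => hx.toCompleted_compat hle)

theorem ofCompleted_compat {m n : ℕ} (hle : m ≤ n) :
    (Ideal.Quotient.factorPow (maximalIdeal O) hle).comp
        (((hx.truncEquiv n).toRingEquiv.toRingHom).comp
        (AdicCompletion.evalₐ I₀ n).toRingHom) = ((hx.truncEquiv m).toRingEquiv.toRingHom).comp
        (AdicCompletion.evalₐ I₀ m).toRingHom := by
    ext y
    obtain ⟨c, rfl⟩ := AdicCompletion.mk_surjective I₀ P y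
    simp only [RingHom.comp_apply, AlgHom.toRingHom_eq_coe, RingHom.coe_coe,
      AdicCompletion.evalₐ_mk]
    refine (hx.truncEquiv_factor hle _).trans (congrArg _ ?_)
    exact (Ideal.Quotient.eq.mpr (by simpa [SModEq.sub_mem] using c.2 hle)).symm

/-- The comparison map from the completed polynomial ring. -/
noncomputable def ofCompletedPolynomial :
    AdicCompletion I₀ P →+* AdicCompletion (maximalIdeal O) O :=
    AdicCompletion.liftRingHom (maximalIdeal O)
      (fun n => ((hx.truncEquiv n).toRingEquiv.toRingHom).comp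
        (AdicCompletion.evalₐ I₀ n).toRingHom)
      (fun {_m _n} hle => hx.ofCompleted_compat hle)

theorem evalₐ_toCompletedPolynomial (n : ℕ) (y : AdicCompletion (maximalIdeal O) O) :
    AdicCompletion.evalₐ I₀ n (hx.toCompletedPolynomial y) =
      (hx.truncEquiv n).symm (AdicCompletion.evalₐ (maximalIdeal O) n y) := by
  exact AdicCompletion.evalₐ_liftRingHom I₀
    (fun n => ((hx.truncEquiv n).symm.toRingEquiv.toRingHom).comp
        (AdicCompletion.evalₐ (maximalIdeal O) n).toRingHom) (fun {m n} hle =>
            hx.toCompleted_compat hle) n y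

theorem evalₐ_ofCompletedPolynomial (n : ℕ) (y : AdicCompletion I₀ P) :
    AdicCompletion.evalₐ (maximalIdeal O) n (hx.ofCompletedPolynomial y) =
      hx.truncEquiv n (AdicCompletion.evalₐ I₀ n y) := by
  exact AdicCompletion.evalₐ_liftRingHom (maximalIdeal O)
    (fun n => ((hx.truncEquiv n).toRingEquiv.toRingHom).comp
        (AdicCompletion.evalₐ I₀ n).toRingHom) (fun {m n} hle => hx.ofCompleted_compat hle) n y

/-- The completion is the power series ring. -/
noncomputable def completionEquiv :
    AdicCompletion (maximalIdeal O) O ≃+* MvPowerSeries (Fin g) K :=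
  (RingEquiv.ofRingHom hx.toCompletedPolynomial hx.ofCompletedPolynomial
    (RingHom.ext fun y => AdicCompletion.ext_evalₐ fun n => by
      rw [RingHom.comp_apply, hx.evalₐ_toCompletedPolynomial, hx.evalₐ_ofCompletedPolynomial,
        AlgEquiv.symm_apply_apply, RingHom.id_apply])
    (RingHom.ext fun y => AdicCompletion.ext_evalₐ fun n => by
      rw [RingHom.comp_apply, hx.evalₐ_ofCompletedPolynomial, hx.evalₐ_toCompletedPolynomial,
        AlgEquiv.apply_symm_apply, RingHom.id_apply])).trans
    (MvPowerSeries.toAdicCompletionAlgEquiv (Fin g) K).symm.toRingEquiv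

variable [IsNoetherianRing O] [Infinite K]

omit [Infinite K] in
theorem isDomain : IsDomain O :=
  haveI : IsDomain (MvPowerSeries (Fin g) K) := NoZeroDivisors.to_isDomain _
  Function.Injective.isDomain ((hx.completionEquiv.toRingHom).comp
    (algebraMap O (AdicCompletion (maximalIdeal O) O)))
    (hx.completionEquiv.injective.comp (AdicCompletion.of_injective (maximalIdeal O) O))

theorem uniqueFactorizationMonoid :
    haveI := hx.isDomain
    UniqueFactorizationMonoid O := by
  have := hx.isDomain
  have : IsDomain (MvPowerSeries (Fin g) K) := NoZeroDivisors.to_isDomain _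
  have := uniqueFactorizationMonoid_mvPowerSeries (K := K) g
  have : IsDomain (AdicCompletion (maximalIdeal O) O) :=
    MulEquiv.isDomain (MvPowerSeries (Fin g) K) hx.completionEquiv.toMulEquiv
  have : UniqueFactorizationMonoid (AdicCompletion (maximalIdeal O) O) :=
    hx.completionEquiv.symm.toMulEquiv.uniqueFactorizationMonoid inferInstance
  exact uniqueFactorizationMonoid_of_flat_local O (AdicCompletion (maximalIdeal O) O)

end IsParameterSystem

end FLTAgent.AbelianTorsion
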