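import Mathlib
import Fermat.Agent.AbelianTorsion.Completion

/-!
# Local rings of standard smooth algebras at rational points

At a rational point the localisation of a standard smooth algebra is formally smooth and has a
parameter system (`exists_parameterSystem`), read off from the differentials.
-/

set_option autoImplicit false

universe u

open IsLocalRing TensorProduct

namespace FLTAgent.AbelianTorsion

variable {K : Type u} [Field K] {B O : Type u} [CommRing B] [CommRing O] [Algebra K B] [Algebra K O]
  [Algebra B O] [IsScalarTower K B O]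

/-- A localisation of a smooth algebra is formally smooth. -/
theorem formallySmooth_atPrime [Algebra.FormallySmooth K B] (M : Ideal B) [M.IsPrime]
    [IsLocalization.AtPrime O M] : Algebra.FormallySmooth K O := by
  have := Algebra.FormallySmooth.of_isLocalization (Rₘ := O) M.primeCompl
  exact Algebra.FormallySmooth.comp K B O

/-- The Kähler differentials of a localisation of a standard smooth algebra. -/
theorem exists_basis_kaehler {g : ℕ} [Algebra.IsStandardSmoothOfRelativeDimension g K B]
    [Nontrivial B] (M : Ideal B) [M.IsPrime] [IsLocalization.AtPrime O M] :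
    Nonempty (Module.Basis (Fin g) O Ω[O⁄K]) := by
  have : Algebra.IsStandardSmooth K B :=
    Algebra.IsStandardSmoothOfRelativeDimension.isStandardSmooth g
  have := Algebra.FormallyEtale.of_isLocalization (Rₘ := O) M.primeCompl
  have hfin : Module.finrank B Ω[B⁄K] = g :=
    Module.finrank_eq_of_rank_eq
      (Algebra.IsStandardSmoothOfRelativeDimension.rank_kaehlerDifferential g)
  exact ⟨((Module.finBasisOfFinrankEq B Ω[B⁄K] hfin).baseChange O).map
    (KaehlerDifferential.tensorKaehlerEquivOfFormallyEtale K B O)⟩

variable [IsLocalRing O]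

/-- The derivation `y ↦ φ (y - y(0))` attached to a functional on the maximal ideal. -/
theorem exists_derivation_of_functional (hres : Function.Surjective (algebraMap K (ResidueField O)))
    (φ : O →ₗ[K] ResidueField O) (hφ1 : φ 1 = 0)
    (hφm : ∀ a ∈ maximalIdeal O, ∀ b ∈ maximalIdeal O, φ (a * b) = 0) :
    ∃ d : Derivation K O (ResidueField O), ∀ y, d y = φ y := by
  have hdec : ∀ y : O, ∃ c : K, y - algebraMap K O c ∈ maximalIdeal O := fun y => by
    obtain ⟨c, hc⟩ := hres (residue O y)
    refine ⟨c, ?_⟩
    rw [← residue_eq_zero_iff, map_sub, sub_eq_zero, ← hc]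
    rfl
  have hleib : ∀ a b, φ (a * b) = residue O a * φ b + residue O b * φ a := by
    intro a b
    obtain ⟨c, hc⟩ := hdec a
    obtain ⟨d, hd⟩ := hdec b
    have ha : residue O a = algebraMap K (ResidueField O) c := by
      have := (residue_eq_zero_iff _).mpr hc
      rw [map_sub, sub_eq_zero] at this
      exact this
    have hb : residue O b = algebraMap K (ResidueField O) d := by
      have := (residue_eq_zero_iff _).mpr hd
      rw [map_sub, sub_eq_zero] at this
      exact this
    have hk : ∀ (e : K) (y : O), φ (algebraMap K O e * y) = algebraMap K (ResidueField O) e * φ y :=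
      fun e y => by rw [← Algebra.smul_def, map_smul, Algebra.smul_def]
    have hK : ∀ e : K, φ (algebraMap K O e) = 0 := fun e => by
      rw [← mul_one (algebraMap K O e), hk, hφ1, mul_zero]
    have h := hφm _ hc _ hd
    rw [show (a - algebraMap K O c) * (b - algebraMap K O d) =
      a * b - algebraMap K O c * b - algebraMap K O d * a + algebraMap K O (c * d) by
        rw [map_mul]; ring, map_add, map_sub, map_sub, hk, hk, hK, add_zero, sub_sub,
      sub_eq_zero] at h
    rw [h, ha, hb]
  refine ⟨Derivation.mk' φ (fun a b => ?_), fun y => rfl⟩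
  rw [hleib, Algebra.smul_def, Algebra.smul_def]
  rfl

/-- Parameters exist at rational points of smooth algebras. -/
theorem exists_parameterSystem {g : ℕ} [IsNoetherianRing O]
    (bΩ : Module.Basis (Fin g) O Ω[O⁄K])
    (hres : Function.Surjective (algebraMap K (ResidueField O))) :
    ∃ x : Fin g → O, IsParameterSystem (K := K) x := by
  classical
  let L : O → Fin g → ResidueField O := fun o i =>
    residue O (bΩ.repr (KaehlerDifferential.D K O o) i)
  have hLadd : ∀ a b, L (a + b) = L a + L b := fun a b => by funext i; simp [L]
  have hLK : ∀ c : K, L (algebraMap K O c) = 0 := fun c => by funext i; simp [L]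
  have hLmul : ∀ a b i, L (a * b) i = residue O a * L b i + residue O b * L a i := fun a b i => by
    simp [L]
  have hLsum : ∀ {ι : Type} (s : Finset ι) (f : ι → O), L (∑ j ∈ s, f j) = ∑ j ∈ s, L (f j) :=
    fun s f => map_sum (AddMonoidHom.mk' L hLadd) f s
  have hLsumO : ∀ (s : Finset O) (f : O → O), L (∑ j ∈ s, f j) = ∑ j ∈ s, L (f j) :=
    fun s f => map_sum (AddMonoidHom.mk' L hLadd) f s
  have hLsq : ∀ o ∈ maximalIdeal O ^ 2, L o = 0 := by
    intro o ho
    rw [pow_two] at ho
    refine Submodule.mul_induction_on ho (fun a ha b hb => ?_) (fun a b ha hb => ?_)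
    · funext i
      rw [hLmul, (residue_eq_zero_iff _).mpr ha, (residue_eq_zero_iff _).mpr hb]
      simp
    · rw [hLadd, ha, hb, add_zero]
  -- surjectivity of `L` on the maximal ideal
  have hsurj : ∀ i, ∃ y ∈ maximalIdeal O, L y = Pi.single i 1 := by
    intro i
    obtain ⟨c, hc⟩ := (Finsupp.mem_span_range_iff_exists_finsupp).mp
      (show bΩ i ∈ Submodule.span O (Set.range (KaehlerDifferential.D K O)) by
        rw [KaehlerDifferential.span_range_derivation]; trivial)
    have hdec : ∀ y : O, ∃ c : K, y - algebraMap K O c ∈ maximalIdeal O := fun y => by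
      obtain ⟨c, hc⟩ := hres (residue O y)
      refine ⟨c, ?_⟩
      rw [← residue_eq_zero_iff, map_sub, sub_eq_zero, ← hc]
      rfl
    choose k hk using hdec
    refine ⟨∑ y ∈ c.support, algebraMap K O (k (c y)) * (y - algebraMap K O (k y)),
      Ideal.sum_mem _ fun y _ => Ideal.mul_mem_left _ _ (hk y), ?_⟩
    have hval : ∀ y, L (algebraMap K O (k (c y)) * (y - algebraMap K O (k y))) =
        fun j => residue O (c y) * L y j := by
      intro y
      funext j
      have h1 : residue O (algebraMap K O (k (c y))) = residue O (c y) := by
        have := (residue_eq_zero_iff _).mpr (hk (c y))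
        rw [map_sub, sub_eq_zero] at this
        exact this.symm
      rw [hLmul, congrFun (hLK _) j, (residue_eq_zero_iff _).mpr (hk y), h1]
      have : L (y - algebraMap K O (k y)) = L y := by
        rw [sub_eq_add_neg, ← map_neg, hLadd, hLK, add_zero]
      rw [this]
      simp
    rw [hLsumO]
    funext j
    rw [Finset.sum_apply, Finset.sum_congr rfl (fun y _ => congrFun (hval y) j)]
    simp only [L]
    have := congrArg (fun v => residue O (bΩ.repr v j)) hc
    simp only [Finsupp.sum, map_sum, map_smul, Finsupp.finsetSum_apply, Finsupp.smul_apply,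
      smul_eq_mul, map_mul] at this
    rw [this]
    rw [Module.Basis.repr_self]
    by_cases hij : j = i
    · subst hij; simp [Pi.single_eq_same]
    · simp [Finsupp.single_eq_of_ne hij, Pi.single_eq_of_ne hij]
  choose x hxm hxL using hsurj
  refine ⟨x, hres, ?_, ?_⟩
  · refine le_antisymm (Ideal.span_le.mpr ?_) ?_
    · rintro _ ⟨i, rfl⟩
      exact hxm i
    -- every element is a combination modulo the square
    have hker : ∀ y ∈ maximalIdeal O, L y = 0 → y ∈ maximalIdeal O ^ 2 := by
      intro y hy hLy
      by_contra hsq
      let W : Submodule K O := ((maximalIdeal O ^ 2).restrictScalars K) ⊔ K ∙ (1 : O)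
      have hyW : y ∉ W := by
        intro h
        obtain ⟨a, ha, b, hb, hab⟩ := Submodule.mem_sup.mp h
        obtain ⟨e, rfl⟩ := Submodule.mem_span_singleton.mp hb
        have : e • (1 : O) ∈ maximalIdeal O := by
          have := Ideal.sub_mem _ hy (Ideal.pow_le_self two_ne_zero ha)
          rwa [← hab, add_sub_cancel_left] at this
        have he : e = 0 := by
          by_contra he
          rw [mem_maximalIdeal, mem_nonunits_iff, Algebra.smul_def, mul_one] at this
          exact this ((Ne.isUnit he).map _)
        rw [he, zero_smul, add_zero] at hab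
        exact hsq (hab ▸ ha)
      obtain ⟨φ, hφy, hφW⟩ := Submodule.exists_dual_map_eq_bot_of_notMem hyW inferInstance
      let φ' : O →ₗ[K] ResidueField O := (Algebra.linearMap K (ResidueField O)).comp φ
      have hzero : ∀ w ∈ W, φ' w = 0 := fun w hw => by
        have h1 := Submodule.mem_map_of_mem (f := φ) hw
        rw [hφW, Submodule.mem_bot] at h1
        simp [φ', h1]
      obtain ⟨d, hd⟩ := exists_derivation_of_functional hres φ'
        (hzero 1 (Submodule.mem_sup_right (Submodule.mem_span_singleton_self _)))
        (fun a ha b hb => hzero _ (Submodule.mem_sup_left (by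
          rw [Submodule.restrictScalars_mem, pow_two]; exact Ideal.mul_mem_mul ha hb)))
      have hdy : d y = 0 := by
        rw [← Derivation.liftKaehlerDifferential_comp_D d y, ← bΩ.sum_repr
          (KaehlerDifferential.D K O y), map_sum]
        refine Finset.sum_eq_zero fun i _ => ?_
        rw [map_smul, Algebra.smul_def]
        have := congrFun hLy i
        simp only [L, Pi.zero_apply] at this
        rw [show algebraMap O (ResidueField O) (bΩ.repr (KaehlerDifferential.D K O y) i) = 0
          from this, zero_mul]
      rw [hd] at hdy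
      simp only [φ', LinearMap.comp_apply, Algebra.linearMap_apply] at hdy
      exact hφy ((algebraMap K (ResidueField O)).injective (hdy.trans (map_zero _).symm))
    refine Submodule.le_of_le_smul_of_le_jacobson_bot (I := maximalIdeal O)
      (IsNoetherian.noetherian _) (maximalIdeal_le_jacobson _) ?_
    intro y hy
    choose c hc using fun i => hres (L y i)
    have hdiff : y - ∑ i, algebraMap K O (c i) * x i ∈ maximalIdeal O ^ 2 := by
      refine hker _ (Ideal.sub_mem _ hy (Ideal.sum_mem _ fun i _ =>
        Ideal.mul_mem_left _ _ (hxm i))) ?_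
      have hneg : ∀ a, L (-a) = -L a := fun a => by funext i; simp [L]
      rw [sub_eq_add_neg, hLadd, hneg, hLsum]
      funext j
      simp only [Pi.add_apply, Pi.neg_apply, Pi.zero_apply, Finset.sum_apply, hLmul,
        hxL, (residue_eq_zero_iff _).mpr (hxm _), zero_mul, add_zero]
      rw [Finset.sum_eq_single j]
      · rw [Pi.single_eq_same, mul_one]
        rw [show residue O (algebraMap K O (c j)) = L y j from hc j]
        ring
      · intro b _ hb
        rw [Pi.single_eq_of_ne (Ne.symm hb), mul_zero]
      · simp
    refine Submodule.mem_sup.mpr ⟨∑ i, algebraMap K O (c i) * x i, Ideal.sum_mem _ fun i _ =>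
      Ideal.mul_mem_left _ _ (Ideal.subset_span ⟨i, rfl⟩), y - ∑ i, algebraMap K O (c i) * x i,
      ?_, add_sub_cancel _ _⟩
    rw [smul_eq_mul, ← pow_two]
    exact hdiff
  · intro c hc
    funext j
    have h := congrFun (hLsq _ hc) j
    rw [hLsum, Finset.sum_apply] at h
    simp only [Algebra.smul_def, hLmul, hxL, (residue_eq_zero_iff _).mpr (hxm _), zero_mul,
      add_zero] at h
    rw [Finset.sum_eq_single j (fun b _ hb => by rw [Pi.single_eq_of_ne (Ne.symm hb), mul_zero])
      (by simp), Pi.single_eq_same, mul_one] at h
    exact (algebraMap K (ResidueField O)).injective (h.trans (map_zero _).symm)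

end FLTAgent.AbelianTorsion
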