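import Mathlib
import Fermat.Agent.AbelianTorsion.SmoothLocal

/-!
# Smooth varieties over an algebraically closed field are locally factorial

Smooth local rings have parameters at closed points and all of them are factorial
(`stalk_factorial`); a connected smooth variety is integral (`isIntegral_of_connected`).
-/

set_option autoImplicit false

universe u

open CategoryTheory CategoryTheory.Limits AlgebraicGeometry IsLocalRing

namespace FLTAgent.AbelianTorsion

/-- A localisation of a UFD (away from zero) is a UFD. -/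
theorem uniqueFactorizationMonoid_of_isLocalization {R S : Type u} [CommRing R] [CommRing S]
    [IsDomain R] [IsDomain S] [UniqueFactorizationMonoid R] [Algebra R S] (M : Submonoid R)
    [IsLocalization M S] (hM : M ≤ nonZeroDivisors R) : UniqueFactorizationMonoid S := by
  rw [UniqueFactorizationMonoid.iff_exists_prime_mem_of_isPrime]
  intro P hP0 hP
  have hdisj := ((IsLocalization.isPrime_iff_isPrime_disjoint M S P).mp hP).2
  have hP' : (P.comap (algebraMap R S)).IsPrime :=
    ((IsLocalization.isPrime_iff_isPrime_disjoint M S P).mp hP).1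
  have hne : P.comap (algebraMap R S) ≠ ⊥ := by
    intro h
    apply hP0
    rw [← IsLocalization.map_under M S P]
    show Ideal.map (algebraMap R S) (P.comap (algebraMap R S)) = ⊥
    rw [h, Ideal.map_bot]
  obtain ⟨p, hpP, hp⟩ :=
    (UniqueFactorizationMonoid.iff_exists_prime_mem_of_isPrime.mp inferInstance) _ hne hP'
  refine ⟨algebraMap R S p, hpP, ?_⟩
  have hd : Disjoint (M : Set R) (Ideal.span {p} : Ideal R) :=
    hdisj.mono_right fun x hx => (Ideal.span_singleton_le_iff_mem _).mpr hpP hx
  have := IsLocalization.isPrime_of_isPrime_disjoint M S _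
    ((Ideal.span_singleton_prime hp.ne_zero).mpr hp) hd
  rw [Ideal.map_span, Set.image_singleton] at this
  exact (Ideal.span_singleton_prime
    ((map_ne_zero_iff _ (IsLocalization.injective S hM)).mpr hp.ne_zero)).mp this

variable {K : Type u} [Field K] {X : Scheme.{u}} (f : X ⟶ Spec (CommRingCat.of K))

/-- The structure map on the sections over an open set. -/
noncomputable def baseRingHom (V : X.Opens) : CommRingCat.of K ⟶ Γ(X, V) :=
  (Scheme.ΓSpecIso (CommRingCat.of K)).inv ≫
    f.appLE ⊤ V (le_of_le_of_eq le_top f.preimage_top.symm)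

/-- The local rings as algebras over the ground field. -/
@[reducible]
noncomputable def stalkAlgebra (x : X) : Algebra K (X.presheaf.stalk x) :=
  ((X.presheaf.germ ⊤ x trivial).hom.comp (baseRingHom f ⊤).hom).toAlgebra

theorem germ_baseRingHom {V : X.Opens} (x : X) (hx : x ∈ V) :
    baseRingHom f V ≫ X.presheaf.germ V x hx = baseRingHom f ⊤ ≫ X.presheaf.germ ⊤ x trivial := by
  have h : baseRingHom f V =
      baseRingHom f ⊤ ≫ X.presheaf.map (homOfLE (le_top : V ≤ ⊤)).op := by
    simp only [baseRingHom, Category.assoc, Scheme.Hom.appLE_map]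
  rw [h, Category.assoc, TopCat.Presheaf.germ_res]

variable [IsAlgClosed K] {g : ℕ} [hf : SmoothOfRelativeDimension g f]

include hf

omit [IsAlgClosed K] in
/-- An affine neighbourhood carrying a standard smooth algebra structure. -/
theorem exists_standardSmooth_chart (x : X) :
    ∃ (V : X.Opens) (_ : IsAffineOpen V) (_ : x ∈ V),
      (baseRingHom f V).hom.IsStandardSmoothOfRelativeDimension g := by
  obtain ⟨U, hU, V, hV, hxV, e, hstd⟩ :=
    SmoothOfRelativeDimension.exists_isStandardSmoothOfRelativeDimension (n := g) (f := f) x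
  obtain rfl : U = ⊤ := top_unique fun p _ => by
    rw [Subsingleton.elim p (f x)]
    exact e hxV
  refine ⟨V, hV, hxV, ?_⟩
  exact (RingHom.isStandardSmoothOfRelativeDimension_respectsIso (n := g)).2
    (f.appLE ⊤ V e).hom (Scheme.ΓSpecIso (CommRingCat.of K)).symm.commRingCatIsoToRingEquiv hstd

/-- At a closed point the local ring has `g` parameters. -/
theorem exists_parameters (x : X) (hx : IsClosed {x}) :
    letI := stalkAlgebra f x
    IsNoetherianRing (X.presheaf.stalk x) ∧ Algebra.FormallySmooth K (X.presheaf.stalk x) ∧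
      ∃ p : Fin g → X.presheaf.stalk x, IsParameterSystem (K := K) p := by
  obtain ⟨V, hV, hxV, hstd⟩ := exists_standardSmooth_chart f (g := g) x
  let : Algebra K Γ(X, V) := (baseRingHom f V).hom.toAlgebra
  have : Algebra.IsStandardSmoothOfRelativeDimension g K Γ(X, V) := hstd
  have : Algebra.IsStandardSmooth K Γ(X, V) :=
    Algebra.IsStandardSmoothOfRelativeDimension.isStandardSmooth g
  let := X.presheaf.algebra_section_stalk ⟨x, hxV⟩
  let M := (hV.primeIdealOf ⟨x, hxV⟩).asIdeal
  have hloc : IsLocalization.AtPrime (X.presheaf.stalk x) M := hV.isLocalization_stalk ⟨x, hxV⟩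
  have : M.IsMaximal := hV.primeIdealOf_isMaximal_of_isClosed ⟨x, hxV⟩ hx
  have : Nontrivial Γ(X, V) := ⟨⟨0, 1, fun h =>
    Ideal.IsMaximal.ne_top ‹M.IsMaximal› (M.eq_top_iff_one.mpr (by rw [← h]; exact M.zero_mem))⟩⟩
  let := stalkAlgebra f x
  have : IsScalarTower K Γ(X, V) (X.presheaf.stalk x) :=
    IsScalarTower.of_algebraMap_eq' (congrArg CommRingCat.Hom.hom (germ_baseRingHom f x hxV)).symm
  have : IsNoetherianRing Γ(X, V) := Algebra.FiniteType.isNoetherianRing K _
  have : IsNoetherianRing (X.presheaf.stalk x) :=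
    IsLocalization.isNoetherianRing M.primeCompl _ inferInstance
  have := formallySmooth_atPrime (K := K) (O := X.presheaf.stalk x) M
  obtain ⟨bΩ⟩ := exists_basis_kaehler (K := K) (O := X.presheaf.stalk x) (g := g) M
  refine ⟨inferInstance, inferInstance, exists_parameterSystem bΩ ?_⟩
  let := Ideal.Quotient.field M
  have := finite_of_finite_type_of_isJacobsonRing K (Γ(X, V) ⧸ M)
  have hb : Function.Bijective (algebraMap K (Γ(X, V) ⧸ M)) :=
    IsAlgClosed.algebraMap_bijective_of_isIntegral
  intro y
  obtain ⟨s, rfl⟩ := residue_surjective y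
  obtain ⟨⟨a, b⟩, hab⟩ := IsLocalization.surj M.primeCompl s
  obtain ⟨ca, hca⟩ := hb.2 (Ideal.Quotient.mk M a)
  obtain ⟨cb, hcb⟩ := hb.2 (Ideal.Quotient.mk M b)
  have key : ∀ (c : Γ(X, V)) (e : K), algebraMap K (Γ(X, V) ⧸ M) e = Ideal.Quotient.mk M c →
      residue (X.presheaf.stalk x) (algebraMap Γ(X, V) _ c) =
        algebraMap K (ResidueField (X.presheaf.stalk x)) e := by
    intro c e hce
    have hmem : c - algebraMap K Γ(X, V) e ∈ M :=
      Ideal.Quotient.eq.mp hce.symm
    have h1 : algebraMap Γ(X, V) (X.presheaf.stalk x) (c - algebraMap K Γ(X, V) e) ∈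
        maximalIdeal (X.presheaf.stalk x) :=
      (IsLocalization.AtPrime.to_map_mem_maximal_iff _ M _).mpr hmem
    have h2 := (residue_eq_zero_iff _).mpr h1
    rw [map_sub, map_sub, sub_eq_zero, ← IsScalarTower.algebraMap_apply] at h2
    rw [h2]
    rfl
  have hb0 : residue (X.presheaf.stalk x) (algebraMap Γ(X, V) _ (b : Γ(X, V))) ≠ 0 := by
    rw [Ne, residue_eq_zero_iff, IsLocalization.AtPrime.to_map_mem_maximal_iff _ M _]
    exact b.2
  refine ⟨ca / cb, ?_⟩
  rw [map_div₀, ← key a ca hca, ← key b cb hcb, div_eq_iff hb0, ← map_mul]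
  exact congrArg _ hab.symm

/-- At a closed point the local ring is a factorial domain. -/
theorem stalk_closedPoint_factorial (x : X) (hx : IsClosed {x}) :
    ∃ _ : IsDomain (X.presheaf.stalk x), UniqueFactorizationMonoid (X.presheaf.stalk x) := by
  let := stalkAlgebra f x
  obtain ⟨hN, hS, p, hp⟩ := exists_parameters f (g := g) x hx
  exact ⟨hp.isDomain, hp.uniqueFactorizationMonoid⟩

omit [IsAlgClosed K] in
theorem locallyOfFiniteType : LocallyOfFiniteType f := by
  have := SmoothOfRelativeDimension.smooth g f
  infer_instance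

/-- Every local ring is a factorial domain. -/
theorem stalk_factorial (x : X) :
    ∃ _ : IsDomain (X.presheaf.stalk x), UniqueFactorizationMonoid (X.presheaf.stalk x) := by
  have := locallyOfFiniteType f (g := g)
  have : JacobsonSpace X := LocallyOfFiniteType.jacobsonSpace f
  obtain ⟨y, hy, hyc⟩ := nonempty_inter_closedPoints (X := X)
    ⟨x, subset_closure (Set.mem_singleton x)⟩ isClosed_closure.isLocallyClosed
  obtain ⟨hdom, hufd⟩ := stalk_closedPoint_factorial f (g := g) y hyc
  obtain ⟨_, ⟨V, hV, rfl⟩, hyV, -⟩ :=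
    X.isBasis_affineOpens.exists_subset_of_mem_open (Set.mem_univ y) isOpen_univ
  have hspec : x ⤳ y := specializes_iff_mem_closure.mpr hy
  have hxV : x ∈ V := hspec.mem_open V.2 hyV
  let := X.presheaf.algebra_section_stalk ⟨x, hxV⟩
  let := X.presheaf.algebra_section_stalk ⟨y, hyV⟩
  let p := (hV.primeIdealOf ⟨x, hxV⟩).asIdeal
  let M := (hV.primeIdealOf ⟨y, hyV⟩).asIdeal
  have : IsLocalization.AtPrime (X.presheaf.stalk x) p := hV.isLocalization_stalk ⟨x, hxV⟩
  have : IsLocalization.AtPrime (X.presheaf.stalk y) M := hV.isLocalization_stalk ⟨y, hyV⟩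
  let : Algebra (X.presheaf.stalk y) (X.presheaf.stalk x) :=
    (X.presheaf.stalkSpecializes hspec).hom.toAlgebra
  have : IsScalarTower Γ(X, V) (X.presheaf.stalk y) (X.presheaf.stalk x) := by
    refine IsScalarTower.of_algebraMap_eq' ?_
    exact (congrArg CommRingCat.Hom.hom (X.presheaf.germ_stalkSpecializes hyV hspec)).symm
  have hpM : p ≤ M := by
    intro a ha
    by_contra h
    have h1 := (IsLocalization.map_units (M := M.primeCompl) (X.presheaf.stalk y) ⟨a, h⟩).map
      (algebraMap (X.presheaf.stalk y) (X.presheaf.stalk x))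
    rw [← IsScalarTower.algebraMap_apply, IsLocalization.AtPrime.isUnit_to_map_iff _ p] at h1
    exact h1 ha
  have hle : M.primeCompl ≤ p.primeCompl := fun a ha hap => ha (hpM hap)
  have hloc := IsLocalization.isLocalization_of_submonoid_le (X.presheaf.stalk y)
    (X.presheaf.stalk x) M.primeCompl p.primeCompl hle
  have h0 : p.primeCompl.map (algebraMap Γ(X, V) (X.presheaf.stalk y)) ≤
      nonZeroDivisors (X.presheaf.stalk y) := by
    rintro _ ⟨a, ha, rfl⟩
    refine mem_nonZeroDivisors_of_ne_zero fun h => ?_
    have := IsLocalization.map_units (M := p.primeCompl) (X.presheaf.stalk x) ⟨a, ha⟩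
    rw [IsScalarTower.algebraMap_apply Γ(X, V) (X.presheaf.stalk y), h, map_zero] at this
    exact not_isUnit_zero this
  have : IsDomain (X.presheaf.stalk x) :=
    IsLocalization.isDomain_of_le_nonZeroDivisors (X.presheaf.stalk x) h0
  exact ⟨inferInstance, uniqueFactorizationMonoid_of_isLocalization
    (p.primeCompl.map (algebraMap Γ(X, V) (X.presheaf.stalk y))) h0⟩

/-- A connected smooth variety over an algebraically closed field is integral. -/
theorem isIntegral_of_connected [ConnectedSpace X] [CompactSpace X] : IsIntegral X := by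
  have := locallyOfFiniteType f (g := g)
  have : IsLocallyNoetherian X := LocallyOfFiniteType.isLocallyNoetherian f
  have : IsNoetherian X := ⟨⟩
  have : IsReduced X := by
    have : ∀ x : X, _root_.IsReduced (X.presheaf.stalk x) := fun x => by
      obtain ⟨h, -⟩ := stalk_factorial f (g := g) x
      infer_instance
    exact isReduced_of_isReduced_stalk X
  -- two components through the same point coincide
  have huniq : ∀ x : X, ∀ Z ∈ irreducibleComponents X, x ∈ Z →
      ∀ Z' ∈ irreducibleComponents X, x ∈ Z' → Z = Z' := by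
    intro x
    obtain ⟨hdom, -⟩ := stalk_factorial f (g := g) x
    have key : ∀ Z ∈ irreducibleComponents X, x ∈ Z →
        Z = closure {(X.fromSpecStalk x) (genericPoint (Spec (X.presheaf.stalk x)))} := by
      intro Z hZ hxZ
      have hcl := isClosed_of_mem_irreducibleComponents Z hZ
      obtain ⟨η, hη⟩ := QuasiSober.sober hZ.1 hcl
      have hr : η ∈ Set.range (X.fromSpecStalk x) := by
        rw [Scheme.range_fromSpecStalk]
        exact hη.specializes hxZ
      obtain ⟨q, hq⟩ := hr
      have hsp : (X.fromSpecStalk x) (genericPoint (Spec (X.presheaf.stalk x))) ⤳ η := by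
        rw [← hq]
        exact ((genericPoint_spec _).specializes (Set.mem_univ q)).map
          (X.fromSpecStalk x).continuous
      have hsub : Z ⊆ closure {(X.fromSpecStalk x) (genericPoint (Spec (X.presheaf.stalk x)))} := by
        rw [← hη.def]
        exact closure_minimal (Set.singleton_subset_iff.mpr (specializes_iff_mem_closure.mp hsp))
          isClosed_closure
      exact le_antisymm hsub (hZ.2 isIrreducible_singleton.closure hsub)
    intro Z hZ hxZ Z' hZ' hxZ'
    rw [key Z hZ hxZ, key Z' hZ' hxZ']
  obtain ⟨x₀⟩ := ConnectedSpace.toNonempty (α := X)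
  let Z₀ := irreducibleComponent x₀
  have hZ₀ : Z₀ ∈ irreducibleComponents X := irreducibleComponent_mem_irreducibleComponents x₀
  have hopen : IsOpen Z₀ := by
    have hcompl : Z₀ᶜ = ⋃ Z ∈ irreducibleComponents X \ {Z₀}, Z := by
      ext y
      simp only [Set.mem_compl_iff, Set.mem_iUnion, Set.mem_sdiff, Set.mem_singleton_iff,
        exists_prop]
      constructor
      · intro hy
        exact ⟨irreducibleComponent y, ⟨irreducibleComponent_mem_irreducibleComponents y,
          fun h => hy (h ▸ mem_irreducibleComponent)⟩, mem_irreducibleComponent⟩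
      · rintro ⟨Z, ⟨hZ, hne⟩, hyZ⟩ hy
        exact hne (huniq y Z hZ hyZ Z₀ hZ₀ hy)
    rw [← isClosed_compl_iff, hcompl]
    exact TopologicalSpace.NoetherianSpace.finite_irreducibleComponents.sdiff.isClosed_biUnion
      fun Z hZ => isClosed_of_mem_irreducibleComponents Z hZ.1
  have huniv : Z₀ = Set.univ := IsClopen.eq_univ
    ⟨isClosed_of_mem_irreducibleComponents Z₀ hZ₀, hopen⟩ ⟨x₀, mem_irreducibleComponent⟩
  have : IrreducibleSpace X :=
    { toPreirreducibleSpace := ⟨huniv ▸ hZ₀.1.2⟩
      toNonempty := ⟨x₀⟩ }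
  exact isIntegral_of_irreducibleSpace_of_isReduced X

end FLTAgent.AbelianTorsion
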