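import Mathlib
import Fermat.Agent.AbelianTorsion.Variety

/-!
# Finite unramified self-maps: dominance, and the number of points in a general fibre

A finite unramified endomorphism respects the generic point (`map_genericPoint`);
`functionFieldMap` and `functionFieldDegree` are the induced extension and its degree, and
`exists_fibre_natCard` finds a fibre with that many points.
-/

set_option autoImplicit false

universe u

open CategoryTheory CategoryTheory.Limits AlgebraicGeometry IsLocalRing

namespace FLTAgent.AbelianTorsion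

section Algebra

variable {K : Type u} [Field K]

/-- The images of regular parameters generating the maximal ideal are regular parameters, so a
homomorphism sending the maximal ideal onto generators is injective. -/
theorem injective_of_map_maximalIdeal {O O' : Type u} [CommRing O] [IsLocalRing O] [Algebra K O]
    [IsNoetherianRing O] [CommRing O'] [IsLocalRing O'] [Algebra K O'] [Algebra.FormallySmooth K O']
    {g : ℕ} {x : Fin g → O} (hx : IsParameterSystem (K := K) x) {x' : Fin g → O'}
    (hx' : IsParameterSystem (K := K) x') (φ : O →ₐ[K] O')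
    (hmax : (maximalIdeal O).map φ = maximalIdeal O') : Function.Injective φ := by
  classical
  have hym : ∀ i, φ (x i) ∈ maximalIdeal O' := fun i => by
    rw [← hmax]
    exact Ideal.mem_map_of_mem _ (by rw [← hx.span_eq]; exact Ideal.subset_span ⟨i, rfl⟩)
  have hspan : Ideal.span (Set.range fun i => φ (x i)) = maximalIdeal O' := by
    rw [← hmax, ← hx.span_eq, Ideal.map_span, ← Set.range_comp]
    rfl
  -- linear coordinates modulo the square of the maximal ideal
  have hlin : ∀ (y : Fin g → O'), Ideal.span (Set.range y) = maximalIdeal O' →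
    ∀ v ∈ maximalIdeal O',
      ∃ c : Fin g → K, v - ∑ i, c i • y i ∈ maximalIdeal O' ^ 2 := by
    intro y hy v hv
    have hym : ∀ i, y i ∈ maximalIdeal O' := fun i => hy ▸ Ideal.subset_span ⟨i, rfl⟩
    rw [← hy] at hv
    obtain ⟨b, hb⟩ := Ideal.mem_span_range_iff_exists_fun.mp hv
    choose c hc using fun i => hx'.residue_surjective (residue O' (b i))
    refine ⟨c, ?_⟩
    rw [← hb, ← Finset.sum_sub_distrib, pow_two]
    refine Ideal.sum_mem _ fun i _ => ?_
    rw [Algebra.smul_def, ← sub_mul]
    refine Ideal.mul_mem_mul ?_ (hym i)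
    rw [← residue_eq_zero_iff, map_sub, ← hc, sub_eq_zero]
    rfl
  choose a ha using fun i => hlin x' hx'.span_eq _ (hym i)
  choose b hb using fun j => hlin (fun i => φ (x i)) hspan (x' j)
    (hx'.span_eq ▸ Ideal.subset_span ⟨j, rfl⟩)
  have hsmul : ∀ (e : K) {v : O'}, v ∈ maximalIdeal O' ^ 2 → e • v ∈ maximalIdeal O' ^ 2 :=
    fun e v hv => by rw [Algebra.smul_def]; exact Ideal.mul_mem_left _ _ hv
  let Am : Matrix (Fin g) (Fin g) K := Matrix.of a
  let Bm : Matrix (Fin g) (Fin g) K := Matrix.of b
  have hBA : Bm * Am = 1 := by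
    refine Matrix.ext fun j l => ?_
    have h1 : x' j - ∑ l, (Bm * Am) j l • x' l ∈ maximalIdeal O' ^ 2 := by
      have heq : x' j - ∑ l, (Bm * Am) j l • x' l =
          (x' j - ∑ i, b j i • φ (x i)) + ∑ i, b j i • (φ (x i) - ∑ l, a i l • x' l) := by
        simp only [Matrix.mul_apply, Am, Bm, Matrix.of_apply, smul_sub, Finset.sum_sub_distrib,
          Finset.smul_sum, smul_smul, Finset.sum_smul]
        rw [Finset.sum_comm]
        ring
      rw [heq]
      exact Ideal.add_mem _ (hb j) (Ideal.sum_mem _ fun i _ => hsmul _ (ha i))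
    have h2 := hx'.eq_zero_of_mem_sq (fun l => (1 : Matrix (Fin g) (Fin g) K) j l - (Bm * Am) j l)
      (by
        simp only [sub_smul, Finset.sum_sub_distrib, Matrix.one_apply, ite_smul, one_smul,
          zero_smul, Finset.sum_ite_eq, Finset.mem_univ, if_true]
        exact h1)
    exact (sub_eq_zero.mp (congrFun h2 l)).symm
  have hAB : Am * Bm = 1 := mul_eq_one_comm.mp hBA
  have hy : IsParameterSystem (K := K) (fun i => φ (x i)) := by
    refine ⟨hx'.residue_surjective, hspan, fun c hc => ?_⟩
    have h1 : ∑ l, (Matrix.vecMul c Am) l • x' l ∈ maximalIdeal O' ^ 2 := by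
      have heq : ∑ l, (Matrix.vecMul c Am) l • x' l =
          ∑ i, c i • φ (x i) - ∑ i, c i • (φ (x i) - ∑ l, a i l • x' l) := by
        simp only [Matrix.vecMul, dotProduct, Am, Matrix.of_apply, smul_sub,
          Finset.sum_sub_distrib, Finset.smul_sum, smul_smul, Finset.sum_smul]
        rw [Finset.sum_comm]
        ring
      rw [heq]
      exact Ideal.sub_mem _ hc (Ideal.sum_mem _ fun i _ => hsmul _ (ha i))
    have h2 := hx'.eq_zero_of_mem_sq _ h1
    have := congrArg (fun v => Matrix.vecMul v Bm) h2
    simpa [Matrix.vecMul_vecMul, hAB] using this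
  rw [injective_iff_map_eq_zero]
  intro o ho
  have hmem : ∀ N, o ∈ maximalIdeal O ^ N := by
    intro N
    obtain ⟨p, hp⟩ := hx.exists_sub_mem N o
    have hφp : MvPolynomial.aeval (fun i => φ (x i)) p = φ (MvPolynomial.aeval x p) :=
      DFunLike.congr_fun (MvPolynomial.comp_aeval x φ).symm p
    have h0 : hy.truncMap N (Ideal.Quotient.mk _ p) = 0 := by
      rw [hy.truncMap_mk, Ideal.Quotient.eq_zero_iff_mem, hφp]
      have := Ideal.mem_map_of_mem φ hp
      rw [Ideal.map_pow, hmax, map_sub, ho, zero_sub] at this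
      exact neg_mem_iff.mp this
    have hp0 := (injective_iff_map_eq_zero _).mp (hy.truncMap_injective N) _ h0
    rw [Ideal.Quotient.eq_zero_iff_mem] at hp0
    have := Ideal.add_mem _ hp (hx.idealOfVars_pow_le N hp0)
    rwa [sub_add_cancel] at this
  have := (Ideal.iInf_pow_eq_bot_of_isLocalRing (maximalIdeal O) (maximalIdeal.isMaximal O).ne_top)
  rw [← Ideal.mem_bot, ← this]
  exact Ideal.mem_iInf.mpr hmem

/-- The fraction field of a finite extension of a domain is finite over that of the base, and
spanned by the extension. -/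
private theorem span_range_algebraMap_eq_top (C B F E : Type u) [CommRing C] [CommRing B]
    [IsDomain B] [Algebra C B] [Module.Finite C B] [Field F] [Field E] [Algebra C F] [Algebra B E]
    [IsFractionRing B E] [Algebra F E] [Algebra C E] [IsScalarTower C F E] [IsScalarTower C B E] :
    Submodule.span F (Set.range (algebraMap B E)) = ⊤ ∧ Module.Finite F E := by
  classical
  let img : Submodule F E := Submodule.span F (Set.range (algebraMap B E))
  obtain ⟨m, hm⟩ := Module.Finite.fg_top (R := C) (M := B)
  have hspanm : img = Submodule.span F (algebraMap B E '' (m : Set B)) := by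
    refine le_antisymm (Submodule.span_le.mpr ?_) (Submodule.span_mono (Set.image_subset_range _ _))
    rintro _ ⟨b, rfl⟩
    have hb : b ∈ Submodule.span C (m : Set B) := by rw [hm]; trivial
    have := Submodule.mem_map_of_mem (f := (IsScalarTower.toAlgHom C B E).toLinearMap) hb
    rw [Submodule.map_span] at this
    exact Submodule.span_le_restrictScalars C F _ this
  have : Module.Finite F img := by
    rw [hspanm]
    exact Module.Finite.span_of_finite F ((m : Set B).toFinite.image _)
  have hmul : ∀ x ∈ img, ∀ y ∈ img, x * y ∈ img := by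
    intro x hx y hy
    refine Submodule.span_induction₂ (p := fun a b _ _ => a * b ∈ img) ?_ ?_ ?_ ?_ ?_ ?_ ?_ hx hy
    · rintro _ _ ⟨a, rfl⟩ ⟨b, rfl⟩
      exact Submodule.subset_span ⟨a * b, map_mul _ _ _⟩
    · intros; simp
    · intros; simp
    · intro x₁ x₂ y _ _ _ h₁ h₂; rw [add_mul]; exact img.add_mem h₁ h₂
    · intro x y₁ y₂ _ _ _ h₁ h₂; rw [mul_add]; exact img.add_mem h₁ h₂
    · intro r x y _ _ h; rw [smul_mul_assoc]; exact img.smul_mem r h
    · intro r x y _ _ h; rw [mul_smul_comm]; exact img.smul_mem r h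
  let S : Subalgebra F E := img.toSubalgebra (Submodule.subset_span ⟨1, map_one _⟩)
    (fun x y hx hy => hmul x hx y hy)
  have : Module.Finite F S := inferInstanceAs (Module.Finite F img)
  have hSfield : IsField S := isField_of_isIntegral_of_isField' (R := F) (Field.toIsField F)
  have htop : img = ⊤ := by
    rw [eq_top_iff]
    intro z _
    obtain ⟨a, b, hb, rfl⟩ := IsFractionRing.div_surjective (A := B) z
    have hb0 : algebraMap B E b ≠ 0 := IsFractionRing.to_map_ne_zero_of_mem_nonZeroDivisors hb
    obtain ⟨c, hc⟩ := hSfield.mul_inv_cancel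
      (a := (⟨algebraMap B E b, Submodule.subset_span ⟨b, rfl⟩⟩ : S))
      (fun h => hb0 (congrArg Subtype.val h))
    have hcv : algebraMap B E b * (c : E) = 1 := congrArg Subtype.val hc
    rw [div_eq_mul_inv, inv_eq_of_mul_eq_one_right hcv]
    exact hmul _ (Submodule.subset_span ⟨a, rfl⟩) _ c.2
  have : Module.Finite F (⊤ : Submodule F E) := htop ▸ (inferInstance : Module.Finite F img)
  exact ⟨htop, Module.Finite.equiv Submodule.topEquiv⟩

/-- Elements of the extension forming a basis of its fraction field span it up to a common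
denominator from the base. -/
private theorem exists_basis_denominator (C B F E : Type u) [CommRing C] [IsDomain C]
    [CommRing B] [IsDomain B] [Algebra C B] [Module.Finite C B] [Field F] [Field E] [Algebra C F]
    [IsFractionRing C F] [Algebra B E] [IsFractionRing B E] [Algebra F E] [Algebra C E]
    [IsScalarTower C F E] [IsScalarTower C B E] :
    ∃ (t : Type u) (_ : Fintype t) (pre : t → B) (s : C),
      s ≠ 0 ∧ Fintype.card t = Module.finrank F E ∧
      LinearIndependent F (fun i => algebraMap B E (pre i)) ∧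
      ∀ b : B, ∃ e : t → C, s • b = ∑ i, e i • pre i := by
  classical
  obtain ⟨htop, _⟩ := span_range_algebraMap_eq_top C B F E
  obtain ⟨m, hm⟩ := Module.Finite.fg_top (R := C) (M := B)
  obtain ⟨t, htsub, hspan, hindep⟩ := exists_linearIndependent F (Set.range (algebraMap B E))
  have hspan' : Submodule.span F t = ⊤ := hspan.trans htop
  have : Finite t := hindep.finite
  have : Fintype t := Fintype.ofFinite t
  let basis : Module.Basis t F E := Module.Basis.mk hindep (by simp [hspan'])
  choose pre hpre using fun i : t => htsub i.2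
  obtain ⟨s, hs⟩ := IsLocalization.exist_integer_multiples (nonZeroDivisors C)
    (m ×ˢ (Finset.univ : Finset t)) (fun p => basis.repr (algebraMap B E p.1) p.2)
  refine ⟨t, this, pre, s, nonZeroDivisors.coe_ne_zero s,
    (Module.finrank_eq_card_basis basis).symm, by simpa only [hpre] using hindep, fun b => ?_⟩
  have hb : b ∈ Submodule.span C (m : Set B) := by rw [hm]; trivial
  induction hb using Submodule.span_induction with
  | mem x hx =>
    choose e he using fun i : t => hs (x, i) (Finset.mem_product.mpr ⟨hx, Finset.mem_univ _⟩)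
    refine ⟨e, IsFractionRing.injective B E ?_⟩
    rw [Algebra.smul_def, map_mul, ← IsScalarTower.algebraMap_apply, map_sum]
    conv_lhs => rw [← basis.sum_repr (algebraMap B E x)]
    rw [Finset.mul_sum]
    refine Finset.sum_congr rfl fun i _ => ?_
    rw [Algebra.smul_def (e i) (pre i), map_mul, ← IsScalarTower.algebraMap_apply, hpre,
      IsScalarTower.algebraMap_apply C F E (e i), he i, Algebra.smul_def, Algebra.smul_def,
      map_mul, ← IsScalarTower.algebraMap_apply, mul_assoc, Module.Basis.mk_apply]
  | zero => exact ⟨0, by simp⟩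
  | add x y _ _ hx hy =>
    obtain ⟨e, he⟩ := hx; obtain ⟨e', he'⟩ := hy
    exact ⟨e + e', by simp [smul_add, he, he', add_smul, Finset.sum_add_distrib]⟩
  | smul r x _ hx =>
    obtain ⟨e, he⟩ := hx
    exact ⟨r • e, by rw [smul_comm, he, Finset.smul_sum]; simp [smul_smul]⟩

/-- A nonzero element of an affine domain avoids some maximal ideal. -/
private theorem exists_isMaximal_notMem {C : Type u} [CommRing C] [IsDomain C] [Algebra K C]
    [Algebra.FiniteType K C] {s : C} (hs : s ≠ 0) : ∃ N : Ideal C, N.IsMaximal ∧ s ∉ N := by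
  have : IsJacobsonRing C := isJacobsonRing_of_finiteType (A := K)
  by_contra h
  push Not at h
  have : s ∈ (⊥ : Ideal C).jacobson := Ideal.mem_sInf.mpr fun {J} hJ => h J hJ.2
  rw [IsJacobsonRing.out inferInstance (Ideal.isPrime_bot (α := C)).isRadical,
    Ideal.mem_bot] at this
  exact hs this

section Fibre

variable {C B : Type u} [CommRing C] [CommRing B] [Algebra C B] {t : Type u} [Fintype t]
  {pre : t → B} {s : C} {N : Ideal C}

/-- If `s` is invertible modulo `N` and multiplies everything into the span of `pre`, it multiplies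
the extension of `N` into the span with coefficients in `N`. -/
private theorem exists_expansion_mem [hN : N.IsMaximal] (hsN : s ∉ N)
    (hexp : ∀ b : B, ∃ e : t → C, s • b = ∑ i, e i • pre i) {z : B}
    (hz : z ∈ N.map (algebraMap C B)) :
    ∃ e : t → C, (∀ i, e i ∈ N) ∧ s • z = ∑ i, e i • pre i := by
  rw [Ideal.map] at hz
  induction hz using Submodule.span_induction with
  | mem x hx =>
    obtain ⟨a, haN, rfl⟩ := hx
    obtain ⟨e, he⟩ := hexp 1
    refine ⟨fun i => a * e i, fun i => N.mul_mem_right _ haN, ?_⟩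
    rw [show s • algebraMap C B a = a • (s • (1 : B)) by
      rw [smul_comm, ← Algebra.algebraMap_eq_smul_one a], he, Finset.smul_sum]
    simp [smul_smul]
  | zero => exact ⟨0, fun _ => N.zero_mem, by simp⟩
  | add x y _ _ hx hy =>
    obtain ⟨e, h1, he⟩ := hx; obtain ⟨e', h2, he'⟩ := hy
    exact ⟨e + e', fun i => N.add_mem (h1 i) (h2 i),
      by simp [smul_add, he, he', add_smul, Finset.sum_add_distrib]⟩
  | smul r x _ hx =>
    obtain ⟨e, h1, he⟩ := hx
    -- multiply again by the denominator to expand `r • pre i`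
    choose e' he' using fun i => hexp (r * pre i)
    obtain ⟨s', i₀, hi₀, hs'⟩ := hN.exists_inv hsN
    have hu : 1 - s' * s ∈ N := by rwa [← hs', add_sub_cancel_left]
    obtain ⟨e'', he''⟩ := hexp (r * x)
    refine ⟨fun k => (1 - s' * s) * e'' k + s' * ∑ i, e i * e' i k, fun k => ?_, ?_⟩
    · exact N.add_mem (N.mul_mem_right _ hu)
        (N.mul_mem_left _ (N.sum_mem fun i _ => N.mul_mem_right _ (h1 i)))
    · rw [smul_eq_mul]
      have h3 : s • (s • (r * x)) = ∑ k, (∑ i, e i * e' i k) • pre k := by
        rw [← mul_smul_comm, he, Finset.mul_sum, Finset.smul_sum]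
        simp_rw [Finset.sum_smul, mul_smul]
        rw [Finset.sum_comm]
        refine Finset.sum_congr rfl fun i _ => ?_
        rw [mul_smul_comm, smul_comm, he', Finset.smul_sum]
      calc s • (r * x) = (1 - s' * s) • (s • (r * x)) + s' • (s • (s • (r * x))) := by
            rw [smul_smul s', ← add_smul, sub_add_cancel, one_smul]
        _ = _ := by
            rw [h3]
            conv_lhs => rw [he'']
            simp only [Finset.smul_sum, smul_smul, add_smul, Finset.sum_add_distrib]

/-- Over a point avoiding the denominator the fibre has the dimension of the extension of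
fraction fields. -/
private theorem finrank_quotient_map {F E : Type u} [Field F] [Field E] [Algebra C F]
    [IsFractionRing C F] [Algebra B E] [Algebra F E] [Algebra C E] [IsScalarTower C F E]
    [IsScalarTower C B E] [hN : N.IsMaximal] (hsN : s ∉ N)
    (hindep : LinearIndependent F (fun i => algebraMap B E (pre i)))
    (hexp : ∀ b : B, ∃ e : t → C, s • b = ∑ i, e i • pre i) :
    Module.finrank (C ⧸ N) (B ⧸ N.map (algebraMap C B)) = Fintype.card t := by
  let := Ideal.Quotient.field N
  let v : t → B ⧸ N.map (algebraMap C B) := fun i => Ideal.Quotient.mk _ (pre i)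
  have hli : LinearIndependent (C ⧸ N) v := by
    rw [Fintype.linearIndependent_iff]
    intro lam hlam i
    choose c hc using fun i => Ideal.Quotient.mk_surjective (lam i)
    have hmem : ∑ i, c i • pre i ∈ N.map (algebraMap C B) := by
      rw [← Ideal.Quotient.eq_zero_iff_mem, map_sum, ← hlam]
      refine Finset.sum_congr rfl fun i _ => ?_
      rw [← hc, Algebra.smul_def, map_mul]
      exact (Algebra.smul_def (Ideal.Quotient.mk N (c i)) (v i)).symm
    obtain ⟨e, heN, he⟩ := exists_expansion_mem hsN hexp hmem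
    have hindepC : ∀ i, s * c i = e i := by
      have h2 := congrArg (algebraMap B E) he
      simp only [Algebra.smul_def, map_mul, map_sum, ← IsScalarTower.algebraMap_apply,
        Finset.mul_sum, ← mul_assoc] at h2
      simp only [← map_mul, IsScalarTower.algebraMap_apply C F E, ← Algebra.smul_def] at h2
      intro i
      apply IsFractionRing.injective C F
      have := linearIndependent_iff'.mp hindep Finset.univ
        (fun i => algebraMap C F (s * c i) - algebraMap C F (e i))
        (by simp only [sub_smul, Finset.sum_sub_distrib]; rw [h2, sub_self]) i (Finset.mem_univ i)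
      exact sub_eq_zero.mp this
    rw [← hc, Ideal.Quotient.eq_zero_iff_mem]
    have := heN i
    rw [← hindepC] at this
    exact (hN.isPrime.mem_or_mem this).resolve_left hsN
  have hsp : ⊤ ≤ Submodule.span (C ⧸ N) (Set.range v) := by
    intro y _
    obtain ⟨b, rfl⟩ := Ideal.Quotient.mk_surjective y
    have hmkC : ∀ (c : C) (y : B), Ideal.Quotient.mk (N.map (algebraMap C B)) (c • y) =
        Ideal.Quotient.mk N c • Ideal.Quotient.mk (N.map (algebraMap C B)) y := fun c y => by
      rw [Algebra.smul_def c y, map_mul]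
      exact (Algebra.smul_def (Ideal.Quotient.mk N c)
        (Ideal.Quotient.mk (N.map (algebraMap C B)) y)).symm
    obtain ⟨e, he⟩ := hexp b
    have hu : Ideal.Quotient.mk N s ≠ 0 := fun h => hsN (Ideal.Quotient.eq_zero_iff_mem.mp h)
    have h1 : Ideal.Quotient.mk N s • Ideal.Quotient.mk (N.map (algebraMap C B)) b ∈
        Submodule.span (C ⧸ N) (Set.range v) := by
      rw [← hmkC, he, map_sum]
      refine Submodule.sum_mem _ fun i _ => ?_
      rw [hmkC]
      exact Submodule.smul_mem _ _ (Submodule.subset_span ⟨i, rfl⟩)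
    have h2 := Submodule.smul_mem _ (Ideal.Quotient.mk N s)⁻¹ h1
    rw [smul_smul, inv_mul_cancel₀ hu, one_smul] at h2
    exact h2
  exact Module.finrank_eq_card_basis (Module.Basis.mk hli hsp)

end Fibre

variable [IsAlgClosed K]

/-- An unramified finite fibre over a rational point has as many points as its dimension. -/
private theorem natCard_fibre_eq_finrank {C B : Type u} [CommRing C] [CommRing B] [Algebra C B]
    [Algebra K C] [Algebra.FiniteType K C] [Module.Finite C B] [Algebra.FormallyUnramified C B]
    (N : Ideal C) [hN : N.IsMaximal] :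
    Nat.card {P : PrimeSpectrum B // P.asIdeal.comap (algebraMap C B) = N} =
      Module.finrank (C ⧸ N) (B ⧸ N.map (algebraMap C B)) := by
  classical
  let := Ideal.Quotient.field N
  let R := B ⧸ N.map (algebraMap C B)
  have : Module.Finite (C ⧸ N) R := Module.Finite.of_restrictScalars_finite C _ _
  have : Algebra.FormallyUnramified C R := Algebra.FormallyUnramified.comp C B R
  have : Algebra.FormallyUnramified (C ⧸ N) R :=
    Algebra.FormallyUnramified.of_restrictScalars C _ R
  have : _root_.IsReduced R := Algebra.FormallyUnramified.isReduced_of_field (C ⧸ N) R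
  have : IsArtinianRing R := IsArtinianRing.of_finite (C ⧸ N) R
  have : Algebra.FiniteType K (C ⧸ N) :=
    Algebra.FiniteType.of_surjective (Ideal.Quotient.mkₐ K N) Ideal.Quotient.mk_surjective
  have : Module.Finite K (C ⧸ N) := finite_of_finite_type_of_isJacobsonRing K _
  have hbC : Function.Bijective (algebraMap K (C ⧸ N)) :=
    IsAlgClosed.algebraMap_bijective_of_isIntegral
  have : IsAlgClosed (C ⧸ N) :=
    IsAlgClosed.of_ringEquiv K (C ⧸ N) (RingEquiv.ofBijective _ hbC)
  have : Fintype (MaximalSpectrum R) := Fintype.ofFinite _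
  have hres : ∀ I : MaximalSpectrum R, Module.finrank (C ⧸ N) (R ⧸ I.asIdeal) = 1 := fun I => by
    let := Ideal.Quotient.field I.asIdeal
    have hb : Function.Bijective (algebraMap (C ⧸ N) (R ⧸ I.asIdeal)) :=
      IsAlgClosed.algebraMap_bijective_of_isIntegral
    rw [← LinearEquiv.finrank_eq (AlgEquiv.ofBijective (Algebra.ofId (C ⧸ N) (R ⧸ I.asIdeal))
      hb).toLinearEquiv, Module.finrank_self]
  rw [LinearEquiv.finrank_eq ((IsArtinianRing.equivPi R).toLinearEquiv.restrictScalars (C ⧸ N)),
    Module.finrank_pi_fintype]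
  simp only [hres, Finset.sum_const, Finset.card_univ, smul_eq_mul, mul_one]
  rw [← Nat.card_eq_fintype_card]
  refine (Nat.card_congr ?_).symm
  refine Equiv.ofBijective (fun I => ⟨⟨I.asIdeal.comap (Ideal.Quotient.mk _), inferInstance⟩, ?_⟩)
    ⟨fun I J h => ?_, fun P => ?_⟩
  · refine (hN.eq_of_le (fun h => ?_) ?_).symm
    · exact (inferInstance : ((I.asIdeal.comap (Ideal.Quotient.mk _)).comap
        (algebraMap C B)).IsPrime).ne_top h
    · intro a ha
      simp only [Ideal.mem_comap]
      rw [Ideal.Quotient.eq_zero_iff_mem.mpr (Ideal.mem_map_of_mem _ ha)]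
      exact I.asIdeal.zero_mem
  · exact MaximalSpectrum.ext (Ideal.comap_injective_of_surjective _ Ideal.Quotient.mk_surjective
      (congrArg (fun p => p.1.asIdeal) h))
  · obtain ⟨⟨P, hP⟩, hPN⟩ := P
    have hle : RingHom.ker (Ideal.Quotient.mk (N.map (algebraMap C B))) ≤ P := by
      rw [Ideal.mk_ker, Ideal.map_le_iff_le_comap]
      exact hPN.ge
    have : (P.map (Ideal.Quotient.mk (N.map (algebraMap C B)))).IsPrime :=
      Ideal.map_isPrime_of_surjective Ideal.Quotient.mk_surjective hle
    refine ⟨⟨_, IsArtinianRing.isMaximal_of_isPrime (P.map (Ideal.Quotient.mk _))⟩, ?_⟩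
    refine Subtype.ext (PrimeSpectrum.ext ?_)
    simp only
    rw [Ideal.comap_map_of_surjective' _ Ideal.Quotient.mk_surjective, sup_eq_left.mpr hle]

/-- For a finite extension of affine domains there is a rational point over which the fibre, if
unramified, has as many points as the degree. -/
theorem exists_fibre_card {C B : Type u} [CommRing C] [IsDomain C] [CommRing B] [IsDomain B]
    [Algebra K C] [Algebra.FiniteType K C] [Algebra K B] [Algebra C B] [IsScalarTower K C B]
    [Module.Finite C B] [Algebra.FormallyUnramified C B]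
    {F E : Type u} [Field F] [Field E] [Algebra C F] [IsFractionRing C F] [Algebra B E]
    [IsFractionRing B E] [Algebra F E] [Algebra C E] [IsScalarTower C F E] [IsScalarTower C B E] :
    ∃ N : Ideal C, N.IsMaximal ∧
      Nat.card {P : PrimeSpectrum B // P.asIdeal.comap (algebraMap C B) = N} =
          Module.finrank F E := by
  obtain ⟨t, _, pre, s, hs, hcard, hindep, hexp⟩ := exists_basis_denominator C B F E
  obtain ⟨N, hN, hsN⟩ := exists_isMaximal_notMem (K := K) hs
  refine ⟨N, hN, ?_⟩
  rw [natCard_fibre_eq_finrank (K := K) N, finrank_quotient_map hsN hindep hexp, hcard]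

end Algebra

section Scheme

/-- The map of function fields attached to a morphism respecting generic points. -/
noncomputable def functionFieldMap {X Y : Scheme.{u}} [IrreducibleSpace X] [IrreducibleSpace Y]
    (φ : X ⟶ Y) (h : φ (genericPoint X) = genericPoint Y) : Y.functionField ⟶ X.functionField :=
  Y.presheaf.stalkSpecializes (specializes_of_eq h) ≫ φ.stalkMap (genericPoint X)

theorem germ_functionFieldMap {X Y : Scheme.{u}} [IrreducibleSpace X] [IrreducibleSpace Y]
    (φ : X ⟶ Y) (h : φ (genericPoint X) = genericPoint Y) (U : Y.Opens) (V : X.Opens)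
    [Nonempty U] [Nonempty V] (e : V ≤ φ ⁻¹ᵁ U) :
    Y.germToFunctionField U ≫ functionFieldMap φ h = φ.appLE U V e ≫ X.germToFunctionField V := by
  have hU : genericPoint Y ∈ U :=
    ((genericPoint_spec Y).mem_open_set_iff U.isOpen).mpr (by simpa using ‹Nonempty U›)
  have hV : genericPoint X ∈ V :=
    ((genericPoint_spec X).mem_open_set_iff V.isOpen).mpr (by simpa using ‹Nonempty V›)
  show Y.presheaf.germ U (genericPoint Y) hU ≫ functionFieldMap φ h = _
  rw [functionFieldMap, TopCat.Presheaf.germ_stalkSpecializes_assoc, Scheme.Hom.germ_stalkMap,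
    Scheme.Hom.appLE, Category.assoc]
  show _ = _ ≫ _ ≫ X.presheaf.germ V (genericPoint X) hV
  rw [TopCat.Presheaf.germ_res]

/-- The function field, seen as the target of a field homomorphism. -/
def TargetField (X : Scheme.{u}) [IrreducibleSpace X] : Type u := X.functionField

noncomputable instance (X : Scheme.{u}) [IsIntegral X] : Field (TargetField X) :=
  inferInstanceAs (Field X.functionField)

/-- The degree of the extension of function fields. -/
noncomputable def functionFieldDegree {X Y : Scheme.{u}} [IsIntegral X] [IsIntegral Y]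
    (φ : X ⟶ Y) (h : φ (genericPoint X) = genericPoint Y) : ℕ :=
  letI := (functionFieldMap φ h).hom.toAlgebra
  Module.finrank Y.functionField X.functionField

variable {K : Type u} [Field K] [IsAlgClosed K] {A : Scheme.{u}} (f : A ⟶ Spec (CommRingCat.of K))
  {g : ℕ} [SmoothOfRelativeDimension g f] [IsIntegral A] (φ : A ⟶ A) (hφ : φ ≫ f = f)

include hφ

omit [IsAlgClosed K] [AlgebraicGeometry.IsIntegral A] in
theorem appLE_baseRingHom {U V : A.Opens} (e : V ≤ φ ⁻¹ᵁ U) :
    baseRingHom f U ≫ φ.appLE U V e = baseRingHom f V := by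
  simp only [baseRingHom, Category.assoc]
  congr 1
  rw [Scheme.Hom.appLE_comp_appLE]
  simp only [hφ]

variable [IsFinite φ] [AlgebraicGeometry.FormallyUnramified φ]

include f g

/-- A finite unramified endomorphism is injective on sections. -/
theorem appLE_injective {U : A.Opens} (hne : (φ ⁻¹ᵁ U : A.Opens) ≠ ⊥) :
    Function.Injective (φ.appLE U (φ ⁻¹ᵁ U) le_rfl) := by
  have := locallyOfFiniteType f (g := g)
  have : JacobsonSpace A := LocallyOfFiniteType.jacobsonSpace f
  have hne' : ((φ ⁻¹ᵁ U : A.Opens) : Set A).Nonempty :=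
    Set.nonempty_iff_ne_empty.mpr fun h => hne (TopologicalSpace.Opens.ext h)
  obtain ⟨a, ha, hac⟩ := nonempty_inter_closedPoints hne' (φ ⁻¹ᵁ U).isOpen.isLocallyClosed
  have hbc : IsClosed {φ a} := by
    simpa [Set.image_singleton] using φ.isClosedMap {a} hac
  let := stalkAlgebra f a
  let := stalkAlgebra f (φ a)
  obtain ⟨hN, hS, x, hx⟩ := exists_parameters f (g := g) (φ a) hbc
  obtain ⟨hN', hS', x', hx'⟩ := exists_parameters f (g := g) a hac
  let ψ : A.presheaf.stalk (φ a) →ₐ[K] A.presheaf.stalk a :=
    { (φ.stalkMap a).hom with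
      commutes' := fun k => by
        have h1 : (baseRingHom f ⊤ ≫ A.presheaf.germ ⊤ (φ a) trivial) ≫ φ.stalkMap a =
            baseRingHom f ⊤ ≫ A.presheaf.germ ⊤ a trivial := by
          have h0 : A.presheaf.germ ⊤ (φ a) trivial ≫ φ.stalkMap a =
              φ.appLE ⊤ ⊤ (le_of_le_of_eq le_top φ.preimage_top.symm) ≫
                A.presheaf.germ ⊤ a trivial := by
            rw [Scheme.Hom.appLE, Category.assoc]
            exact (φ.germ_stalkMap ⊤ a trivial).trans
              (congrArg (φ.app ⊤ ≫ ·) (TopCat.Presheaf.germ_res A.presheaf (U := ⊤)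
                  (homOfLE (le_of_le_of_eq le_top φ.preimage_top.symm)) a trivial).symm)
          exact (Category.assoc _ _ _).trans ((congrArg (baseRingHom f ⊤ ≫ ·) h0).trans
            ((Category.assoc _ _ _).symm.trans
              (congrArg (· ≫ A.presheaf.germ ⊤ a trivial) (appLE_baseRingHom f φ hφ _))))
        exact RingHom.congr_fun (congrArg CommRingCat.Hom.hom h1) k }
  have hmax : (maximalIdeal (A.presheaf.stalk (φ a))).map ψ =
    maximalIdeal (A.presheaf.stalk a) := by
    have h1 := AlgebraicGeometry.FormallyUnramified.stalkMap φ a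
    have h2 : (φ.stalkMap a).hom.EssFiniteType := LocallyOfFiniteType.stalkMap φ a
    let := (φ.stalkMap a).hom.toAlgebra
    have : Algebra.FormallyUnramified (A.presheaf.stalk (φ a)) (A.presheaf.stalk a) := h1
    have : Algebra.EssFiniteType (A.presheaf.stalk (φ a)) (A.presheaf.stalk a) := h2
    have : IsLocalHom (algebraMap (A.presheaf.stalk (φ a)) (A.presheaf.stalk a)) :=
      inferInstanceAs <| IsLocalHom (φ.stalkMap a).hom
    exact Algebra.FormallyUnramified.map_maximalIdeal
  have hinj := injective_of_map_maximalIdeal hx hx' ψ hmax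
  intro c c' hcc
  have h2 := congrArg (A.presheaf.germ (φ ⁻¹ᵁ U) a ha) hcc
  rw [Scheme.Hom.appLE, ← ConcreteCategory.comp_apply, ← ConcreteCategory.comp_apply,
    Category.assoc, TopCat.Presheaf.germ_res] at h2
  refine germ_injective_of_isIntegral _ (φ a) ha (hinj ?_)
  exact (φ.germ_stalkMap_apply U a ha c).trans (h2.trans (φ.germ_stalkMap_apply U a ha c').symm)

/-- A finite unramified endomorphism respects the generic point. -/
theorem map_genericPoint : φ (genericPoint A) = genericPoint A := by
  obtain ⟨_, ⟨U, hU', rfl⟩, hU₀, -⟩ := A.isBasis_affineOpens.exists_subset_of_mem_open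
    (Set.mem_univ (φ (genericPoint A))) isOpen_univ
  have hU : IsAffineOpen U := hU'
  have : Nonempty U := ⟨⟨_, hU₀⟩⟩
  have : Nonempty (φ ⁻¹ᵁ U : A.Opens) := ⟨⟨_, hU₀⟩⟩
  have hV : IsAffineOpen (φ ⁻¹ᵁ U) := hU.preimage φ
  have hne : (φ ⁻¹ᵁ U : A.Opens) ≠ ⊥ := fun h => by
    have h1 : genericPoint A ∈ φ ⁻¹ᵁ U := hU₀
    rw [h] at h1
    exact h1
  have hinj := appLE_injective f (g := g) φ hφ hne
  have h1 := IsAffineOpen.comap_primeIdealOf_appLE U hU (φ ⁻¹ᵁ U) hV le_rfl
    (x := genericPoint A) hU₀
  have hgU : genericPoint A ∈ U :=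
    ((genericPoint_spec A).mem_open_set_iff U.isOpen).mpr (by simpa using ‹Nonempty U›)
  have hbot : hV.primeIdealOf ⟨genericPoint A, hU₀⟩ = ⊥ := by
    rw [hV.primeIdealOf_genericPoint, genericPoint_eq_bot_of_affine]
  have hbot' : hU.primeIdealOf ⟨genericPoint A, hgU⟩ = ⊥ := by
    rw [hU.primeIdealOf_genericPoint, genericPoint_eq_bot_of_affine]
  rw [hbot] at h1
  have h2 : hU.primeIdealOf ⟨φ (genericPoint A), hU₀⟩ = hU.primeIdealOf ⟨genericPoint A, hgU⟩ := by
    rw [← h1, hbot']
    refine PrimeSpectrum.ext ?_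
    show Ideal.comap _ (⊥ : Ideal _) = ⊥
    rw [← RingHom.ker_eq_comap_bot]
    exact (RingHom.injective_iff_ker_eq_bot _).mp hinj
  have h3 := congrArg (fun q => hU.fromSpec q) h2
  simpa [hU.fromSpec_primeIdealOf] using h3

/-- The fibre of a finite unramified endomorphism over a general point has as many points as
the degree of the extension of function fields. -/
theorem exists_fibre_natCard :
    ∃ b : A, IsClosed {b} ∧ Nat.card {a : A // φ a = b} =
      functionFieldDegree φ (map_genericPoint f (g := g) φ hφ) := by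
  have := locallyOfFiniteType f (g := g)
  have : JacobsonSpace A := LocallyOfFiniteType.jacobsonSpace f
  obtain ⟨_, ⟨U, hU', rfl⟩, hU₀, -⟩ := A.isBasis_affineOpens.exists_subset_of_mem_open
    (Set.mem_univ (genericPoint A)) isOpen_univ
  have hU : IsAffineOpen U := hU'
  have hV : IsAffineOpen (φ ⁻¹ᵁ U) := hU.preimage φ
  have hgV : genericPoint A ∈ φ ⁻¹ᵁ U := by
    show φ (genericPoint A) ∈ U
    rw [map_genericPoint f (g := g) φ hφ]
    exact hU₀
  have : Nonempty U := ⟨⟨_, hU₀⟩⟩
  have : Nonempty (φ ⁻¹ᵁ U : A.Opens) := ⟨⟨_, hgV⟩⟩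
  let hh := φ.appLE U (φ ⁻¹ᵁ U) le_rfl
  let : Algebra Γ(A, U) Γ(A, φ ⁻¹ᵁ U) := hh.hom.toAlgebra
  let : Algebra K Γ(A, U) := (baseRingHom f U).hom.toAlgebra
  let : Algebra K Γ(A, φ ⁻¹ᵁ U) := (baseRingHom f (φ ⁻¹ᵁ U)).hom.toAlgebra
  have : IsScalarTower K Γ(A, U) Γ(A, φ ⁻¹ᵁ U) :=
    IsScalarTower.of_algebraMap_eq' (congrArg CommRingCat.Hom.hom (appLE_baseRingHom f φ hφ _)).symm
  have : Algebra.FiniteType K Γ(A, U) := by
    have h1 : (f.appLE ⊤ U (le_of_le_of_eq le_top f.preimage_top.symm)).hom.FiniteType :=
      LocallyOfFiniteType.finiteType_appLE (f := f) (isAffineOpen_top _) hU _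
    exact h1.comp (RingHom.FiniteType.of_surjective _
      (Scheme.ΓSpecIso (CommRingCat.of K)).symm.commRingCatIsoToRingEquiv.surjective)
  have : Module.Finite Γ(A, U) Γ(A, φ ⁻¹ᵁ U) := by
    have := φ.finite_app U hU
    rwa [Scheme.Hom.app_eq_appLE] at this
  have : Algebra.FormallyUnramified Γ(A, U) Γ(A, φ ⁻¹ᵁ U) :=
    Scheme.Hom.formallyUnramified_appLE φ hU hV le_rfl
  let : Algebra Γ(A, U) A.functionField := (A.germToFunctionField U).hom.toAlgebra
  have : IsFractionRing Γ(A, U) A.functionField :=
    functionField_isFractionRing_of_isAffineOpen A U hU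
  obtain ⟨N, hN, hcard⟩ : ∃ N : Ideal Γ(A, U), N.IsMaximal ∧
      Nat.card {P : PrimeSpectrum Γ(A, φ ⁻¹ᵁ U) //
        P.asIdeal.comap (algebraMap Γ(A, U) Γ(A, φ ⁻¹ᵁ U)) = N} =
      functionFieldDegree φ (map_genericPoint f (g := g) φ hφ) := by
    let : Algebra Γ(A, U) (TargetField A) := ((A.germToFunctionField U) ≫
      functionFieldMap φ (map_genericPoint f (g := g) φ hφ)).hom.toAlgebra
    let : Algebra Γ(A, φ ⁻¹ᵁ U) (TargetField A) := (A.germToFunctionField (φ ⁻¹ᵁ U)).hom.toAlgebra
    have : IsFractionRing Γ(A, φ ⁻¹ᵁ U) (TargetField A) :=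
      functionField_isFractionRing_of_isAffineOpen A _ hV
    let : Algebra A.functionField (TargetField A) :=
      (functionFieldMap φ (map_genericPoint f (g := g) φ hφ)).hom.toAlgebra
    have : IsScalarTower Γ(A, U) A.functionField (TargetField A) :=
      IsScalarTower.of_algebraMap_eq' rfl
    have : IsScalarTower Γ(A, U) Γ(A, φ ⁻¹ᵁ U) (TargetField A) :=
      IsScalarTower.of_algebraMap_eq' (congrArg CommRingCat.Hom.hom
        (germ_functionFieldMap φ (map_genericPoint f (g := g) φ hφ) U (φ ⁻¹ᵁ U) le_rfl))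
    exact exists_fibre_card (K := K) (C := Γ(A, U)) (B := Γ(A, φ ⁻¹ᵁ U)) (F := A.functionField)
      (E := TargetField A)
  refine ⟨hU.fromSpec ⟨N, hN.isPrime⟩, ?_, ?_⟩
  · have h1 : IsClosed ({⟨N, hN.isPrime⟩} : Set (PrimeSpectrum Γ(A, U))) :=
      (PrimeSpectrum.isClosed_singleton_iff_isMaximal _).mpr hN
    have h2 : ({⟨N, hN.isPrime⟩} : Set (Spec Γ(A, U))) =
      hU.fromSpec ⁻¹' {hU.fromSpec ⟨N, hN.isPrime⟩} := by
      ext q
      simp only [Set.mem_singleton_iff, Set.mem_preimage]
      exact ⟨fun h => h ▸ rfl, fun h => hU.fromSpec.isOpenEmbedding.injective h⟩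
    exact isClosed_singleton_of_isLocallyClosed_singleton (by
      have h3 : IsLocallyClosed ({⟨N, hN.isPrime⟩} : Set (Spec Γ(A, U))) := h1.isLocallyClosed
      have h4 := h3.image hU.fromSpec.isOpenEmbedding.toIsEmbedding.isInducing
        hU.fromSpec.isOpenEmbedding.isOpen_range.isLocallyClosed
      exact (congrArg IsLocallyClosed
        (Set.image_singleton (f := (hU.fromSpec : _ → A)) (a := ⟨N, hN.isPrime⟩))).mp h4)
  · rw [← hcard]
    refine Nat.card_congr ?_
    have hmem : ∀ a : A, φ a = hU.fromSpec ⟨N, hN.isPrime⟩ → a ∈ φ ⁻¹ᵁ U := fun a ha => by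
      show φ a ∈ U
      rw [ha, ← SetLike.mem_coe, ← hU.range_fromSpec]
      exact ⟨_, rfl⟩
    refine Equiv.ofBijective (fun a => ⟨hV.primeIdealOf ⟨a.1, hmem a.1 a.2⟩, ?_⟩)
      ⟨fun a a' haa => ?_, fun P => ?_⟩
    · have h1 := IsAffineOpen.comap_primeIdealOf_appLE U hU (φ ⁻¹ᵁ U) hV le_rfl (x := a.1)
        (hmem a.1 a.2)
      have h2 : hU.primeIdealOf ⟨φ a.1, hmem a.1 a.2⟩ = ⟨N, hN.isPrime⟩ := by
        apply hU.fromSpec.isOpenEmbedding.injective
        rw [hU.fromSpec_primeIdealOf]
        exact a.2
      exact (congrArg PrimeSpectrum.asIdeal h1).trans (congrArg PrimeSpectrum.asIdeal h2)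
    · have := congrArg (fun q => hV.fromSpec q.1) haa
      simp only [hV.fromSpec_primeIdealOf] at this
      exact Subtype.ext this
    · obtain ⟨P, hP⟩ := P
      have hPmem : hV.fromSpec P ∈ φ ⁻¹ᵁ U := by
        rw [← SetLike.mem_coe, ← hV.range_fromSpec]
        exact ⟨_, rfl⟩
      have hpr : hV.primeIdealOf ⟨hV.fromSpec P, hPmem⟩ = P := by
        apply hV.fromSpec.isOpenEmbedding.injective
        rw [hV.fromSpec_primeIdealOf]
      refine ⟨⟨hV.fromSpec P, ?_⟩, Subtype.ext hpr⟩
      have h1 := IsAffineOpen.comap_primeIdealOf_appLE U hU (φ ⁻¹ᵁ U) hV le_rfl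
        (x := hV.fromSpec P) hPmem
      rw [hpr] at h1
      exact (hU.fromSpec_primeIdealOf ⟨φ (hV.fromSpec P), hPmem⟩).symm.trans
        ((congrArg hU.fromSpec h1.symm).trans (congrArg hU.fromSpec (PrimeSpectrum.ext hP)))

end Scheme

end FLTAgent.AbelianTorsion
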