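import Mathlib
import Fermat.Agent.AbelianTorsion.Fibre

/-!
# Cartier divisors, their classes and pullbacks

Cartier divisors as local equations in the function field, their classes `CDivClass`, and the
pullbacks `pullback'` and `pullClass` along morphisms, with functoriality.
-/

set_option autoImplicit false

universe u

open CategoryTheory CategoryTheory.Limits AlgebraicGeometry TopologicalSpace

namespace FLTAgent.AbelianTorsion

variable {X Y Z : Scheme.{u}} [IsIntegral X] [IsIntegral Y] [IsIntegral Z]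

/-- The functions that are units at a point. -/
noncomputable def unitsAt (x : X) : Subgroup (X.functionField)ˣ :=
  (Units.map (algebraMap (X.presheaf.stalk x) X.functionField).toMonoidHom).range

theorem mem_unitsAt {x : X} {e : (X.functionField)ˣ} :
    e ∈ unitsAt x ↔ ∃ w : (X.presheaf.stalk x)ˣ,
      algebraMap (X.presheaf.stalk x) X.functionField w = e :=
  ⟨fun ⟨w, hw⟩ => ⟨w, congrArg Units.val hw⟩, fun ⟨w, hw⟩ => ⟨w, Units.ext hw⟩⟩

theorem algebraMap_stalkSpecializes {x y : X} (h : x ⤳ y) (a : X.presheaf.stalk y) :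
    algebraMap (X.presheaf.stalk x) X.functionField (X.presheaf.stalkSpecializes h a) =
      algebraMap (X.presheaf.stalk y) X.functionField a := by
  simp only [RingHom.algebraMap_toAlgebra, ← ConcreteCategory.comp_apply]
  rw [TopCat.Presheaf.stalkSpecializes_comp]

theorem unitsAt_mono {x y : X} (h : x ⤳ y) : unitsAt y ≤ unitsAt x := by
  intro e he
  obtain ⟨w, hw⟩ := mem_unitsAt.mp he
  exact mem_unitsAt.mpr ⟨w.map (X.presheaf.stalkSpecializes h).hom.toMonoidHom,
    (algebraMap_stalkSpecializes h _).trans hw⟩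

variable (X) in
/-- Families of local equations. -/
abbrev LocalEqs : Type u := ∀ x : X, (X.functionField)ˣ ⧸ unitsAt x

variable (X) in
/-- Cartier divisors. -/
noncomputable def cartier : Subgroup (LocalEqs X) where
  carrier := {D | ∀ x : X, ∃ (W : X.Opens) (h : (X.functionField)ˣ),
    x ∈ W ∧ ∀ y ∈ W, D y = QuotientGroup.mk h}
  one_mem' := fun x => ⟨⊤, 1, trivial, fun _ _ => rfl⟩
  mul_mem' := fun {D E} hD hE x => by
    obtain ⟨W, h, hx, hW⟩ := hD x
    obtain ⟨W', h', hx', hW'⟩ := hE x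
    exact ⟨W ⊓ W', h * h', ⟨hx, hx'⟩, fun y hy => by
      rw [Pi.mul_apply, hW y hy.1, hW' y hy.2, QuotientGroup.mk_mul]⟩
  inv_mem' := fun {D} hD x => by
    obtain ⟨W, h, hx, hW⟩ := hD x
    exact ⟨W, h⁻¹, hx, fun y hy => by rw [Pi.inv_apply, hW y hy, QuotientGroup.mk_inv]⟩

/-- The divisor of a function. -/
noncomputable def principal : (X.functionField)ˣ →* cartier X where
  toFun h := ⟨fun _ => QuotientGroup.mk h, fun _x => ⟨⊤, h, trivial, fun _ _ => rfl⟩⟩
  map_one' := rfl
  map_mul' _ _ := rfl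

theorem principal_apply (h : (X.functionField)ˣ) (x : X) :
    (principal h).1 x = QuotientGroup.mk h := rfl

/-- A local equation at `x` is one at every generalisation of `x`. -/
theorem eq_mk_of_specializes (D : cartier X) {x y : X} (hxy : x ⤳ y) {e : (X.functionField)ˣ}
    (he : D.1 y = QuotientGroup.mk e) : D.1 x = QuotientGroup.mk e := by
  obtain ⟨W, h, hy, hW⟩ := D.2 y
  rw [hW x (hxy.mem_open W.2 hy), QuotientGroup.eq]
  rw [hW y hy, QuotientGroup.eq] at he
  exact unitsAt_mono hxy he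

instance isMulCommutative_cartier : IsMulCommutative (cartier X) :=
  ⟨⟨fun a b => Subtype.ext (mul_comm a.1 b.1)⟩⟩

theorem exists_localEq (D : cartier X) (x : X) :
    ∃ e : (X.functionField)ˣ, D.1 x = QuotientGroup.mk e :=
  ⟨_, (QuotientGroup.out_eq' (D.1 x)).symm⟩

/-- The divisors with no support at `ξ`. -/
noncomputable def trivialAt (ξ : X) : Subgroup (cartier X) where
  carrier := {D | D.1 ξ = 1}
  one_mem' := rfl
  mul_mem' := fun {D E} hD hE => by
    show (D.1 * E.1) ξ = 1
    rw [Pi.mul_apply, show D.1 ξ = 1 from hD, show E.1 ξ = 1 from hE]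
    exact mul_one (1 : (X.functionField)ˣ ⧸ unitsAt ξ)
  inv_mem' := fun {D} hD => by
    show (D.1⁻¹) ξ = 1
    rw [Pi.inv_apply, show D.1 ξ = 1 from hD, inv_one]

theorem mem_trivialAt {ξ : X} {D : cartier X} : D ∈ trivialAt ξ ↔ D.1 ξ = 1 := Iff.rfl

theorem mem_unitsAt_of_trivialAt {ξ : X} {D : cartier X} (hD : D ∈ trivialAt ξ) {x : X}
    (hx : ξ ⤳ x) {e : (X.functionField)ˣ} (he : D.1 x = QuotientGroup.mk e) : e ∈ unitsAt ξ := by
  have h := eq_mk_of_specializes D hx he
  rw [mem_trivialAt.mp hD] at h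
  exact (QuotientGroup.eq_one_iff e).mp h.symm

theorem trivialAt_genericPoint (D : cartier X) : D ∈ trivialAt (genericPoint X) := by
  obtain ⟨e, he⟩ := exists_localEq D (genericPoint X)
  rw [mem_trivialAt, he, QuotientGroup.eq_one_iff]
  refine mem_unitsAt.mpr ⟨e, ?_⟩
  exact DFunLike.congr_fun (congrArg CommRingCat.Hom.hom
    (X.presheaf.stalkSpecializes_refl (genericPoint X))) _

theorem trivialAt_mono {x y : X} (h : x ⤳ y) : trivialAt y ≤ trivialAt x := by
  intro D hD
  have h1 : D.1 y = QuotientGroup.mk (1 : (X.functionField)ˣ) := hD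
  exact eq_mk_of_specializes D h h1

section Pullback

variable (φ : Y ⟶ X)

/-- Functions defined and invertible at the image of the generic point pull back. -/
theorem exists_pullFunction {e : (X.functionField)ˣ} (he : e ∈ unitsAt (φ (genericPoint Y))) :
    ∃ e' : (Y.functionField)ˣ, ∀ w : (X.presheaf.stalk (φ (genericPoint Y))),
      algebraMap _ X.functionField w = e → φ.stalkMap (genericPoint Y) w = e' := by
  obtain ⟨w, hw⟩ := mem_unitsAt.mp he
  refine ⟨w.map (φ.stalkMap (genericPoint Y)).hom.toMonoidHom, fun w' hw' => ?_⟩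
  have : w' = w := IsFractionRing.injective (X.presheaf.stalk (φ (genericPoint Y))) X.functionField
    (hw'.trans hw.symm)
  rw [this]
  rfl

/-- Pulling back functions that are units at the image of the generic point. -/
noncomputable def pullFunction : unitsAt (φ (genericPoint Y)) →* (Y.functionField)ˣ where
  toFun e := (exists_pullFunction φ e.2).choose
  map_one' := by
    refine Units.ext ((((exists_pullFunction φ (unitsAt (φ (genericPoint Y))).one_mem).choose_spec 1
      (map_one _)).symm).trans ?_)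
    rw [map_one]
    rfl
  map_mul' a b := by
    obtain ⟨wa, hwa⟩ := mem_unitsAt.mp a.2
    obtain ⟨wb, hwb⟩ := mem_unitsAt.mp b.2
    refine Units.ext ?_
    have h := (exists_pullFunction φ (a * b).2).choose_spec
      ((wa : X.presheaf.stalk (φ (genericPoint Y))) * wb)
      (by rw [map_mul, hwa, hwb]; rfl)
    rw [map_mul, (exists_pullFunction φ a.2).choose_spec wa hwa,
      (exists_pullFunction φ b.2).choose_spec wb hwb] at h
    exact h.symm

theorem pullFunction_spec (e : unitsAt (φ (genericPoint Y)))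
    (w : X.presheaf.stalk (φ (genericPoint Y)))
    (hw : algebraMap _ X.functionField w = (e.1 : X.functionField)) :
    (pullFunction φ e : Y.functionField) = φ.stalkMap (genericPoint Y) w :=
  ((exists_pullFunction φ e.2).choose_spec w hw).symm

/-- Pullback respects regularity at a point. -/
theorem pullFunction_regular (e : unitsAt (φ (genericPoint Y))) (y : Y)
    (a : X.presheaf.stalk (φ y)) (ha : algebraMap _ X.functionField a = (e.1 : X.functionField)) :
    (pullFunction φ e : Y.functionField) = algebraMap _ Y.functionField (φ.stalkMap y a) := by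
  have hy : genericPoint Y ⤳ y := (genericPoint_spec Y).specializes trivial
  rw [pullFunction_spec φ e (X.presheaf.stalkSpecializes (hy.map φ.continuous) a)
    ((algebraMap_stalkSpecializes _ a).trans ha)]
  exact Scheme.Hom.stalkSpecializes_stalkMap_apply φ _ _ hy a

theorem pullFunction_mem_unitsAt (e : unitsAt (φ (genericPoint Y))) (y : Y)
    (he : e.1 ∈ unitsAt (φ y)) : pullFunction φ e ∈ unitsAt y := by
  obtain ⟨w, hw⟩ := mem_unitsAt.mp he
  exact mem_unitsAt.mpr ⟨w.map (φ.stalkMap y).hom.toMonoidHom,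
    (pullFunction_regular φ e y w hw).symm⟩

/-- The local equations of the pulled back divisor. -/
noncomputable def pullEq (D : trivialAt (φ (genericPoint Y))) (y : Y) :
    (Y.functionField)ˣ ⧸ unitsAt y :=
  QuotientGroup.mk (pullFunction φ ⟨(D.1.1 (φ y)).out, mem_unitsAt_of_trivialAt D.2
    (((genericPoint_spec Y).specializes trivial).map φ.continuous) (QuotientGroup.out_eq' _).symm⟩)

theorem pullEq_eq (D : trivialAt (φ (genericPoint Y))) (y : Y) (e : unitsAt (φ (genericPoint Y)))
    (he : D.1.1 (φ y) = QuotientGroup.mk e.1) :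
    pullEq φ D y = QuotientGroup.mk (pullFunction φ e) := by
  rw [pullEq, QuotientGroup.eq, ← map_inv, ← map_mul]
  apply pullFunction_mem_unitsAt
  have h := (QuotientGroup.out_eq' (D.1.1 (φ y))).trans he
  exact QuotientGroup.eq.mp h

/-- Pullback of divisors. -/
noncomputable def pullback' : trivialAt (φ (genericPoint Y)) →* cartier Y where
  toFun D := ⟨pullEq φ D, fun y => by
    obtain ⟨W, h, hy, hW⟩ := D.1.2 (φ y)
    have hu : h ∈ unitsAt (φ (genericPoint Y)) := mem_unitsAt_of_trivialAt D.2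
      (((genericPoint_spec Y).specializes trivial).map φ.continuous) (hW _ hy)
    exact ⟨φ ⁻¹ᵁ W, pullFunction φ ⟨h, hu⟩, hy, fun z hz => pullEq_eq φ D z ⟨h, hu⟩ (hW _ hz)⟩⟩
  map_one' := Subtype.ext (funext fun y => by
    show pullEq φ 1 y = 1
    rw [pullEq_eq φ 1 y 1 rfl, map_one]
    rfl)
  map_mul' D E := Subtype.ext (funext fun y => by
    obtain ⟨e, he⟩ := exists_localEq D.1 (φ y)
    obtain ⟨e', he'⟩ := exists_localEq E.1 (φ y)
    have hsp := ((genericPoint_spec Y).specializes (Set.mem_univ y)).map φ.continuous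
    show pullEq φ (D * E) y = pullEq φ D y * pullEq φ E y
    rw [pullEq_eq φ D y ⟨e, mem_unitsAt_of_trivialAt D.2 hsp he⟩ he,
      pullEq_eq φ E y ⟨e', mem_unitsAt_of_trivialAt E.2 hsp he'⟩ he',
      pullEq_eq φ (D * E) y (⟨e, mem_unitsAt_of_trivialAt D.2 hsp he⟩ *
        ⟨e', mem_unitsAt_of_trivialAt E.2 hsp he'⟩), map_mul, QuotientGroup.mk_mul]
    show (D.1.1 * E.1.1) (φ y) = QuotientGroup.mk (e * e')
    rw [Pi.mul_apply, he, he', QuotientGroup.mk_mul])

theorem pullback'_apply (D : trivialAt (φ (genericPoint Y))) (y : Y)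
    (e : unitsAt (φ (genericPoint Y))) (he : D.1.1 (φ y) = QuotientGroup.mk e.1) :
    (pullback' φ D).1 y = QuotientGroup.mk (pullFunction φ e) :=
  pullEq_eq φ D y e he

theorem pullback'_principal (e : unitsAt (φ (genericPoint Y))) :
    pullback' φ ⟨principal e.1, (QuotientGroup.eq_one_iff e.1).mpr e.2⟩ =
      principal (pullFunction φ e) :=
  Subtype.ext (funext fun y => pullback'_apply φ _ y e rfl)

end Pullback

variable (X) in
/-- Divisor classes. -/
abbrev CDivClass : Type u := cartier X ⧸ (principal (X := X)).range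

theorem exists_trivialAt (D : cartier X) (ξ : X) :
    ∃ h : (X.functionField)ˣ, D * principal h ∈ trivialAt ξ := by
  obtain ⟨e, he⟩ := exists_localEq D ξ
  refine ⟨e⁻¹, ?_⟩
  rw [mem_trivialAt]
  show (D.1 * (principal e⁻¹).1) ξ = 1
  rw [Pi.mul_apply, he, principal_apply, ← QuotientGroup.mk_mul, mul_inv_cancel]
  rfl

theorem classMap_surjective (ξ : X) :
    Function.Surjective ((QuotientGroup.mk' (principal (X := X)).range).comp
      (trivialAt ξ).subtype) := by
  intro c
  obtain ⟨D, rfl⟩ := QuotientGroup.mk'_surjective _ c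
  obtain ⟨h, hh⟩ := exists_trivialAt D ξ
  refine ⟨⟨_, hh⟩, ?_⟩
  show QuotientGroup.mk' _ (D * principal h) = _
  rw [map_mul]
  exact (congrArg (QuotientGroup.mk' (principal (X := X)).range D * ·)
    ((QuotientGroup.eq_one_iff (principal h)).mpr ⟨h, rfl⟩)).trans (mul_one _)

theorem classMap_ker_le (φ : Y ⟶ X) :
    ((QuotientGroup.mk' (principal (X := X)).range).comp
        (trivialAt (φ (genericPoint Y))).subtype).ker ≤
      ((QuotientGroup.mk' (principal (X := Y)).range).comp (pullback' φ)).ker := by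
  intro D hD
  rw [MonoidHom.mem_ker] at hD ⊢
  obtain ⟨h, hh⟩ := (QuotientGroup.eq_one_iff _).mp hD
  have hu : h ∈ unitsAt (φ (genericPoint Y)) := mem_unitsAt_of_trivialAt D.2 specializes_rfl
    (show D.1.1 _ = _ by rw [← show principal h = D.1 from hh]; rfl)
  have hD' : D = ⟨principal h, (QuotientGroup.eq_one_iff h).mpr hu⟩ := Subtype.ext hh.symm
  show QuotientGroup.mk' _ (pullback' φ D) = 1
  rw [hD', pullback'_principal φ ⟨h, hu⟩]
  exact (QuotientGroup.eq_one_iff _).mpr ⟨_, rfl⟩

/-- Pullback of divisor classes. -/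
noncomputable def pullClass (φ : Y ⟶ X) : CDivClass X →* CDivClass Y :=
  MonoidHom.liftOfSurjective _ (classMap_surjective (φ (genericPoint Y)))
    ⟨(QuotientGroup.mk' _).comp (pullback' φ), classMap_ker_le φ⟩

theorem pullClass_mk (φ : Y ⟶ X) (D : trivialAt (φ (genericPoint Y))) :
    pullClass φ (QuotientGroup.mk D.1) = QuotientGroup.mk (pullback' φ D) :=
  MonoidHom.liftOfRightInverse_comp_apply _ _
    (Function.rightInverse_surjInv (classMap_surjective (φ (genericPoint Y)))) _ D

theorem pullback'_mem_trivialAt (ψ : Z ⟶ Y) (φ : Y ⟶ X) (D : trivialAt (φ (genericPoint Y)))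
    (hD : D.1 ∈ trivialAt (φ (ψ (genericPoint Z)))) :
    pullback' φ D ∈ trivialAt (ψ (genericPoint Z)) := by
  rw [mem_trivialAt, pullback'_apply φ D _ 1 (show D.1.1 _ = _ from hD), map_one]
  rfl

theorem pullClass_comp (ψ : Z ⟶ Y) (φ : Y ⟶ X) (c : CDivClass X) :
    pullClass (ψ ≫ φ) c = pullClass ψ (pullClass φ c) := by
  obtain ⟨D, rfl⟩ := QuotientGroup.mk_surjective c
  obtain ⟨h, hh⟩ := exists_trivialAt D ((ψ ≫ φ) (genericPoint Z))
  have hc : (QuotientGroup.mk D : CDivClass X) = QuotientGroup.mk (D * principal h) := by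
    rw [QuotientGroup.mk_mul]
    exact ((congrArg ((QuotientGroup.mk D : CDivClass X) * ·)
      ((QuotientGroup.eq_one_iff (principal h)).mpr ⟨h, rfl⟩)).trans (mul_one _)).symm
  have hξ : D * principal h ∈ trivialAt (φ (ψ (genericPoint Z))) := by
    rw [← Scheme.Hom.comp_apply]; exact hh
  have hsp : φ (genericPoint Y) ⤳ φ (ψ (genericPoint Z)) :=
    ((genericPoint_spec Y).specializes trivial).map φ.continuous
  have h1 : D * principal h ∈ trivialAt (φ (genericPoint Y)) := trivialAt_mono hsp hξ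
  have h2 := pullback'_mem_trivialAt ψ φ ⟨_, h1⟩ hξ
  rw [hc, pullClass_mk (ψ ≫ φ) ⟨_, hh⟩, pullClass_mk φ ⟨_, h1⟩, pullClass_mk ψ ⟨_, h2⟩]
  refine congrArg _ (Subtype.ext (funext fun z => ?_))
  obtain ⟨e, he⟩ := exists_localEq (D * principal h) (φ (ψ z))
  have hz : ψ (genericPoint Z) ⤳ ψ z := ((genericPoint_spec Z).specializes trivial).map ψ.continuous
  have hee : (D * principal h).1 ((ψ ≫ φ) z) = QuotientGroup.mk e := by
    rw [Scheme.Hom.comp_apply]; exact he
  have he1 : e ∈ unitsAt ((ψ ≫ φ) (genericPoint Z)) := mem_unitsAt_of_trivialAt hh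
    (((genericPoint_spec Z).specializes trivial).map (ψ ≫ φ).continuous) hee
  have he2 : e ∈ unitsAt (φ (genericPoint Y)) := mem_unitsAt_of_trivialAt h1
    (((genericPoint_spec Y).specializes (Set.mem_univ (ψ z))).map φ.continuous) he
  have he3 : pullFunction φ ⟨e, he2⟩ ∈ unitsAt (ψ (genericPoint Z)) :=
    pullFunction_mem_unitsAt φ ⟨e, he2⟩ _ (mem_unitsAt_of_trivialAt hξ (hz.map φ.continuous) he)
  rw [pullback'_apply (ψ ≫ φ) ⟨_, hh⟩ z ⟨e, he1⟩ hee,
    pullback'_apply ψ ⟨_, h2⟩ z ⟨_, he3⟩ (pullback'_apply φ ⟨_, h1⟩ (ψ z) ⟨e, he2⟩ he)]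
  congr 1
  refine Units.ext ?_
  obtain ⟨w, hw⟩ := mem_unitsAt.mp (mem_unitsAt_of_trivialAt hξ (hz.map φ.continuous) he)
  rw [pullFunction_spec (ψ ≫ φ) ⟨e, he1⟩ (w : X.presheaf.stalk (φ (ψ (genericPoint Z)))) hw]
  rw [pullFunction_regular ψ ⟨_, he3⟩ (genericPoint Z) (φ.stalkMap (ψ (genericPoint Z)) w)
    (pullFunction_regular φ ⟨e, he2⟩ (ψ (genericPoint Z)) w hw).symm]
  rw [RingHom.algebraMap_toAlgebra, TopCat.Presheaf.stalkSpecializes_refl]
  exact DFunLike.congr_fun (congrArg CommRingCat.Hom.hom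
    (Scheme.Hom.stalkMap_comp ψ φ (genericPoint Z))) (w : X.presheaf.stalk (φ (ψ (genericPoint Z))))

theorem pullClass_id (c : CDivClass X) : pullClass (𝟙 X) c = c := by
  obtain ⟨D, rfl⟩ := QuotientGroup.mk_surjective c
  have hD : D ∈ trivialAt ((𝟙 X : X ⟶ X) (genericPoint X)) := trivialAt_genericPoint D
  rw [pullClass_mk (𝟙 X) ⟨D, hD⟩]
  refine congrArg _ (Subtype.ext (funext fun x => ?_))
  obtain ⟨e, he⟩ := exists_localEq D x
  have hu : e ∈ unitsAt ((𝟙 X : X ⟶ X) (genericPoint X)) :=
    mem_unitsAt_of_trivialAt hD ((genericPoint_spec X).specializes trivial) he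
  rw [pullback'_apply (𝟙 X) ⟨D, hD⟩ x ⟨e, hu⟩ he, he]
  congr 1
  refine Units.ext ?_
  obtain ⟨w, hw⟩ := mem_unitsAt.mp hu
  rw [pullFunction_spec (𝟙 X) ⟨e, hu⟩ w hw, Scheme.Hom.stalkMap_id, ← hw,
    RingHom.algebraMap_toAlgebra]
  exact (DFunLike.congr_fun (congrArg CommRingCat.Hom.hom
    (X.presheaf.stalkSpecializes_refl (genericPoint X))) _).symm

end FLTAgent.AbelianTorsion
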