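import Mathlib
import Fermat.Prelude.Def_GoodReductionJacobian_RelativeGroupLawKernel

/-!
# Points with values in dual numbers of a group scheme: multiplication by `n`

Points over the dual numbers reducing to the neutral element (`IsInfinitesimal`) are rescaled by
multiplication by `n`; hence `eq_one_of_nsmul_eq_one` for invertible `n`.
-/

set_option autoImplicit false

universe u

open CategoryTheory CategoryTheory.Limits AlgebraicGeometry NeronModelInfra GoodReductionJacobian

namespace FLTAgent.AbelianTorsion

variable (K : Type u) [Field K]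

/-- The spectrum of the square-zero extension of `K` by `M`. -/
noncomputable abbrev thick (M : Type u) [AddCommGroup M] [Module K M] [Module Kᵐᵒᵖ M]
    [IsCentralScalar K M] : Scheme.{u} :=
  Spec (CommRingCat.of (TrivSqZeroExt K M))

variable {K} {M N : Type u} [AddCommGroup M] [Module K M] [Module Kᵐᵒᵖ M] [IsCentralScalar K M]
  [AddCommGroup N] [Module K N] [Module Kᵐᵒᵖ N] [IsCentralScalar K N]

/-- The structure map of a thickened point. -/
noncomputable abbrev thickStr (M : Type u) [AddCommGroup M] [Module K M] [Module Kᵐᵒᵖ M]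
    [IsCentralScalar K M] : thick K M ⟶ Spec (CommRingCat.of K) :=
  Spec.map (CommRingCat.ofHom (algebraMap K (TrivSqZeroExt K M)))

/-- Functoriality in the module. -/
noncomputable def thickMap (l : M →ₗ[K] N) : thick K N ⟶ thick K M :=
  Spec.map (CommRingCat.ofHom (TrivSqZeroExt.map l).toRingHom)

theorem thickMap_str (l : M →ₗ[K] N) : thickMap l ≫ thickStr M = thickStr N := by
  rw [thickMap, thickStr, thickStr, ← Spec.map_comp, ← CommRingCat.ofHom_comp]
  congr 2
  exact (TrivSqZeroExt.map l).comp_algebraMap

theorem thickMap_comp {P : Type u} [AddCommGroup P] [Module K P] [Module Kᵐᵒᵖ P]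
    [IsCentralScalar K P] (l : M →ₗ[K] N) (l' : N →ₗ[K] P) :
    thickMap l' ≫ thickMap l = thickMap (l'.comp l) := by
  rw [thickMap, thickMap, thickMap, ← Spec.map_comp, ← CommRingCat.ofHom_comp]
  congr 2
  rw [TrivSqZeroExt.map_comp_map]
  rfl

theorem thickMap_id : thickMap (LinearMap.id : M →ₗ[K] M) = 𝟙 (thick K M) := by
  rw [thickMap, TrivSqZeroExt.map_id]
  exact Spec.map_id _

/-- The reduced point. -/
noncomputable def thickPoint (M : Type u) [AddCommGroup M] [Module K M] [Module Kᵐᵒᵖ M]
    [IsCentralScalar K M] : Spec (CommRingCat.of K) ⟶ thick K M :=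
  Spec.map (CommRingCat.ofHom (TrivSqZeroExt.fstHom K K M).toRingHom)

theorem thickPoint_str : thickPoint M ≫ thickStr M = 𝟙 (Spec (CommRingCat.of K)) := by
  rw [thickPoint, thickStr, ← Spec.map_comp, ← CommRingCat.ofHom_comp]
  have : (TrivSqZeroExt.fstHom K K M).toRingHom.comp (algebraMap K (TrivSqZeroExt K M)) =
      RingHom.id K := (TrivSqZeroExt.fstHom K K M).comp_algebraMap
  rw [this]
  exact Spec.map_id _

instance subsingleton_thick : Subsingleton (PrimeSpectrum (TrivSqZeroExt K M)) := by
  refine ⟨fun P Q => ?_⟩
  have h : ∀ P : PrimeSpectrum (TrivSqZeroExt K M), ∀ x, x ∈ P.asIdeal ↔ x.fst = 0 := by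
    intro P x
    constructor
    · intro hx
      by_contra h0
      exact P.2.ne_top (P.asIdeal.eq_top_of_isUnit_mem hx
        (TrivSqZeroExt.isUnit_iff_isUnit_fst.mpr (Ne.isUnit h0)))
    · intro h0
      have hsq : x * x = 0 := by
        ext <;> simp [h0]
      exact (P.2.mem_or_mem (hsq ▸ P.asIdeal.zero_mem)).elim id id
  exact PrimeSpectrum.ext (Ideal.ext fun x => (h P x).trans (h Q x).symm)

variable {A : Scheme.{u}}

/-- A point with values in a square-zero extension by `K × K` is determined by its two
projections. -/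
theorem thick_prod_ext {z w : thick K (K × K) ⟶ A}
    (h₁ : thickMap (LinearMap.fst K K K) ≫ z = thickMap (LinearMap.fst K K K) ≫ w)
    (h₂ : thickMap (LinearMap.snd K K K) ≫ z = thickMap (LinearMap.snd K K K) ≫ w) : z = w := by
  let q₀ : thick K K := IsLocalRing.closedPoint (TrivSqZeroExt K K)
  let p₀ : thick K (K × K) := thickMap (LinearMap.fst K K K) q₀
  have : Subsingleton (thick K (K × K)) := subsingleton_thick (K := K) (M := K × K)
  have hp : z p₀ = w p₀ := by
    have := congrArg (fun q : thick K K ⟶ A => q q₀) h₁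
    exact this
  obtain ⟨_, ⟨V, hV', rfl⟩, hpV, -⟩ :=
    A.isBasis_affineOpens.exists_subset_of_mem_open (Set.mem_univ (z p₀)) isOpen_univ
  have hV : IsAffineOpen V := hV'
  have hz : Set.range z ⊆ Set.range hV.fromSpec := by
    rw [hV.range_fromSpec]
    rintro _ ⟨p, rfl⟩
    rw [Subsingleton.elim p p₀]
    exact hpV
  have hw : Set.range w ⊆ Set.range hV.fromSpec := by
    rw [hV.range_fromSpec]
    rintro _ ⟨p, rfl⟩
    rw [Subsingleton.elim p p₀, ← hp]
    exact hpV
  obtain ⟨φ, hφ⟩ := Spec.map_surjective (IsOpenImmersion.lift hV.fromSpec z hz)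
  obtain ⟨ψ, hψ⟩ := Spec.map_surjective (IsOpenImmersion.lift hV.fromSpec w hw)
  have ez : z = Spec.map φ ≫ hV.fromSpec := by rw [hφ, IsOpenImmersion.lift_fac]
  have ew : w = Spec.map ψ ≫ hV.fromSpec := by rw [hψ, IsOpenImmersion.lift_fac]
  rw [ez, ew] at h₁ h₂
  simp only [thickMap, ← Category.assoc, ← Spec.map_comp] at h₁ h₂
  have e₁ := Spec.map_injective ((cancel_mono hV.fromSpec).mp h₁)
  have e₂ := Spec.map_injective ((cancel_mono hV.fromSpec).mp h₂)
  rw [ez, ew]
  congr 2
  refine CommRingCat.hom_ext (RingHom.ext fun b => ?_)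
  have f₁ := RingHom.congr_fun (congrArg CommRingCat.Hom.hom e₁) b
  have f₂ := RingHom.congr_fun (congrArg CommRingCat.Hom.hom e₂) b
  simp only [CommRingCat.hom_comp, CommRingCat.hom_ofHom, RingHom.comp_apply,
    AlgHom.toRingHom_eq_coe, RingHom.coe_coe] at f₁ f₂
  refine TrivSqZeroExt.ext ?_ (Prod.ext ?_ ?_)
  · simpa using congrArg TrivSqZeroExt.fst f₁
  · simpa using congrArg TrivSqZeroExt.snd f₁
  · simpa using congrArg TrivSqZeroExt.snd f₂

variable {f : A ⟶ Spec (CommRingCat.of K)} (L : RelativeGroupLaw K f)

/-- The points over the dual numbers that reduce to the neutral element. -/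
def IsInfinitesimal (y : SchemeHomOver (thickStr (K := K) K) f) : Prop :=
  schemeHomOverComp (thickPoint K) thickPoint_str y = L.one (𝟙 (Spec (CommRingCat.of K)))

/-- Pullback along a linear map. -/
noncomputable def scale (l : M →ₗ[K] N) (y : SchemeHomOver (thickStr (K := K) M) f) :
    SchemeHomOver (thickStr (K := K) N) f :=
  schemeHomOverComp (thickMap l) (thickMap_str l) y

theorem scale_scale {P : Type u} [AddCommGroup P] [Module K P] [Module Kᵐᵒᵖ P]
    [IsCentralScalar K P] (l : M →ₗ[K] N) (l' : N →ₗ[K] P)
    (y : SchemeHomOver (thickStr (K := K) M) f) : scale l' (scale l y) = scale (l'.comp l) y :=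
  Subtype.ext (by simp [scale, schemeHomOverComp, reassoc_of% thickMap_comp])

theorem scale_id (y : SchemeHomOver (thickStr (K := K) M) f) : scale LinearMap.id y = y :=
  Subtype.ext (by simp [scale, schemeHomOverComp, thickMap_id])

theorem scale_mul (l : M →ₗ[K] N) (x y : SchemeHomOver (thickStr (K := K) M) f) :
    scale l (L.mul _ x y) = L.mul _ (scale l x) (scale l y) :=
  L.mul_natural _ _ _ _ x y

theorem scale_one (l : M →ₗ[K] N) :
    scale l (L.one (thickStr (K := K) M)) = L.one (thickStr (K := K) N) :=
  L.one_natural _ _ _ _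

variable {L}

theorem scale_zero {y : SchemeHomOver (thickStr (K := K) K) f} (hy : IsInfinitesimal L y) :
    scale (0 : K →ₗ[K] N) y = L.one (thickStr (K := K) N) := by
  have hfac : thickMap (0 : K →ₗ[K] N) = thickStr N ≫ thickPoint K := by
    rw [thickMap, thickStr, thickPoint, ← Spec.map_comp, ← CommRingCat.ofHom_comp]
    congr 2
    exact RingHom.ext fun x => TrivSqZeroExt.ext (by simp [TrivSqZeroExt.algebraMap_eq_inl])
      (by simp [TrivSqZeroExt.algebraMap_eq_inl])
  apply Subtype.ext
  show thickMap (0 : K →ₗ[K] N) ≫ y.1 = _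
  rw [hfac, Category.assoc]
  have h1 := congrArg Subtype.val hy
  rw [schemeHomOverComp_coe] at h1
  rw [h1]
  exact congrArg Subtype.val (L.one_natural (𝟙 _) (thickStr N) (thickStr N) (Category.comp_id _))

/-- Powers of infinitesimal points are rescalings. -/
theorem nsmul_eq_scale {y : SchemeHomOver (thickStr (K := K) K) f} (hy : IsInfinitesimal L y) :
    ∀ k : ℕ, L.nsmul _ k y = scale ((k : K) • LinearMap.id) y := by
  intro k
  induction k with
  | zero =>
    rw [Nat.cast_zero, zero_smul, scale_zero hy]
    rfl
  | succ k ih =>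
    have key : L.mul (thickStr (K := K) (K × K))
        (scale (LinearMap.inl K K K) (scale ((k : K) • LinearMap.id) y))
        (scale (LinearMap.inr K K K) y) =
        scale (((k : K) • LinearMap.id).prod (LinearMap.id : K →ₗ[K] K)) y := by
      apply Subtype.ext
      refine thick_prod_ext ?_ ?_
      · have := congrArg Subtype.val (show scale (LinearMap.fst K K K)
            (L.mul (thickStr (K := K) (K × K))
              (scale (LinearMap.inl K K K) (scale ((k : K) • LinearMap.id) y))
              (scale (LinearMap.inr K K K) y)) =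
            scale (LinearMap.fst K K K)
              (scale (((k : K) • LinearMap.id).prod (LinearMap.id : K →ₗ[K] K)) y) by
          rw [scale_mul, scale_scale, scale_scale, scale_scale, scale_scale,
            LinearMap.fst_comp_inr, scale_zero hy, L.mul_one, LinearMap.fst_prod,
            LinearMap.fst_comp_inl, LinearMap.id_comp])
        exact this
      · have := congrArg Subtype.val (show scale (LinearMap.snd K K K)
            (L.mul (thickStr (K := K) (K × K))
              (scale (LinearMap.inl K K K) (scale ((k : K) • LinearMap.id) y))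
              (scale (LinearMap.inr K K K) y)) =
            scale (LinearMap.snd K K K)
              (scale (((k : K) • LinearMap.id).prod (LinearMap.id : K →ₗ[K] K)) y) by
          rw [scale_mul, scale_scale, scale_scale, scale_scale, scale_scale,
            LinearMap.snd_comp_inr, LinearMap.snd_prod,
            LinearMap.snd_comp_inl, LinearMap.zero_comp, scale_zero hy, L.one_mul])
        exact this
    have hd := congrArg (scale (LinearMap.fst K K K + LinearMap.snd K K K)) key
    rw [scale_mul, scale_scale, scale_scale, scale_scale, scale_scale] at hd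
    rw [RelativeGroupLaw.nsmul_succ, ih]
    convert hd using 2
    · simp [LinearMap.add_comp]
    · simp [LinearMap.add_comp]
      exact (scale_id y).symm
    · ext
      simp

/-- An infinitesimal point killed by an invertible integer is trivial. -/
theorem eq_one_of_nsmul_eq_one {y : SchemeHomOver (thickStr (K := K) K) f}
    (hy : IsInfinitesimal L y) {n : ℕ} (hn : (n : K) ≠ 0)
    (h : L.nsmul _ n y = L.one _) : y = L.one _ := by
  rw [nsmul_eq_scale hy] at h
  have h2 := congrArg (scale (((n : K)⁻¹) • (LinearMap.id : K →ₗ[K] K))) h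
  rw [scale_scale, scale_one] at h2
  rw [← h2, show (((n : K)⁻¹) • (LinearMap.id : K →ₗ[K] K)).comp ((n : K) • LinearMap.id) =
    LinearMap.id by ext; simp [hn], scale_id]

end FLTAgent.AbelianTorsion
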