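import Mathlib
import Fermat.Agent.AbelianTorsion.Tangent
import Fermat.Agent.AbelianTorsion.Variety
import Fermat.Prelude.Def_JacJ1Iface

/-!
# Multiplication by an invertible integer is finite and unramified

`isFinite_schemeNsmul` and `formallyUnramified_schemeNsmul`, from the triviality of tangent
vectors killed by an invertible integer (`tangent_eq_zero`).
-/

set_option autoImplicit false

universe u

open CategoryTheory CategoryTheory.Limits AlgebraicGeometry NeronModelInfra GoodReductionJacobian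

namespace FLTAgent.AbelianTorsion

variable {K : Type u} [Field K] {A : Scheme.{u}} {f : A ⟶ Spec (CommRingCat.of K)}
  (L : RelativeGroupLaw K f)

/-- The group of points of a commutative law. -/
@[reducible]
def pointCommGroup (hc : L.IsCommutative) {T : Scheme.{u}} (t : T ⟶ Spec (CommRingCat.of K)) :
    CommGroup (SchemeHomOver t f) :=
  { L.pointGroup t with mul_comm := hc t }

theorem nsmul_eq_pow (hc : L.IsCommutative) {T : Scheme.{u}}
    (t : T ⟶ Spec (CommRingCat.of K)) (n : ℕ) (x : SchemeHomOver t f) :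
    letI := pointCommGroup L hc t
    L.nsmul t n x = x ^ n := by
  let := pointCommGroup L hc t
  induction n with
  | zero => rfl
  | succ n ih => rw [RelativeGroupLaw.nsmul_succ, ih, pow_succ]; rfl

/-- Composition with multiplication by `n` computes multiples. -/
theorem comp_schemeNsmul {T : Scheme.{u}} (t : T ⟶ Spec (CommRingCat.of K)) (n : ℕ)
    (x : SchemeHomOver t f) : x.1 ≫ L.schemeNsmul n = (L.nsmul t n x).1 := by
  have h := L.nsmul_natural f t x.1 x.2 n RelativeGroupLaw.idPoint
  have hid : schemeHomOverComp x.1 x.2 (RelativeGroupLaw.idPoint (f := f)) = x :=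
    Subtype.ext (Category.comp_id _)
  rw [hid] at h
  exact congrArg Subtype.val h

theorem fromSpec_comp (f : A ⟶ Spec (CommRingCat.of K)) {V : A.Opens} (hV : IsAffineOpen V) :
    hV.fromSpec ≫ f = Spec.map (baseRingHom f V) := by
  rw [← (isAffineOpen_top _).SpecMap_appLE_fromSpec f hV le_top, IsAffineOpen.fromSpec_top,
    Scheme.isoSpec_Spec_inv, baseRingHom, Spec.map_comp]

theorem comp_fromSpec_comp {T : CommRingCat.{u}} {V : A.Opens} (hV : IsAffineOpen V)
    (φ : Γ(A, V) ⟶ T) :
    (Spec.map φ ≫ hV.fromSpec) ≫ f = Spec.map (baseRingHom f V ≫ φ) := by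
  rw [Category.assoc, fromSpec_comp, Spec.map_comp]

/-- Tangent vectors killed by multiplication by an invertible integer vanish. -/
theorem tangent_eq_zero (hc : L.IsCommutative) {n : ℕ} (hn : (n : K) ≠ 0) {U V : A.Opens}
    (hU : IsAffineOpen U) (hV : IsAffineOpen V) (e : V ≤ L.schemeNsmul n ⁻¹ᵁ U)
    (π : Γ(A, V) →+* K) (hπ : ∀ k, π ((baseRingHom f V).hom k) = k)
    (d : Γ(A, V) →+ K) (hmul : ∀ a b, d (a * b) = π a * d b + π b * d a)
    (hdU : ∀ c, d (((L.schemeNsmul n).appLE U V e).hom c) = 0)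
    (hdK : ∀ k, d ((baseRingHom f V).hom k) = 0) (b : Γ(A, V)) : d b = 0 := by
  have hd1 : d 1 = 0 := by
    have := hmul 1 1
    simpa using this
  let χ : Γ(A, V) →+* TrivSqZeroExt K K :=
    { toFun := fun b => TrivSqZeroExt.inl (π b) + TrivSqZeroExt.inr (d b)
      map_one' := by simp [hd1]
      map_mul' := fun a b => by
        refine TrivSqZeroExt.ext ?_ ?_
        · simp
        · simp only [TrivSqZeroExt.snd_add, TrivSqZeroExt.snd_mul, TrivSqZeroExt.snd_inl,
            TrivSqZeroExt.snd_inr, TrivSqZeroExt.fst_add, TrivSqZeroExt.fst_inl,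
            TrivSqZeroExt.fst_inr, hmul, zero_add, add_zero, smul_eq_mul,
                MulOpposite.smul_eq_mul_unop,
            MulOpposite.unop_op]
          ring
      map_zero' := by simp
      map_add' := fun a b => by
        refine TrivSqZeroExt.ext ?_ ?_ <;> simp }
  have hfst : ∀ b, (χ b).fst = π b := fun b => by simp [χ]
  have hsnd : ∀ b, (χ b).snd = d b := fun b => by simp [χ]
  have hχK : baseRingHom f V ≫ CommRingCat.ofHom χ =
      CommRingCat.ofHom (algebraMap K (TrivSqZeroExt K K)) :=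
    CommRingCat.hom_ext (RingHom.ext fun k => TrivSqZeroExt.ext ((hfst _).trans (hπ k))
      ((hsnd _).trans (hdK k)))
  let a : SchemeHomOver (𝟙 (Spec (CommRingCat.of K))) f :=
    ⟨Spec.map (CommRingCat.ofHom π) ≫ hV.fromSpec, by
      rw [comp_fromSpec_comp, ← Spec.map_id]
      congr 1
      exact CommRingCat.hom_ext (RingHom.ext hπ)⟩
  let x : SchemeHomOver (thickStr (K := K) K) f :=
    ⟨Spec.map (CommRingCat.ofHom χ) ≫ hV.fromSpec, by rw [comp_fromSpec_comp, hχK]⟩
  let a₁ : SchemeHomOver (thickStr (K := K) K) f :=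
    schemeHomOverComp (thickStr K) (Category.comp_id _) a
  have ha₁ : a₁.1 = Spec.map (CommRingCat.ofHom
      ((algebraMap K (TrivSqZeroExt K K)).comp π)) ≫ hV.fromSpec := by
    rw [schemeHomOverComp_coe, CommRingCat.ofHom_comp, Spec.map_comp, Category.assoc]
  have hn' : L.nsmul _ n x = L.nsmul _ n a₁ := by
    apply Subtype.ext
    rw [← comp_schemeNsmul, ← comp_schemeNsmul, ha₁, Category.assoc, Category.assoc,
      ← hU.SpecMap_appLE_fromSpec (L.schemeNsmul n) hV e, ← Category.assoc, ← Category.assoc,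
      ← Spec.map_comp, ← Spec.map_comp]
    congr 2
    refine CommRingCat.hom_ext (RingHom.ext fun c => TrivSqZeroExt.ext ?_ ?_)
    · exact (hfst _).trans (by simp [TrivSqZeroExt.algebraMap_eq_inl]; rfl)
    · exact (hsnd _).trans ((hdU c).trans (by simp [TrivSqZeroExt.algebraMap_eq_inl]))
  let := pointCommGroup L hc (thickStr (K := K) K)
  rw [nsmul_eq_pow L hc, nsmul_eq_pow L hc] at hn'
  have hy : L.nsmul _ n (x * a₁⁻¹) = L.one _ := by
    rw [nsmul_eq_pow L hc, mul_pow, inv_pow, hn', mul_inv_cancel]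
    rfl
  have hxa : schemeHomOverComp (thickPoint K) thickPoint_str x = a := by
    apply Subtype.ext
    show thickPoint K ≫ (Spec.map (CommRingCat.ofHom χ) ≫ hV.fromSpec) = _
    rw [thickPoint, ← Category.assoc, ← Spec.map_comp, ← CommRingCat.ofHom_comp]
    congr 3
    exact RingHom.ext hfst
  have haa : schemeHomOverComp (thickPoint K) thickPoint_str a₁ = a := by
    apply Subtype.ext
    show thickPoint K ≫ (thickStr K ≫ a.1) = _
    rw [← Category.assoc, thickPoint_str, Category.id_comp]
  have hinf : IsInfinitesimal L (x * a₁⁻¹) := by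
    let := pointCommGroup L hc (𝟙 (Spec (CommRingCat.of K)))
    let res : SchemeHomOver (thickStr (K := K) K) f →*
        SchemeHomOver (𝟙 (Spec (CommRingCat.of K))) f :=
      MonoidHom.mk' (schemeHomOverComp (thickPoint K) thickPoint_str) (L.mul_natural _ _ _ _)
    show res (x * a₁⁻¹) = 1
    rw [map_mul, map_inv]
    show schemeHomOverComp (thickPoint K) thickPoint_str x *
      (schemeHomOverComp (thickPoint K) thickPoint_str a₁)⁻¹ = 1
    rw [hxa, haa, mul_inv_cancel]
  have hxeq : x = a₁ := mul_inv_eq_one.mp (eq_one_of_nsmul_eq_one hinf hn hy)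
  have hring := congrArg Subtype.val hxeq
  rw [ha₁] at hring
  have hχeq := congrArg CommRingCat.Hom.hom
    (Spec.map_injective ((cancel_mono hV.fromSpec).mp hring))
  have := congrArg TrivSqZeroExt.snd (RingHom.congr_fun hχeq b)
  exact (hsnd b).symm.trans (this.trans (by simp [TrivSqZeroExt.algebraMap_eq_inl]))

variable [IsAlgClosed K]

/-- Multiplication by an invertible integer is formally unramified. -/
theorem formallyUnramified_schemeNsmul [LocallyOfFiniteType f] (hc : L.IsCommutative) {n : ℕ}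
    (hn : (n : K) ≠ 0) : AlgebraicGeometry.FormallyUnramified (L.schemeNsmul n) := by
  refine ⟨fun {U} hU {V} hV e => ?_⟩
  let h := (L.schemeNsmul n).appLE U V e
  let : Algebra Γ(A, U) Γ(A, V) := h.hom.toAlgebra
  change Algebra.FormallyUnramified Γ(A, U) Γ(A, V)
  let : Algebra K Γ(A, V) := (baseRingHom f V).hom.toAlgebra
  let : Algebra K Γ(A, U) := (baseRingHom f U).hom.toAlgebra
  have hfac : baseRingHom f V = baseRingHom f U ≫ h := by
    simp only [baseRingHom, Category.assoc, h]
    congr 1
    rw [Scheme.Hom.appLE_comp_appLE]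
    simp only [L.schemeNsmul_over n]
  have : IsScalarTower K Γ(A, U) Γ(A, V) :=
    IsScalarTower.of_algebraMap_eq' (congrArg CommRingCat.Hom.hom hfac)
  have : Algebra.FiniteType K Γ(A, V) := by
    have h1 : (f.appLE ⊤ V le_top).hom.FiniteType :=
      LocallyOfFiniteType.finiteType_appLE (f := f) (isAffineOpen_top _) hV le_top
    exact h1.comp (RingHom.FiniteType.of_surjective _
      (Scheme.ΓSpecIso (CommRingCat.of K)).symm.commRingCatIsoToRingEquiv.surjective)
  have : Algebra.FiniteType Γ(A, U) Γ(A, V) :=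
    Algebra.FiniteType.of_restrictScalars_finiteType K _ _
  refine ⟨?_⟩
  by_contra hne
  rw [not_subsingleton_iff_nontrivial] at hne
  obtain ⟨N, hN, -⟩ := (eq_top_or_exists_le_coatom
    (⊥ : Submodule Γ(A, V) Ω[Γ(A, V)⁄Γ(A, U)])).resolve_left
    bot_ne_top
  have : IsSimpleModule Γ(A, V) (Ω[Γ(A, V)⁄Γ(A, U)] ⧸ N) := isSimpleModule_iff_isCoatom.mpr hN
  obtain ⟨M, hM, ⟨iso⟩⟩ := isSimpleModule_iff_quot_maximal.mp
    (inferInstance : IsSimpleModule Γ(A, V) (Ω[Γ(A, V)⁄Γ(A, U)] ⧸ N))
  have := hM
  let := Ideal.Quotient.field M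
  have := finite_of_finite_type_of_isJacobsonRing K (Γ(A, V) ⧸ M)
  have hb : Function.Bijective (algebraMap K (Γ(A, V) ⧸ M)) :=
    IsAlgClosed.algebraMap_bijective_of_isIntegral
  let σ : (Γ(A, V) ⧸ M) ≃ₐ[K] K := (AlgEquiv.ofBijective (Algebra.ofId K _) hb).symm
  let l : Ω[Γ(A, V)⁄Γ(A, U)] →ₗ[Γ(A, V)] Γ(A, V) ⧸ M := iso.toLinearMap.comp N.mkQ
  let d : Γ(A, V) → Γ(A, V) ⧸ M := fun b => l (KaehlerDifferential.D Γ(A, U) Γ(A, V) b)
  let π : Γ(A, V) →ₐ[K] K := σ.toAlgHom.comp (Ideal.Quotient.mkₐ K M)
  have hd : ∀ b, d b = 0 := by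
    intro b
    have hσ : Function.Injective σ := σ.injective
    refine hσ ((tangent_eq_zero L hc hn hU hV e π.toRingHom π.commutes
      (AddMonoidHom.mk' (fun b => σ (d b)) (fun a b => by simp [d]))
      (fun a b => ?_) (fun c => ?_) (fun k => ?_) b).trans (map_zero σ).symm)
    · have hl : d (a * b) = Ideal.Quotient.mk M a * d b + Ideal.Quotient.mk M b * d a := by
        simp only [d, Derivation.leibniz, map_add, map_smul, Algebra.smul_def,
          Ideal.Quotient.algebraMap_eq]
      show σ (d (a * b)) = _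
      rw [hl, map_add, map_mul, map_mul]
      rfl
    · show σ (d (algebraMap Γ(A, U) Γ(A, V) c)) = 0
      simp [d]
    · show σ (d ((baseRingHom f V).hom k)) = 0
      rw [show (baseRingHom f V).hom k = algebraMap Γ(A, U) Γ(A, V) ((baseRingHom f U).hom k) from
        RingHom.congr_fun (congrArg CommRingCat.Hom.hom hfac) k]
      simp [d]
  have hl : l = 0 := by
    refine LinearMap.ext_on_range (KaehlerDifferential.span_range_derivation _ _) fun b => ?_
    simpa [d] using hd b
  obtain ⟨w, hw⟩ := iso.surjective 1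
  obtain ⟨w, rfl⟩ := N.mkQ_surjective w
  have := LinearMap.congr_fun hl w
  simp [l] at this
  rw [Submodule.mkQ_apply, (Submodule.Quotient.mk_eq_zero N).mpr this, map_zero] at hw
  exact zero_ne_one hw

/-- Multiplication by an invertible integer is finite. -/
theorem isFinite_schemeNsmul [IsProper f] (hc : L.IsCommutative) {n : ℕ} (hn : (n : K) ≠ 0) :
    IsFinite (L.schemeNsmul n) := by
  have := formallyUnramified_schemeNsmul L hc hn
  have : IsProper (L.schemeNsmul n ≫ f) := by rw [L.schemeNsmul_over]; infer_instance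
  have : IsProper (L.schemeNsmul n) := IsProper.of_comp _ f
  have : LocallyQuasiFinite (L.schemeNsmul n) := ⟨fun {U} hU {V} hV e => by
    have h1 := Scheme.Hom.formallyUnramified_appLE (L.schemeNsmul n) hU hV e
    have h2 : ((L.schemeNsmul n).appLE U V e).hom.FiniteType :=
      LocallyOfFiniteType.finiteType_appLE (f := L.schemeNsmul n) hU hV e
    algebraize [((L.schemeNsmul n).appLE U V e).hom]
    exact ⟨fun P _ => Algebra.FormallyUnramified.finite_of_free _ _⟩⟩
  exact IsFinite.of_isProper_of_locallyQuasiFinite _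

end FLTAgent.AbelianTorsion
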