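import Mathlib
import Fermat.Agent.Jacobian.ConstExtGenus

/-!
# Reduction of functions along a valuation of the constants

The relation `Reduces` between functions and their reductions, scaling to a nonzero reduction, and
the semicontinuity bounds `ord_ge_of_reduces` and `finrank_le_of_reduces`.
-/

set_option autoImplicit false

noncomputable section

open AlgebraicCurve TensorProduct
open FLTAgent.FFBasic (IsFunctionField)
open FLTAgent.Jacobian FLTAgent.Jacobian.ConstExt

namespace FLTAgent.AbelianTorsion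

universe u

variable {k L κ F₀ F F' : Type u} [Field k] [Field L] [Field κ] [Field F₀] [Field F] [Field F']
  [Algebra k L] [Algebra k κ] [Algebra k F₀]
  [Algebra L F] [Algebra F₀ F] [Algebra k F] [IsScalarTower k L F] [IsScalarTower k F₀ F]
  [Algebra κ F'] [Algebra F₀ F'] [Algebra k F'] [IsScalarTower k κ F'] [IsScalarTower k F₀ F']
  [IsConstExtension k L F₀ F] [IsConstExtension k κ F₀ F']
  {O : ValuationSubring L} [Algebra k O] [IsScalarTower k O L]

/-- A surjection of `O` onto `κ` with kernel the maximal ideal. -/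
structure ResidueMap (k : Type u) {L : Type u} [Field k] [Field L] [Algebra k L]
    (O : ValuationSubring L) [Algebra k O] (κ : Type u) [Field κ] [Algebra k κ] where
  /-- the map -/
  toHom : O →ₐ[k] κ
  eq_zero_iff : ∀ a : O, toHom a = 0 ↔ ¬IsUnit a

variable (ρ : ResidueMap k O κ)

variable (F) in
/-- The value of an element of the model. -/
def genMap : O ⊗[k] F₀ →ₐ[k] F :=
  Algebra.TensorProduct.lift ((IsScalarTower.toAlgHom k L F).comp (IsScalarTower.toAlgHom k O L))
    (IsScalarTower.toAlgHom k F₀ F) fun _ _ => Commute.all _ _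

variable (F') in
/-- The reduction of an element of the model. -/
def redMap : O ⊗[k] F₀ →ₐ[k] F' :=
  Algebra.TensorProduct.lift ((IsScalarTower.toAlgHom k κ F').comp ρ.toHom)
    (IsScalarTower.toAlgHom k F₀ F') fun _ _ => Commute.all _ _

omit [IsConstExtension k L F₀ F] in
@[simp] theorem genMap_tmul (o : O) (u : F₀) :
    genMap F (o ⊗ₜ[k] u) = algebraMap L F o * algebraMap F₀ F u := by
  simp [genMap]

omit [IsConstExtension k κ F₀ F'] [IsScalarTower k (↥O) L] in
@[simp] theorem redMap_tmul (o : O) (u : F₀) :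
    redMap F' ρ (o ⊗ₜ[k] u) = algebraMap κ F' (ρ.toHom o) * algebraMap F₀ F' u := by
  simp [redMap]

theorem genMap_injective : Function.Injective (genMap (k := k) (L := L) (F₀ := F₀) (O := O) F) := by
  classical
  rw [injective_iff_map_eq_zero]
  intro z hz
  let b := Module.Free.chooseBasis k F₀
  let B := b.baseChange O
  have h : ∀ i, genMap F (B i) = algebraMap F₀ F (b i) := fun i => by simp [B]
  have hsum : ∑ i ∈ (B.repr z).support, ((B.repr z i : O) : L) • algebraMap F₀ F (b i) = 0 := by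
    conv_rhs => rw [← hz, ← B.linearCombination_repr z, Finsupp.linearCombination_apply,
      Finsupp.sum, map_sum]
    refine Finset.sum_congr rfl fun i _ => ?_
    rw [Algebra.smul_def, show (B.repr z i) • B i = (B.repr z i) ⊗ₜ[k] b i by
      rw [Module.Basis.baseChange_apply, TensorProduct.smul_tmul', smul_eq_mul, mul_one],
      genMap_tmul]
  have := linearIndependent_iff'.mp (ConstExt.linearIndependent_map (K := L) (F := F)
    b.linearIndependent) _ _ hsum
  refine B.repr.map_eq_zero_iff.mp (Finsupp.ext fun i => ?_)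
  by_contra hne
  exact hne (Subtype.ext (this i (Finsupp.mem_support_iff.mpr hne)))

variable (F F') in
/-- `f` reduces to `f'`. -/
def Reduces (f : F) (f' : F') : Prop :=
  ∃ a b : O ⊗[k] F₀, redMap F' ρ b ≠ 0 ∧ f * genMap F b = genMap F a ∧
    f' * redMap F' ρ b = redMap F' ρ a

namespace Reduces

variable {ρ}

omit [IsConstExtension k κ F₀ F'] in
theorem unique {f : F} {f' f'' : F'} (h1 : Reduces (F₀ := F₀) F F' ρ f f')
    (h2 : Reduces (F₀ := F₀) F F' ρ f f'') : f' = f'' := by
  obtain ⟨a, b, hb, hfa, hfa'⟩ := h1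
  obtain ⟨c, d, hd, hfc, hfc'⟩ := h2
  have h : a * d = c * b := by
    apply genMap_injective (F := F)
    rw [map_mul, map_mul, ← hfa, ← hfc]
    ring
  have h' := congrArg (redMap F' ρ) h
  rw [map_mul, map_mul, ← hfa', ← hfc'] at h'
  exact mul_right_cancel₀ (mul_ne_zero hb hd) (by linear_combination h')

omit [IsConstExtension k L F₀ F] [IsConstExtension k κ F₀ F'] in
theorem of_model (a : O ⊗[k] F₀) : Reduces (F₀ := F₀) F F' ρ (genMap F a) (redMap F' ρ a) :=
  ⟨a, 1, by simp, by simp, by simp⟩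

omit [IsConstExtension k L F₀ F] [IsConstExtension k κ F₀ F'] in
theorem one : Reduces (F₀ := F₀) F F' ρ 1 1 := by
  simpa using of_model (F := F) (F' := F') (ρ := ρ) (1 : O ⊗[k] F₀)

omit [IsConstExtension k L F₀ F] [IsConstExtension k κ F₀ F'] in
theorem zero : Reduces (F₀ := F₀) F F' ρ 0 0 := by
  simpa using of_model (F := F) (F' := F') (ρ := ρ) (0 : O ⊗[k] F₀)

omit [IsConstExtension k L F₀ F] [IsConstExtension k κ F₀ F'] in
theorem const (o : O) :
    Reduces (F₀ := F₀) F F' ρ (algebraMap L F o) (algebraMap κ F' (ρ.toHom o)) := by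
  simpa using of_model (F := F) (F' := F') (ρ := ρ) (o ⊗ₜ[k] (1 : F₀))

omit [IsConstExtension k L F₀ F] [IsConstExtension k κ F₀ F'] in
theorem base (u : F₀) : Reduces (F₀ := F₀) F F' ρ (algebraMap F₀ F u) (algebraMap F₀ F' u) := by
  simpa using of_model (F := F) (F' := F') (ρ := ρ) ((1 : O) ⊗ₜ[k] u)

variable {f g : F} {f' g' : F'}

omit [IsConstExtension k L F₀ F] [IsConstExtension k κ F₀ F'] in
theorem mul (hf : Reduces (F₀ := F₀) F F' ρ f f') (hg : Reduces (F₀ := F₀) F F' ρ g g') :
    Reduces (F₀ := F₀) F F' ρ (f * g) (f' * g') := by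
  obtain ⟨a, b, hb, hfa, hfa'⟩ := hf
  obtain ⟨c, d, hd, hfc, hfc'⟩ := hg
  exact ⟨a * c, b * d, by rw [map_mul]; exact mul_ne_zero hb hd,
    by rw [map_mul, map_mul, ← hfa, ← hfc]; ring,
    by rw [map_mul, map_mul, ← hfa', ← hfc']; ring⟩

omit [IsConstExtension k L F₀ F] [IsConstExtension k κ F₀ F'] in
theorem add (hf : Reduces (F₀ := F₀) F F' ρ f f') (hg : Reduces (F₀ := F₀) F F' ρ g g') :
    Reduces (F₀ := F₀) F F' ρ (f + g) (f' + g') := by
  obtain ⟨a, b, hb, hfa, hfa'⟩ := hf
  obtain ⟨c, d, hd, hfc, hfc'⟩ := hg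
  exact ⟨a * d + c * b, b * d, by rw [map_mul]; exact mul_ne_zero hb hd,
    by rw [map_add, map_mul, map_mul, map_mul, ← hfa, ← hfc]; ring,
    by rw [map_add, map_mul, map_mul, map_mul, ← hfa', ← hfc']; ring⟩

omit [IsConstExtension k κ F₀ F'] in
theorem inv (hf : Reduces (F₀ := F₀) F F' ρ f f') (h0 : f' ≠ 0) :
    Reduces (F₀ := F₀) F F' ρ f⁻¹ f'⁻¹ := by
  obtain ⟨a, b, hb, hfa, hfa'⟩ := hf
  have ha : redMap F' ρ a ≠ 0 := hfa' ▸ mul_ne_zero h0 hb
  have hf0 : f ≠ 0 := by
    rintro rfl
    rw [zero_mul, eq_comm, map_eq_zero_iff _ genMap_injective] at hfa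
    exact ha (by rw [hfa, map_zero])
  exact ⟨b, a, ha, by rw [← hfa, inv_mul_cancel_left₀ hf0],
    by rw [← hfa', inv_mul_cancel_left₀ h0]⟩

omit [IsConstExtension k L F₀ F] [IsConstExtension k κ F₀ F'] in
theorem pow (hf : Reduces (F₀ := F₀) F F' ρ f f') (n : ℕ) :
    Reduces (F₀ := F₀) F F' ρ (f ^ n) (f' ^ n) := by
  induction n with
  | zero => simpa using one
  | succ n ih => simpa [pow_succ] using ih.mul hf

omit [IsConstExtension k L F₀ F] [IsConstExtension k κ F₀ F'] in
theorem prod {α : Type*} (s : Finset α) {f : α → F} {f' : α → F'}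
    (h : ∀ i ∈ s, Reduces (F₀ := F₀) F F' ρ (f i) (f' i)) :
    Reduces (F₀ := F₀) F F' ρ (∏ i ∈ s, f i) (∏ i ∈ s, f' i) := by
  classical
  induction s using Finset.induction_on with
  | empty => simpa using one
  | insert i s hi ih =>
    rw [Finset.prod_insert hi, Finset.prod_insert hi]
    exact (h i (Finset.mem_insert_self _ _)).mul (ih fun j hj => h j (Finset.mem_insert_of_mem hj))

omit [IsConstExtension k L F₀ F] [IsConstExtension k κ F₀ F'] in
theorem sum {α : Type*} (s : Finset α) {f : α → F} {f' : α → F'}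
    (h : ∀ i ∈ s, Reduces (F₀ := F₀) F F' ρ (f i) (f' i)) :
    Reduces (F₀ := F₀) F F' ρ (∑ i ∈ s, f i) (∑ i ∈ s, f' i) := by
  classical
  induction s using Finset.induction_on with
  | empty => simpa using of_model (F := F) (F' := F') (ρ := ρ) (0 : O ⊗[k] F₀)
  | insert i s hi ih =>
    rw [Finset.sum_insert hi, Finset.sum_insert hi]
    exact (h i (Finset.mem_insert_self _ _)).add (ih fun j hj => h j (Finset.mem_insert_of_mem hj))

end Reduces

/-- Among finitely many constants, not all zero, one has the largest valuation. -/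
theorem exists_pivot {α : Type*} (s : Finset α) (c : α → L) (hc : ∃ i ∈ s, c i ≠ 0) :
    ∃ j ∈ s, c j ≠ 0 ∧ ∀ i ∈ s, c i / c j ∈ O := by
  obtain ⟨i₀, hi₀, hne⟩ := hc
  obtain ⟨j, hj, hmax⟩ := s.exists_max_image (fun i => O.valuation (c i)) ⟨i₀, hi₀⟩
  have hj0 : c j ≠ 0 := fun h => hne <| by
    have := hmax i₀ hi₀
    rw [h, map_zero, le_zero_iff] at this
    exact (map_eq_zero O.valuation).mp this
  refine ⟨j, hj, hj0, fun i hi => ?_⟩
  rw [← O.valuation_le_one_iff, map_div₀]
  exact div_le_one_of_le₀ (hmax i hi) zero_le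

omit [IsConstExtension k L F₀ F] [IsConstExtension k κ F₀ F'] in
/-- An integral combination of functions from `F₀` reduces to the combination of the reductions. -/
theorem exists_reduces_sum {α : Type*} (s : Finset α) (v : α → F₀)
    (c : α → L) (hc : ∀ i ∈ s, c i ∈ O) :
    ∃ e : α → κ, Reduces (F₀ := F₀) F F' ρ (∑ i ∈ s, c i • algebraMap F₀ F (v i))
        (∑ i ∈ s, e i • algebraMap F₀ F' (v i)) ∧
      ∀ i (hi : i ∈ s), e i = ρ.toHom ⟨c i, hc i hi⟩ := by
  classical
  refine ⟨fun i => if hi : i ∈ s then ρ.toHom ⟨c i, hc i hi⟩ else 0,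
    Reduces.sum s fun i hi => ?_, fun i hi => dif_pos hi⟩
  dsimp only
  rw [dif_pos hi, Algebra.smul_def, Algebra.smul_def]
  exact (Reduces.const ⟨c i, hc i hi⟩).mul (Reduces.base (v i))

/-- Every nonzero function can be scaled so that its reduction is nonzero. -/
theorem exists_smul_reduces [IsFunctionField L F] {f : F} (hf : f ≠ 0) :
    ∃ (l : L) (f' : F'), l ≠ 0 ∧ f' ≠ 0 ∧ Reduces (F₀ := F₀) F F' ρ (algebraMap L F l * f) f' := by
  classical
  have key : ∀ z ∈ compositeRing (K := L) F₀ F, z ≠ 0 →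
      ∃ (l : L) (z' : F'), l ≠ 0 ∧ z' ≠ 0 ∧
        Reduces (F₀ := F₀) F F' ρ (algebraMap L F l * z) z' := by
    intro z hz hz0
    let b := Module.Free.chooseBasis k F₀
    have hz' : z ∈ Submodule.span L (Set.range fun i => algebraMap F₀ F (b i)) := by
      rw [← Subalgebra.mem_toSubmodule, toSubmodule_compositeRing] at hz
      refine (Submodule.span_le.mpr ?_) hz
      rintro _ ⟨u, rfl⟩
      rw [← b.linearCombination_repr u, Finsupp.linearCombination_apply, Finsupp.sum, map_sum]
      refine Submodule.sum_mem _ fun i _ => ?_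
      rw [Algebra.smul_def, map_mul, ← IsScalarTower.algebraMap_apply,
        IsScalarTower.algebraMap_apply k L F, ← Algebra.smul_def]
      exact Submodule.smul_mem _ _ (Submodule.subset_span ⟨i, rfl⟩)
    obtain ⟨c, rfl⟩ := Finsupp.mem_span_range_iff_exists_finsupp.mp hz'
    have hne : ∃ i ∈ c.support, c i ≠ 0 := by
      obtain ⟨i, hi⟩ : c.support.Nonempty := Finset.nonempty_iff_ne_empty.mpr fun h => hz0 (by
        rw [Finsupp.sum, h, Finset.sum_empty])
      exact ⟨i, hi, Finsupp.mem_support_iff.mp hi⟩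
    obtain ⟨j, hj, hj0, hO⟩ := exists_pivot (O := O) c.support c hne
    obtain ⟨e, he, hee⟩ := exists_reduces_sum (F := F) (F' := F') ρ c.support b
      (fun i => c i / c j) hO
    refine ⟨(c j)⁻¹, ∑ i ∈ c.support, e i • algebraMap F₀ F' (b i), inv_ne_zero hj0,
      fun h => ?_, ?_⟩
    · have h1 := linearIndependent_iff'.mp (ConstExt.linearIndependent_map (K := κ) (F := F')
        b.linearIndependent) _ _ h j hj
      rw [hee j hj, ρ.eq_zero_iff] at h1
      refine h1 ?_
      convert isUnit_one (M := O) using 1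
      exact Subtype.ext (div_self hj0)
    · convert he using 1
      rw [Finsupp.sum, Finset.mul_sum]
      refine Finset.sum_congr rfl fun i _ => ?_
      rw [Algebra.smul_def, Algebra.smul_def, ← mul_assoc, ← map_mul, inv_mul_eq_div]
  obtain ⟨x, hx, y, hy, hy0, rfl⟩ : ∃ x ∈ compositeRing (K := L) F₀ F,
      ∃ y ∈ compositeRing (K := L) F₀ F, y ≠ 0 ∧ f = x / y := by
    have htop : f ∈ IntermediateField.adjoin L (Set.range (algebraMap F₀ F)) := by
      rw [IsConstExtension.adjoin_eq_top (K₀ := k)]; trivial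
    obtain ⟨x, hx, y, hy, rfl⟩ := IntermediateField.mem_adjoin_iff_div.mp htop
    exact ⟨x, hx, y, hy, fun h => hf (by rw [h, div_zero]), rfl⟩
  obtain ⟨l, x', hl, hx', hxr⟩ := key x hx (fun h => hf (by rw [h, zero_div]))
  obtain ⟨m, y', hm, hy', hyr⟩ := key y hy hy0
  refine ⟨l / m, x' * y'⁻¹, div_ne_zero hl hm, mul_ne_zero hx' (inv_ne_zero hy'), ?_⟩
  convert hxr.mul (hyr.inv hy') using 1
  rw [map_div₀]
  have : algebraMap L F m ≠ 0 := (map_ne_zero _).mpr hm
  field_simp

section Bound

variable [IsFunctionField k F₀] [IsFunctionField L F] [IsFunctionField κ F']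
  [IsAlgClosed k] [IsAlgClosed L] [IsAlgClosed κ]

/-- The reduction of a function in the extension of `L(E)` stays in the extension of `L(E)`. -/
theorem reduces_mem_riemannRochSpace (E : Divisor k F₀) {f : F} {f' : F'}
    (hf : f ∈ riemannRochSpace (mapDiv L F E)) (h : Reduces (F₀ := F₀) F F' ρ f f') :
    f' ∈ riemannRochSpace (mapDiv κ F' E) := by
  classical
  set b := Module.finBasis k (riemannRochSpace E)
  have hv : LinearIndependent k (fun i => (b i : F₀)) :=
    b.linearIndependent.map' (riemannRochSpace E).subtype (Submodule.ker_subtype _)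
  rw [← ConstExt.spanMap_eq L F E] at hf
  have hf' : f ∈ Submodule.span L (Set.range fun i => algebraMap F₀ F (b i)) := by
    refine (Submodule.span_le.mpr ?_) hf
    rintro _ ⟨u, hu, rfl⟩
    rw [show u = ((⟨u, hu⟩ : riemannRochSpace E) : F₀) from rfl, ← b.sum_repr ⟨u, hu⟩,
      Submodule.coe_sum, map_sum]
    refine Submodule.sum_mem _ fun i _ => ?_
    rw [Submodule.coe_smul, Algebra.smul_def, map_mul, ← IsScalarTower.algebraMap_apply,
      IsScalarTower.algebraMap_apply k L F, ← Algebra.smul_def]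
    exact Submodule.smul_mem _ _ (Submodule.subset_span ⟨i, rfl⟩)
  obtain ⟨c, rfl⟩ := (Submodule.mem_span_range_iff_exists_fun L).mp hf'
  have hmem : ∀ e : Fin _ → κ, ∑ i, e i • algebraMap F₀ F' (b i : F₀) ∈
      riemannRochSpace (mapDiv κ F' E) := fun e => by
    rw [← ConstExt.spanMap_eq κ F' E]
    exact Submodule.sum_mem _ fun i _ =>
      Submodule.smul_mem _ _ (Submodule.subset_span ⟨_, (b i).2, rfl⟩)
  by_cases hO : ∀ i, c i ∈ O
  · obtain ⟨e, he, -⟩ := exists_reduces_sum (F := F) (F' := F') ρ Finset.univ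
      (fun i => (b i : F₀)) c fun i _ => hO i
    rw [h.unique he]
    exact hmem e
  exfalso
  obtain ⟨i₀, hi₀⟩ := not_forall.mp hO
  obtain ⟨j, -, hj0, hjO⟩ := exists_pivot (O := O) Finset.univ c
    ⟨i₀, Finset.mem_univ _, fun h => hi₀ (h ▸ O.zero_mem)⟩
  obtain ⟨e, he, hee⟩ := exists_reduces_sum (F := F) (F' := F') ρ Finset.univ (fun i => (b i : F₀))
    (fun i => c i / c j) hjO
  have hjinv : (c j)⁻¹ ∈ O := by
    rcases O.mem_or_inv_mem (c j) with h1 | h1
    · exact absurd
        (by simpa [div_mul_cancel₀, hj0] using mul_mem (hjO i₀ (Finset.mem_univ _)) h1) hi₀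
    · exact h1
  have hzero : ρ.toHom ⟨(c j)⁻¹, hjinv⟩ = 0 := by
    rw [ρ.eq_zero_iff]
    rintro ⟨u, hu⟩
    have : c j ∈ O := by
      have h1 : ((u : O) : L) = (c j)⁻¹ := congrArg Subtype.val hu
      have h2 : ((↑u⁻¹ : O) : L) * ((u : O) : L) = 1 := by
        rw [← MulMemClass.coe_mul, Units.inv_mul]; rfl
      rw [h1, mul_inv_eq_one₀ hj0] at h2
      exact h2 ▸ (↑u⁻¹ : O).2
    exact hi₀ (by simpa [div_mul_cancel₀, hj0] using mul_mem (hjO i₀ (Finset.mem_univ _)) this)
  have h2 : Reduces (F₀ := F₀) F F' ρ (∑ i, (c i / c j) • algebraMap F₀ F (b i : F₀)) 0 := by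
    convert (Reduces.const (F := F) (F' := F') (F₀ := F₀) (ρ := ρ) ⟨_, hjinv⟩).mul h using 1
    · rw [Finset.mul_sum]
      exact Finset.sum_congr rfl fun i _ => by
        rw [Algebra.smul_def, Algebra.smul_def, ← mul_assoc, ← map_mul, inv_mul_eq_div]
    · rw [hzero, map_zero, zero_mul]
  have h3 := Fintype.linearIndependent_iff.mp (ConstExt.linearIndependent_map (K := κ) (F := F') hv)
    e (he.unique h2) j
  rw [hee j (Finset.mem_univ _), ρ.eq_zero_iff] at h3
  refine h3 ?_
  convert isUnit_one (M := O) using 1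
  exact Subtype.ext (div_self hj0)

variable {ρ} in
/-- **Specialisation.** If `φ` has poles bounded by `E` at the places specialising to `Q'`, so
does its reduction at `Q'`. -/
theorem ord_ge_of_reduces (E : Divisor k F₀) (Q' : Place κ F') {φ : F} {φ' : F'}
    (h : Reduces (F₀ := F₀) F F' ρ φ φ') (hφ' : φ' ≠ 0)
    (hQ : ∀ Q : Place L F,
      (∀ u : F₀, algebraMap F₀ F' u ∈ Q'.toValuationSubring →
        algebraMap F₀ F u ∈ Q.toValuationSubring) →
      (∀ b ∈ Algebra.adjoin k ({z : O ⊗[k] F₀ | ∃ (o : O) (u : F₀),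
          algebraMap F₀ F' u ∈ Q'.toValuationSubring ∧ z = o ⊗ₜ[k] u}), redMap F' ρ b ≠ 0 →
          Q'.ord (redMap F' ρ b) = 0 → Q.ord (genMap F b) = 0) →
      -mapDiv L F E Q ≤ Q.ord φ) :
    -mapDiv κ F' E Q' ≤ Q'.ord φ' := by
  classical
  set S := Algebra.adjoin k ({z : O ⊗[k] F₀ | ∃ (o : O) (u : F₀),
          algebraMap F₀ F' u ∈ Q'.toValuationSubring ∧ z = o ⊗ₜ[k] u}) with hS
  have hφ : φ ≠ 0 := by
    rintro rfl
    exact hφ' (h.unique Reduces.zero)
  have hfin : {Q : Place L F | Q.ord φ < -mapDiv L F E Q}.Finite := by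
    refine ((FFBasic.finite_setOf_ord_ne_zero (K := L) φ).union
      (mapDiv L F E).support.finite_toSet).subset fun Q hQ => ?_
    simp only [Set.mem_ofPred_eq] at hQ
    by_contra hne
    simp only [Set.mem_union, Set.mem_ofPred_eq, Finset.mem_coe, Finsupp.mem_support_iff,
      not_or, not_not] at hne
    omega
  have hnn : ∀ Q : Place L F, (∀ u : F₀, algebraMap F₀ F' u ∈ Q'.toValuationSubring →
        algebraMap F₀ F u ∈ Q.toValuationSubring) → ∀ b ∈ S, genMap F b ∈ Q.toValuationSubring := by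
    intro Q h1 b hb
    induction hb using Algebra.adjoin_induction with
    | mem z hz =>
      obtain ⟨o, u, hu, rfl⟩ := hz
      rw [genMap_tmul]
      exact mul_mem (Q.algebraMap_mem' _) (h1 u hu)
    | algebraMap r =>
      rw [AlgHom.commutes, IsScalarTower.algebraMap_apply k L F]
      exact Q.algebraMap_mem' _
    | add a c _ _ ha hc => rw [map_add]; exact add_mem ha hc
    | mul a c _ _ ha hc => rw [map_mul]; exact mul_mem ha hc
  set B := hfin.toFinset.filter fun Q => ∀ u : F₀, algebraMap F₀ F' u ∈ Q'.toValuationSubring →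
        algebraMap F₀ F u ∈ Q.toValuationSubring
  have hsep : ∀ Q ∈ B, ∃ b ∈ S, redMap F' ρ b ≠ 0 ∧ Q'.ord (redMap F' ρ b) = 0 ∧
      0 < Q.ord (genMap F b) := by
    intro Q hQB
    simp only [B, Finset.mem_filter, Set.Finite.mem_toFinset, Set.mem_ofPred_eq] at hQB
    by_contra hne
    push Not at hne
    exact absurd (hQ Q hQB.2 fun b hb h0 hb0 => le_antisymm (hne b hb h0 hb0)
      (FFBasic.ord_nonneg_of_mem _ (hnn Q hQB.2 b hb))) (not_le.mpr hQB.1)
  choose! b hbS hb0 hbQ' hbQ using hsep
  set N := fun Q : Place L F => (-(mapDiv L F E Q) - Q.ord φ).toNat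
  set c := ∏ Q ∈ B, b Q ^ N Q
  set Φ := φ * genMap F c
  set Φ' := φ' * redMap F' ρ c
  have hΦr : Reduces (F₀ := F₀) F F' ρ Φ Φ' := h.mul (Reduces.of_model c)
  have hgb : ∀ Q ∈ B, genMap F (b Q) ≠ 0 := fun Q hQ h0 => hb0 Q hQ (by
    rw [(map_eq_zero_iff _ genMap_injective).mp h0, map_zero])
  have hΦ'ord : Q'.ord Φ' = Q'.ord φ' := by
    have h1 : redMap F' ρ c ≠ 0 := by
      rw [map_prod]; exact Finset.prod_ne_zero_iff.mpr fun Q hQ => by
        rw [map_pow]; exact pow_ne_zero _ (hb0 Q hQ)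
    rw [Q'.ord_mul hφ' h1, map_prod, FFBasic.ord_prod _ _ _ fun Q hQ => by
        rw [map_pow]; exact pow_ne_zero _ (hb0 Q hQ),
      Finset.sum_eq_zero fun Q hQ => by rw [map_pow, FFBasic.ord_pow, hbQ' Q hQ, mul_zero],
      add_zero]
  have hgc : genMap F c ≠ 0 := by
    rw [map_prod]; exact Finset.prod_ne_zero_iff.mpr fun Q hQ => by
      rw [map_pow]; exact pow_ne_zero _ (hgb Q hQ)
  have hΦgood : ∀ R : Place L F, (∀ u : F₀, algebraMap F₀ F' u ∈ Q'.toValuationSubring →
      algebraMap F₀ F u ∈ R.toValuationSubring) → -mapDiv L F E R ≤ R.ord Φ := by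
    intro R hR
    rw [R.ord_mul hφ hgc, map_prod,
      FFBasic.ord_prod _ _ _ fun Q hQ => by rw [map_pow]; exact pow_ne_zero _ (hgb Q hQ)]
    have hterm : ∀ Q ∈ B, 0 ≤ R.ord (genMap F (b Q ^ N Q)) := fun Q hQ => by
      rw [map_pow, FFBasic.ord_pow]
      exact mul_nonneg (Int.natCast_nonneg _) (FFBasic.ord_nonneg_of_mem _ (hnn R hR _ (hbS Q hQ)))
    have hsum := Finset.sum_nonneg hterm
    by_cases hRB : R ∈ B
    · have h1 := Finset.single_le_sum hterm hRB
      rw [map_pow, FFBasic.ord_pow] at h1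
      have h2 : (N R : ℤ) ≤ N R * R.ord (genMap F (b R)) :=
        le_mul_of_one_le_right (Int.natCast_nonneg _) (hbQ R hRB)
      have h3 : (N R : ℤ) = ((-(mapDiv L F E R) - R.ord φ).toNat : ℤ) := rfl
      omega
    · have : ¬ R.ord φ < -mapDiv L F E R := fun hlt =>
        hRB (Finset.mem_filter.mpr ⟨hfin.mem_toFinset.mpr hlt, hR⟩)
      omega
  have hΦ0 : Φ ≠ 0 := mul_ne_zero hφ hgc
  have hfin' : {R : Place L F | R.ord Φ < -mapDiv L F E R}.Finite := by
    refine ((FFBasic.finite_setOf_ord_ne_zero (K := L) Φ).union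
      (mapDiv L F E).support.finite_toSet).subset fun R hR => ?_
    simp only [Set.mem_ofPred_eq] at hR
    by_contra hne
    simp only [Set.mem_union, Set.mem_ofPred_eq, Finset.mem_coe, Finsupp.mem_support_iff,
      not_or, not_not] at hne
    omega
  have hbad : ∀ R ∈ hfin'.toFinset, ∃ P : Place k F₀, extPlace L F P = R ∧
      mapDiv κ F' (Finsupp.single P 1) Q' = 0 := by
    intro R hR
    rw [Set.Finite.mem_toFinset, Set.mem_ofPred_eq] at hR
    obtain ⟨u, hu, huR⟩ : ∃ u, algebraMap F₀ F' u ∈ Q'.toValuationSubring ∧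
        algebraMap F₀ F u ∉ R.toValuationSubring := by
      by_contra hne
      push Not at hne
      exact absurd (hΦgood R hne) (not_le.mpr hR)
    rcases exists_extPlace_eq_or_isGeneric (K₀ := k) (F₀ := F₀) R with ⟨P, hP⟩ | hgen
    · refine ⟨P, hP, ?_⟩
      rcases exists_extPlace_eq_or_isGeneric (K₀ := k) (F₀ := F₀) Q' with ⟨P', hP'⟩ | hgen'
      · rw [← hP', mapDiv_apply_extPlace, Finsupp.single_eq_of_ne]
        rintro rfl
        refine huR (FFBasic.mem_of_ord_nonneg _ ?_)
        have h2 := FFBasic.ord_nonneg_of_mem _ hu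
        rw [← hP', ord_extPlace] at h2
        rw [← hP, ord_extPlace]
        exact h2
      · exact mapDiv_apply_of_isGeneric _ hgen'
    · exact absurd (FFBasic.mem_of_ord_nonneg _ (hgen u).ge) huR
  choose! P hPR hPQ using hbad
  set E' : Divisor k F₀ := ∑ R ∈ hfin'.toFinset,
    Finsupp.single (P R) (-mapDiv L F E R - R.ord Φ)
  have hE'Q : mapDiv κ F' E' Q' = 0 := by
    rw [map_sum, Finsupp.finsetSum_apply]
    refine Finset.sum_eq_zero fun R hR => ?_
    rw [← Finsupp.smul_single_one, map_zsmul, Finsupp.smul_apply, hPQ R hR, smul_zero]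
  have hΦmem : Φ ∈ riemannRochSpace (mapDiv L F (E + E')) := by
    refine mem_riemannRochSpace_iff.2 fun R => Or.inr ?_
    rw [map_add, Finsupp.add_apply, map_sum, Finsupp.finsetSum_apply]
    have hterm : ∀ S ∈ hfin'.toFinset,
        0 ≤ mapDiv L F (Finsupp.single (P S) (-mapDiv L F E S - S.ord Φ)) R := by
      intro S hS
      have h1 : S.ord Φ < -mapDiv L F E S := hfin'.mem_toFinset.mp hS
      rw [show mapDiv L F (Finsupp.single (P S) _) = Finsupp.single (extPlace L F (P S)) _ from
        Finsupp.mapDomain_single, hPR S hS]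
      rcases eq_or_ne R S with rfl | hne
      · rw [Finsupp.single_eq_same]; omega
      · rw [Finsupp.single_eq_of_ne hne]
    have hsum := Finset.sum_nonneg hterm
    by_cases hRB : R ∈ hfin'.toFinset
    · have h1 := Finset.single_le_sum hterm hRB
      rw [show mapDiv L F (Finsupp.single (P R) _) = Finsupp.single (extPlace L F (P R)) _ from
        Finsupp.mapDomain_single, hPR R hRB, Finsupp.single_eq_same] at h1
      omega
    · have : ¬ R.ord Φ < -mapDiv L F E R := fun hlt => hRB (hfin'.mem_toFinset.mpr hlt)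
      omega
  have hmem' := mem_riemannRochSpace_iff.1 (reduces_mem_riemannRochSpace ρ _ hΦmem hΦr) Q'
  have hΦ'0 : Φ' ≠ 0 := mul_ne_zero hφ' (by
    rw [map_prod]; exact Finset.prod_ne_zero_iff.mpr fun Q hQ => by
      rw [map_pow]; exact pow_ne_zero _ (hb0 Q hQ))
  have := hmem'.resolve_left hΦ'0
  rw [map_add, Finsupp.add_apply, hE'Q, hΦ'ord] at this
  omega

end Bound

omit [IsScalarTower k (↥O) L] in
/-- A subspace of `L^α` has integral vectors with independent reductions. -/
theorem exists_integral_linearIndependent {α : Type*} [Fintype α] :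
    ∀ (n : ℕ) (W : Submodule L (α → L)), Module.finrank L W = n →
      ∃ (w : Fin n → α → O), (∀ i, (fun a => (w i a : L)) ∈ W) ∧
        LinearIndependent κ fun i a => ρ.toHom (w i a) := by
  intro n
  induction n with
  | zero => exact fun W _ => ⟨Fin.elim0, fun i => i.elim0, linearIndependent_empty_type⟩
  | succ n ih =>
    intro W hn
    obtain ⟨x, hxW, hx0⟩ : ∃ x ∈ W, x ≠ 0 := Submodule.exists_mem_ne_zero_of_ne_bot fun h => by
      rw [h, finrank_bot] at hn; omega
    obtain ⟨a₀, ha₀⟩ := Function.ne_iff.mp hx0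
    obtain ⟨j, -, hj0, hO⟩ := exists_pivot (O := O) Finset.univ x ⟨a₀, Finset.mem_univ _, ha₀⟩
    set y : α → O := fun a => ⟨x a / x j, hO a (Finset.mem_univ _)⟩
    have hy : (fun a => (y a : L)) ∈ W := by
      convert W.smul_mem (x j)⁻¹ hxW using 1
      funext a
      exact div_eq_inv_mul _ _
    have hyj : (y j : L) = 1 := div_self hj0
    let π : W →ₗ[L] L := (LinearMap.proj j).comp W.subtype
    have hπ : LinearMap.range π = ⊤ := LinearMap.range_eq_top.mpr fun c =>
      ⟨⟨c • fun a => (y a : L), W.smul_mem c hy⟩, by simp [π, hyj]⟩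
    set W' : Submodule L (α → L) := (LinearMap.ker π).map W.subtype
    have hW' : Module.finrank L W' = n := by
      have h := π.finrank_range_add_finrank_ker
      rw [hπ, finrank_top, Module.finrank_self, hn] at h
      rw [(Submodule.equivMapOfInjective _ W.injective_subtype _).finrank_eq.symm]
      omega
    obtain ⟨w, hw, hind⟩ := ih W' hW'
    refine ⟨Fin.cons y w, fun i => ?_, ?_⟩
    · cases i using Fin.cases with
      | zero => simpa using hy
      | succ i =>
        obtain ⟨z, -, hz⟩ := hw i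
        rw [Fin.cons_succ, ← hz]
        exact z.2
    · rw [show (fun i a => ρ.toHom ((Fin.cons y w : Fin (n + 1) → α → O) i a)) =
        Fin.cons (fun a => ρ.toHom (y a)) (fun i a => ρ.toHom (w i a)) from
          funext fun i => by cases i using Fin.cases <;> simp, linearIndependent_finCons]
      refine ⟨hind, fun hmem => ?_⟩
      have hzero : ∀ v ∈ Submodule.span κ (Set.range fun i a => ρ.toHom (w i a)), v j = 0 := by
        intro v hv
        refine (Submodule.span_le (p := LinearMap.ker (LinearMap.proj (R := κ) j :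
          (α → κ) →ₗ[κ] κ))).mpr ?_ hv
        rintro _ ⟨i, rfl⟩
        obtain ⟨z, hz, hzw⟩ := hw i
        have h0 : w i j = 0 := Subtype.ext (by
          show (w i j : L) = 0
          rw [← show (z : α → L) j = (w i j : L) from congrFun hzw j]
          exact LinearMap.mem_ker.mp hz)
        simp [h0]
      have h1 := hzero _ hmem
      rw [show y j = 1 from Subtype.ext hyj, map_one] at h1
      exact one_ne_zero h1

/-- The space of reductions is at least as large. -/
theorem finrank_le_of_reduces [IsFunctionField L F] (W : Submodule L F) [FiniteDimensional L W]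
    (U : Submodule κ F') [FiniteDimensional κ U]
    (h : ∀ f ∈ W, ∀ f' : F', Reduces (F₀ := F₀) F F' ρ f f' → f' ∈ U) :
    Module.finrank L W ≤ Module.finrank κ U := by
  classical
  set R := compositeRing (K := L) F₀ F
  set b := Module.finBasis L W
  have hfrac : ∀ i, ∃ y ∈ R, y ≠ 0 ∧ (b i : F) * y ∈ R := fun i => by
    have htop : (b i : F) ∈ IntermediateField.adjoin L (Set.range (algebraMap F₀ F)) := by
      rw [IsConstExtension.adjoin_eq_top (K₀ := k)]; trivial
    obtain ⟨x, hx, y, hy, hxy⟩ := IntermediateField.mem_adjoin_iff_div.mp htop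
    rcases eq_or_ne y 0 with rfl | hy0
    · exact ⟨1, one_mem _, one_ne_zero, by rw [hxy, div_zero, zero_mul]; exact zero_mem _⟩
    · exact ⟨y, hy, hy0, by rw [hxy, div_mul_cancel₀ _ hy0]; exact hx⟩
  choose y hyR hy0 hby using hfrac
  have hY0 : ∏ i, y i ≠ 0 := Finset.prod_ne_zero_iff.mpr fun i _ => hy0 i
  obtain ⟨l, Y', hl, hY', hYr⟩ := exists_smul_reduces (F₀ := F₀) (F' := F') ρ hY0
  set Y := algebraMap L F l * ∏ i, y i
  have hWR : ∀ f ∈ W, f * Y ∈ R := by
    intro f hf
    rw [show f = ((⟨f, hf⟩ : W) : F) from rfl, ← b.sum_repr ⟨f, hf⟩, Submodule.coe_sum,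
      Finset.sum_mul]
    refine sum_mem fun i _ => ?_
    rw [Submodule.coe_smul, smul_mul_assoc]
    refine R.smul_mem ?_ _
    rw [show Y = algebraMap L F l * (y i * ∏ j ∈ Finset.univ.erase i, y j) by
      rw [Finset.mul_prod_erase _ _ (Finset.mem_univ i)],
      show (b i : F) * (algebraMap L F l * (y i * ∏ j ∈ Finset.univ.erase i, y j)) =
        algebraMap L F l * ((b i : F) * y i * ∏ j ∈ Finset.univ.erase i, y j) by ring]
    exact mul_mem (R.algebraMap_mem l) (mul_mem (hby i) (prod_mem fun j _ => hyR j))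
  let e := Module.Free.chooseBasis k F₀
  have hRspan : Subalgebra.toSubmodule R ≤
      Submodule.span L (Set.range fun i => algebraMap F₀ F (e i)) := by
    rw [toSubmodule_compositeRing]
    refine Submodule.span_le.mpr ?_
    rintro _ ⟨u, rfl⟩
    rw [← e.linearCombination_repr u, Finsupp.linearCombination_apply, Finsupp.sum, map_sum]
    refine Submodule.sum_mem _ fun i _ => ?_
    rw [Algebra.smul_def, map_mul, ← IsScalarTower.algebraMap_apply,
      IsScalarTower.algebraMap_apply k L F, ← Algebra.smul_def]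
    exact Submodule.smul_mem _ _ (Submodule.subset_span ⟨i, rfl⟩)
  choose c hc using fun i => Finsupp.mem_span_range_iff_exists_finsupp.mp
    (hRspan (hWR _ (b i).2))
  set s := Finset.univ.biUnion fun i => (c i).support
  let Ψ : (s → L) →ₗ[L] F := Fintype.linearCombination L fun a : s => algebraMap F₀ F (e a)
  have hind : ∀ (K' G : Type u) [Field K'] [Field G] [Algebra k K'] [Algebra K' G] [Algebra F₀ G]
      [Algebra k G] [IsScalarTower k K' G] [IsScalarTower k F₀ G] [IsConstExtension k K' F₀ G],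
      LinearIndependent K' fun a : s => algebraMap F₀ G (e a) := fun K' G => by
    intros
    exact (ConstExt.linearIndependent_map e.linearIndependent).comp _ Subtype.val_injective
  let μ : W →ₗ[L] F := (LinearMap.mulRight L Y).comp W.subtype
  have hμ : Function.Injective μ := fun f g hfg =>
    Subtype.ext (mul_right_cancel₀ (mul_ne_zero ((map_ne_zero _).mpr hl) hY0) hfg)
  have hrange : LinearMap.range μ ≤ LinearMap.range Ψ := by
    rw [show LinearMap.range μ = (⊤ : Submodule L W).map μ from LinearMap.range_eq_map μ,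
      ← b.span_eq,
      Submodule.map_span, Submodule.span_le]
    rintro _ ⟨_, ⟨i, rfl⟩, rfl⟩
    refine ⟨fun a => c i a, ?_⟩
    show _ = (b i : F) * Y
    rw [← hc i, Fintype.linearCombination_apply, Finsupp.sum,
      Finset.sum_coe_sort s fun a => c i a • algebraMap F₀ F (e a)]
    refine (Finset.sum_subset (fun a ha => Finset.mem_biUnion.mpr ⟨i, Finset.mem_univ _, ha⟩)
      fun a _ ha => ?_).symm
    rw [Finsupp.notMem_support_iff.mp ha, zero_smul]
  set W₀ := (LinearMap.range μ).comap Ψ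
  have hΨ : Function.Injective Ψ := (hind L F).fintypeLinearCombination_injective
  have hW₀ : Module.finrank L W₀ = Module.finrank L W := by
    rw [(Submodule.equivMapOfInjective Ψ hΨ W₀).finrank_eq, Submodule.map_comap_eq,
      inf_eq_right.mpr hrange, LinearMap.finrank_range_of_inj hμ]
  obtain ⟨w, hw, hwind⟩ := exists_integral_linearIndependent ρ _ W₀ hW₀
  let Ψ' : (s → κ) →ₗ[κ] F' := Fintype.linearCombination κ fun a : s => algebraMap F₀ F' (e a)
  have hΨ' : Function.Injective Ψ' := (hind κ F').fintypeLinearCombination_injective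
  have hmem : ∀ i, Ψ' (fun a => ρ.toHom (w i a)) * Y'⁻¹ ∈ U := by
    intro i
    obtain ⟨f, hf⟩ := hw i
    refine h f f.2 _ ?_
    have h1 : Reduces (F₀ := F₀) F F' ρ ((f : F) * Y) (Ψ' fun a => ρ.toHom (w i a)) := by
      rw [show (f : F) * Y = μ f from rfl, hf, Fintype.linearCombination_apply,
        Fintype.linearCombination_apply]
      refine Reduces.sum _ fun a _ => ?_
      rw [Algebra.smul_def, Algebra.smul_def]
      exact (Reduces.const (w i a)).mul (Reduces.base _)
    convert h1.mul (hYr.inv hY') using 1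
    rw [mul_inv_cancel_right₀ (mul_ne_zero ((map_ne_zero _).mpr hl) hY0)]
  have h2 : LinearIndependent κ fun i => Ψ' (fun a => ρ.toHom (w i a)) * Y'⁻¹ := by
    have := (hwind.map' Ψ' (LinearMap.ker_eq_bot.mpr hΨ')).map' (LinearMap.mulRight κ Y'⁻¹)
      (LinearMap.ker_eq_bot.mpr fun a a' haa' => mul_right_cancel₀ (inv_ne_zero hY') haa')
    exact this
  have h3 : LinearIndependent κ fun i => (⟨_, hmem i⟩ : U) :=
    LinearIndependent.of_comp U.subtype h2
  simpa using h3.fintype_card_le_finrank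

end FLTAgent.AbelianTorsion
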