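import Mathlib
import Fermat.Agent.AbelianTorsion.Divisor
import Fermat.Agent.AbelianTorsion.Multiplication
import Fermat.Agent.AbelianTorsion.Reduction

/-!
# Pullback of divisor classes along points in function fields

For a point with values in a function field of a curve: the centres `centreAt` of the places, and
the pullbacks `pullDiv` and `pullPic` of Cartier divisors and their classes.
-/

set_option autoImplicit false

noncomputable section

universe u

open CategoryTheory CategoryTheory.Limits AlgebraicGeometry NeronModelInfra GoodReductionJacobian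
open IsLocalRing
open FLTAgent.FFBasic (IsFunctionField)

namespace FLTAgent.AbelianTorsion

variable {A : Scheme.{u}} [IsIntegral A]

omit [AlgebraicGeometry.IsIntegral A] in
theorem stalkClosedPointTo_specMap {R S : CommRingCat.{u}} [IsLocalRing R] [IsLocalRing S]
    (j : R ⟶ S) (Ψ : Spec R ⟶ A) (ψ : Spec S ⟶ A) (h : Spec.map j ≫ Ψ = ψ) :
    ∃ hsp : ψ (closedPoint S) ⤳ Ψ (closedPoint R),
      A.presheaf.stalkSpecializes hsp ≫ Scheme.stalkClosedPointTo ψ =
        Scheme.stalkClosedPointTo Ψ ≫ j := by
  have hsp : ψ (closedPoint S) ⤳ Ψ (closedPoint R) := by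
    subst h
    exact (specializes_closedPoint _).map Ψ.continuous
  refine ⟨hsp, Spec.map_injective ?_⟩
  rw [← cancel_mono (A.fromSpecStalk (Ψ (closedPoint R))), Spec.map_comp, Spec.map_comp,
    Category.assoc, Category.assoc, Scheme.SpecMap_stalkSpecializes_fromSpecStalk,
    Scheme.Spec_stalkClosedPointTo_fromSpecStalk, Scheme.Spec_stalkClosedPointTo_fromSpecStalk, h]

section ValueAt

variable {F : Type u} [Field F] (ψ : Spec (CommRingCat.of F) ⟶ A)

/-- The image of a point with values in a field. -/
abbrev imagePoint : A := ψ (closedPoint F)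

theorem exists_valueAt {e : (A.functionField)ˣ} (he : e ∈ unitsAt (imagePoint ψ)) :
    ∃ e' : Fˣ, ∀ w : A.presheaf.stalk (imagePoint ψ),
      algebraMap _ A.functionField w = e → Scheme.stalkClosedPointTo ψ w = (e' : F) := by
  obtain ⟨w, hw⟩ := mem_unitsAt.mp he
  refine ⟨w.map (Scheme.stalkClosedPointTo ψ).hom.toMonoidHom, fun w' hw' => ?_⟩
  have : w' = w := IsFractionRing.injective (A.presheaf.stalk (imagePoint ψ)) A.functionField
    (hw'.trans hw.symm)
  rw [this]
  rfl

/-- The value of a function at a point with values in a field. -/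
def valueAt : unitsAt (imagePoint ψ) →* Fˣ where
  toFun e := (exists_valueAt ψ e.2).choose
  map_one' := Units.ext (((exists_valueAt ψ (unitsAt (imagePoint ψ)).one_mem).choose_spec 1
    (map_one _)).symm.trans (map_one (Scheme.stalkClosedPointTo ψ).hom))
  map_mul' a b := by
    obtain ⟨wa, hwa⟩ := mem_unitsAt.mp a.2
    obtain ⟨wb, hwb⟩ := mem_unitsAt.mp b.2
    refine Units.ext ?_
    have h := (exists_valueAt ψ (a * b).2).choose_spec
      ((wa : A.presheaf.stalk (imagePoint ψ)) * wb) (by rw [map_mul, hwa, hwb]; rfl)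
    rw [map_mul, (exists_valueAt ψ a.2).choose_spec wa hwa,
      (exists_valueAt ψ b.2).choose_spec wb hwb] at h
    exact h.symm

theorem valueAt_spec (e : unitsAt (imagePoint ψ)) (w : A.presheaf.stalk (imagePoint ψ))
    (hw : algebraMap _ A.functionField w = (e.1 : A.functionField)) :
    (valueAt ψ e : F) = Scheme.stalkClosedPointTo ψ w :=
  ((exists_valueAt ψ e.2).choose_spec w hw).symm

/-- Values of regular functions are integral. -/
theorem valueAt_regular {R : CommRingCat.{u}} [IsLocalRing R] (j : R ⟶ CommRingCat.of F)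
    (Ψ : Spec R ⟶ A) (h : Spec.map j ≫ Ψ = ψ) (e : unitsAt (imagePoint ψ))
    (a : A.presheaf.stalk (Ψ (closedPoint R)))
    (ha : algebraMap _ A.functionField a = (e.1 : A.functionField)) :
    (valueAt ψ e : F) = j (Scheme.stalkClosedPointTo Ψ a) := by
  obtain ⟨hsp, hcomp⟩ := stalkClosedPointTo_specMap j Ψ ψ h
  rw [valueAt_spec ψ e (A.presheaf.stalkSpecializes hsp a)
    ((algebraMap_stalkSpecializes hsp a).trans ha)]
  exact DFunLike.congr_fun (congrArg CommRingCat.Hom.hom hcomp) a

end ValueAt

section Extension

variable {K : Type u} [Field K] (f : A ⟶ Spec (CommRingCat.of K)) [IsProper f]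
  {F : Type u} [Field F] [Algebra K F]

/-- The structure map of a point with values in a `K`-algebra. -/
abbrev specStr (K : Type u) [Field K] (R : Type u) [CommRing R] [Algebra K R] :
    Spec (CommRingCat.of R) ⟶ Spec (CommRingCat.of K) :=
  Spec.map (CommRingCat.ofHom (algebraMap K R))

/-- The map of spectra of a `K`-algebra map, over `K`. -/
theorem specMap_specStr {R S : Type u} [CommRing R] [CommRing S] [Algebra K R] [Algebra K S]
    (j : R →ₐ[K] S) :
    Spec.map (CommRingCat.ofHom j.toRingHom) ≫ specStr K R = specStr K S := by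
  rw [← Spec.map_comp, ← CommRingCat.ofHom_comp]
  congr 2
  exact j.comp_algebraMap

/-- Push a point along a map of algebras. -/
def pointMap {R S : Type u} [CommRing R] [CommRing S] [Algebra K R] [Algebra K S]
    (j : R →ₐ[K] S) (x : SchemeHomOver (specStr K R) f) : SchemeHomOver (specStr K S) f :=
  schemeHomOverComp (Spec.map (CommRingCat.ofHom j.toRingHom)) (specMap_specStr j) x

omit [IsIntegral A] [IsProper f] in
theorem pointMap_val {R S : Type u} [CommRing R] [CommRing S] [Algebra K R] [Algebra K S]
    (j : R →ₐ[K] S) (x : SchemeHomOver (specStr K R) f) :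
    (pointMap f j x).1 = Spec.map (CommRingCat.ofHom j.toRingHom) ≫ x.1 := rfl

omit [IsIntegral A] [IsProper f] in
theorem pointMap_comp {R S T : Type u} [CommRing R] [CommRing S] [CommRing T] [Algebra K R]
    [Algebra K S] [Algebra K T] (j : R →ₐ[K] S) (j' : S →ₐ[K] T)
    (x : SchemeHomOver (specStr K R) f) :
    pointMap f j' (pointMap f j x) = pointMap f (j'.comp j) x := by
  refine Subtype.ext ?_
  rw [pointMap_val, pointMap_val, pointMap_val, ← Category.assoc, ← Spec.map_comp]
  rfl

omit [IsIntegral A] in
/-- Points with values in a fraction field extend to valuation rings. -/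
theorem exists_pointMap_eq {R : Type u} [CommRing R] [IsDomain R] [ValuationRing R] [Algebra K R]
    [Algebra R F] [IsScalarTower K R F] [IsFractionRing R F]
    (x : SchemeHomOver (specStr K F) f) :
    ∃! y : SchemeHomOver (specStr K R) f, pointMap f (IsScalarTower.toAlgHom K R F) y = x := by
  have hvc : ValuativeCriterion f := by
    have : IsProper f := inferInstance
    rw [IsProper.eq_valuativeCriterion] at this
    exact this.1.1.1
  let S : ValuativeCommSq f :=
    { R := R
      K := F
      i₁ := x.1
      i₂ := specStr K R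
      commSq := ⟨x.2.trans (specMap_specStr (IsScalarTower.toAlgHom K R F)).symm⟩ }
  obtain ⟨⟨⟨l⟩, huniq⟩⟩ := hvc S
  refine ⟨⟨l.l, l.fac_right⟩, Subtype.ext l.fac_left, fun y hy => Subtype.ext ?_⟩
  exact congrArg CommSq.LiftStruct.l (huniq ⟨y.1, congrArg Subtype.val hy, y.2⟩)

end Extension

section PullDiv

open AlgebraicCurve

variable {K : Type u} [Field K] (f : A ⟶ Spec (CommRingCat.of K)) [IsProper f]
  {L F : Type u} [Field L] [Field F] [Algebra K L] [Algebra K F] [Algebra L F]
  [IsScalarTower K L F]

/-- The ground field inside a valuation ring of a place. -/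
@[reducible]
def placeAlgebra (Q : Place L F) : Algebra K Q.toValuationSubring :=
  ((algebraMap L Q.toValuationSubring).comp (algebraMap K L)).toAlgebra

/-- A point with values in a function field at a place. -/
def atPlace (Q : Place L F) (x : SchemeHomOver (specStr K F) f) :
    letI := placeAlgebra (K := K) Q
    SchemeHomOver (specStr K Q.toValuationSubring) f :=
  letI := placeAlgebra (K := K) Q
  haveI : IsScalarTower K Q.toValuationSubring F :=
    IsScalarTower.of_algebraMap_eq fun a => IsScalarTower.algebraMap_apply K L F a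
  (exists_pointMap_eq f x).exists.choose

omit [IsIntegral A] in
theorem atPlace_spec (Q : Place L F) (x : SchemeHomOver (specStr K F) f) :
    Spec.map (CommRingCat.ofHom (algebraMap Q.toValuationSubring F)) ≫ (atPlace f Q x).1 = x.1 := by
  let := placeAlgebra (K := K) Q
  have : IsScalarTower K Q.toValuationSubring F :=
    IsScalarTower.of_algebraMap_eq fun a => IsScalarTower.algebraMap_apply K L F a
  exact congrArg Subtype.val (exists_pointMap_eq (R := Q.toValuationSubring) f x).exists.choose_spec

/-- The point of `A` above a place. -/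
def centreAt (Q : Place L F) (x : SchemeHomOver (specStr K F) f) : A :=
  (atPlace f Q x).1 (closedPoint Q.toValuationSubring)

omit [IsIntegral A] in
theorem specializes_centreAt (Q : Place L F) (x : SchemeHomOver (specStr K F) f) :
    imagePoint x.1 ⤳ centreAt f Q x := by
  have h : imagePoint (Spec.map (CommRingCat.ofHom (algebraMap Q.toValuationSubring F)) ≫
      (atPlace f Q x).1) ⤳ centreAt f Q x :=
    (specializes_closedPoint _).map (atPlace f Q x).1.continuous
  rwa [atPlace_spec] at h

variable (x : SchemeHomOver (specStr K F) f)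

/-- The order at a place of the pullback of a divisor. -/
def pullOrd (D : trivialAt (imagePoint x.1)) (Q : Place L F) : ℤ :=
  Q.ord (valueAt x.1 ⟨(D.1.1 (centreAt f Q x)).out, mem_unitsAt_of_trivialAt D.2
    (specializes_centreAt f Q x) (QuotientGroup.out_eq' _).symm⟩ : F)

theorem ord_valueAt_eq_zero (Q : Place L F) (e : unitsAt (imagePoint x.1))
    (he : e.1 ∈ unitsAt (centreAt f Q x)) : Q.ord (valueAt x.1 e : F) = 0 := by
  obtain ⟨w, hw⟩ := mem_unitsAt.mp he
  rw [valueAt_regular x.1 _ (atPlace f Q x).1 (atPlace_spec f Q x) e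
    (w : A.presheaf.stalk (centreAt f Q x)) hw]
  exact Q.ord_coe_unit (w.map (Scheme.stalkClosedPointTo (atPlace f Q x).1).hom.toMonoidHom)

theorem pullOrd_eq (D : trivialAt (imagePoint x.1)) (Q : Place L F) (e : unitsAt (imagePoint x.1))
    (he : D.1.1 (centreAt f Q x) = QuotientGroup.mk e.1) :
    pullOrd f x D Q = Q.ord (valueAt x.1 e : F) := by
  set e₀ : unitsAt (imagePoint x.1) := ⟨(D.1.1 (centreAt f Q x)).out, mem_unitsAt_of_trivialAt D.2
    (specializes_centreAt f Q x) (QuotientGroup.out_eq' _).symm⟩
  have h : (e₀⁻¹ * e).1 ∈ unitsAt (centreAt f Q x) :=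
    QuotientGroup.eq.mp ((QuotientGroup.out_eq' (D.1.1 (centreAt f Q x))).trans he)
  have h0 := ord_valueAt_eq_zero f x Q _ h
  rw [map_mul, map_inv, Units.val_mul, Units.val_inv_eq_inv_val,
    Q.ord_mul (inv_ne_zero (Units.ne_zero _)) (Units.ne_zero _), Q.ord_inv] at h0
  show Q.ord (valueAt x.1 e₀ : F) = _
  omega

/-- The order of the pullback is read off at any point to which the centre generalises. -/
theorem pullOrd_eq_of_specializes (D : trivialAt (imagePoint x.1)) (Q : Place L F) {z : A}
    (hz : centreAt f Q x ⤳ z) (e : unitsAt (imagePoint x.1))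
    (he : D.1.1 z = QuotientGroup.mk e.1) :
    pullOrd f x D Q = Q.ord (valueAt x.1 e : F) :=
  pullOrd_eq f x D Q e (eq_mk_of_specializes D.1 hz he)

variable [IsFunctionField L F] [CompactSpace A]

theorem finite_pullOrd (D : trivialAt (imagePoint x.1)) :
    {Q : Place L F | pullOrd f x D Q ≠ 0}.Finite := by
  classical
  choose W h hW hWh using fun a : A => D.1.2 a
  obtain ⟨t, ht⟩ := isCompact_univ.elim_finite_subcover (fun a : A => (W a : Set A))
    (fun a => (W a).2) fun a _ => Set.mem_iUnion.mpr ⟨a, hW a⟩
  set B : A → Set (Place L F) := fun a => {Q | ∃ hu : h a ∈ unitsAt (imagePoint x.1),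
    Q.ord (valueAt x.1 ⟨h a, hu⟩ : F) ≠ 0} with hB
  have hfin : ∀ a, (B a).Finite := by
    intro a
    by_cases hu : h a ∈ unitsAt (imagePoint x.1)
    · exact (FFBasic.finite_setOf_ord_ne_zero (K := L) (valueAt x.1 ⟨h a, hu⟩ : F)).subset
        fun Q hQ => hQ.choose_spec
    · exact Set.finite_empty.subset fun Q hQ => (hu hQ.choose).elim
  refine Set.Finite.subset (t.finite_toSet.biUnion fun a _ => hfin a) fun Q hQ => ?_
  obtain ⟨a, hat, haW⟩ := Set.mem_iUnion₂.mp (ht (Set.mem_univ (centreAt f Q x)))
  have hu : h a ∈ unitsAt (imagePoint x.1) :=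
    mem_unitsAt_of_trivialAt D.2 (specializes_centreAt f Q x) (hWh a _ haW)
  refine Set.mem_iUnion₂.mpr ⟨a, hat, hu, ?_⟩
  rwa [← pullOrd_eq f x D Q ⟨h a, hu⟩ (hWh a _ haW)]

/-- The pullback of a divisor along a point with values in a function field. -/
def pullDivHom : trivialAt (imagePoint x.1) →* Multiplicative (Divisor L F) where
  toFun D := Multiplicative.ofAdd (Finsupp.ofSupportFinite (pullOrd f x D) (finite_pullOrd f x D))
  map_one' := Multiplicative.toAdd.injective (Finsupp.ext fun Q => by
    show pullOrd f x 1 Q = 0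
    rw [pullOrd_eq f x 1 Q 1 rfl, map_one, Units.val_one, Q.ord_one])
  map_mul' D E := Multiplicative.toAdd.injective (Finsupp.ext fun Q => by
    obtain ⟨e, he⟩ := exists_localEq D.1 (centreAt f Q x)
    obtain ⟨e', he'⟩ := exists_localEq E.1 (centreAt f Q x)
    show pullOrd f x (D * E) Q = pullOrd f x D Q + pullOrd f x E Q
    rw [pullOrd_eq f x D Q ⟨e, mem_unitsAt_of_trivialAt D.2 (specializes_centreAt f Q x) he⟩ he,
      pullOrd_eq f x E Q ⟨e', mem_unitsAt_of_trivialAt E.2 (specializes_centreAt f Q x) he'⟩ he',
      pullOrd_eq f x (D * E) Q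
        (⟨e, mem_unitsAt_of_trivialAt D.2 (specializes_centreAt f Q x) he⟩ *
          ⟨e', mem_unitsAt_of_trivialAt E.2 (specializes_centreAt f Q x) he'⟩), map_mul,
              Units.val_mul,
      Q.ord_mul (Units.ne_zero _) (Units.ne_zero _)]
    show (D.1.1 * E.1.1) _ = QuotientGroup.mk (e * e')
    rw [Pi.mul_apply, he, he', QuotientGroup.mk_mul])

/-- The pulled back divisor. -/
def pullDiv (D : trivialAt (imagePoint x.1)) : Divisor L F :=
  Multiplicative.toAdd (pullDivHom f x D)

theorem pullDiv_apply (D : trivialAt (imagePoint x.1)) (Q : Place L F) :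
    pullDiv f x D Q = pullOrd f x D Q := rfl

theorem pullDiv_principal (e : unitsAt (imagePoint x.1)) (Q : Place L F) :
    pullDiv f x ⟨principal e.1, (QuotientGroup.eq_one_iff e.1).mpr e.2⟩ Q =
      Q.ord (valueAt x.1 e : F) :=
  pullOrd_eq f x _ Q e rfl

/-- The pullback of classes along a point with values in a function field. -/
def pullPic : CDivClass A →* Multiplicative (Pic L F) :=
  MonoidHom.liftOfSurjective _ (classMap_surjective (imagePoint x.1))
    ⟨(AddMonoidHom.toMultiplicative
        (QuotientAddGroup.mk' (Divisor.principal (K := L) (F := F)))).comp (pullDivHom f x), by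
      intro D hD
      rw [MonoidHom.mem_ker] at hD ⊢
      obtain ⟨e, he⟩ := (QuotientGroup.eq_one_iff _).mp hD
      have hu : e ∈ unitsAt (imagePoint x.1) := mem_unitsAt_of_trivialAt D.2 specializes_rfl
        (show D.1.1 _ = _ by rw [← show principal e = D.1 from he]; rfl)
      have hD' : D = ⟨principal e, (QuotientGroup.eq_one_iff e).mpr hu⟩ := Subtype.ext he.symm
      refine Multiplicative.toAdd.injective ((QuotientAddGroup.eq_zero_iff _).mpr ?_)
      exact ⟨_, Units.ne_zero _, fun Q => hD' ▸ pullDiv_principal f x ⟨e, hu⟩ Q⟩⟩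

theorem pullPic_mk (D : trivialAt (imagePoint x.1)) :
    pullPic (L := L) f x (QuotientGroup.mk D.1) =
      Multiplicative.ofAdd (QuotientAddGroup.mk (pullDiv f x D)) :=
  MonoidHom.liftOfRightInverse_comp_apply _ _
    (Function.rightInverse_surjInv (classMap_surjective (imagePoint x.1))) _ D

end PullDiv

end FLTAgent.AbelianTorsion
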