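import Mathlib
import Fermat.Agent.Jacobian.ConstExtTensor
import Fermat.Agent.AbelianTorsion.Multiplication

/-!
# Products of integral schemes over an algebraically closed field

`isIntegral_pullback`: the product of integral schemes over an algebraically closed field is
integral, from `isDomain_tensor` and the criterion `isIntegral_of_openCover`.
-/

set_option autoImplicit false

noncomputable section

universe u

open CategoryTheory CategoryTheory.Limits AlgebraicGeometry TensorProduct TopologicalSpace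

namespace FLTAgent.AbelianTorsion

/-- Over an algebraically closed field the tensor product of two domains is a domain. -/
theorem isDomain_tensor (K : Type u) [Field K] [IsAlgClosed K] (B C : Type u) [CommRing B]
    [CommRing C] [IsDomain B] [IsDomain C] [Algebra K B] [Algebra K C] :
    IsDomain (B ⊗[K] C) := by
  have := FLTAgent.Jacobian.ConstExt.isDomain_tensorProduct K (FractionRing B) (FractionRing C)
  let φ : B ⊗[K] C →ₐ[K] FractionRing B ⊗[K] FractionRing C :=
    Algebra.TensorProduct.map (IsScalarTower.toAlgHom K B _) (IsScalarTower.toAlgHom K C _)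
  refine Function.Injective.isDomain φ ?_
  let i₁ : B →ₗ[K] FractionRing B := (IsScalarTower.toAlgHom K B (FractionRing B)).toLinearMap
  let i₂ : C →ₗ[K] FractionRing C := (IsScalarTower.toAlgHom K C (FractionRing C)).toLinearMap
  have e : φ.toLinearMap = (i₁.rTensor (FractionRing C)).comp (i₂.lTensor B) :=
    TensorProduct.ext' fun b c => rfl
  show Function.Injective φ.toLinearMap
  rw [e, LinearMap.coe_comp]
  exact (Module.Flat.rTensor_preserves_injective_linearMap i₁ (IsFractionRing.injective B _)).comp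
    (Module.Flat.lTensor_preserves_injective_linearMap i₂ (IsFractionRing.injective C _))

/-- A scheme covered by integral open pieces, any two of which meet, is integral. -/
theorem isIntegral_of_openCover {X : Scheme.{u}} {ι : Type u} [Nonempty ι] (Y : ι → Scheme.{u})
    (i : ∀ a, Y a ⟶ X) [∀ a, IsOpenImmersion (i a)] [∀ a, IsIntegral (Y a)]
    (hcov : ∀ x : X, ∃ a, x ∈ Set.range (i a))
    (hmeet : ∀ a b, (Set.range (i a) ∩ Set.range (i b)).Nonempty) : IsIntegral X := by
  have : IsReduced X := by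
    have : ∀ x : X, _root_.IsReduced (X.presheaf.stalk x) := fun x => by
      obtain ⟨a, y, rfl⟩ := hcov x
      exact isReduced_of_injective ((i a).stalkMap y).hom
        (asIso ((i a).stalkMap y)).commRingCatIsoToRingEquiv.injective
    exact isReduced_of_isReduced_stalk X
  have hpre : ∀ a, IsPreirreducible (Set.range (i a)) := fun a => by
    rw [← Set.image_univ]
    exact (IrreducibleSpace.isIrreducible_univ _).isPreirreducible.image _
      (i a).continuous.continuousOn
  have : IrreducibleSpace X :=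
    { toPreirreducibleSpace := ⟨fun u v hu hv ⟨x, _, hx⟩ ⟨y, _, hy⟩ => by
        obtain ⟨a, ha⟩ := hcov x
        obtain ⟨b, hb⟩ := hcov y
        obtain ⟨p, hpa, hpu, hpb⟩ := hpre a u (Set.range (i b)) hu
          (i b).isOpenEmbedding.isOpen_range
          ⟨x, ha, hx⟩ (hmeet a b)
        obtain ⟨q, -, hq⟩ := hpre b u v hu hv ⟨p, hpb, hpu⟩ ⟨y, hb, hy⟩
        exact ⟨q, trivial, hq⟩⟩
      toNonempty := ⟨(hmeet (Classical.arbitrary ι) (Classical.arbitrary ι)).choose⟩ }
  exact isIntegral_of_irreducibleSpace_of_isReduced X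

/-- The product of integral schemes over an algebraically closed field is integral. -/
theorem isIntegral_pullback {K : Type u} [Field K] [IsAlgClosed K] {X Y : Scheme.{u}}
    (f : X ⟶ Spec (CommRingCat.of K)) (g : Y ⟶ Spec (CommRingCat.of K)) [IsIntegral X]
    [IsIntegral Y] : IsIntegral (pullback f g) := by
  let ι := {V : X.Opens // IsAffineOpen V ∧ Nonempty V} ×
    {W : Y.Opens // IsAffineOpen W ∧ Nonempty W}
  let P : ι → Scheme.{u} := fun a =>
    pullback (Spec.map (baseRingHom f a.1.1)) (Spec.map (baseRingHom g a.2.1))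
  let i : ∀ a, P a ⟶ pullback f g := fun a =>
    pullback.map _ _ f g a.1.2.1.fromSpec a.2.2.1.fromSpec (𝟙 _)
      (by rw [Category.comp_id, fromSpec_comp]) (by rw [Category.comp_id, fromSpec_comp])
  have : ∀ a, IsIntegral (P a) := fun a => by
    have := a.1.2.2
    have := a.2.2.2
    let : Algebra K Γ(X, a.1.1) := (baseRingHom f a.1.1).hom.toAlgebra
    let : Algebra K Γ(Y, a.2.1) := (baseRingHom g a.2.1).hom.toAlgebra
    have := isDomain_tensor K Γ(X, a.1.1) Γ(Y, a.2.1)
    have : IsIntegral (Spec (CommRingCat.of (Γ(X, a.1.1) ⊗[K] Γ(Y, a.2.1)))) := inferInstance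
    exact IsIntegral.of_isIso (pullbackSpecIso K Γ(X, a.1.1) Γ(Y, a.2.1)).inv
  have hrange : ∀ a, Set.range (i a) =
      pullback.fst f g ⁻¹' (a.1.1 : Set X) ∩ pullback.snd f g ⁻¹' (a.2.1 : Set Y) := fun a => by
    rw [Scheme.Pullback.range_map, IsAffineOpen.range_fromSpec, IsAffineOpen.range_fromSpec]
  have hX : ∀ x : X, ∃ V : {V : X.Opens // IsAffineOpen V ∧ Nonempty V}, x ∈ V.1 := fun x => by
    obtain ⟨_, ⟨V, hV, rfl⟩, hx, -⟩ :=
      X.isBasis_affineOpens.exists_subset_of_mem_open (Set.mem_univ x) isOpen_univ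
    exact ⟨⟨V, hV, ⟨⟨x, hx⟩⟩⟩, hx⟩
  have hY : ∀ y : Y, ∃ W : {W : Y.Opens // IsAffineOpen W ∧ Nonempty W}, y ∈ W.1 := fun y => by
    obtain ⟨_, ⟨V, hV, rfl⟩, hy, -⟩ :=
      Y.isBasis_affineOpens.exists_subset_of_mem_open (Set.mem_univ y) isOpen_univ
    exact ⟨⟨V, hV, ⟨⟨y, hy⟩⟩⟩, hy⟩
  have : Nonempty ι :=
    ⟨⟨(hX (Classical.arbitrary X)).choose, (hY (Classical.arbitrary Y)).choose⟩⟩
  refine isIntegral_of_openCover P i (fun z => ?_) fun a b => ?_
  · obtain ⟨V, hV⟩ := hX (pullback.fst f g z)
    obtain ⟨W, hW⟩ := hY (pullback.snd f g z)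
    exact ⟨(V, W), by rw [hrange]; exact ⟨hV, hW⟩⟩
  · obtain ⟨x, hxa, hxb⟩ := nonempty_preirreducible_inter a.1.1.2 b.1.1.2
      (Set.nonempty_coe_sort.mp a.1.2.2) (Set.nonempty_coe_sort.mp b.1.2.2)
    obtain ⟨y, hya, hyb⟩ := nonempty_preirreducible_inter a.2.1.2 b.2.1.2
      (Set.nonempty_coe_sort.mp a.2.2.2) (Set.nonempty_coe_sort.mp b.2.2.2)
    obtain ⟨z, hz1, hz2⟩ :=
      Scheme.Pullback.exists_preimage_pullback x y (Subsingleton.elim (f x) (g y))
    refine ⟨z, ?_, ?_⟩
    · rw [hrange]; exact ⟨by rw [Set.mem_preimage, hz1]; exact hxa, by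
        rw [Set.mem_preimage, hz2]; exact hya⟩
    · rw [hrange]; exact ⟨by rw [Set.mem_preimage, hz1]; exact hxb, by
        rw [Set.mem_preimage, hz2]; exact hyb⟩

end FLTAgent.AbelianTorsion
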