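import Mathlib
import Fermat.Agent.AbelianTorsion.PointPullback
import Fermat.Agent.AbelianTorsion.Product

/-!
# Affine charts inside function fields

`immFF` embeds the coordinate ring of a chart into the function field, `regularAt` is the ring of
functions regular at a point, and `chartMap`, `sndFF` give charts and functions on products.
-/

set_option autoImplicit false

noncomputable section

universe u

open CategoryTheory CategoryTheory.Limits AlgebraicGeometry TensorProduct
open IsLocalRing

namespace FLTAgent.AbelianTorsion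

theorem isIso_stalkMap {X Y : Scheme.{u}} (f : X ⟶ Y) [IsOpenImmersion f] (x : X) :
    IsIso (f.stalkMap x) := inferInstance

section Imm

variable {Z : Scheme.{u}} {R : CommRingCat.{u}} (i : Spec R ⟶ Z) [IsOpenImmersion i]

/-- The localisation map into the local ring at a point of a chart. -/
def immHom (P : PrimeSpectrum R) : R ⟶ Z.presheaf.stalk (i P) :=
  StructureSheaf.toStalk R P ≫ @inv _ _ _ _ (i.stalkMap P) (isIso_stalkMap i P)

theorem specMap_immHom (P : PrimeSpectrum R) : Spec.map (immHom i P) ≫ i =
    Z.fromSpecStalk (i P) := by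
  have : IsIso (i.stalkMap P) := isIso_stalkMap i P
  have h : (Spec R).fromSpecStalk P = Spec.map (StructureSheaf.toStalk R P) :=
    Spec.fromSpecStalk_eq' R P
  rw [immHom, Spec.map_comp, Category.assoc]
  erw [← h, ← Scheme.SpecMap_stalkMap_fromSpecStalk]
  erw [← Category.assoc, ← Spec.map_comp, IsIso.hom_inv_id, Spec.map_id, Category.id_comp]

theorem isLocalization_immHom (P : PrimeSpectrum R) :
    letI := (immHom i P).hom.toAlgebra
    IsLocalization.AtPrime (Z.presheaf.stalk (i P)) P.asIdeal := by
  let := (immHom i P).hom.toAlgebra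
  have : IsIso (i.stalkMap P) := isIso_stalkMap i P
  let e : (Spec.structureSheaf R).presheaf.stalk P ≃+* Z.presheaf.stalk (i P) :=
    (asIso (i.stalkMap P)).symm.commRingCatIsoToRingEquiv
  exact IsLocalization.isLocalization_of_algEquiv P.asIdeal.primeCompl
    (AlgEquiv.ofRingEquiv (R := R) (f := e) fun r => by
      rw [RingHom.algebraMap_toAlgebra, immHom]
      rfl)

variable [IsIntegral Z]

/-- The coordinate ring of a chart inside the function field. -/
def immFFHom (P : PrimeSpectrum R) : R ⟶ Z.functionField :=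
  immHom i P ≫ Z.presheaf.stalkSpecializes ((genericPoint_spec Z).specializes trivial)

theorem specMap_immFFHom (P : PrimeSpectrum R) :
    Spec.map (immFFHom i P) ≫ i = Z.fromSpecStalk (genericPoint Z) := by
  rw [immFFHom, Spec.map_comp, Category.assoc, specMap_immHom,
    Scheme.SpecMap_stalkSpecializes_fromSpecStalk]

theorem immFFHom_eq (P Q : PrimeSpectrum R) : immFFHom i P = immFFHom i Q := by
  apply Spec.map_injective
  rw [← cancel_mono i, specMap_immFFHom, specMap_immFFHom]

theorem algebraMap_immHom (P Q : PrimeSpectrum R) (r : R) :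
    algebraMap (Z.presheaf.stalk (i P)) Z.functionField (immHom i P r) = immFFHom i Q r :=
  DFunLike.congr_fun (congrArg CommRingCat.Hom.hom (immFFHom_eq i P Q)) r

variable [IsDomain R]

/-- The chart ring into the function field. -/
def immFF : R →+* Z.functionField := (immFFHom i (genericPoint (Spec R))).hom

theorem algebraMap_immHom_eq (P : PrimeSpectrum R) (r : R) :
    algebraMap (Z.presheaf.stalk (i P)) Z.functionField (immHom i P r) = immFF i r :=
  algebraMap_immHom i P _ r

theorem specMap_immFF :
    Spec.map (CommRingCat.ofHom (immFF i)) ≫ i = Z.fromSpecStalk (genericPoint Z) :=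
  specMap_immFFHom i _

theorem immFF_injective : Function.Injective (immFF i) := by
  set P : PrimeSpectrum R := genericPoint (Spec R)
  let := (immHom i P).hom.toAlgebra
  have : IsLocalization.AtPrime (Z.presheaf.stalk (i P)) P.asIdeal := isLocalization_immHom i P
  exact (IsFractionRing.injective (Z.presheaf.stalk (i P)) Z.functionField).comp
    (IsLocalization.injective (Z.presheaf.stalk (i P))
      (Ideal.primeCompl_le_nonZeroDivisors P.asIdeal))

/-- The functions regular at a point. -/
def regularAt (z : Z) : Subring Z.functionField :=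
  (algebraMap (Z.presheaf.stalk z) Z.functionField).range

theorem mem_regularAt_imm (P : PrimeSpectrum R) (m : Z.functionField) :
    m ∈ regularAt (i P) ↔ ∃ a b : R, b ∉ P.asIdeal ∧ m * immFF i b = immFF i a := by
  let := (immHom i P).hom.toAlgebra
  have : IsLocalization.AtPrime (Z.presheaf.stalk (i P)) P.asIdeal := isLocalization_immHom i P
  constructor
  · rintro ⟨w, rfl⟩
    obtain ⟨⟨a, b⟩, hab⟩ := IsLocalization.surj P.asIdeal.primeCompl w
    exact ⟨a, b, b.2, by
      rw [← algebraMap_immHom_eq i P, ← algebraMap_immHom_eq i P, ← map_mul]; exact congrArg _ hab⟩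
  · rintro ⟨a, b, hb, hab⟩
    refine ⟨IsLocalization.mk' _ a (⟨b, hb⟩ : P.asIdeal.primeCompl), ?_⟩
    have hb0 : immFF i b ≠ 0 := by
      rw [map_ne_zero_iff _ (immFF_injective i)]
      exact fun h => hb (h ▸ P.asIdeal.zero_mem)
    refine mul_right_cancel₀ hb0 ?_
    rw [hab, ← algebraMap_immHom_eq i P, ← algebraMap_immHom_eq i P, ← map_mul]
    exact congrArg _ (IsLocalization.mk'_spec _ a (⟨b, hb⟩ : P.asIdeal.primeCompl))

theorem immFF_mem_regularAt (P : PrimeSpectrum R) (r : R) : immFF i r ∈ regularAt (i P) :=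
  ⟨immHom i P r, algebraMap_immHom_eq i P r⟩

theorem imm_eq_genericPoint_iff (P : PrimeSpectrum R) : i P = genericPoint Z ↔ P.asIdeal = ⊥ := by
  rw [← genericPoint_eq_of_isOpenImmersion i, genericPoint_eq_bot_of_affine]
  exact ⟨fun h => by rw [i.isOpenEmbedding.injective h]; rfl,
    fun h => congrArg i (PrimeSpectrum.ext h)⟩

theorem exists_imm_fraction (m : Z.functionField) :
    ∃ a b : R, b ≠ 0 ∧ m * immFF i b = immFF i a := by
  set P : PrimeSpectrum R := genericPoint (Spec R)
  have hgen : i P = genericPoint Z := genericPoint_eq_of_isOpenImmersion i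
  let := (immHom i P).hom.toAlgebra
  have hsurj : m ∈ regularAt (i P) := by
    refine ⟨Z.presheaf.stalkSpecializes (specializes_of_eq hgen) m, ?_⟩
    simp only [RingHom.algebraMap_toAlgebra, ← ConcreteCategory.comp_apply]
    rw [TopCat.Presheaf.stalkSpecializes_comp, TopCat.Presheaf.stalkSpecializes_refl]
    rfl
  obtain ⟨a, b, hb, hab⟩ := (mem_regularAt_imm i P m).mp hsurj
  exact ⟨a, b, fun h => hb (h ▸ P.asIdeal.zero_mem), hab⟩

omit [IsDomain R] in
theorem mem_unitsAt_iff_regularAt (z : Z) (e : (Z.functionField)ˣ) :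
    e ∈ unitsAt z ↔ (e : Z.functionField) ∈ regularAt z ∧
        (↑e⁻¹ : Z.functionField) ∈ regularAt z := by
  rw [mem_unitsAt]
  constructor
  · rintro ⟨w, hw⟩
    exact ⟨⟨_, hw⟩, (↑w⁻¹ : Z.presheaf.stalk z), by
      rw [map_units_inv, hw, Units.val_inv_eq_inv_val]⟩
  · rintro ⟨⟨a, ha⟩, b, hb⟩
    have hab : a * b = 1 := IsFractionRing.injective (Z.presheaf.stalk z) Z.functionField
      (by rw [map_mul, ha, hb, Units.mul_inv, map_one])
    exact ⟨Units.mkOfMulEqOne a b hab, ha⟩

end Imm

section Morphism

variable {Z Z' : Scheme.{u}} [IsIntegral Z] [IsIntegral Z']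

theorem specMap_functionFieldMap (φ : Z' ⟶ Z) (h : φ (genericPoint Z') = genericPoint Z) :
    Spec.map (functionFieldMap φ h) ≫ Z.fromSpecStalk (genericPoint Z) =
      Z'.fromSpecStalk (genericPoint Z') ≫ φ := by
  rw [functionFieldMap, Spec.map_comp, Category.assoc,
    Scheme.SpecMap_stalkSpecializes_fromSpecStalk, Scheme.SpecMap_stalkMap_fromSpecStalk]

variable {R R' : CommRingCat.{u}} [IsDomain R] [IsDomain R'] (i : Spec R ⟶ Z) [IsOpenImmersion i]
  (i' : Spec R' ⟶ Z') [IsOpenImmersion i'] (φ : Z' ⟶ Z) (g : R ⟶ R')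
  (hcomm : i' ≫ φ = Spec.map g ≫ i)

include hcomm

theorem map_genericPoint_of_chart (hg : Function.Injective g) :
    φ (genericPoint Z') = genericPoint Z := by
  rw [← genericPoint_eq_of_isOpenImmersion i', ← Scheme.Hom.comp_apply, hcomm,
    Scheme.Hom.comp_apply]
  refine (imm_eq_genericPoint_iff i (PrimeSpectrum.comap g.hom (genericPoint (Spec R')))).mpr ?_
  rw [genericPoint_eq_bot_of_affine]
  show Ideal.comap g.hom ⊥ = ⊥
  rw [← RingHom.ker_eq_comap_bot]
  exact (RingHom.injective_iff_ker_eq_bot _).mp hg

theorem immFF_map (h : φ (genericPoint Z') = genericPoint Z) (r : R) :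
    functionFieldMap φ h (immFF i r) = immFF i' (g r) := by
  have key : CommRingCat.ofHom (immFF i) ≫ functionFieldMap φ h =
      g ≫ CommRingCat.ofHom (immFF i') := by
    apply Spec.map_injective
    rw [← cancel_mono i, Spec.map_comp, Spec.map_comp, Category.assoc, Category.assoc,
      specMap_immFF,
      ← hcomm, ← Category.assoc (Spec.map (CommRingCat.ofHom (immFF i'))), specMap_immFF,
      specMap_functionFieldMap]
  exact DFunLike.congr_fun (congrArg CommRingCat.Hom.hom key) r

end Morphism

section Product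

variable {K : Type u} [Field K] {X Y : Scheme.{u}} (fX : X ⟶ Spec (CommRingCat.of K))
  (fY : Y ⟶ Spec (CommRingCat.of K))

theorem exists_affine_chart [IsIntegral X] (x : X) :
    ∃ (B : Type u) (_ : CommRing B) (_ : IsDomain B) (_ : Algebra K B)
      (a : Spec (CommRingCat.of B) ⟶ X) (_ : IsOpenImmersion a),
      a ≫ fX = specStr K B ∧ x ∈ Set.range a := by
  obtain ⟨_, ⟨U, hU', rfl⟩, hx, -⟩ :=
    X.isBasis_affineOpens.exists_subset_of_mem_open (Set.mem_univ x) isOpen_univ
  have hU : IsAffineOpen U := hU'
  have : Nonempty U := ⟨⟨x, hx⟩⟩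
  let : Algebra K Γ(X, U) := (baseRingHom fX U).hom.toAlgebra
  exact ⟨Γ(X, U), inferInstance, inferInstance, inferInstance, hU.fromSpec,
    inferInstance, fromSpec_comp fX hU, by rw [IsAffineOpen.range_fromSpec]; exact hx⟩

variable {B C : Type u} [CommRing B] [CommRing C] [Algebra K B] [Algebra K C]
  (a : Spec (CommRingCat.of B) ⟶ X) (b : Spec (CommRingCat.of C) ⟶ Y)
  (ha : a ≫ fX = specStr K B) (hb : b ≫ fY = specStr K C)

/-- The chart of a product given by two charts. -/
def chartMap : Spec (CommRingCat.of (B ⊗[K] C)) ⟶ pullback fX fY :=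
  (pullbackSpecIso K B C).inv ≫ pullback.map _ _ fX fY a b (𝟙 _)
    (by rw [Category.comp_id, ha]) (by rw [Category.comp_id, hb])

theorem chartMap_fst : chartMap fX fY a b ha hb ≫ pullback.fst fX fY =
    Spec.map
        (CommRingCat.ofHom (Algebra.TensorProduct.includeLeftRingHom : B →+* B ⊗[K] C)) ≫ a := by
  rw [chartMap, Category.assoc, pullback.map, pullback.lift_fst, ← Category.assoc,
    pullbackSpecIso_inv_fst]

theorem chartMap_snd : chartMap fX fY a b ha hb ≫ pullback.snd fX fY =
    Spec.map (CommRingCat.ofHom (Algebra.TensorProduct.includeRight : C →ₐ[K] B ⊗[K] C).toRingHom)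
      ≫ b := by
  rw [chartMap, Category.assoc, pullback.map, pullback.lift_snd, ← Category.assoc,
    pullbackSpecIso_inv_snd]
  rfl

instance isOpenImmersion_chartMap [IsOpenImmersion a] [IsOpenImmersion b] :
    IsOpenImmersion (chartMap fX fY a b ha hb) := by
  unfold chartMap
  infer_instance

theorem range_chartMap : Set.range (chartMap fX fY a b ha hb) =
    pullback.fst fX fY ⁻¹' Set.range a ∩ pullback.snd fX fY ⁻¹' Set.range b := by
  rw [← Scheme.Pullback.range_map (Spec.map (CommRingCat.ofHom (algebraMap K B)))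
    (Spec.map (CommRingCat.ofHom (algebraMap K C))) fX fY a b (𝟙 _)
    (by rw [Category.comp_id, ha]) (by rw [Category.comp_id, hb]), chartMap]
  ext z
  constructor
  · rintro ⟨P, rfl⟩; exact ⟨_, (Scheme.Hom.comp_apply _ _ _).symm⟩
  · rintro ⟨P, rfl⟩
    exact ⟨(pullbackSpecIso K B C).hom P, by rw [← Scheme.Hom.comp_apply, Iso.hom_inv_id_assoc]⟩

theorem snd_chartMap_apply (P : Spec (CommRingCat.of (B ⊗[K] C))) :
    pullback.snd fX fY (chartMap fX fY a b ha hb P) =
      b (PrimeSpectrum.comap (Algebra.TensorProduct.includeRight : C →ₐ[K] B ⊗[K]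
          C).toRingHom P) := by
  rw [← Scheme.Hom.comp_apply, chartMap_snd, Scheme.Hom.comp_apply]
  rfl

omit [Algebra K B] in
theorem exists_snd_eq (x : X) (y : Y) :
    ∃ z : ↥(pullback fX fY), pullback.fst fX fY z = x ∧ pullback.snd fX fY z = y :=
  Scheme.Pullback.exists_preimage_pullback x y (Subsingleton.elim _ _)

end Product

section Projection

variable {K : Type u} [Field K] {X Y : Scheme.{u}} (fX : X ⟶ Spec (CommRingCat.of K))
  (fY : Y ⟶ Spec (CommRingCat.of K)) [IsIntegral X] [IsIntegral Y] [IsIntegral (pullback fX fY)]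

theorem snd_genericPoint :
    pullback.snd fX fY (genericPoint ↥(pullback fX fY)) = genericPoint Y := by
  obtain ⟨z, -, hz⟩ := exists_snd_eq fX fY (genericPoint X) (genericPoint Y)
  have h1 : pullback.snd fX fY (genericPoint ↥(pullback fX fY)) ⤳ genericPoint Y := by
    rw [← hz]
    exact ((genericPoint_spec _).specializes (Set.mem_univ z)).map
      (pullback.snd fX fY).continuous
  exact (h1.antisymm ((genericPoint_spec Y).specializes trivial)).eq

/-- Functions on the second factor as functions on the product. -/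
def sndFF : Y.functionField →+* (pullback fX fY).functionField :=
  (functionFieldMap (pullback.snd fX fY) (snd_genericPoint fX fY)).hom

end Projection

end FLTAgent.AbelianTorsion
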