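import Mathlib

/-!
# Norms from the compositum with a linearly disjoint algebraic extension

`F ⊆ E` is an algebraic extension of fields, `M ⊆ L` are fields over `F`, and `κ : E → L` sends
`F`-independent families to `M`-independent ones. If `h ∈ L` lies in the compositum `M (κ E)` then
the norm from a finite subextension turns a unit `e / h` of the ring generated by `κ E` over a
subring `W ⊆ M` into a unit `e ^ d / N h` of `W`.
-/

set_option autoImplicit false

noncomputable section

namespace FLTAgent.AbelianTorsion

/-- An element lies in a subalgebra as soon as, for every maximal ideal of the subalgebra, it is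
moved into it by multiplication with an element outside that ideal. -/
theorem mem_of_forall_maximal_mul_mem {R L : Type*} [CommRing R] [CommRing L] [Algebra R L]
    (S : Subalgebra R L) (g : L)
    (hg : ∀ 𝔪 : Ideal S, 𝔪.IsMaximal → ∃ z : S, z ∉ 𝔪 ∧ (z : L) * g ∈ S) : g ∈ S := by
  let J : Ideal S :=
    { carrier := {z | (z : L) * g ∈ S}
      add_mem' := fun {x y} hx hy => by
        rw [Set.mem_ofPred_eq, Subalgebra.coe_add, add_mul]; exact add_mem hx hy
      zero_mem' := by simp
      smul_mem' := fun c x hx => by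
        rw [Set.mem_ofPred_eq, smul_eq_mul, Subalgebra.coe_mul, mul_assoc]
        exact mul_mem c.2 hx }
  by_contra hgS
  obtain ⟨𝔪, h𝔪, hJ𝔪⟩ := Ideal.exists_le_maximal J fun htop => hgS (by
    have h1 : (1 : S) ∈ J := htop ▸ Submodule.mem_top
    simpa [J] using h1)
  obtain ⟨z, hz, hzg⟩ := hg 𝔪 h𝔪
  exact hz (hJ𝔪 hzg)

variable {F E M L : Type*} [Field F] [Field E] [Field M] [Field L] [Algebra F E] [Algebra F M]
  [Algebra F L] [Algebra M L] [IsScalarTower F M L] (κ : E →ₐ[F] L)

/-- The image of a span over the smallest field is contained in the span of the image over any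
intermediate ring of scalars. -/
theorem apply_mem_span_image {W : Type*} [CommRing W] [Algebra F W] [Algebra W L]
    [IsScalarTower F W L] {s : Set E} {e : E} (he : e ∈ Submodule.span F s) :
    κ e ∈ Submodule.span W (κ '' s) := by
  have h1 := Submodule.mem_map_of_mem (f := κ.toLinearMap) he
  rw [Submodule.map_span] at h1
  exact Submodule.span_le_restrictScalars F W _ h1

/-- The compositum of `M` with the image of an algebraic subextension `E₀` is spanned over `M` by
the image of any spanning set of `E₀`. -/
theorem adjoin_image_eq_span [Algebra.IsIntegral F E] (E₀ : IntermediateField F E) (s : Set E)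
    (hs : Submodule.span F s = E₀.toSubalgebra.toSubmodule) :
    (IntermediateField.adjoin M (κ '' (E₀ : Set E))).toSubalgebra.toSubmodule =
      Submodule.span M (κ '' s) := by
  rw [IntermediateField.adjoin_toSubalgebra_of_isAlgebraic (by
    rintro _ ⟨e, -, rfl⟩
    exact (((Algebra.IsIntegral.isIntegral (R := F) e).map κ).tower_top (A := M)).isAlgebraic),
    Algebra.adjoin_eq_span]
  refine le_antisymm (Submodule.span_le.mpr fun z hz => ?_) (Submodule.span_mono ?_)
  · have hz' : z ∈ κ '' (E₀ : Set E) := by
      induction hz using Submonoid.closure_induction with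
      | mem x hx => exact hx
      | one => exact ⟨1, one_mem E₀, map_one κ⟩
      | mul x y _ _ hx hy =>
        obtain ⟨x', hx', rfl⟩ := hx
        obtain ⟨y', hy', rfl⟩ := hy
        exact ⟨x' * y', mul_mem hx' hy', map_mul κ x' y'⟩
    obtain ⟨e, he, rfl⟩ := hz'
    exact apply_mem_span_image κ (show e ∈ Submodule.span F s by rw [hs]; exact he)
  · exact (Set.image_mono fun e he => show e ∈ E₀.toSubalgebra.toSubmodule from
      hs ▸ Submodule.subset_span he).trans Submonoid.subset_closure

omit [Algebra F M] [IsScalarTower F M L] in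
/-- An element spanned by `κ E` over a smaller ring of scalars `W`, and by `κ s` over `M`, is
spanned by `κ s` over `W`. -/
theorem mem_span_image_of_mem_span_image
    (hκ : ∀ t : Set E, LinearIndepOn F id t → LinearIndepOn M κ t)
    {W : Type*} [CommRing W] [Algebra F W] [Algebra W L] [IsScalarTower F W L]
    [Algebra W M] [IsScalarTower W M L] {s : Set E} (hs : LinearIndepOn F id s) {g : L}
    (hgW : g ∈ Submodule.span W (Set.range κ)) (hgM : g ∈ Submodule.span M (κ '' s)) :
    g ∈ Submodule.span W (κ '' s) := by
  set t := hs.extend (Set.subset_univ s)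
  have hst : s ⊆ t := hs.subset_extend _
  have hle : Submodule.span W (Set.range κ) ≤
      Submodule.span W (κ '' s) ⊔ Submodule.span W (κ '' (t \ s)) := by
    rw [← Submodule.span_union, ← Set.image_union, Set.union_sdiff_cancel hst]
    refine Submodule.span_le.mpr ?_
    rintro _ ⟨e, rfl⟩
    exact apply_mem_span_image κ (hs.subset_span_extend (Set.subset_univ s) (Set.mem_univ e))
  obtain ⟨g₁, hg₁, g₂, hg₂, rfl⟩ := Submodule.mem_sup.mp (hle hgW)
  have hg₁' : g₁ ∈ Submodule.span M (κ '' s) := Submodule.span_le_restrictScalars W M _ hg₁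
  have hg₂' : g₂ ∈ Submodule.span M (κ '' (t \ s)) := Submodule.span_le_restrictScalars W M _ hg₂
  have hg₂s : g₂ ∈ Submodule.span M (κ '' s) := by simpa using sub_mem hgM hg₁'
  have hdisj : Disjoint (Submodule.span M (κ '' s)) (Submodule.span M (κ '' (t \ s))) := by
    have h := (hκ t (hs.linearIndepOn_extend _)).disjoint_span_image
      (s := Subtype.val ⁻¹' s) (t := (Subtype.val ⁻¹' s)ᶜ) disjoint_compl_right
    rwa [show (fun x : t => κ x) = κ ∘ Subtype.val from rfl, Set.image_comp, Set.image_comp,
      ← Set.preimage_compl, Subtype.image_preimage_coe,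
      Subtype.image_preimage_coe, Set.inter_eq_right.mpr hst, ← Set.sdiff_eq] at h
  rw [Submodule.disjoint_def.mp hdisj g₂ hg₂s hg₂', add_zero]
  exact hg₁

/-- The norm of an element whose multiplication matrix has entries in `W` lies in `W`. -/
theorem norm_mem_of_forall_mul_mem_span {n : Type*} [Fintype n] [DecidableEq n] (W : Subring M)
    {L₀ : IntermediateField M L} (β : Module.Basis n M L₀) (g : L₀)
    (hg : ∀ m, (g : L) * β m ∈ Submodule.span W (Set.range fun t => (β t : L))) :
    Algebra.norm M g ∈ W := by
  rw [Algebra.norm_eq_matrix_det β]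
  have hentry : ∀ l m, Algebra.leftMulMatrix β g l m ∈ W := by
    intro l m
    rw [Algebra.leftMulMatrix_eq_repr_mul]
    obtain ⟨c, hc⟩ := (Submodule.mem_span_range_iff_exists_fun W).mp (hg m)
    have : g * β m = ∑ t, (c t : M) • β t := by
      apply Subtype.ext
      rw [IntermediateField.coe_mul, ← hc, IntermediateField.coe_sum]
      rfl
    rw [this, Module.Basis.repr_sum_self]
    exact (c l).2
  let A : Matrix n n W := fun l m => ⟨_, hentry l m⟩
  rw [show Algebra.leftMulMatrix β g = W.subtype.mapMatrix A from rfl, ← RingHom.map_det]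
  exact A.det.2

/-- The span over `W` of the image of a subalgebra spanned by `s` is closed under multiplication
by the image of an element of that subalgebra. -/
theorem mul_apply_mem_span_image {W : Type*} [CommRing W] [Algebra F W] [Algebra W L]
    [IsScalarTower F W L] (E₀ : Subalgebra F E) {s : Set E}
    (hs : Submodule.span F s = E₀.toSubmodule) {g : L} (hg : g ∈ Submodule.span W (κ '' s)) {e : E}
    (he : e ∈ E₀) : g * κ e ∈ Submodule.span W (κ '' s) := by
  induction hg using Submodule.span_induction with
  | mem x hx =>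
    obtain ⟨m, hm, rfl⟩ := hx
    rw [← map_mul]
    refine apply_mem_span_image κ ?_
    rw [hs, Subalgebra.mem_toSubmodule]
    exact mul_mem (show m ∈ E₀.toSubmodule from hs ▸ Submodule.subset_span hm) he
  | zero => rw [zero_mul]; exact zero_mem _
  | add x y _ _ hx hy => rw [add_mul]; exact add_mem hx hy
  | smul c x _ hx => rw [smul_mul_assoc]; exact Submodule.smul_mem _ c hx

/-- **Norm descent.** For `h` in the compositum of `M` and `κ E` there are `d > 0` and `N` such
that, for every subring `W` of `M` containing `F` and every `e`, if `e / h` and `h / e` lie in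
the ring generated by `κ E` over `W` then `e ^ d / N` is a unit of `W`. -/
theorem exists_pow_div_norm_mem [Algebra.IsIntegral F E]
    (hκ : ∀ t : Set E, LinearIndepOn F id t → LinearIndepOn M κ t) (h : Lˣ)
    (hh : (h : L) ∈ IntermediateField.adjoin M (Set.range κ)) :
    ∃ (d : ℕ) (N : Mˣ), 0 < d ∧ ∀ W : Subring M, (∀ x : F, algebraMap F M x ∈ W) → ∀ e : Mˣ,
      algebraMap M L e * ↑h⁻¹ ∈ Algebra.adjoin W (Set.range κ) →
      (algebraMap M L e * ↑h⁻¹)⁻¹ ∈ Algebra.adjoin W (Set.range κ) →
      ((e ^ d * N⁻¹ : Mˣ) : M) ∈ W ∧ (↑(e ^ d * N⁻¹)⁻¹ : M) ∈ W := by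
  classical
  obtain ⟨T, hT, hhT⟩ := IntermediateField.exists_finset_of_mem_adjoin hh
  choose pre hpre using fun z : T => hT z.2
  set E₀ := IntermediateField.adjoin F (Set.range pre)
  have : FiniteDimensional F E₀ :=
    IntermediateField.finiteDimensional_adjoin fun x _ => Algebra.IsIntegral.isIntegral x
  let v₀ := Module.finBasis F E₀
  let v : Fin (Module.finrank F E₀) → E := fun i => (v₀ i : E)
  have hvspan : Submodule.span F (Set.range v) = E₀.toSubalgebra.toSubmodule := by
    rw [show v = E₀.val.toLinearMap ∘ v₀ from rfl, Set.range_comp, ← Submodule.map_span, v₀.span_eq,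
      Submodule.map_top]
    ext z
    exact ⟨fun ⟨w, hw⟩ => hw ▸ w.2, fun hz => ⟨⟨z, hz⟩, rfl⟩⟩
  have hvind : LinearIndependent F v :=
    v₀.linearIndependent.map' E₀.val.toLinearMap
      (LinearMap.ker_eq_bot.mpr E₀.val.toRingHom.injective)
  set L₀ := IntermediateField.adjoin M (κ '' (E₀ : Set E))
  have hspan := adjoin_image_eq_span (M := M) κ E₀ (Set.range v) hvspan
  have hTL : (T : Set L) ⊆ L₀ := fun z hz => IntermediateField.subset_adjoin _ _
    ⟨pre ⟨z, hz⟩, IntermediateField.subset_adjoin _ _ ⟨_, rfl⟩, hpre ⟨z, hz⟩⟩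
  have hhL : (h : L) ∈ L₀ := IntermediateField.adjoin_le_iff.mpr hTL hhT
  let βv : Fin (Module.finrank F E₀) → L₀ := fun i =>
    ⟨κ (v i), IntermediateField.subset_adjoin _ _ ⟨v i, (v₀ i).2, rfl⟩⟩
  let β : Module.Basis (Fin (Module.finrank F E₀)) M L₀ :=
    Module.Basis.mk (v := βv) (LinearIndependent.of_comp L₀.val.toLinearMap
      ((linearIndepOn_range_iff hvind.injective κ).mp (hκ _ hvind.linearIndepOn_id))) (by
      intro z _
      obtain ⟨c, hc⟩ := (Submodule.mem_span_range_iff_exists_fun M).mp
        (show (z : L) ∈ Submodule.span M (Set.range (κ ∘ v)) by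
          rw [Set.range_comp, ← hspan]; exact z.2)
      refine (Submodule.mem_span_range_iff_exists_fun _).mpr ⟨c, Subtype.ext ?_⟩
      rw [← hc]
      simp [βv])
  have hβ : (fun t => (β t : L)) = κ ∘ v := funext fun t => by
    rw [Module.Basis.mk_apply]
    rfl
  have : Module.Finite M L₀ := Module.Finite.of_basis β
  let hu : L₀ := ⟨_, hhL⟩
  have hu0 : hu ≠ 0 := fun h0 => h.ne_zero (congrArg Subtype.val h0)
  refine ⟨_, Units.mk0 _ (Algebra.norm_ne_zero_iff.mpr hu0 : Algebra.norm M hu ≠ 0),
    (Module.finrank_pos : 0 < Module.finrank F E₀), fun W hW e he he' => ?_⟩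
  let : Algebra F W := ((algebraMap F M).codRestrict W hW).toAlgebra
  have : IsScalarTower F W L := IsScalarTower.of_algebraMap_eq fun x =>
    IsScalarTower.algebraMap_apply F M L x
  have hS : (Algebra.adjoin W (Set.range κ)).toSubmodule = Submodule.span W (Set.range κ) := by
    rw [Algebra.adjoin_eq_span]
    congr 1
    exact congrArg SetLike.coe (Submonoid.closure_eq (MonoidHom.mrange κ.toRingHom.toMonoidHom))
  have hnorm : ∀ g : L₀, (g : L) ∈ Algebra.adjoin W (Set.range κ) → Algebra.norm M g ∈ W := by
    intro g hg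
    rw [← Subalgebra.mem_toSubmodule, hS] at hg
    refine norm_mem_of_forall_mul_mem_span W β g fun m => ?_
    rw [show (β m : L) = κ (v m) from congrFun hβ m, hβ, Set.range_comp]
    refine mul_apply_mem_span_image κ E₀.toSubalgebra hvspan ?_ (v₀ m).2
    exact mem_span_image_of_mem_span_image κ hκ hvind.linearIndepOn_id hg
      (show (g : L) ∈ Submodule.span M _ by rw [← hspan]; exact g.2)
  let q : L₀ := algebraMap M L₀ (e : M) * hu⁻¹
  have hq : (q : L) = algebraMap M L e * ↑h⁻¹ := by
    rw [Units.val_inv_eq_inv_val]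
    rfl
  have hnq : Algebra.norm M q =
      (e : M) ^ Module.finrank F E₀ * (Algebra.norm M hu)⁻¹ := by
    rw [map_mul, Algebra.norm_algebraMap_of_basis β, Algebra.norm_inv, Fintype.card_fin]
  refine ⟨?_, ?_⟩
  · rw [Units.val_mul, Units.val_pow_eq_pow_val, Units.val_inv_eq_inv_val, Units.val_mk0, ← hnq]
    exact hnorm q (by rw [hq]; exact he)
  · rw [Units.val_inv_eq_inv_val, Units.val_mul, Units.val_pow_eq_pow_val, Units.val_inv_eq_inv_val,
      Units.val_mk0, ← hnq, ← Algebra.norm_inv]
    exact hnorm q⁻¹ (by rw [IntermediateField.coe_inv, hq]; exact he')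

end FLTAgent.AbelianTorsion
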