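import Mathlib
import Fermat.Agent.AbelianTorsion.Chart
import Fermat.Agent.AbelianTorsion.NormDescent

/-!
# Classes that become trivial after an algebraic extension of the second factor

`exists_pow_eq_over_generic`: a divisor principal after an algebraic extension of the generic
point of the second factor has a power that is principal there (take norms).
-/

set_option autoImplicit false

noncomputable section

universe u

open CategoryTheory CategoryTheory.Limits AlgebraicGeometry TensorProduct

namespace FLTAgent.AbelianTorsion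

/-- Linear independence survives tensoring with a free algebra. -/
theorem eq_zero_of_sum_map_mul {K B C E : Type u} [Field K] [CommRing B] [CommRing C] [CommRing E]
    [Algebra K B] [Algebra K C] [Algebra K E] (γ : C →ₐ[K] E) {ι : Type*} [Fintype ι] (v : ι → E)
    (hv : ∀ c : ι → C, ∑ i, γ (c i) * v i = 0 → c = 0) (r : ι → B ⊗[K] C)
    (h : ∑ i, Algebra.TensorProduct.map (AlgHom.id K B) γ (r i) * ((1 : B) ⊗ₜ[K] v i) = 0) :
    r = 0 := by
  classical
  let β := Module.Free.chooseBasis K B
  let eC := TensorProduct.equivFinsuppOfBasisLeft (N := C) β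
  let eE := TensorProduct.equivFinsuppOfBasisLeft (N := E) β
  have key : ∀ (x : B ⊗[K] C) (e : E) (t : Module.Free.ChooseBasisIndex K B),
      eE (Algebra.TensorProduct.map (AlgHom.id K B) γ x * ((1 : B) ⊗ₜ[K] e)) t =
      γ (eC x t) * e := by
    intro x e t
    induction x using TensorProduct.induction_on with
    | zero => simp
    | add x y hx hy => simp [map_add, add_mul, hx, hy]
    | tmul b c =>
      simp [eC, eE, map_smul]
  funext i
  refine eC.injective (Finsupp.ext fun t => ?_)
  rw [Pi.zero_apply, map_zero, Finsupp.zero_apply]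
  refine congrFun (hv (fun i => eC (r i) t) ?_) i
  have h' := congrArg (fun z => eE z t) h
  simpa [map_sum, Finsupp.finsetSum_apply, key] using h'

/-- Every invertible rational function is a unit at the generic point. -/
theorem unitsAt_genericPoint {X : Scheme.{u}} [IsIntegral X] (e : (X.functionField)ˣ) :
    e ∈ unitsAt (genericPoint X) := by
  refine mem_unitsAt.mpr ⟨e, ?_⟩
  rw [RingHom.algebraMap_toAlgebra, TopCat.Presheaf.stalkSpecializes_refl]
  rfl

/-- Pulling back a function along a dominant map is the map of function fields. -/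
theorem pullFunction_eq_functionFieldMap {X Y : Scheme.{u}} [IsIntegral X] [IsIntegral Y]
    (φ : Y ⟶ X) (h : φ (genericPoint Y) = genericPoint X) (e : unitsAt (φ (genericPoint Y))) :
    (pullFunction φ e : Y.functionField) = functionFieldMap φ h (e.1 : X.functionField) := by
  obtain ⟨w, hw⟩ := mem_unitsAt.mp e.2
  rw [pullFunction_spec φ e (w : X.presheaf.stalk (φ (genericPoint Y))) hw, ← hw, functionFieldMap,
    RingHom.algebraMap_toAlgebra]
  simp only [← ConcreteCategory.comp_apply]
  rw [TopCat.Presheaf.stalkSpecializes_comp_assoc, TopCat.Presheaf.stalkSpecializes_refl,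
    Category.id_comp]

section GenValue

variable {Y : Scheme.{u}} [IsIntegral Y] {E : Type u} [Field E]
  (j : Spec (CommRingCat.of E) ⟶ Y) (hj : imagePoint j = genericPoint Y)

/-- The values of functions at a generic point with values in a field. -/
def genValue : Y.functionField →+* E :=
  (Y.presheaf.stalkSpecializes (specializes_of_eq hj) ≫ Scheme.stalkClosedPointTo j).hom

/-- A field-valued point over the generic point is the point of its values. -/
theorem specMap_genValue :
    Spec.map (CommRingCat.ofHom (genValue j hj)) ≫ Y.fromSpecStalk (genericPoint Y) = j := by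
  show Spec.map (Y.presheaf.stalkSpecializes (specializes_of_eq hj) ≫ Scheme.stalkClosedPointTo j) ≫
    Y.fromSpecStalk (genericPoint Y) = j
  rw [Spec.map_comp, Category.assoc, Scheme.SpecMap_stalkSpecializes_fromSpecStalk,
    Scheme.Spec_stalkClosedPointTo_fromSpecStalk]

end GenValue

variable {K : Type u} [Field K] [IsAlgClosed K] {X Y : Scheme.{u}}
  (fX : X ⟶ Spec (CommRingCat.of K)) (fY : Y ⟶ Spec (CommRingCat.of K)) [IsIntegral X]
  [IsIntegral Y] [IsIntegral (pullback fX fY)]
  {E : Type u} [Field E] [Algebra K E] (j : Spec (CommRingCat.of E) ⟶ Y)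
  (hjE : j ≫ fY = specStr K E)

/-- The map of a product with a field-valued point of the second factor. -/
def prodPoint : pullback fX (specStr K E) ⟶ pullback fX fY :=
  pullback.map fX (specStr K E) fX fY (𝟙 _) j (𝟙 _) (by simp) (by rw [Category.comp_id, hjE])

section ChartPoint

/-- Functions with values in `E` as constants on the product with `Spec E`. -/
def constFF (E : Type u) [Field E] [Algebra K E] [IsIntegral (pullback fX (specStr K E))] :
    E →+* (pullback fX (specStr K E)).functionField :=
  (sndFF fX (specStr K E)).comp (immFF (𝟙 (Spec (CommRingCat.of E))))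

omit [IsAlgClosed K] in
/-- A field-valued point over the generic point factors through every chart containing it. -/
theorem exists_chart_point (hj : imagePoint j = genericPoint Y) (hjE : j ≫ fY = specStr K E)
    {C : Type u} [CommRing C] [IsDomain C] [Algebra K C] (b : Spec (CommRingCat.of C) ⟶ Y)
    [IsOpenImmersion b] (hb : b ≫ fY = specStr K C) :
    ∃ γ : C →ₐ[K] E, Spec.map (CommRingCat.ofHom γ.toRingHom) ≫ b = j ∧ Function.Injective γ ∧
      ∀ c, genValue j hj (immFF b c) = γ c := by
  let γr : C →+* E := (genValue j hj).comp (immFF b)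
  have hγr : Spec.map (CommRingCat.ofHom γr) ≫ b = j := by
    rw [show CommRingCat.ofHom γr = CommRingCat.ofHom (immFF b) ≫ CommRingCat.ofHom (genValue j hj)
      from rfl, Spec.map_comp, Category.assoc]
    exact (congrArg (Spec.map (CommRingCat.ofHom (genValue j hj)) ≫ ·) (specMap_immFF b)).trans
      (specMap_genValue j hj)
  have hγK : γr.comp (algebraMap K C) = algebraMap K E := by
    have h : CommRingCat.ofHom (algebraMap K C) ≫ CommRingCat.ofHom γr =
        CommRingCat.ofHom (algebraMap K E) := by
      apply Spec.map_injective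
      show _ = specStr K E
      rw [Spec.map_comp, show Spec.map (CommRingCat.ofHom (algebraMap K C)) = specStr K C from rfl,
        ← hb, ← Category.assoc, hγr, hjE]
    exact congrArg CommRingCat.Hom.hom h
  exact ⟨{ γr with commutes' := fun k => RingHom.congr_fun hγK k }, hγr,
    (genValue j hj).injective.comp (immFF_injective b), fun _ => rfl⟩

omit [IsAlgClosed K] in
/-- Tensoring an injective map of algebras over a field with a fixed algebra is injective. -/
theorem injective_tensor_map_id {B C : Type u} [CommRing B] [CommRing C] [Algebra K B]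
    [Algebra K C] (γ : C →ₐ[K] E) (hγ : Function.Injective γ) :
    Function.Injective (Algebra.TensorProduct.map (AlgHom.id K B) γ) := by
  have : (Algebra.TensorProduct.map (AlgHom.id K B) γ).toLinearMap = γ.toLinearMap.lTensor B :=
    TensorProduct.ext' fun _ _ => rfl
  show Function.Injective (Algebra.TensorProduct.map (AlgHom.id K B) γ).toLinearMap
  rw [this]
  exact Module.Flat.lTensor_preserves_injective_linearMap _ hγ

variable {B C : Type u} [CommRing B] [CommRing C] [Algebra K B] [Algebra K C]
  (a : Spec (CommRingCat.of B) ⟶ X) (b : Spec (CommRingCat.of C) ⟶ Y)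
  (ha : a ≫ fX = specStr K B) (hb : b ≫ fY = specStr K C) (γ : C →ₐ[K] E)

omit [IsAlgClosed K] [IsIntegral X] [IsIntegral Y] [IsIntegral (pullback fX fY)] in
/-- On charts, the map from the product with `Spec E` is induced by `B ⊗ C → B ⊗ E`. -/
theorem chartMap_comp_prodPoint (hγ : Spec.map (CommRingCat.ofHom γ.toRingHom) ≫ b = j) :
    chartMap fX (specStr K E) a (𝟙 _) ha (Category.id_comp _) ≫ prodPoint fX fY j hjE =
      Spec.map (CommRingCat.ofHom (Algebra.TensorProduct.map (AlgHom.id K B) γ).toRingHom) ≫
        chartMap fX fY a b ha hb := by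
  apply pullback.hom_ext
  · rw [Category.assoc, Category.assoc, chartMap_fst, prodPoint, pullback.map,
      pullback.lift_fst, Category.comp_id, chartMap_fst, ← Category.assoc, ← Spec.map_comp]
    congr 2
    ext x
    show x ⊗ₜ[K] (1 : E) = x ⊗ₜ[K] γ (1 : C)
    rw [map_one]
  · rw [Category.assoc, Category.assoc, chartMap_snd, prodPoint, pullback.map,
      pullback.lift_snd, ← Category.assoc, chartMap_snd, Category.assoc,
      Category.id_comp j, ← Category.assoc, ← Spec.map_comp]
    conv_lhs => rw [← hγ, ← Category.assoc, ← Spec.map_comp]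
    congr 2

variable [IsOpenImmersion a]

omit [IsAlgClosed K] in
/-- Functions on the second factor in a product chart. -/
theorem sndFF_immFF [IsDomain C] [IsDomain (B ⊗[K] C)] [IsOpenImmersion b] (c : C) :
    sndFF fX fY (immFF b c) = immFF (chartMap fX fY a b ha hb) ((1 : B) ⊗ₜ[K] c) :=
  immFF_map b (chartMap fX fY a b ha hb) (pullback.snd fX fY) _
    (chartMap_snd fX fY a b ha hb) (snd_genericPoint fX fY) c

variable [IsIntegral (pullback fX (specStr K E))] [IsDomain (B ⊗[K] E)]

omit [IsAlgClosed K] in
/-- The constants in a chart of the product with `Spec E`. -/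
theorem constFF_eq (e : E) : constFF fX E e =
    immFF (chartMap fX (specStr K E) a (𝟙 _) ha (Category.id_comp _)) ((1 : B) ⊗ₜ[K] e) :=
  sndFF_immFF fX (specStr K E) a (𝟙 _) ha (Category.id_comp _) e

variable [IsDomain C] [IsDomain (B ⊗[K] C)] [IsOpenImmersion b]
  (hγ : Spec.map (CommRingCat.ofHom γ.toRingHom) ≫ b = j)
  (hgen : prodPoint fX fY j hjE (genericPoint _) = genericPoint _)

include hγ in
omit [IsAlgClosed K] [IsIntegral X] [IsIntegral Y] [IsDomain C] in
/-- Functions in a product chart, pulled back to the product with `Spec E`. -/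
theorem functionFieldMap_prodPoint_immFF (z : B ⊗[K] C) :
    functionFieldMap (prodPoint fX fY j hjE) hgen (immFF (chartMap fX fY a b ha hb) z) =
      immFF (chartMap fX (specStr K E) a (𝟙 _) ha (Category.id_comp _))
        (Algebra.TensorProduct.map (AlgHom.id K B) γ z) :=
  immFF_map _ _ (prodPoint fX fY j hjE) _
    (chartMap_comp_prodPoint fX fY j hjE a b ha hb γ hγ) hgen z

omit [IsAlgClosed K] [IsIntegral Y] [IsDomain C] in
include hγ in
/-- A subring containing the pulled back functions of a product chart and the constants contains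
the whole chart of the product with `Spec E`. -/
theorem immFF_chart_mem (S : Subring (pullback fX (specStr K E)).functionField)
    (hS : ∀ z, functionFieldMap (prodPoint fX fY j hjE) hgen
      (immFF (chartMap fX fY a b ha hb) z) ∈ S)
    (hκ : ∀ e, constFF fX E e ∈ S) (z : B ⊗[K] E) :
    immFF (chartMap fX (specStr K E) a (𝟙 _) ha (Category.id_comp _)) z ∈ S := by
  induction z using TensorProduct.induction_on with
  | zero => rw [map_zero]; exact zero_mem _
  | add x y hx hy => rw [map_add]; exact add_mem hx hy
  | tmul x e =>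
    have hxe : (x ⊗ₜ[K] e) = Algebra.TensorProduct.map (AlgHom.id K B) γ (x ⊗ₜ[K] (1 : C)) *
        ((1 : B) ⊗ₜ[K] e) := by
      rw [Algebra.TensorProduct.map_tmul, map_one, Algebra.TensorProduct.tmul_mul_tmul]
      simp
    rw [hxe, map_mul, ← constFF_eq fX a ha, ← functionFieldMap_prodPoint_immFF fX fY j hjE a b
      ha hb γ hγ hgen]
    exact mul_mem (hS _) (hκ e)

omit [IsAlgClosed K] in
include hγ ha hb a in
/-- Functions on `Y`, pulled back to the product with `Spec E`, are constants. -/
theorem functionFieldMap_prodPoint_sndFF (hj : imagePoint j = genericPoint Y)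
    (hγv : ∀ c, genValue j hj (immFF b c) = γ c) (t : Y.functionField) :
    functionFieldMap (prodPoint fX fY j hjE) hgen (sndFF fX fY t) =
      constFF fX E (genValue j hj t) := by
  set ffπ := (functionFieldMap (prodPoint fX fY j hjE) hgen).hom
  have hC : ∀ c : C, ffπ (sndFF fX fY (immFF b c)) = constFF fX E (genValue j hj (immFF b c)) :=
    fun c => by
      rw [sndFF_immFF fX fY a b ha hb, hγv]
      refine (functionFieldMap_prodPoint_immFF fX fY j hjE a b ha hb γ hγ hgen _).trans ?_
      rw [constFF_eq fX a ha]
      rfl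
  obtain ⟨x, y, hy, ht⟩ := exists_imm_fraction b t
  have h1 := congrArg (fun z => ffπ (sndFF fX fY z)) ht
  have h2 := congrArg (fun z => constFF fX E (genValue j hj z)) ht
  simp only [map_mul] at h1 h2
  rw [hC, hC] at h1
  exact mul_right_cancel₀ (by
    rw [map_ne_zero, map_ne_zero, map_ne_zero_iff _ (immFF_injective b)]; exact hy)
      (h1.trans h2.symm)

omit [IsAlgClosed K] in
include hγ ha hb a in
/-- Constants independent over the functions on `Y` stay independent over the functions on the
product. -/
theorem eq_zero_of_sum_constFF (hj : imagePoint j = genericPoint Y)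
    (hγv : ∀ c, genValue j hj (immFF b c) = γ c) {ι : Type*} (v : ι → E) (s : Finset ι)
    (hv : ∀ g : ι → Y.functionField, ∑ l ∈ s, genValue j hj (g l) * v l = 0 → ∀ l ∈ s, g l = 0)
    (m : ι → (pullback fX fY).functionField)
    (hm : ∑ l ∈ s, functionFieldMap (prodPoint fX fY j hjE) hgen (m l) * constFF fX E (v l) = 0) :
    ∀ l ∈ s, m l = 0 := by
  classical
  let i₀ := chartMap fX fY a b ha hb
  let i₀E := chartMap fX (specStr K E) a (𝟙 _) ha (Category.id_comp _)
  set ffπ := (functionFieldMap (prodPoint fX fY j hjE) hgen).hom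
  choose x y hy hxy using fun i : s => exists_imm_fraction i₀ (m i)
  set P := ∏ i : s, y i with hP
  have hP0 : immFF i₀ P ≠ 0 :=
    (map_ne_zero_iff _ (immFF_injective i₀)).mpr (Finset.prod_ne_zero_iff.mpr fun i _ => hy i)
  let r : s → B ⊗[K] C := fun i => x i * ∏ l ∈ Finset.univ.erase i, y l
  have hr : ∀ i : s, immFF i₀ (r i) = m i * immFF i₀ P := by
    intro i
    rw [hP, ← Finset.mul_prod_erase _ _ (Finset.mem_univ i), map_mul, map_mul, ← mul_assoc, hxy]
  have hr0 : r = 0 := by
    refine eq_zero_of_sum_map_mul γ (fun i : s => v i) (fun c hc => funext fun i => ?_) r ?_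
    · let g : ι → Y.functionField := fun l => if h : l ∈ s then immFF b (c ⟨l, h⟩) else 0
      have := hv g (by
        rw [← hc, ← Finset.sum_coe_sort]
        exact Finset.sum_congr rfl fun l _ => by simp only [g, l.2, dite_true, hγv]) i i.2
      simp only [g, i.2, dite_true] at this
      exact (map_eq_zero_iff _ (immFF_injective b)).mp this
    · apply immFF_injective i₀E
      rw [map_zero, map_sum, ← mul_zero (ffπ (immFF i₀ P)), ← hm, Finset.mul_sum,
        ← Finset.sum_coe_sort s]
      refine Finset.sum_congr rfl fun i _ => ?_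
      rw [map_mul, ← constFF_eq fX a ha,
        ← functionFieldMap_prodPoint_immFF fX fY j hjE a b ha hb γ hγ hgen]
      show ffπ (immFF i₀ (r i)) * constFF fX E (v i) = ffπ _ * (ffπ (m i) * _)
      rw [hr, map_mul]
      ring
  intro i hi
  have := hr ⟨i, hi⟩
  rw [hr0, Pi.zero_apply, map_zero] at this
  exact (mul_eq_zero.mp this.symm).resolve_right hP0

omit [IsAlgClosed K] [IsIntegral Y] [IsDomain C] in
include hγ ha hb a in
/-- The constants generate the function field of the product with `Spec E` over the functions of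
the product. -/
theorem mem_adjoin_range_constFF [Algebra (pullback fX fY).functionField
      (pullback fX (specStr K E)).functionField]
    (halgMap : ∀ z, algebraMap _ (pullback fX (specStr K E)).functionField z =
      functionFieldMap (prodPoint fX fY j hjE) hgen z)
    (f : (pullback fX (specStr K E)).functionField) :
    f ∈ IntermediateField.adjoin (pullback fX fY).functionField (Set.range (constFF fX E)) := by
  set i₀E := chartMap fX (specStr K E) a (𝟙 _) ha (Category.id_comp _)
  set A := IntermediateField.adjoin (pullback fX fY).functionField (Set.range (constFF fX E))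
  obtain ⟨x, y, hy, hxy⟩ := exists_imm_fraction i₀E f
  rw [show f = immFF i₀E x / immFF i₀E y by
    rw [← hxy, mul_div_cancel_right₀ _ ((map_ne_zero_iff _ (immFF_injective i₀E)).mpr hy)]]
  have hmem := immFF_chart_mem fX fY j hjE a b ha hb γ hγ hgen A.toSubfield.toSubring
    (fun z => halgMap (immFF (chartMap fX fY a b ha hb) z) ▸ A.algebraMap_mem _)
    (fun e => IntermediateField.subset_adjoin _ _ ⟨e, rfl⟩)
  exact div_mem (hmem x) (hmem y)

omit [IsAlgClosed K] [IsIntegral (pullback fX (specStr K E))] [IsDomain (B ⊗[K] E)] in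
/-- Functions on the second factor are regular at the points over its generic point. -/
theorem sndFF_mem_regularAt (P : Spec (CommRingCat.of (B ⊗[K] C)))
    (hw : pullback.snd fX fY (chartMap fX fY a b ha hb P) = genericPoint Y) (t : Y.functionField) :
    sndFF fX fY t ∈ regularAt (chartMap fX fY a b ha hb P) := by
  rw [snd_chartMap_apply] at hw
  have h0 := (imm_eq_genericPoint_iff b _).mp hw
  obtain ⟨x, y, hy, ht⟩ := exists_imm_fraction b t
  refine (mem_regularAt_imm (chartMap fX fY a b ha hb) P _).mpr
    ⟨(1 : B) ⊗ₜ[K] x, (1 : B) ⊗ₜ[K] y, fun hmem => hy ?_, ?_⟩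
  · have : y ∈ (⊥ : Ideal C) := h0 ▸ hmem
    simpa using this
  · rw [← sndFF_immFF fX fY a b ha hb, ← sndFF_immFF fX fY a b ha hb, ← map_mul, ht]

/-- In the maximal ideal of the ring of a point, a chart function vanishes at that point. -/
theorem mem_maximal_regularAt_iff {Z : Scheme.{u}} [IsIntegral Z] {R : CommRingCat.{u}}
    [IsDomain R] (i : Spec R ⟶ Z) [IsOpenImmersion i] (P : PrimeSpectrum R)
    (𝔫 : Ideal (regularAt (i P))) [𝔫.IsMaximal] (r : R) :
    (⟨immFF i r, immFF_mem_regularAt i P r⟩ : regularAt (i P)) ∈ 𝔫 ↔ r ∈ P.asIdeal := by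
  have : IsLocalRing (regularAt (i P)) := IsLocalRing.of_surjective'
    (algebraMap (Z.presheaf.stalk (i P)) Z.functionField).rangeRestrict
    (RingHom.rangeRestrict_surjective _)
  rw [IsLocalRing.eq_maximalIdeal ‹𝔫.IsMaximal›, IsLocalRing.mem_maximalIdeal, mem_nonunits_iff]
  constructor
  · intro hr
    by_contra hrP
    have hr0 : immFF i r ≠ 0 :=
      (map_ne_zero_iff _ (immFF_injective i)).mpr fun h0 => hrP (h0 ▸ P.asIdeal.zero_mem)
    exact hr (IsUnit.of_mul_eq_one ⟨(immFF i r)⁻¹,
      (mem_regularAt_imm i P _).mpr ⟨1, r, hrP, by rw [map_one, inv_mul_cancel₀ hr0]⟩⟩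
      (Subtype.ext (mul_inv_cancel₀ hr0)))
  · rintro hrP hu
    obtain ⟨u, hu⟩ := isUnit_iff_exists_inv.mp hu
    obtain ⟨x, y, hy, hxy⟩ := (mem_regularAt_imm i P _).mp u.2
    have h1 : immFF i r * (u : Z.functionField) = 1 := congrArg Subtype.val hu
    have h2 : immFF i y = immFF i (r * x) := by
      rw [map_mul, ← hxy, ← mul_assoc, h1, one_mul]
    exact hy (immFF_injective i h2 ▸ P.asIdeal.mul_mem_right x hrP)

omit [IsAlgClosed K] [IsIntegral X] [IsIntegral Y] [IsDomain C] in
include hγ in
/-- Let `D` have the equation `e` at the point `P` and become `principal h` on the product with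
`Spec E`. Then `e / h` is a unit of every integral ring extension of the functions regular at `P`
which contains the chart of the product with `Spec E`. -/
theorem quotient_mem_of_localEq (P : PrimeSpectrum (CommRingCat.of (B ⊗[K] C)))
    (D : cartier (pullback fX fY)) (e : ((pullback fX fY).functionField)ˣ)
    (he : D.1 (chartMap fX fY a b ha hb P) = QuotientGroup.mk e)
    (hDπ : D ∈ trivialAt (prodPoint fX fY j hjE (genericPoint _)))
    (h : ((pullback fX (specStr K E)).functionField)ˣ)
    (hh : principal h = pullback' (prodPoint fX fY j hjE) ⟨D, hDπ⟩)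
    [Algebra (regularAt (chartMap fX fY a b ha hb P)) (pullback fX (specStr K E)).functionField]
    (halgMap : ∀ w : regularAt (chartMap fX fY a b ha hb P),
      algebraMap _ (pullback fX (specStr K E)).functionField w =
        functionFieldMap (prodPoint fX fY j hjE) hgen w.1)
    (S : Subalgebra (regularAt (chartMap fX fY a b ha hb P))
      (pullback fX (specStr K E)).functionField)
    [Algebra.IsIntegral (regularAt (chartMap fX fY a b ha hb P)) S]
    (hS : ∀ z, immFF (chartMap fX (specStr K E) a (𝟙 _) ha (Category.id_comp _)) z ∈ S) :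
    functionFieldMap (prodPoint fX fY j hjE) hgen (e : (pullback fX fY).functionField) * ↑h⁻¹ ∈ S ∧
      (functionFieldMap (prodPoint fX fY j hjE) hgen (e : (pullback fX fY).functionField) *
        ↑h⁻¹)⁻¹ ∈ S := by
  let π := prodPoint fX fY j hjE
  let i := chartMap fX fY a b ha hb
  let iE := chartMap fX (specStr K E) a (𝟙 _) ha (Category.id_comp _)
  set f := functionFieldMap π hgen (e : (pullback fX fY).functionField) * ↑h⁻¹ with hf
  have hcase : ∀ 𝔪 : Ideal S, 𝔪.IsMaximal →
      ∃ z : S, z ∉ 𝔪 ∧ (z : (pullback fX (specStr K E)).functionField) * f ∈ S ∧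
      ∃ z' : S, z' ∉ 𝔪 ∧ (z' : (pullback fX (specStr K E)).functionField) * f⁻¹ ∈ S := by
    intro 𝔪 h𝔪
    let toS : B ⊗[K] E →+* S := (immFF iE).codRestrict S.toSubring hS
    let Q : PrimeSpectrum (CommRingCat.of (B ⊗[K] E)) := ⟨𝔪.comap toS, Ideal.IsPrime.comap _⟩
    have : (𝔪.comap (algebraMap (regularAt (i P)) S)).IsMaximal :=
      Ideal.isMaximal_comap_of_isIntegral_of_isMaximal 𝔪
    have hPQ : PrimeSpectrum.comap
        (Algebra.TensorProduct.map (AlgHom.id K B) γ).toRingHom Q = P := by
      refine PrimeSpectrum.ext (Ideal.ext fun r => ?_)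
      rw [← mem_maximal_regularAt_iff i P (𝔪.comap (algebraMap (regularAt (i P)) S)) r]
      show toS _ ∈ 𝔪 ↔ algebraMap (regularAt (i P)) S _ ∈ 𝔪
      rw [show toS ((Algebra.TensorProduct.map (AlgHom.id K B) γ).toRingHom r) =
        algebraMap (regularAt (i P)) S ⟨immFF i r, immFF_mem_regularAt i P r⟩ from Subtype.ext
          ((functionFieldMap_prodPoint_immFF fX fY j hjE a b ha hb γ hγ hgen r).symm.trans
            (halgMap ⟨immFF i r, immFF_mem_regularAt i P r⟩).symm)]
    have hπQ : π (iE Q) = i P := by
      rw [← hPQ]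
      exact ((Scheme.Hom.comp_apply iE π Q).symm.trans (congrArg (fun φ => φ Q)
        (chartMap_comp_prodPoint fX fY j hjE a b ha hb γ hγ))).trans rfl
    have heπ : e ∈ unitsAt (π (genericPoint _)) := by
      rw [hgen]; exact unitsAt_genericPoint e
    have hQ : (principal h).1 (iE Q) = QuotientGroup.mk (pullFunction π ⟨e, heπ⟩) := by
      rw [hh]
      exact pullback'_apply π ⟨D, hDπ⟩ (iE Q) ⟨e, heπ⟩ (by rw [hπQ]; exact he)
    have hunit : (pullFunction π ⟨e, heπ⟩) * h⁻¹ ∈ unitsAt (iE Q) := by
      rw [principal_apply, eq_comm, QuotientGroup.eq] at hQ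
      have := (unitsAt (iE Q)).inv_mem hQ
      rwa [mul_inv_rev, inv_inv, mul_comm] at this
    have hval : ((pullFunction π ⟨e, heπ⟩ * h⁻¹ : ((pullback fX (specStr K E)).functionField)ˣ) :
        (pullback fX (specStr K E)).functionField) = f := by
      rw [Units.val_mul, pullFunction_eq_functionFieldMap π hgen]
    obtain ⟨hr1, hr2⟩ := (mem_unitsAt_iff_regularAt _ _).mp hunit
    rw [hval] at hr1
    rw [Units.val_inv_eq_inv_val, hval] at hr2
    obtain ⟨x, y, hy, hxy⟩ := (mem_regularAt_imm iE Q _).mp hr1
    obtain ⟨x', y', hy', hxy'⟩ := (mem_regularAt_imm iE Q _).mp hr2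
    exact ⟨toS y, hy, by
        rw [show (toS y : (pullback fX (specStr K E)).functionField) = immFF iE y from rfl,
          mul_comm, hxy]
        exact hS x, toS y', hy', by
        rw [show (toS y' : (pullback fX (specStr K E)).functionField) = immFF iE y' from rfl,
          mul_comm, hxy']
        exact hS x'⟩
  refine ⟨mem_of_forall_maximal_mul_mem S _ fun 𝔪 hm => ?_,
    mem_of_forall_maximal_mul_mem S _ fun 𝔪 hm => ?_⟩
  · obtain ⟨z, hz, hzf, -⟩ := hcase 𝔪 hm; exact ⟨z, hz, hzf⟩
  · obtain ⟨-, -, -, z', hz', hzf⟩ := hcase 𝔪 hm; exact ⟨z', hz', hzf⟩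

end ChartPoint

/-- A divisor that becomes principal after an algebraic extension of the generic point of the
second factor has a power which is principal there. -/
theorem exists_pow_eq_over_generic [IsIntegral (pullback fX (specStr K E))]
    (hj : imagePoint j = genericPoint Y) (halg : (genValue j hj).IsIntegral)
    (D : cartier (pullback fX fY))
    (hD : pullClass (prodPoint fX fY j hjE) (QuotientGroup.mk D) = 1) :
    ∃ (d : ℕ) (h : ((pullback fX fY).functionField)ˣ), 0 < d ∧
      ∀ w : ↥(pullback fX fY), pullback.snd fX fY w = genericPoint Y →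
        (D ^ d * principal h).1 w = 1 := by
  classical
  -- a chart at the generic point, through which the point factors
  obtain ⟨C, _, _, _, b, _, hb, hηb⟩ := exists_affine_chart fY (genericPoint Y)
  obtain ⟨γ, hγj, hγ, hγv⟩ := exists_chart_point fY j hj hjE b hb
  obtain ⟨B₀, _, _, _, a₀, _, ha₀, -⟩ := exists_affine_chart fX (genericPoint X)
  have := isDomain_tensor K B₀ C
  have := isDomain_tensor K B₀ E
  have hgen : prodPoint fX fY j hjE (genericPoint _) = genericPoint _ :=
    map_genericPoint_of_chart _ _ (prodPoint fX fY j hjE) _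
      (chartMap_comp_prodPoint fX fY j hjE a₀ b ha₀ hb γ hγj) (injective_tensor_map_id γ hγ)
  -- the four fields
  let : Algebra Y.functionField E := (genValue j hj).toAlgebra
  have : Algebra.IsIntegral Y.functionField E := ⟨halg⟩
  let : Algebra (pullback fX fY).functionField (pullback fX (specStr K E)).functionField :=
    (functionFieldMap (prodPoint fX fY j hjE) hgen).hom.toAlgebra
  let : Algebra Y.functionField (pullback fX fY).functionField := (sndFF fX fY).toAlgebra
  let : Algebra Y.functionField (pullback fX (specStr K E)).functionField :=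
    ((functionFieldMap (prodPoint fX fY j hjE) hgen).hom.comp (sndFF fX fY)).toAlgebra
  have : IsScalarTower Y.functionField (pullback fX fY).functionField
      (pullback fX (specStr K E)).functionField := IsScalarTower.of_algebraMap_eq' rfl
  let κ : E →ₐ[Y.functionField] (pullback fX (specStr K E)).functionField :=
    { constFF fX E with
      commutes' := fun t => (functionFieldMap_prodPoint_sndFF fX fY j hjE a₀ b ha₀ hb γ hγj hgen
        hj hγv t).symm }
  have hκ : ∀ t : Set E, LinearIndepOn Y.functionField id t →
      LinearIndepOn (pullback fX fY).functionField κ t := fun t ht =>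
    linearIndepOn_iff'.mpr fun s m hst hm =>
      eq_zero_of_sum_constFF fX fY j hjE a₀ b ha₀ hb γ hγj hgen hj hγv id s
        (fun g hg => linearIndepOn_iff'.mp ht s g hst hg) m hm
  -- the function trivialising the pullback and its norm
  have hDπ : D ∈ trivialAt (prodPoint fX fY j hjE (genericPoint _)) := by
    rw [hgen]; exact trivialAt_genericPoint D
  rw [show (QuotientGroup.mk D : CDivClass (pullback fX fY)) =
    QuotientGroup.mk (⟨D, hDπ⟩ : trivialAt (prodPoint fX fY j hjE (genericPoint _))).1 from rfl,
    pullClass_mk, QuotientGroup.eq_one_iff] at hD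
  obtain ⟨h, hh⟩ := hD
  obtain ⟨d, N, hd, hN⟩ := exists_pow_div_norm_mem κ hκ h (mem_adjoin_range_constFF fX fY j hjE a₀ b
    ha₀ hb γ hγj hgen (fun _ => rfl) _)
  refine ⟨d, N⁻¹, hd, fun w hw => ?_⟩
  -- a chart at the point
  obtain ⟨B, _, _, _, a, _, ha, hwa⟩ := exists_affine_chart fX (pullback.fst fX fY w)
  have := isDomain_tensor K B C
  have := isDomain_tensor K B E
  obtain ⟨P, rfl⟩ : w ∈ Set.range (chartMap fX fY a b ha hb) := by
    rw [range_chartMap]; exact ⟨hwa, by rw [Set.mem_preimage, hw]; exact hηb⟩
  have hY : ∀ t : Y.functionField, sndFF fX fY t ∈ regularAt (chartMap fX fY a b ha hb P) :=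
    sndFF_mem_regularAt fX fY a b ha hb P hw
  obtain ⟨e, he⟩ := exists_localEq D (chartMap fX fY a b ha hb P)
  let : Algebra Y.functionField (regularAt (chartMap fX fY a b ha hb P)) :=
    ((sndFF fX fY).codRestrict _ hY).toAlgebra
  have : IsScalarTower Y.functionField (regularAt (chartMap fX fY a b ha hb P))
      (pullback fX (specStr K E)).functionField := IsScalarTower.of_algebraMap_eq' rfl
  set S := Algebra.adjoin (regularAt (chartMap fX fY a b ha hb P)) (Set.range κ)
  have : Algebra.IsIntegral (regularAt (chartMap fX fY a b ha hb P)) S :=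
    Algebra.IsIntegral.adjoin (by
      rintro _ ⟨x, rfl⟩
      exact ((Algebra.IsIntegral.isIntegral (R := Y.functionField) x).map κ).tower_top)
  obtain ⟨hf, hf'⟩ := quotient_mem_of_localEq fX fY j hjE a b ha hb γ hγj hgen P D e he hDπ h hh
    (fun _ => rfl) S (immFF_chart_mem fX fY j hjE a b ha hb γ hγj hgen S.toSubring
      (fun z => S.algebraMap_mem ⟨_, immFF_mem_regularAt _ P z⟩)
      fun x => Algebra.subset_adjoin ⟨x, rfl⟩)
  have hunit : e ^ d * N⁻¹ ∈ unitsAt (chartMap fX fY a b ha hb P) :=
    (mem_unitsAt_iff_regularAt _ _).mpr (hN _ hY e hf hf')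
  show (D ^ d).1 _ * (principal N⁻¹).1 _ = 1
  rw [principal_apply, SubmonoidClass.coe_pow, Pi.pow_apply, he, ← QuotientGroup.mk_pow,
    ← QuotientGroup.mk_mul]
  exact (QuotientGroup.eq_one_iff _).mpr hunit

end FLTAgent.AbelianTorsion
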