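import Mathlib
import Fermat.Agent.AbelianTorsion.SeesawNorm

/-!
# Effective divisors and their linear systems

`IsEffective` divisors, the sets `linSet` of functions with bounded poles, and their behaviour
under products, principal divisors and pullback.
-/

set_option autoImplicit false

noncomputable section

universe u

open CategoryTheory CategoryTheory.Limits AlgebraicGeometry
open scoped IsMulCommutative

namespace FLTAgent.AbelianTorsion

variable {X Y : Scheme.{u}} [IsIntegral X] [IsIntegral Y]

/-- An effective divisor. -/
def IsEffective (D : cartier X) : Prop :=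
  ∀ (x : X) (e : (X.functionField)ˣ), D.1 x = QuotientGroup.mk e →
    (e : X.functionField) ∈ regularAt x

/-- The functions with poles bounded by a divisor. -/
def linSet (D : cartier X) : Set X.functionField :=
  {h | ∀ (x : X) (e : (X.functionField)ˣ), D.1 x = QuotientGroup.mk e →
    h * (e : X.functionField) ∈ regularAt x}

theorem mem_regularAt_of_eq {x : X} {D : cartier X} {e e' : (X.functionField)ˣ}
    (he : D.1 x = QuotientGroup.mk e) (he' : D.1 x = QuotientGroup.mk e') {h : X.functionField}
    (hh : h * (e : X.functionField) ∈ regularAt x) : h * (e' : X.functionField) ∈ regularAt x := by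
  obtain ⟨w, hw⟩ := mem_unitsAt.mp (QuotientGroup.eq.mp (he.symm.trans he'))
  rw [show h * (e' : X.functionField) = h * e *
    ((e⁻¹ * e' : (X.functionField)ˣ) : X.functionField) by
    rw [mul_assoc, ← Units.val_mul, mul_inv_cancel_left]]
  exact mul_mem hh ⟨w, hw⟩

/-- It suffices to test one local equation at each point. -/
theorem mem_linSet_of_exists {D : cartier X} {h : X.functionField}
    (H : ∀ x, ∃ e : (X.functionField)ˣ, D.1 x = QuotientGroup.mk e ∧
      h * (e : X.functionField) ∈ regularAt x) : h ∈ linSet D := by
  intro x e he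
  obtain ⟨e₀, he₀, hh⟩ := H x
  exact mem_regularAt_of_eq he₀ he hh

theorem isEffective_iff {D : cartier X} : IsEffective D ↔ (1 : X.functionField) ∈ linSet D := by
  simp [IsEffective, linSet]

theorem mul_mem_linSet {D E : cartier X} {a b : X.functionField} (ha : a ∈ linSet D)
    (hb : b ∈ linSet E) : a * b ∈ linSet (D * E) := by
  refine mem_linSet_of_exists fun x => ?_
  obtain ⟨e, he⟩ := exists_localEq D x
  obtain ⟨e', he'⟩ := exists_localEq E x
  refine ⟨e * e', ?_, ?_⟩
  · show (D.1 * E.1) x = _
    rw [Pi.mul_apply, he, he', QuotientGroup.mk_mul]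
  · rw [Units.val_mul, mul_mul_mul_comm]
    exact mul_mem (ha x e he) (hb x e' he')

theorem isEffective_one : IsEffective (1 : cartier X) := by
  rw [isEffective_iff]
  exact mem_linSet_of_exists fun x => ⟨1, rfl, by rw [one_mul, Units.val_one]; exact one_mem _⟩

theorem IsEffective.mul {D E : cartier X} (hD : IsEffective D) (hE : IsEffective E) :
    IsEffective (D * E) := by
  rw [isEffective_iff] at *
  simpa using mul_mem_linSet hD hE

theorem IsEffective.pow {D : cartier X} (hD : IsEffective D) (n : ℕ) : IsEffective (D ^ n) := by
  induction n with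
  | zero => rw [pow_zero]; exact isEffective_one
  | succ n ih => rw [pow_succ]; exact ih.mul hD

theorem pow_mem_linSet {D : cartier X} {a : X.functionField} (ha : a ∈ linSet D) (n : ℕ) :
    a ^ n ∈ linSet (D ^ n) := by
  induction n with
  | zero => rw [pow_zero, pow_zero]; exact isEffective_iff.mp isEffective_one
  | succ n ih => rw [pow_succ, pow_succ]; exact mul_mem_linSet ih ha

theorem linSet_subset_mul {D E : cartier X} (hE : IsEffective E) : linSet D ⊆ linSet (D * E) :=
  fun a ha => by simpa using mul_mem_linSet ha (isEffective_iff.mp hE)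

/-- Multiplication by a function shifts linear systems. -/
theorem mul_mem_linSet_of_principal {D : cartier X} (φ : (X.functionField)ˣ) {a : X.functionField}
    (ha : a ∈ linSet (D * principal φ)) : a * (φ : X.functionField) ∈ linSet D := by
  intro x e he
  have h := ha x (e * φ) (by
    show (D.1 * (principal φ).1) x = _
    rw [Pi.mul_apply, he, principal_apply, QuotientGroup.mk_mul])
  rwa [Units.val_mul, mul_comm (e : X.functionField), ← mul_assoc] at h

theorem functionFieldMap_regular (φ : Y ⟶ X) (h : φ (genericPoint Y) = genericPoint X) {y : Y}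
    {a : X.functionField} (ha : a ∈ regularAt (φ y)) : functionFieldMap φ h a ∈ regularAt y := by
  obtain ⟨w, rfl⟩ := ha
  refine ⟨φ.stalkMap y w, ?_⟩
  have hy : genericPoint Y ⤳ y := (genericPoint_spec Y).specializes trivial
  refine (Scheme.Hom.stalkSpecializes_stalkMap_apply φ _ _ hy w).symm.trans ?_
  show φ.stalkMap (genericPoint Y) (X.presheaf.stalkSpecializes (hy.map φ.continuous) w) =
    φ.stalkMap (genericPoint Y) (X.presheaf.stalkSpecializes (specializes_of_eq h)
      (X.presheaf.stalkSpecializes ((genericPoint_spec X).specializes trivial) w))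
  rw [← ConcreteCategory.comp_apply (X.presheaf.stalkSpecializes _) (X.presheaf.stalkSpecializes _),
    TopCat.Presheaf.stalkSpecializes_comp]

/-- Pullback of linear systems. -/
theorem functionFieldMap_mem_linSet (φ : Y ⟶ X) (h : φ (genericPoint Y) = genericPoint X)
    (D : trivialAt (φ (genericPoint Y))) {a : X.functionField} (ha : a ∈ linSet D.1) :
    functionFieldMap φ h a ∈ linSet (pullback' φ D) := by
  refine mem_linSet_of_exists fun y => ?_
  obtain ⟨e, he⟩ := exists_localEq D.1 (φ y)
  have hu : e ∈ unitsAt (φ (genericPoint Y)) := mem_unitsAt_of_trivialAt D.2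
    (((genericPoint_spec Y).specializes trivial).map φ.continuous) he
  refine ⟨pullFunction φ ⟨e, hu⟩, pullback'_apply φ D y ⟨e, hu⟩ he, ?_⟩
  rw [pullFunction_eq_functionFieldMap φ h, ← map_mul]
  exact functionFieldMap_regular φ h (ha _ e he)

theorem IsEffective.pullback (φ : Y ⟶ X) (h : φ (genericPoint Y) = genericPoint X)
    (D : trivialAt (φ (genericPoint Y))) (hD : IsEffective D.1) :
    IsEffective (pullback' φ D) := by
  rw [isEffective_iff] at *
  simpa using functionFieldMap_mem_linSet φ h D hD

end FLTAgent.AbelianTorsion
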