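import Mathlib
import Fermat.Agent.AbelianTorsion.Fibre
import Fermat.Agent.AbelianTorsion.Multiplication

/-!
# The kernel of multiplication by `n` has as many rational points as the degree

`natCard_torsion_eq_degree`: the rational `n`-torsion points of an abelian variety are counted by
the degree of multiplication by `n` on the function field.
-/

set_option autoImplicit false

universe u

open CategoryTheory CategoryTheory.Limits AlgebraicGeometry NeronModelInfra GoodReductionJacobian

namespace FLTAgent.AbelianTorsion

variable {K : Type u} [Field K] [IsAlgClosed K] {A : Scheme.{u}}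

/-- An abelian variety is an integral scheme. -/
theorem isIntegral_of_bundle (f : A ⟶ Spec (CommRingCat.of K))
    (hA : AbelianSchemePropertyBundle K f) (g : ℕ) [SmoothOfRelativeDimension g f] :
    IsIntegral A := by
  have := hA.proper
  have hconn : _root_.IsConnected (Set.univ : Set A) := by
    have h := hA.connectedFibres (IsLocalRing.closedPoint K)
    convert h using 1
    exact (Set.eq_univ_of_forall fun a => Subsingleton.elim (f a) _).symm
  have : ConnectedSpace A := connectedSpace_iff_univ.mpr hconn
  have : CompactSpace A := QuasiCompact.compactSpace_of_compactSpace f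
  exact isIntegral_of_connected f (g := g)

variable {f : A ⟶ Spec (CommRingCat.of K)} (L : RelativeGroupLaw K f)

/-- The rational torsion points are counted by the degree of the extension of function fields. -/
theorem natCard_torsion_eq_degree (hc : L.IsCommutative) [IsProper f] [IsIntegral A]
    {g : ℕ} [SmoothOfRelativeDimension g f] {n : ℕ}
    [IsFinite (L.schemeNsmul n)] [AlgebraicGeometry.FormallyUnramified (L.schemeNsmul n)] :
    Nat.card {x : SchemeHomOver (𝟙 (Spec (CommRingCat.of K))) f //
        L.IsTorsionPoint (𝟙 (Spec (CommRingCat.of K))) n x} =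
      functionFieldDegree (L.schemeNsmul n)
        (map_genericPoint f (g := g) (L.schemeNsmul n) (L.schemeNsmul_over n)) := by
  let φ := L.schemeNsmul n
  have hgen := map_genericPoint f (g := g) φ (L.schemeNsmul_over n)
  have : JacobsonSpace A := LocallyOfFiniteType.jacobsonSpace f
  obtain ⟨b, hb, hcard⟩ := exists_fibre_natCard f (g := g) φ (L.schemeNsmul_over n)
  rw [← hcard]
  let pt := pointEquivClosedPoint (K := K) f
  have hpt : ∀ x : SchemeHomOver (𝟙 (Spec (CommRingCat.of K))) f,
      φ ((pt x).1) = (pt (L.nsmul _ n x)).1 := fun x => by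
    show φ (x.1 (IsLocalRing.closedPoint K)) = (L.nsmul _ n x).1 (IsLocalRing.closedPoint K)
    rw [← comp_schemeNsmul L _ n x]
    rfl
  -- the points of the fibre are closed
  have hclosed : ∀ a, φ a = b → IsClosed {a} := by
    intro a ha
    have hfin : (φ ⁻¹' {b}).Finite := φ.finite_preimage_singleton b
    have hsub : closure {a} ⊆ φ ⁻¹' {b} :=
      closure_minimal (Set.singleton_subset_iff.mpr ha) (hb.preimage φ.continuous)
    have hS : ((closure {a}) ∩ closedPoints A).Finite :=
      hfin.subset (Set.inter_subset_left.trans hsub)
    have hScl : IsClosed ((closure {a}) ∩ closedPoints A) := by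
      have : (closure {a}) ∩ closedPoints A =
          ⋃ c ∈ ((closure {a}) ∩ closedPoints A), {c} := (Set.biUnion_of_singleton _).symm
      rw [this]
      exact hS.isClosed_biUnion fun c hc => hc.2
    have h := JacobsonSpace.closure_inter_closedPoints_eq_closure
      (X := A) (isClosed_closure (s := {a})).isLocallyClosed
    rw [hScl.closure_eq, closure_closure] at h
    exact (h.symm.le (subset_closure rfl)).2
  obtain ⟨a₀, ha₀⟩ : ∃ a, φ a = b := by
    have : Set.range φ = Set.univ := by
      refine Set.eq_univ_of_univ_subset ?_
      rw [← (genericPoint_spec A).def]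
      exact closure_minimal (Set.singleton_subset_iff.mpr ⟨_, hgen⟩) φ.isClosedMap.isClosed_range
    exact this.symm.le (Set.mem_univ b)
  let x₀ := pt.symm ⟨a₀, hclosed a₀ ha₀⟩
  let y := L.nsmul _ n x₀
  have hy : (pt y).1 = b := by
    rw [← hpt, Equiv.apply_symm_apply]
    exact ha₀
  let := pointCommGroup L hc (𝟙 (Spec (CommRingCat.of K)))
  calc Nat.card {x : SchemeHomOver (𝟙 (Spec (CommRingCat.of K))) f //
        L.IsTorsionPoint (𝟙 (Spec (CommRingCat.of K))) n x}
      = Nat.card {x : SchemeHomOver (𝟙 (Spec (CommRingCat.of K))) f // L.nsmul _ n x = y} := by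
        refine Nat.card_congr (Equiv.subtypeEquiv (Equiv.mulRight x₀) fun x => ?_)
        show L.nsmul _ n x = L.one _ ↔ L.nsmul _ n (x * x₀) = L.nsmul _ n x₀
        rw [nsmul_eq_pow L hc, nsmul_eq_pow L hc, nsmul_eq_pow L hc, mul_pow]
        exact ⟨fun h => by rw [h]; exact one_mul _, fun h => mul_eq_right.mp h⟩
    _ = Nat.card {a : A // φ a = b} := by
        refine Nat.card_congr (Equiv.ofBijective (fun x => ⟨(pt x.1).1, ?_⟩)
          ⟨fun x x' h => ?_, fun a => ?_⟩)
        · rw [hpt, x.2, hy]
        · replace h := congrArg Subtype.val h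
          dsimp only at h
          exact Subtype.ext (pt.injective (Subtype.ext h))
        · refine ⟨⟨pt.symm ⟨a.1, hclosed a.1 a.2⟩, ?_⟩, Subtype.ext ?_⟩
          · apply pt.injective
            refine Subtype.ext ?_
            rw [← hpt, Equiv.apply_symm_apply, hy]
            exact a.2
          · show (pt (pt.symm _)).1 = a.1
            rw [Equiv.apply_symm_apply]

end FLTAgent.AbelianTorsion
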