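import Mathlib
import Fermat.Agent.AbelianTorsion.Effective
import Fermat.Agent.AbelianTorsion.Kernel
import Fermat.Agent.AbelianTorsion.PointPullback
import Fermat.Agent.FFBasic.Fundamental

/-!
# Values at places of functions on a finite cover, and truncations of local rings

Values at places and at centres on a finite cover (`valueAt_eq_genValue`, `map_centreAt`) and the
bound `IsParameterSystem.finrank_truncation_le` on truncated local rings. Used in `Growth`.
-/

set_option autoImplicit false

noncomputable section

universe u

open CategoryTheory CategoryTheory.Limits AlgebraicGeometry NeronModelInfra GoodReductionJacobian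
open IsLocalRing AlgebraicCurve
open FLTAgent.FFBasic (IsFunctionField)

namespace FLTAgent.AbelianTorsion

/-- A finite extension of fields embeds over a given map into a finite extension of the target. -/
theorem exists_finite_lift {E F F₀ : Type u} [Field E] [Field F] [Field F₀] (a : E →+* F)
    (ha : a.Finite) (b : E →+* F₀) :
    ∃ (F₁ : IntermediateField F₀ (AlgebraicClosure F₀)) (_ : FiniteDimensional F₀ F₁)
      (σ : F →+* F₁), ∀ e, σ (a e) = algebraMap F₀ F₁ (b e) := by
  classical
  let : Algebra E F := a.toAlgebra
  let : Algebra E (AlgebraicClosure F₀) := ((algebraMap F₀ (AlgebraicClosure F₀)).comp b).toAlgebra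
  have : Module.Finite E F := ha
  let σ : F →ₐ[E] AlgebraicClosure F₀ := IsAlgClosed.lift
  let bs := Module.finBasis E F
  set S := Set.range fun i => σ (bs i)
  let F₁ := IntermediateField.adjoin F₀ S
  have hσ : ∀ y, σ y ∈ F₁ := fun y => by
    rw [← bs.sum_repr y, map_sum]
    refine sum_mem fun i _ => ?_
    rw [map_smul, Algebra.smul_def]
    exact mul_mem (F₁.algebraMap_mem _) (IntermediateField.subset_adjoin _ _ ⟨i, rfl⟩)
  have : Finite S := (Set.finite_range _).to_subtype
  exact ⟨F₁, IntermediateField.finiteDimensional_adjoin fun x _ => Algebra.IsIntegral.isIntegral x,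
    σ.toRingHom.codRestrict F₁ hσ, fun e => Subtype.ext (σ.commutes e)⟩

section Truncation

variable {K : Type u} [Field K] {O : Type u} [CommRing O] [IsLocalRing O] [Algebra K O]
  {g : ℕ} {x : Fin g → O}

/-- The truncations of a local ring with `g` parameters. -/
theorem IsParameterSystem.finrank_truncation_le (hx : IsParameterSystem (K := K) x) (N : ℕ) :
    Module.Finite K (O ⧸ maximalIdeal O ^ N) ∧
      Module.finrank K (O ⧸ maximalIdeal O ^ N) ≤ N ^ g := by
  classical
  let v : (Fin g → Fin N) → O ⧸ maximalIdeal O ^ N :=
    fun e => Ideal.Quotient.mk _ (∏ i, x i ^ (e i : ℕ))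
  have hspan : Submodule.span K (Set.range v) = ⊤ := by
    rw [eq_top_iff]
    intro y _
    obtain ⟨q, rfl⟩ := hx.truncMap_surjective N y
    obtain ⟨p, rfl⟩ := Ideal.Quotient.mk_surjective q
    rw [hx.truncMap_mk]
    induction p using MvPolynomial.induction_on' with
    | monomial d c =>
      rw [MvPolynomial.aeval_monomial, Finsupp.prod_fintype _ _ (fun i => pow_zero _), map_mul,
        Ideal.Quotient.mk_algebraMap, ← Algebra.smul_def]
      refine Submodule.smul_mem _ _ ?_
      by_cases hd : ∀ i, d i < N
      · exact Submodule.subset_span ⟨fun i => ⟨d i, hd i⟩, rfl⟩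
      · push Not at hd
        obtain ⟨i, hi⟩ := hd
        have h0 : Ideal.Quotient.mk (maximalIdeal O ^ N) (∏ l, x l ^ d l) = 0 := by
          rw [Ideal.Quotient.eq_zero_iff_mem]
          refine Ideal.mem_of_dvd _ (Finset.dvd_prod_of_mem _ (Finset.mem_univ i)) ?_
          exact Ideal.pow_le_pow_right hi (Ideal.pow_mem_pow
            (hx.span_eq ▸ Ideal.subset_span ⟨i, rfl⟩) _)
        rw [h0]
        exact zero_mem _
    | add p q hp hq =>
      rw [map_add, map_add]
      exact add_mem (hp Submodule.mem_top) (hq Submodule.mem_top)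
  refine ⟨⟨hspan ▸ Submodule.fg_span (Set.finite_range v)⟩, ?_⟩
  have h : Set.finrank K (Set.range v) ≤ Fintype.card (Fin g → Fin N) := finrank_range_le_card v
  rw [Set.finrank, hspan, finrank_top] at h
  simpa using h

end Truncation

section Values

variable {Y : Scheme.{u}} [IsIntegral Y] {E : Type u} [Field E]
  (j : Spec (CommRingCat.of E) ⟶ Y) (hj : imagePoint j = genericPoint Y)

/-- Values of regular functions at an integral point. -/
theorem genValue_algebraMap {R : CommRingCat.{u}} [IsLocalRing R] (r : R ⟶ CommRingCat.of E)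
    (Ψ : Spec R ⟶ Y) (h : Spec.map r ≫ Ψ = j) (w : Y.presheaf.stalk (Ψ (closedPoint R))) :
    genValue j hj (algebraMap _ Y.functionField w) = r (Scheme.stalkClosedPointTo Ψ w) := by
  obtain ⟨hsp, hcomp⟩ := stalkClosedPointTo_specMap r Ψ j h
  refine Eq.trans ?_ (DFunLike.congr_fun (congrArg CommRingCat.Hom.hom hcomp) w)
  show (Y.presheaf.stalkSpecializes (specializes_of_eq hj) ≫ Scheme.stalkClosedPointTo j)
      (Y.presheaf.stalkSpecializes ((genericPoint_spec Y).specializes trivial) w) = _
  simp only [← ConcreteCategory.comp_apply]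
  rw [TopCat.Presheaf.stalkSpecializes_comp_assoc]

theorem valueAt_eq_genValue (e : unitsAt (imagePoint j)) :
    (valueAt j e : E) = genValue j hj (e.1 : Y.functionField) := by
  rw [valueAt_spec j e (Y.presheaf.stalkSpecializes (specializes_of_eq hj) (e.1 : Y.functionField))
    ((algebraMap_stalkSpecializes _ _).trans (DFunLike.congr_fun (congrArg CommRingCat.Hom.hom
      (Y.presheaf.stalkSpecializes_refl (genericPoint Y))) _))]
  rfl

theorem imagePoint_specMap_fromSpecStalk (σ : Y.functionField →+* E) :
    imagePoint (Spec.map (CommRingCat.ofHom σ) ≫ Y.fromSpecStalk (genericPoint Y)) =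
      genericPoint Y := by
  refine (Scheme.Hom.comp_apply _ _ _).trans ?_
  refine Eq.trans (congrArg _ ?_) Scheme.fromSpecStalk_closedPoint
  have : Subsingleton (PrimeSpectrum Y.functionField) := inferInstance
  exact Subsingleton.elim (α := PrimeSpectrum Y.functionField) _ _

theorem genValue_specMap_fromSpecStalk (σ : Y.functionField →+* E) :
    genValue (Spec.map (CommRingCat.ofHom σ) ≫ Y.fromSpecStalk (genericPoint Y))
      (imagePoint_specMap_fromSpecStalk σ) = σ := by
  have h : CommRingCat.ofHom (genValue (Spec.map (CommRingCat.ofHom σ) ≫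
      Y.fromSpecStalk (genericPoint Y)) (imagePoint_specMap_fromSpecStalk σ)) =
        CommRingCat.ofHom σ := by
    apply Spec.map_injective
    rw [← cancel_mono (Y.fromSpecStalk (genericPoint Y)), specMap_genValue]
  exact congrArg CommRingCat.Hom.hom h

/-- Pulling back a function regular at the image. -/
theorem functionFieldMap_algebraMap_stalk {X : Scheme.{u}} [IsIntegral X] (φ : Y ⟶ X)
    (h : φ (genericPoint Y) = genericPoint X) (y : Y) (w : X.presheaf.stalk (φ y)) :
    functionFieldMap φ h (algebraMap _ X.functionField w) =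
      algebraMap _ Y.functionField (φ.stalkMap y w) := by
  have hy : genericPoint Y ⤳ y := (genericPoint_spec Y).specializes trivial
  refine Eq.trans ?_ (Scheme.Hom.stalkSpecializes_stalkMap_apply φ _ _ hy w)
  show φ.stalkMap (genericPoint Y) (X.presheaf.stalkSpecializes (specializes_of_eq h)
      (X.presheaf.stalkSpecializes ((genericPoint_spec X).specializes trivial) w)) =
    φ.stalkMap (genericPoint Y) (X.presheaf.stalkSpecializes (hy.map φ.continuous) w)
  rw [← ConcreteCategory.comp_apply (X.presheaf.stalkSpecializes _) (X.presheaf.stalkSpecializes _),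
    TopCat.Presheaf.stalkSpecializes_comp]

end Values

section Centre

variable {K k : Type u} [Field K] [Field k] {A B : Scheme.{u}}
  (f : A ⟶ Spec (CommRingCat.of K)) [IsProper f] (f' : B ⟶ Spec (CommRingCat.of K)) [IsProper f']
  {F F' : Type u} [Field F] [Field F'] [Algebra K k] [Algebra k F] [Algebra k F'] [Algebra K F]
  [Algebra K F'] [Algebra F F'] [IsScalarTower K k F] [IsScalarTower K k F'] [IsScalarTower k F F']
  [Algebra.IsIntegral F F']

/-- The centre of a place below is the image of the centre of the place. -/
theorem map_centreAt (φ : B ⟶ A) (hφ : φ ≫ f = f') (Q : Place k F')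
    (x : SchemeHomOver (specStr K F) f) (x' : SchemeHomOver (specStr K F') f')
    (hx : x'.1 ≫ φ = Spec.map (CommRingCat.ofHom (algebraMap F F')) ≫ x.1) :
    φ (centreAt f' Q x') = centreAt f (Q.restrict F) x := by
  let := placeAlgebra (K := K) Q
  let := placeAlgebra (K := K) (Q.restrict F)
  have : IsScalarTower K Q.toValuationSubring F' :=
    IsScalarTower.of_algebraMap_eq fun a => IsScalarTower.algebraMap_apply K k F' a
  let r := CommRingCat.ofHom (Place.restrictInclusion F Q)
  have hr : Spec.map r ≫ specStr K (Q.restrict F).toValuationSubring =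
      specStr K Q.toValuationSubring := by
    rw [← Spec.map_comp]
    congr 1
    refine CommRingCat.hom_ext (RingHom.ext fun c => Subtype.ext ?_)
    show algebraMap F F' (algebraMap k F (algebraMap K k c)) = algebraMap k F' (algebraMap K k c)
    rw [← IsScalarTower.algebraMap_apply k F F']
  let y₁ : SchemeHomOver (specStr K Q.toValuationSubring) f :=
    ⟨(atPlace f' Q x').1 ≫ φ, by rw [Category.assoc, hφ]; exact (atPlace f' Q x').2⟩
  let y₂ : SchemeHomOver (specStr K Q.toValuationSubring) f :=
    ⟨Spec.map r ≫ (atPlace f (Q.restrict F) x).1, by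
      rw [Category.assoc, (atPlace f (Q.restrict F) x).2, hr]⟩
  let x'' : SchemeHomOver (specStr K F') f :=
    ⟨x'.1 ≫ φ, by rw [Category.assoc, hφ]; exact x'.2⟩
  have h1 : pointMap f (IsScalarTower.toAlgHom K Q.toValuationSubring F') y₁ = x'' := by
    refine Subtype.ext ?_
    show Spec.map (CommRingCat.ofHom (algebraMap Q.toValuationSubring F')) ≫ (_ ≫ φ) = x'.1 ≫ φ
    rw [← Category.assoc, atPlace_spec]
  have h2 : pointMap f (IsScalarTower.toAlgHom K Q.toValuationSubring F') y₂ = x'' := by
    refine Subtype.ext ?_
    show Spec.map (CommRingCat.ofHom (algebraMap Q.toValuationSubring F')) ≫ (_ ≫ _) = x'.1 ≫ φ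
    rw [hx]
    conv_rhs => rw [← atPlace_spec f (Q.restrict F) x, ← Category.assoc, ← Spec.map_comp]
    rw [← Category.assoc, ← Spec.map_comp]
    rfl
  have h := congrArg (fun y : SchemeHomOver (specStr K Q.toValuationSubring) f =>
    y.1 (closedPoint Q.toValuationSubring))
    ((exists_pointMap_eq (R := Q.toValuationSubring) f x'').unique h1 h2)
  refine (Scheme.Hom.comp_apply _ _ _).symm.trans (h.trans ?_)
  refine (Scheme.Hom.comp_apply _ _ _).trans (congrArg (atPlace f (Q.restrict F) x).1 ?_)
  exact comap_closedPoint (Place.restrictInclusion F Q)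

end Centre

end FLTAgent.AbelianTorsion
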