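import Mathlib
import Fermat.Agent.AbelianTorsion.GrowthLocal
import Fermat.Agent.FFRiemannRoch.LSpace

/-!
# Growth of linear systems pulled back by multiplication

Functions in a linear system pulled back along multiplication by `m` are determined by their
truncations at the points of the fibre over the origin, to an order exceeding the degree of the
divisor on a curve through the generic point.
-/

set_option autoImplicit false

noncomputable section

universe u

open CategoryTheory CategoryTheory.Limits AlgebraicGeometry NeronModelInfra GoodReductionJacobian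
open IsLocalRing AlgebraicCurve
open FLTAgent.FFBasic (IsFunctionField)
open scoped IsMulCommutative

namespace FLTAgent.AbelianTorsion

variable {K : Type u} [Field K] {A : Scheme.{u}} {f : A ⟶ Spec (CommRingCat.of K)} [IsIntegral A]

theorem algebraMap_algebraMap_stalk (y : A) (c : K) :
    letI := stalkAlgebra f y
    letI := stalkAlgebra f (genericPoint A)
    algebraMap (A.presheaf.stalk y) A.functionField (algebraMap K (A.presheaf.stalk y) c) =
      algebraMap K A.functionField c := by
  show algebraMap _ A.functionField (A.presheaf.germ ⊤ y trivial (baseRingHom f ⊤ c)) =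
    A.presheaf.germ ⊤ (genericPoint A) trivial (baseRingHom f ⊤ c)
  rw [RingHom.algebraMap_toAlgebra]
  exact TopCat.Presheaf.germ_stalkSpecializes_apply (F := A.presheaf) (U := ⊤) _ _ _

variable [IsProper f] [CompactSpace A] {k F₀ : Type u} [Field k] [Field F₀] [IsAlgClosed k]
  [Algebra K k] [Algebra k F₀] [Algebra K F₀] [IsScalarTower K k F₀] [IsFunctionField k F₀]

/-- A function of a pulled back linear system vanishing to order `N` along the fibre over the
centre of `P₀` forces the degree to be at least `N`. -/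
theorem le_degree_of_mem_pow (φ : A ⟶ A) (hφ : φ ≫ f = f)
    (hgenφ : φ (genericPoint A) = genericPoint A) (hfin : (functionFieldMap φ hgenφ).hom.Finite)
    (hmax : ∀ y, (maximalIdeal (A.presheaf.stalk (φ y))).map (φ.stalkMap y).hom =
      maximalIdeal (A.presheaf.stalk y))
    (ι₀ : SchemeHomOver (specStr K F₀) f) (hgen : imagePoint ι₀.1 = genericPoint A)
        (P₀ : Place k F₀)
    (D : cartier A) (hDm : D ∈ trivialAt (φ (genericPoint A)))
        (hD : D ∈ trivialAt (imagePoint ι₀.1))
    {ez : (A.functionField)ˣ} (hez : D.1 (centreAt f P₀ ι₀) = QuotientGroup.mk ez)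
    {h : A.functionField} (h0 : h ≠ 0) (hh : h ∈ linSet (pullback' φ ⟨D, hDm⟩)) (N : ℕ)
    (hN : ∀ y, φ y = centreAt f P₀ ι₀ → ∃ w ∈ maximalIdeal (A.presheaf.stalk y) ^ N,
      algebraMap _ A.functionField w = h * functionFieldMap φ hgenφ (ez : A.functionField)) :
    (N : ℤ) ≤ Divisor.degree (pullDiv (L := k) f ι₀ ⟨D, hD⟩) := by
  classical
  set γ₀ := genValue ι₀.1 hgen with hγ₀
  obtain ⟨F₁, _, σ, hσ⟩ := exists_finite_lift (functionFieldMap φ hgenφ).hom hfin γ₀
  have : IsScalarTower K k F₁ := IsScalarTower.of_algebraMap_eq fun c => Subtype.ext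
    (IsScalarTower.algebraMap_apply K k (AlgebraicClosure F₀) c)
  have : IsFunctionField k F₁ := FFBasic.IsFunctionField.of_finite_extension (F := F₀)
  -- the point upstairs
  have hcomp : (Spec.map (CommRingCat.ofHom σ) ≫ A.fromSpecStalk (genericPoint A)) ≫ φ =
      Spec.map (CommRingCat.ofHom (algebraMap F₀ F₁)) ≫ ι₀.1 := by
    rw [Category.assoc, ← specMap_functionFieldMap φ hgenφ, ← Category.assoc, ← Spec.map_comp]
    conv_rhs => rw [← specMap_genValue ι₀.1 hgen, ← Category.assoc, ← Spec.map_comp]
    congr 2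
    exact CommRingCat.hom_ext (RingHom.ext hσ)
  let ι₁ : SchemeHomOver (specStr K F₁) f :=
    ⟨Spec.map (CommRingCat.ofHom σ) ≫ A.fromSpecStalk (genericPoint A), by
      refine (congrArg (_ ≫ ·) hφ.symm).trans ?_
      rw [← Category.assoc, hcomp, Category.assoc, ι₀.2, ← Spec.map_comp]
      congr 1⟩
  have hgen₁ : imagePoint ι₁.1 = genericPoint A := imagePoint_specMap_fromSpecStalk σ
  have hσ1 : genValue ι₁.1 hgen₁ = σ := genValue_specMap_fromSpecStalk σ
  -- values of regular functions
  have hval : ∀ (Q : Place k F₁) (w : A.presheaf.stalk (centreAt f Q ι₁)),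
      σ (algebraMap _ A.functionField w) =
        ((Scheme.stalkClosedPointTo (atPlace f Q ι₁).1 w : Q.toValuationSubring) : F₁) :=
    fun Q w => by
    rw [← hσ1]
    exact genValue_algebraMap ι₁.1 hgen₁ _ (atPlace f Q ι₁).1 (atPlace_spec f Q ι₁) w
  have hσh : σ h ≠ 0 := (map_ne_zero σ).mpr h0
  let M := pullDiv (L := k) f ι₀ ⟨D, hD⟩
  let X := FFBasic.divFun (K := k) (σ h) + Divisor.pullback F₁ M
  have hXeq : ∀ (Q : Place k F₁) (e : (A.functionField)ˣ),
      D.1 (centreAt f (Q.restrict F₀) ι₀) = QuotientGroup.mk e →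
      X Q = Q.ord (σ (h * functionFieldMap φ hgenφ (e : A.functionField))) := fun Q e he => by
    have hu : e ∈ unitsAt (imagePoint ι₀.1) :=
      mem_unitsAt_of_trivialAt hD (specializes_centreAt f _ ι₀) he
    show Q.ord (σ h) + Divisor.pullback F₁ M Q = _
    rw [Divisor.pullback_apply, show M (Q.restrict F₀) =
      (Q.restrict F₀).ord (γ₀ (e : A.functionField))
      from (pullOrd_eq f ι₀ ⟨D, hD⟩ _ ⟨e, hu⟩ he).trans
        (congrArg (Q.restrict F₀).ord (valueAt_eq_genValue ι₀.1 hgen _)), ← Q.ord_restrict, map_mul,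
      Q.ord_mul hσh ((map_ne_zero σ).mpr ((map_ne_zero _).mpr (Units.ne_zero e))), hσ]
  have hX0 : ∀ Q : Place k F₁, 0 ≤ X Q := by
    intro Q
    set y := centreAt f Q ι₁
    have hy : φ y = centreAt f (Q.restrict F₀) ι₀ := map_centreAt f f φ hφ Q ι₀ ι₁ hcomp
    obtain ⟨e, he⟩ := exists_localEq D (centreAt f (Q.restrict F₀) ι₀)
    have he' : D.1 (φ y) = QuotientGroup.mk e := by rw [hy]; exact he
    have hu : e ∈ unitsAt (φ (genericPoint A)) := mem_unitsAt_of_trivialAt hDm
      (((genericPoint_spec A).specializes trivial).map φ.continuous) he'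
    obtain ⟨w, hw⟩ := hh y _ (pullback'_apply φ ⟨D, hDm⟩ y ⟨e, hu⟩ he')
    rw [pullFunction_eq_functionFieldMap φ hgenφ] at hw
    rw [hXeq Q e he, ← hw, hval]
    exact FFBasic.ord_nonneg_of_mem Q (Subtype.mem _)
  have hXN : ∀ Q : Place k F₁, Q.restrict F₀ = P₀ → (N : ℤ) * Q.ramificationIndex F₀ ≤ X Q := by
    intro Q hQ
    set y := centreAt f Q ι₁
    have hy : φ y = centreAt f (Q.restrict F₀) ι₀ := map_centreAt f f φ hφ Q ι₀ ι₁ hcomp
    have hyz : φ y = centreAt f P₀ ι₀ := hy.trans (by rw [hQ])
    obtain ⟨w, hwN, hw⟩ := hN y hyz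
    have he : D.1 (centreAt f (Q.restrict F₀) ι₀) = QuotientGroup.mk ez := by rw [hQ]; exact hez
    rw [hXeq Q ez he, ← hw, hval]
    -- the maximal ideal maps into the ideal of order `ramificationIndex`
    obtain ⟨π, hπ⟩ := (IsPrincipalIdealRing.principal
      (maximalIdeal (Q.restrict F₀).toValuationSubring)).principal
    let χ : A.presheaf.stalk y →+* Q.toValuationSubring :=
      (Scheme.stalkClosedPointTo (atPlace f Q ι₁).1).hom
    let πQ : Q.toValuationSubring := Place.restrictInclusion F₀ Q π
    have hval₀ : ∀ (b : A) (_ : b = centreAt f (Q.restrict F₀) ι₀) (u : A.presheaf.stalk b),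
        u ∈ maximalIdeal _ → ∃ c : (Q.restrict F₀).toValuationSubring,
          γ₀ (algebraMap _ A.functionField u) =
          ((c * π : (Q.restrict F₀).toValuationSubring) : F₀) := by
      rintro b rfl u hu
      have hloc := Scheme.isLocalHom_stalkClosedPointTo' (atPlace f (Q.restrict F₀) ι₀).1
      have hm : Scheme.stalkClosedPointTo (atPlace f (Q.restrict F₀) ι₀).1 u ∈
          maximalIdeal (Q.restrict F₀).toValuationSubring :=
        (mem_maximalIdeal _).mpr fun hu' => (mem_maximalIdeal _).mp hu (hloc.map_nonunit u hu')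
      rw [hπ] at hm
      obtain ⟨c, hc⟩ := Ideal.mem_span_singleton'.mp hm
      refine ⟨c, (genValue_algebraMap ι₀.1 hgen _ (atPlace f (Q.restrict F₀) ι₀).1
        (atPlace_spec f (Q.restrict F₀) ι₀) u).trans ?_⟩
      exact congrArg Subtype.val hc.symm
    have hle : (maximalIdeal (A.presheaf.stalk y)).map χ ≤ Ideal.span {πQ} := by
      rw [← hmax y, Ideal.map_map, Ideal.map_le_iff_le_comap]
      intro u hu
      obtain ⟨c, hc⟩ := hval₀ (φ y) hy u hu
      refine Ideal.mem_span_singleton'.mpr ⟨Place.restrictInclusion F₀ Q c, Subtype.ext ?_⟩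
      refine Eq.trans ?_ ((hval Q _).symm.trans rfl).symm
      rw [← functionFieldMap_algebraMap_stalk φ hgenφ y u, hσ, hc]
      show ((Place.restrictInclusion F₀ Q c : Q.toValuationSubring) : F₁) *
        ((Place.restrictInclusion F₀ Q π : Q.toValuationSubring) : F₁) = _
      simp only [Place.coe_restrictInclusion, ← map_mul, MulMemClass.coe_mul]
    have hmem : χ w ∈ Ideal.span {πQ ^ N} := by
      rw [← Ideal.span_singleton_pow]
      exact Ideal.pow_right_mono hle N (Ideal.map_pow χ (maximalIdeal _) N ▸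
        Ideal.mem_map_of_mem χ hwN)
    obtain ⟨r, hr⟩ := Ideal.mem_span_singleton'.mp hmem
    have hχ0 : (χ w : F₁) ≠ 0 := by
      show ((Scheme.stalkClosedPointTo (atPlace f Q ι₁).1 w : Q.toValuationSubring) : F₁) ≠ 0
      rw [← hval, hw, map_mul]
      exact mul_ne_zero hσh ((map_ne_zero σ).mpr ((map_ne_zero _).mpr (Units.ne_zero ez)))
    show (N : ℤ) * _ ≤ Q.ord (χ w : F₁)
    rw [← hr] at hχ0 ⊢
    rw [MulMemClass.coe_mul, SubmonoidClass.coe_pow] at hχ0 ⊢
    obtain ⟨hr0, hp0⟩ := mul_ne_zero_iff.mp hχ0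
    rw [Q.ord_mul hr0 hp0, FFBasic.ord_pow, Place.coe_restrictInclusion, Q.ord_restrict]
    rcases Nat.eq_zero_or_pos N with hN0 | hNpos
    · subst hN0
      simpa using FFBasic.ord_nonneg_of_mem Q r.2
    have hπ0 : (π : F₀) ≠ 0 := fun h1 => (pow_ne_zero_iff hNpos.ne').mp hp0 (by
      rw [Place.coe_restrictInclusion, h1, map_zero])
    have hπ1 : 1 ≤ (Q.restrict F₀).ord (π : F₀) := by
      have hnn := FFBasic.ord_nonneg_of_mem (Q.restrict F₀) π.2
      by_contra hlt
      have hinv : (π : F₀)⁻¹ ∈ (Q.restrict F₀).toValuationSubring :=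
        FFBasic.mem_of_ord_nonneg _ (by rw [Place.ord_inv]; omega)
      have hπm : π ∈ maximalIdeal (Q.restrict F₀).toValuationSubring :=
        hπ.symm ▸ Ideal.mem_span_singleton_self π
      exact (mem_maximalIdeal π).mp hπm
        (IsUnit.of_mul_eq_one ⟨_, hinv⟩ (Subtype.ext (mul_inv_cancel₀ hπ0)))
    have h1 := FFBasic.ord_nonneg_of_mem Q r.2
    have h2 : (Q.ramificationIndex F₀ : ℤ) ≤ Q.ramificationIndex F₀ *
      (Q.restrict F₀).ord (π : F₀) :=
      le_mul_of_one_le_right (Int.natCast_nonneg _) hπ1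
    have h3 := mul_le_mul_of_nonneg_left h2 (Int.natCast_nonneg N)
    omega
  -- degrees
  have hle : Divisor.pullback F₁ (Finsupp.single P₀ (N : ℤ)) ≤ X := fun Q => by
    by_cases hQ : Q.restrict F₀ = P₀
    · rw [Divisor.pullback_single_apply_of_restrict_eq hQ]
      exact hXN Q hQ
    · rw [Divisor.pullback_single_apply_of_restrict_ne hQ]
      exact hX0 Q
  have hdeg := FFRiemannRoch.degree_le_degree hle
  rw [Divisor.degree_pullback, map_add, FFBasic.degree_divFun, zero_add, Divisor.degree_pullback,
    Divisor.degree_single, FFBasic.place_deg_eq_one, Nat.cast_one, mul_one] at hdeg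
  exact le_of_mul_le_mul_left hdeg (Int.natCast_pos.mpr Module.finrank_pos)

variable [IsAlgClosed K] (G : RelativeGroupLaw K f) {g : ℕ} [SmoothOfRelativeDimension g f]

/-- **The growth bound**: a linear system pulled back along multiplication by `m` has dimension at
most the number of `m`-torsion points times a power of the degree on a curve. -/
theorem card_le_of_linearIndependent (hc : G.IsCommutative) (ι₀ : SchemeHomOver (specStr K F₀) f)
    (hgen : imagePoint ι₀.1 = genericPoint A) (P₀ : Place k F₀)
    (hP₀ : centreAt f P₀ ι₀ = (G.one (𝟙 (Spec (CommRingCat.of K)))).1 (closedPoint K))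
    (D : cartier A) {m : ℕ} (hm : (m : K) ≠ 0)
    (hDm : D ∈ trivialAt (G.schemeNsmul m (genericPoint A))) (hD : D ∈ trivialAt (imagePoint ι₀.1))
    (s : Finset A.functionField) (hs : ∀ h ∈ s, h ∈ linSet (pullback' (G.schemeNsmul m) ⟨D, hDm⟩))
    (hind : letI := stalkAlgebra f (genericPoint A)
      LinearIndependent K (fun h : s => (h : A.functionField))) :
    s.card ≤ Nat.card {x : SchemeHomOver (𝟙 (Spec (CommRingCat.of K))) f //
        G.IsTorsionPoint (𝟙 (Spec (CommRingCat.of K))) m x} *
      ((Divisor.degree (pullDiv (L := k) f ι₀ ⟨D, hD⟩)).toNat + 1) ^ g := by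
  classical
  have := locallyOfFiniteType f (g := g)
  have := formallyUnramified_schemeNsmul G hc hm
  have := isFinite_schemeNsmul G hc hm
  have : JacobsonSpace A := LocallyOfFiniteType.jacobsonSpace f
  let alg : ∀ y : A, Algebra K (A.presheaf.stalk y) := fun y => stalkAlgebra f y
  let : Algebra K A.functionField := stalkAlgebra f (genericPoint A)
  set φ := G.schemeNsmul m
  have hgenφ := map_genericPoint f (g := g) φ (G.schemeNsmul_over m)
  let pt := pointEquivClosedPoint (K := K) f
  set z := centreAt f P₀ ι₀ with hz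
  have hzc : IsClosed {z} := by rw [hP₀]; exact (pt (G.one _)).2
  -- the fibre over the origin consists of the torsion points
  let S := {x : SchemeHomOver (𝟙 (Spec (CommRingCat.of K))) f //
    G.IsTorsionPoint (𝟙 (Spec (CommRingCat.of K))) m x}
  let pa : S → A := fun x => (pt x.1).1
  have hφpt : ∀ x, φ (pt x).1 = (pt (G.nsmul _ m x)).1 := fun x => by
    show φ (x.1 (closedPoint K)) = (G.nsmul _ m x).1 (closedPoint K)
    rw [← comp_schemeNsmul G _ m x]
    rfl
  have hpa : ∀ x : S, φ (pa x) = z := fun x => by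
    rw [hφpt, show G.nsmul _ m x.1 = G.one _ from x.2, hP₀]; rfl
  have hclosed : ∀ y, φ y = z → IsClosed {y} := by
    intro y hy
    have hfinz : (φ ⁻¹' {z}).Finite := φ.finite_preimage_singleton z
    have hsub : closure {y} ⊆ φ ⁻¹' {z} :=
      closure_minimal (Set.singleton_subset_iff.mpr hy) (hzc.preimage φ.continuous)
    have hS : ((closure {y}) ∩ closedPoints A).Finite :=
      hfinz.subset (Set.inter_subset_left.trans hsub)
    have hScl : IsClosed ((closure {y}) ∩ closedPoints A) := by
      rw [← Set.biUnion_of_singleton ((closure {y}) ∩ closedPoints A)]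
      exact hS.isClosed_biUnion fun c hc => hc.2
    have h := JacobsonSpace.closure_inter_closedPoints_eq_closure
      (X := A) (isClosed_closure (s := {y})).isLocallyClosed
    rw [hScl.closure_eq, closure_closure] at h
    exact (h.symm.le (subset_closure rfl)).2
  have hfibre : ∀ y, φ y = z → ∃ x : S, pa x = y := by
    intro y hy
    have hpy : (pt (pt.symm ⟨y, hclosed y hy⟩)).1 = y := by rw [Equiv.apply_symm_apply]
    refine ⟨⟨pt.symm ⟨y, hclosed y hy⟩, pt.injective (Subtype.ext ?_)⟩, hpy⟩
    rw [← hφpt, hpy, hy, hP₀]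
    rfl
  have : Finite S := by
    have := (φ.finite_preimage_singleton z).to_subtype
    exact Finite.of_injective (fun x : S => (⟨pa x, hpa x⟩ : φ ⁻¹' {z}))
      fun x y h => Subtype.ext (pt.injective (Subtype.ext (congrArg (fun t : φ ⁻¹' {z} => t.1) h)))
  have : Fintype S := Fintype.ofFinite S
  -- finiteness of the extension of function fields
  have hfin : (functionFieldMap φ hgenφ).hom.Finite := by
    have hpos : 0 < functionFieldDegree φ hgenφ := by
      rw [← natCard_torsion_eq_degree G hc (g := g) (n := m)]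
      have : Nonempty S := ⟨⟨G.one _, G.isTorsionPoint_unit _ m⟩⟩
      exact Nat.card_pos
    let : Algebra A.functionField (TargetField A) := (functionFieldMap φ hgenφ).hom.toAlgebra
    exact Module.finite_of_finrank_pos (R := A.functionField) (M := TargetField A) hpos
  have hmax : ∀ y, (maximalIdeal (A.presheaf.stalk (φ y))).map (φ.stalkMap y).hom =
      maximalIdeal (A.presheaf.stalk y) := by
    intro y
    have h1 := AlgebraicGeometry.FormallyUnramified.stalkMap φ y
    have h2 : (φ.stalkMap y).hom.EssFiniteType := LocallyOfFiniteType.stalkMap φ y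
    let := (φ.stalkMap y).hom.toAlgebra
    have : Algebra.FormallyUnramified (A.presheaf.stalk (φ y)) (A.presheaf.stalk y) := h1
    have : Algebra.EssFiniteType (A.presheaf.stalk (φ y)) (A.presheaf.stalk y) := h2
    have : IsLocalHom (algebraMap (A.presheaf.stalk (φ y)) (A.presheaf.stalk y)) :=
      inferInstanceAs <| IsLocalHom (φ.stalkMap y).hom
    exact Algebra.FormallyUnramified.map_maximalIdeal
  obtain ⟨ez, hez⟩ := exists_localEq D z
  -- the truncations
  set N := (Divisor.degree (pullDiv (L := k) f ι₀ ⟨D, hD⟩)).toNat + 1 with hNdef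
  have hreg : ∀ (x : S) (i : s), ∃ w : A.presheaf.stalk (pa x), algebraMap _ A.functionField w =
      (i : A.functionField) * functionFieldMap φ hgenφ (ez : A.functionField) := by
    intro x i
    have he' : D.1 (φ (pa x)) = QuotientGroup.mk ez := by rw [hpa x]; exact hez
    have hu : ez ∈ unitsAt (φ (genericPoint A)) := mem_unitsAt_of_trivialAt hDm
      (((genericPoint_spec A).specializes trivial).map φ.continuous) he'
    obtain ⟨w, hw⟩ := hs i i.2 (pa x) _ (pullback'_apply φ ⟨D, hDm⟩ (pa x) ⟨ez, hu⟩ he')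
    rw [pullFunction_eq_functionFieldMap φ hgenφ] at hw
    exact ⟨w, hw⟩
  choose w hw using hreg
  let L : (s → K) →ₗ[K] (∀ x : S, A.presheaf.stalk (pa x) ⧸ maximalIdeal
    (A.presheaf.stalk (pa x)) ^ N) :=
    LinearMap.pi fun x => Fintype.linearCombination K fun i => Ideal.Quotient.mk _ (w x i)
  have hinj : Function.Injective L := by
    rw [injective_iff_map_eq_zero]
    intro c hc0
    set h := ∑ i : s, c i • (i : A.functionField) with hh
    suffices h0 : h = 0 from funext (Fintype.linearIndependent_iff.mp hind c h0)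
    by_contra h0
    have hlin : h ∈ linSet (pullback' φ ⟨D, hDm⟩) := fun y e he => by
      rw [hh, Finset.sum_mul]
      refine sum_mem fun i _ => ?_
      rw [Algebra.smul_def, mul_assoc]
      exact mul_mem ⟨algebraMap K _ (c i), algebraMap_algebraMap_stalk y (c i)⟩ (hs i i.2 y e he)
    have hvan : ∀ y, φ y = z → ∃ t ∈ maximalIdeal (A.presheaf.stalk y) ^ N,
        algebraMap _ A.functionField t = h * functionFieldMap φ hgenφ (ez : A.functionField) := by
      intro y hy
      obtain ⟨x, rfl⟩ := hfibre y hy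
      refine ⟨∑ i : s, c i • w x i, ?_, ?_⟩
      · have h1 := congrFun hc0 x
        rw [← Ideal.Quotient.eq_zero_iff_mem, map_sum]
        simp only [L, LinearMap.pi_apply, Fintype.linearCombination_apply, Pi.zero_apply] at h1
        exact h1
      · rw [map_sum, hh, Finset.sum_mul]
        refine Finset.sum_congr rfl fun i _ => ?_
        rw [Algebra.smul_def, Algebra.smul_def, map_mul, hw, algebraMap_algebraMap_stalk, mul_assoc]
    have := le_degree_of_mem_pow φ (G.schemeNsmul_over m) hgenφ hfin hmax ι₀ hgen P₀ D hDm hD hez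
      h0 hlin N hvan
    omega
  have hdim : ∀ x : S, Module.Finite K (A.presheaf.stalk (pa x) ⧸ maximalIdeal
    (A.presheaf.stalk (pa x)) ^ N) ∧
      Module.finrank K (A.presheaf.stalk (pa x) ⧸ maximalIdeal (A.presheaf.stalk (pa x)) ^
          N) ≤ N ^ g := by
    intro x
    obtain ⟨-, -, p, hp⟩ := exists_parameters f (g := g) (pa x) (pt x.1).2
    exact hp.finrank_truncation_le N
  have := fun x => (hdim x).1
  have hle := LinearMap.finrank_le_finrank_of_injective hinj
  rw [Module.finrank_fintype_fun_eq_card, Fintype.card_coe, Module.finrank_pi_fintype] at hle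
  refine hle.trans ((Finset.sum_le_card_nsmul _ _ _ fun x _ => (hdim x).2).trans ?_)
  rw [Finset.card_univ, smul_eq_mul, Nat.card_eq_fintype_card]

end FLTAgent.AbelianTorsion
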