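import Mathlib
import Fermat.Agent.AbelianTorsion.Effective

/-!
# The divisor of poles of a function

On a locally factorial scheme the reduced denominators of a function form an effective divisor: two
elements coprime in one local ring stay coprime in the local rings nearby.
-/

set_option autoImplicit false

noncomputable section

universe u

open CategoryTheory CategoryTheory.Limits AlgebraicGeometry
open scoped IsMulCommutative

namespace FLTAgent.AbelianTorsion

/-- Over the prime defined by a prime element of a localisation there is no smaller nonzero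
prime. -/
theorem eq_comap_span_of_le {R L : Type u} [CommRing R] [IsDomain R] [CommRing L] [IsDomain L]
    [UniqueFactorizationMonoid L] [Algebra R L] (M : Submonoid R) (hM : M ≤ nonZeroDivisors R)
    [IsLocalization M L] {π : L} (hπ : Prime π) {q : Ideal R} [q.IsPrime] (hq : q ≠ ⊥)
    (hle : q ≤ (Ideal.span {π}).comap (algebraMap R L)) :
    q = (Ideal.span {π}).comap (algebraMap R L) := by
  have hπp : (Ideal.span {π} : Ideal L).IsPrime := (Ideal.span_singleton_prime hπ.ne_zero).mpr hπ
  have hdisj : Disjoint (M : Set R) (q : Set R) := Set.disjoint_left.mpr fun m hm hmq =>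
    hπp.ne_top (Ideal.eq_top_of_isUnit_mem _ (hle hmq) (IsLocalization.map_units L ⟨m, hm⟩))
  have hmp : (q.map (algebraMap R L)).IsPrime :=
    IsLocalization.isPrime_of_isPrime_disjoint M L q inferInstance hdisj
  have hne : q.map (algebraMap R L) ≠ ⊥ := fun h =>
    hq ((Ideal.map_eq_bot_iff_of_injective (IsLocalization.injective L hM)).mp h)
  obtain ⟨π', hmem, hπ'⟩ := hmp.exists_mem_prime_of_ne_bot hne
  have hdvd : π ∣ π' := Ideal.mem_span_singleton.mp (Ideal.map_le_iff_le_comap.mpr hle hmem)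
  refine le_antisymm hle ?_
  rw [← IsLocalization.under_map_of_isPrime_disjoint M L (inferInstance : q.IsPrime) hdisj]
  refine Ideal.comap_mono ((Ideal.span_singleton_le_iff_mem _).mpr ?_)
  obtain ⟨c, hc⟩ := (hπ.irreducible.associated_of_dvd hπ'.irreducible hdvd).symm
  rw [← hc]
  exact Ideal.mul_mem_right _ _ hmem

/-- Being coprime spreads out. -/
theorem exists_nhds_isRelPrime {R : Type u} [CommRing R] [IsDomain R] [IsNoetherianRing R]
    (P : Ideal R) [P.IsPrime] (L : Type u) [CommRing L] [IsDomain L] [UniqueFactorizationMonoid L]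
    [Algebra R L] [IsLocalization.AtPrime L P] {a b : R} (hb : b ≠ 0)
    (hab : IsRelPrime (algebraMap R L a) (algebraMap R L b)) :
    ∃ s, s ∉ P ∧ ∀ (Q : Ideal R) [Q.IsPrime], s ∉ Q → ∀ (L' : Type u) [CommRing L'] [IsDomain L']
      [UniqueFactorizationMonoid L'] [Algebra R L'] [IsLocalization.AtPrime L' Q],
      IsRelPrime (algebraMap R L' a) (algebraMap R L' b) := by
  classical
  set I : Ideal R := Ideal.span {a, b} with hI
  have hfin := I.finite_minimalPrimes_of_isNoetherianRing R
  have hch : ∀ q : {q : Ideal R // ¬ q ≤ P}, ∃ c ∈ q.1, c ∉ P := fun q =>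
    SetLike.not_le_iff_exists.mp q.2
  choose c hcq hcP using hch
  let F := hfin.toFinset.subtype fun q => ¬ q ≤ P
  refine ⟨∏ q ∈ F, c q, fun h => ?_, ?_⟩
  · obtain ⟨q, -, hq⟩ := (Ideal.IsPrime.prod_mem_iff).mp h
    exact hcP q hq
  intro Q _ hsQ L' _ _ _ _ _
  by_contra hrel
  simp only [IsRelPrime, not_forall] at hrel
  obtain ⟨d, hda, hdb, hd⟩ := hrel
  have hb' : algebraMap R L' b ≠ 0 :=
    (map_ne_zero_iff _ (IsLocalization.injective L' Q.primeCompl_le_nonZeroDivisors)).mpr hb
  obtain ⟨π, hπi, hπd⟩ := WfDvdMonoid.exists_irreducible_factor hd (ne_zero_of_dvd_ne_zero hb' hdb)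
  have hπ : Prime π := UniqueFactorizationMonoid.irreducible_iff_prime.mp hπi
  have hπp : (Ideal.span {π} : Ideal L').IsPrime := (Ideal.span_singleton_prime hπ.ne_zero).mpr hπ
  set P₁ := (Ideal.span {π} : Ideal L').comap (algebraMap R L') with hP₁
  have hIP : I ≤ P₁ := by
    rw [hI, Ideal.span_le]
    rintro x (rfl | rfl)
    · exact Ideal.mem_span_singleton.mpr (hπd.trans hda)
    · exact Ideal.mem_span_singleton.mpr (hπd.trans hdb)
  have hPQ : P₁ ≤ Q := fun x hx => by
    by_contra hxQ
    exact hπ.not_isUnit (isUnit_of_dvd_unit (Ideal.mem_span_singleton.mp hx)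
      (IsLocalization.map_units L' (⟨x, hxQ⟩ : Q.primeCompl)))
  obtain ⟨q, hqmin, hqle⟩ := Ideal.exists_minimalPrimes_le hIP
  have hqP : q ≤ P := by
    by_contra hq
    refine hsQ (hPQ (Ideal.prod_mem P₁ (i := (⟨q, hq⟩ : {q : Ideal R // ¬ q ≤ P})) ?_
      (hqle (hcq ⟨q, hq⟩))))
    exact Finset.mem_subtype.mpr (hfin.mem_toFinset.mpr hqmin)
  have : q.IsPrime := hqmin.1.1
  have haq : a ∈ q := hqmin.1.2 (Ideal.subset_span (Set.mem_insert _ _))
  have hbq : b ∈ q := hqmin.1.2 (Ideal.subset_span (Set.mem_insert_of_mem _ rfl))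
  have hq1 : q = P₁ := eq_comap_span_of_le Q.primeCompl Q.primeCompl_le_nonZeroDivisors hπ
    (fun h => hb (by rw [h] at hbq; exact hbq)) hqle
  -- back in the local ring at `P`
  have hdisj : Disjoint (P.primeCompl : Set R) (q : Set R) :=
    Set.disjoint_left.mpr fun m hm hmq => hm (hqP hmq)
  have hmp : (q.map (algebraMap R L)).IsPrime :=
    IsLocalization.isPrime_of_isPrime_disjoint P.primeCompl L q inferInstance hdisj
  have hinj := IsLocalization.injective L P.primeCompl_le_nonZeroDivisors
  have hne : q.map (algebraMap R L) ≠ ⊥ := fun h => by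
    rw [Ideal.map_eq_bot_iff_of_injective hinj] at h
    rw [h] at hbq
    exact hb hbq
  obtain ⟨σ, hσq, hσ⟩ := hmp.exists_mem_prime_of_ne_bot hne
  have hσp : (Ideal.span {σ} : Ideal L).IsPrime := (Ideal.span_singleton_prime hσ.ne_zero).mpr hσ
  set q₂ := (Ideal.span {σ} : Ideal L).comap (algebraMap R L) with hq₂
  have hle2 : q₂ ≤ q := by
    rw [← IsLocalization.under_map_of_isPrime_disjoint P.primeCompl L
      (inferInstance : q.IsPrime) hdisj]
    exact Ideal.comap_mono ((Ideal.span_singleton_le_iff_mem _).mpr hσq)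
  have hne2 : q₂ ≠ ⊥ := fun h => by
    have h2 := IsLocalization.map_under P.primeCompl L (Ideal.span {σ} : Ideal L)
    rw [show Ideal.under R (Ideal.span {σ} : Ideal L) = ⊥ from h, Ideal.map_bot] at h2
    exact hσ.ne_zero (Ideal.span_singleton_eq_bot.mp h2.symm)
  have : q₂.IsPrime := Ideal.IsPrime.comap _
  have h2q : q₂ = q := by
    rw [hq1]
    exact eq_comap_span_of_le Q.primeCompl Q.primeCompl_le_nonZeroDivisors hπ hne2
      (hle2.trans hqle)
  rw [← h2q] at haq hbq
  exact hσ.not_isUnit (hab (Ideal.mem_span_singleton.mp haq) (Ideal.mem_span_singleton.mp hbq))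

variable {X : Scheme.{u}} [IsIntegral X]

/-- Reduced fractions of a function have associated denominators. -/
theorem units_mk_eq_of_isRelPrime {x : X}
    [UniqueFactorizationMonoid (X.presheaf.stalk x)] {t : X.functionField}
    {a b a' b' : X.presheaf.stalk x} (e e' : (X.functionField)ˣ)
    (he : algebraMap _ X.functionField b = e) (he' : algebraMap _ X.functionField b' = e')
    (h : t * e = algebraMap _ X.functionField a) (h' : t * e' = algebraMap _ X.functionField a')
    (hab : IsRelPrime a b) (hab' : IsRelPrime a' b') :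
    (QuotientGroup.mk e : (X.functionField)ˣ ⧸ unitsAt x) = QuotientGroup.mk e' := by
  have hcross : a * b' = a' * b := IsFractionRing.injective (X.presheaf.stalk x) X.functionField (by
    rw [map_mul, map_mul, he, he', ← h, ← h']; ring)
  have h1 : b ∣ b' := hab.symm.dvd_of_dvd_mul_left ⟨a', by rw [hcross]; ring⟩
  have h2 : b' ∣ b := hab'.symm.dvd_of_dvd_mul_left ⟨a, by rw [← hcross]; ring⟩
  obtain ⟨w, hw⟩ := associated_of_dvd_dvd h1 h2
  refine QuotientGroup.eq.mpr (mem_unitsAt.mpr ⟨w, ?_⟩)
  rw [Units.val_mul, Units.val_inv_eq_inv_val, ← he', ← hw, map_mul, he, inv_mul_cancel_left₀]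
  exact e.ne_zero

/-- **Every function lies in the linear system of an effective divisor.** -/
theorem exists_effective_mem_linSet [IsLocallyNoetherian X]
    (hX : ∀ x : X, ∃ _ : IsDomain (X.presheaf.stalk x),
        UniqueFactorizationMonoid (X.presheaf.stalk x))
    (t : X.functionField) : ∃ D : cartier X, IsEffective D ∧ t ∈ linSet D := by
  classical
  -- reduced fractions at all points
  have hred : ∀ x : X, ∃ (a b : X.presheaf.stalk x) (e : (X.functionField)ˣ),
      algebraMap _ X.functionField b = e ∧ t * e = algebraMap _ X.functionField a ∧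
      IsRelPrime a b := by
    intro x
    obtain ⟨_, _⟩ := hX x
    obtain ⟨a, b, hab, h⟩ := IsFractionRing.exists_reduced_fraction (X.presheaf.stalk x)
      (K := X.functionField) t
    refine ⟨a, b, Units.mk0 (algebraMap _ X.functionField (b : X.presheaf.stalk x))
      ?_, rfl, ?_, hab⟩
    · exact IsFractionRing.to_map_ne_zero_of_mem_nonZeroDivisors b.2
    · rw [← h, Units.val_mk0]
      exact IsLocalization.mk'_spec _ a b
  choose A B E hE hA hrp using hred
  refine ⟨⟨fun x => QuotientGroup.mk (E x), fun x => ?_⟩,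
    isEffective_iff.mpr (mem_linSet_of_exists fun x => ⟨E x, rfl, B x, by rw [hE, one_mul]⟩),
    mem_linSet_of_exists fun x => ⟨E x, rfl, A x, (hA x).symm⟩⟩
  obtain ⟨_, ⟨U, hU', rfl⟩, hxU, -⟩ :=
    X.isBasis_affineOpens.exists_subset_of_mem_open (Set.mem_univ x) isOpen_univ
  have hU : IsAffineOpen U := hU'
  have : Nonempty U := ⟨⟨x, hxU⟩⟩
  have : IsNoetherianRing Γ(X, U) := IsLocallyNoetherian.component_noetherian ⟨U, hU⟩
  set i := hU.fromSpec
  obtain ⟨P, rfl⟩ : ∃ P : PrimeSpectrum Γ(X, U), i P = x :=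
    (by rw [IsAffineOpen.range_fromSpec]; exact hxU : x ∈ Set.range i)
  obtain ⟨_, _⟩ := hX (i P)
  let := (immHom i P).hom.toAlgebra
  have : IsLocalization.AtPrime (X.presheaf.stalk (i P)) P.asIdeal := isLocalization_immHom i P
  obtain ⟨⟨a₀, s⟩, ha₀⟩ := IsLocalization.surj P.asIdeal.primeCompl (A (i P))
  obtain ⟨⟨b₀, s'⟩, hb₀⟩ := IsLocalization.surj P.asIdeal.primeCompl (B (i P))
  dsimp only at ha₀ hb₀
  set a := a₀ * (s' : Γ(X, U)) with hadef
  set b := b₀ * (s : Γ(X, U)) with hbdef
  have hu : IsUnit (algebraMap Γ(X, U) (X.presheaf.stalk (i P)) ((s : Γ(X, U)) * s')) :=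
    IsLocalization.map_units _ (s * s')
  have haP : algebraMap _ (X.presheaf.stalk (i P)) a =
      algebraMap Γ(X, U) (X.presheaf.stalk (i P)) ((s : Γ(X, U)) * s') * A (i P) := by
    rw [hadef, map_mul, map_mul, ← ha₀]; ring
  have hbP : algebraMap _ (X.presheaf.stalk (i P)) b =
      algebraMap Γ(X, U) (X.presheaf.stalk (i P)) ((s : Γ(X, U)) * s') * B (i P) := by
    rw [hbdef, map_mul, map_mul, ← hb₀]; ring
  have hab : IsRelPrime (algebraMap _ (X.presheaf.stalk (i P)) a)
      (algebraMap _ (X.presheaf.stalk (i P)) b) := by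
    rw [haP, hbP]
    exact (isRelPrime_mul_unit_left hu).mpr (hrp (i P))
  have hbK : immFF i b = algebraMap _ X.functionField
      (algebraMap Γ(X, U) (X.presheaf.stalk (i P)) ((s : Γ(X, U)) * s')) * E (i P) := by
    rw [← algebraMap_immHom_eq i P, ← hE, ← map_mul]
    exact congrArg _ hbP
  have hb0 : immFF i b ≠ 0 := by
    rw [hbK]
    exact mul_ne_zero (hu.map _).ne_zero (Units.ne_zero _)
  have htab : t * immFF i b = immFF i a := by
    have h2 : immFF i a = algebraMap (X.presheaf.stalk (i P)) X.functionField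
        (algebraMap Γ(X, U) (X.presheaf.stalk (i P)) ((s : Γ(X, U)) * s') * A (i P)) := by
      rw [← algebraMap_immHom_eq i P]; exact congrArg _ haP
    rw [h2, map_mul (algebraMap (X.presheaf.stalk (i P)) X.functionField), hbK, ← hA]; ring
  have hbR : b ≠ 0 := fun h => hb0 (by rw [h, map_zero])
  obtain ⟨c, hcP, hc⟩ := exists_nhds_isRelPrime P.asIdeal (X.presheaf.stalk (i P)) hbR hab
  refine ⟨i ''ᵁ PrimeSpectrum.basicOpen c, Units.mk0 _ hb0, ⟨P, hcP, rfl⟩, ?_⟩
  rintro _ ⟨(Q : PrimeSpectrum Γ(X, U)), hQc, rfl⟩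
  obtain ⟨_, _⟩ := hX (i Q)
  let := (immHom i Q).hom.toAlgebra
  have : IsLocalization.AtPrime (X.presheaf.stalk (i Q)) Q.asIdeal := isLocalization_immHom i Q
  exact units_mk_eq_of_isRelPrime (t := t) (E (i Q)) (Units.mk0 _ hb0) (hE (i Q))
    (b' := immHom i Q b) (algebraMap_immHom_eq i Q b) (hA (i Q)) (a' := immHom i Q a)
    (htab.trans (algebraMap_immHom_eq i Q a).symm) (hrp (i Q))
    (hc Q.asIdeal hQc (X.presheaf.stalk (i Q)))

end FLTAgent.AbelianTorsion
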