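import Mathlib
import Fermat.Agent.FFBasic.ResidueAlgClosed

/-!
# Valuations centred at a rational point of a subring

Valuation rings centred at a rational point of a subalgebra exist (`exists_valuation_centred`);
an element lying in all of them is algebraic over it (`exists_relation_of_forall_mem`).
-/

set_option autoImplicit false

noncomputable section

open IsLocalRing Polynomial

namespace FLTAgent.AbelianTorsion

universe u

variable {k L : Type u} [Field k] [Field L] [Algebra k L]

/-- A valuation ring centred at a rational point of a subalgebra. -/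
theorem exists_valuation_centred (R : Subalgebra k L) (χ : R →ₐ[k] k) :
    ∃ O : ValuationSubring L, (∀ a : k, algebraMap k L a ∈ O) ∧
      ∀ r : R, (r : L) ∈ O ∧ (r : L) - algebraMap k L (χ r) ∈ O.nonunits := by
  set I : Ideal R.toSubring := RingHom.ker χ.toRingHom
  have hI : I ≠ ⊤ := fun h => one_ne_zero (α := k) (by
    have h1 : (1 : R) ∈ RingHom.ker χ.toRingHom := by
      show (1 : R.toSubring) ∈ I
      rw [h]; exact Submodule.mem_top
    simp [RingHom.mem_ker] at h1)
  obtain ⟨O, hRO, hIO⟩ := Ideal.image_subset_nonunits_valuationSubring I hI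
  refine ⟨O, fun a => hRO (R.algebraMap_mem a), fun r =>
    ⟨hRO r.2, hIO ⟨r - algebraMap k R (χ r), ?_, rfl⟩⟩⟩
  show χ (r - algebraMap k R (χ r)) = 0
  rw [map_sub, AlgHom.commutes]
  exact sub_self _

/-- An element lying in all valuation rings centred at a rational point of `R` is algebraic
over `R`. -/
theorem exists_relation_of_forall_mem (R : Subalgebra k L) (χ : R →ₐ[k] k) (c : L)
    (h : ∀ O : ValuationSubring L, (∀ a : k, algebraMap k L a ∈ O) →
      (∀ r : R, (r : L) ∈ O ∧ (r : L) - algebraMap k L (χ r) ∈ O.nonunits) → c ∈ O) :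
    IsAlgebraic R c := by
  rcases eq_or_ne c 0 with rfl | hc
  · exact isAlgebraic_zero
  have hcinv : IsAlgebraic R c⁻¹ := by
    by_contra htr
    -- then `c⁻¹` is a free variable over `R` and may be sent to zero
    let e : R[X] →ₐ[k] L := (Polynomial.aeval c⁻¹).restrictScalars k
    have hinj : Function.Injective e := by
      rw [injective_iff_map_eq_zero]
      intro p hp
      by_contra hp0
      exact htr ⟨p, hp0, hp⟩
    let eq := AlgEquiv.ofInjective e hinj
    let χ' : e.range →ₐ[k] k :=
      (χ.comp ((Polynomial.aeval (0 : R)).restrictScalars k)).comp eq.symm.toAlgHom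
    obtain ⟨O, hk, hO⟩ := exists_valuation_centred e.range χ'
    have hR : ∀ r : R, (r : L) ∈ O ∧ (r : L) - algebraMap k L (χ r) ∈ O.nonunits := by
      intro r
      have hmem : (r : L) ∈ e.range := ⟨C r, by simp [e]⟩
      obtain ⟨h1, h2⟩ := hO ⟨_, hmem⟩
      refine ⟨h1, ?_⟩
      have : eq.symm ⟨(r : L), hmem⟩ = C r :=
        eq.symm_apply_eq.mpr (Subtype.ext (by simp [eq, e]))
      simpa [χ', this] using h2
    have hmem : c⁻¹ ∈ e.range := ⟨X, by simp [e]⟩
    have h2 := (hO ⟨_, hmem⟩).2
    have hX : eq.symm ⟨c⁻¹, hmem⟩ = X :=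
      eq.symm_apply_eq.mpr (Subtype.ext (by simp [eq, e]))
    have h3 : c⁻¹ ∈ O.nonunits := by simpa [χ', hX] using h2
    rw [ValuationSubring.mem_nonunits_iff, map_inv₀, inv_lt_one₀ (by
      exact zero_lt_iff.mpr ((map_ne_zero O.valuation).mpr hc))] at h3
    exact absurd ((O.valuation_le_one_iff c).mpr (h O hk hR)) (not_le.mpr h3)
  simpa using hcinv.inv

end FLTAgent.AbelianTorsion
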