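import Mathlib
import Fermat.Agent.AbelianTorsion.PointPullback

/-!
# Specialisation of pulled back divisor classes on a curve

`exists_specialise`: pullbacks of a class along a family of translates of a curve are compatible
with specialisation, by means of a local model (`exists_localModel`).
-/

set_option autoImplicit false

noncomputable section

universe u

open CategoryTheory CategoryTheory.Limits AlgebraicGeometry NeronModelInfra GoodReductionJacobian
open IsLocalRing TensorProduct AlgebraicCurve
open FLTAgent.FFBasic (IsFunctionField)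
open FLTAgent.Jacobian FLTAgent.Jacobian.ConstExt

namespace FLTAgent.AbelianTorsion

variable {K : Type u} [Field K] {A : Scheme.{u}} {f : A ⟶ Spec (CommRingCat.of K)} [IsProper f]
  [IsIntegral A] (G : RelativeGroupLaw K f)

variable {k L κ F₀ F F' : Type u} [Field k] [Field L] [Field κ] [Field F₀] [Field F] [Field F']
  [Algebra k L] [Algebra k κ] [Algebra k F₀]
  [Algebra L F] [Algebra F₀ F] [Algebra k F] [IsScalarTower k L F] [IsScalarTower k F₀ F]
  [Algebra κ F'] [Algebra F₀ F'] [Algebra k F'] [IsScalarTower k κ F'] [IsScalarTower k F₀ F']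
  [IsConstExtension k L F₀ F] [IsConstExtension k κ F₀ F']
  {O : ValuationSubring L} [Algebra k O] [IsScalarTower k O L]
  [Algebra K k] [Algebra K L] [IsScalarTower K k L] [Algebra K κ] [IsScalarTower K k κ]
  [Algebra K F₀] [IsScalarTower K k F₀] [Algebra K F] [IsScalarTower K k F]
  [Algebra K F'] [IsScalarTower K k F'] [Algebra K O] [IsScalarTower K k O]
  (ρ : ResidueMap k O κ) (ι₀ : SchemeHomOver (specStr K F₀) f)

/-- `L → F` as a `K`-algebra map. -/
def constHom (K k L F : Type u) [Field K] [Field k] [Field L] [Field F] [Algebra K k] [Algebra k L]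
    [Algebra K L] [IsScalarTower K k L] [Algebra L F] [Algebra k F] [IsScalarTower k L F]
    [Algebra K F] [IsScalarTower K k F] : L →ₐ[K] F :=
  (IsScalarTower.toAlgHom k L F).restrictScalars K

variable (k F) in
/-- The translate of the curve by a constant point. -/
def shift (c : SchemeHomOver (specStr K L) f) : SchemeHomOver (specStr K F) f :=
  G.mul _ (pointMap f ((IsScalarTower.toAlgHom k F₀ F).restrictScalars K) ι₀)
    (pointMap f (constHom K k L F) c)

omit [IsIntegral A] [IsProper f] in
theorem pointMap_mul {R S : Type u} [CommRing R] [CommRing S] [Algebra K R] [Algebra K S]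
    (j : R →ₐ[K] S) (x y : SchemeHomOver (specStr K R) f) :
    pointMap f j (G.mul _ x y) = G.mul _ (pointMap f j x) (pointMap f j y) :=
  G.mul_natural _ _ _ _ x y

/-- The localisation of a ring at a point, with the evaluation at a generic point. -/
theorem exists_localModel {S R' E : Type u} [CommRing S] [CommRing R'] [IsLocalRing R'] [Field E]
    [Algebra k S] [Algebra k R'] [Algebra k E] (h : S →ₐ[k] E) (hinj : Function.Injective h)
    (g : S →ₐ[k] R') :
    ∃ (R : Type u) (_ : CommRing R) (_ : IsLocalRing R) (_ : Algebra k R)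
      (jS : S →ₐ[k] R) (jF : R →ₐ[k] E) (jR : R →ₐ[k] R'),
      IsLocalHom jR ∧ jF.comp jS = h ∧ jR.comp jS = g ∧
      ∀ r, ∃ a b : S, IsUnit (g b) ∧ r * jS b = jS a := by
  let p : Ideal S := (maximalIdeal R').comap g
  have : p.IsPrime := Ideal.IsPrime.comap _
  have hgen : ∀ y : p.primeCompl, IsUnit (h y) := by
    intro y
    refine isUnit_iff_ne_zero.mpr fun he => y.2 ?_
    rw [(map_eq_zero_iff _ hinj).mp he]
    exact p.zero_mem
  have hred : ∀ y : p.primeCompl, IsUnit (g y) := fun y => not_not.mp fun hy =>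
    y.2 ((IsLocalRing.mem_maximalIdeal _).mpr hy)
  let jF : Localization.AtPrime p →ₐ[k] E := IsLocalization.liftAlgHom (f := h) hgen
  let jR : Localization.AtPrime p →ₐ[k] R' := IsLocalization.liftAlgHom (f := g) hred
  have hjR : ∀ s : S, jR (algebraMap S _ s) = g s := fun s => IsLocalization.lift_eq hred s
  have hsurj : ∀ r : Localization.AtPrime p, ∃ a b : S, IsUnit (g b) ∧
      r * algebraMap S _ b = algebraMap S _ a := by
    intro r
    obtain ⟨⟨a, b⟩, hab⟩ := IsLocalization.surj p.primeCompl r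
    exact ⟨a, b, hred b, hab⟩
  refine ⟨Localization.AtPrime p, inferInstance, inferInstance, inferInstance,
    IsScalarTower.toAlgHom k S _, jF, jR, ⟨fun r hr => ?_⟩,
    AlgHom.ext fun s => IsLocalization.lift_eq hgen s, AlgHom.ext hjR, hsurj⟩
  obtain ⟨⟨a, b⟩, hab⟩ := IsLocalization.surj p.primeCompl r
  have ha : IsUnit (g a) := by
    rw [← hjR, ← hab, map_mul, hjR]
    exact hr.mul (hred b)
  have ha' : a ∈ p.primeCompl := fun hap => (IsLocalRing.mem_maximalIdeal _).mp hap ha
  have : IsUnit (r * algebraMap S _ (b : S)) := by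
    rw [hab]; exact IsLocalization.map_units _ ⟨a, ha'⟩
  exact isUnit_of_mul_isUnit_left this

omit [IsProper f] [AlgebraicGeometry.IsIntegral A] [IsConstExtension k L F₀ F]
  [IsConstExtension k κ F₀ F'] in
/-- A point of the model specialising both points. -/
theorem exists_modelPoint {R R₀ : Type u} [CommRing R] [CommRing R₀] [Algebra K R] [Algebra K R₀]
    (ι₁ : SchemeHomOver (specStr K R₀) f) (i₀ : R₀ →ₐ[K] F₀) (hι : pointMap f i₀ ι₁ = ι₀)
    (c₁ : SchemeHomOver (specStr K O) f) (g₀ : R₀ →ₐ[K] R) (gO : O →ₐ[K] R)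
    (jF : R →ₐ[K] F) (jF' : R →ₐ[K] F')
    (h1 : jF.comp g₀ = ((IsScalarTower.toAlgHom k F₀ F).restrictScalars K).comp i₀)
    (h2 : jF'.comp g₀ = ((IsScalarTower.toAlgHom k F₀ F').restrictScalars K).comp i₀)
    (h3 : jF.comp gO = (constHom K k L F).comp ((IsScalarTower.toAlgHom k O L).restrictScalars K))
    (h4 : jF'.comp gO = (constHom K k κ F').comp (ρ.toHom.restrictScalars K)) :
    ∃ x : SchemeHomOver (specStr K R) f,
      pointMap f jF x = shift G k F ι₀ (pointMap f
      ((IsScalarTower.toAlgHom k O L).restrictScalars K) c₁) ∧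
      pointMap f jF' x = shift G k F' ι₀ (pointMap f (ρ.toHom.restrictScalars K) c₁) := by
  refine ⟨G.mul _ (pointMap f g₀ ι₁) (pointMap f gO c₁), ?_, ?_⟩
  · rw [pointMap_mul, pointMap_comp, pointMap_comp, h1, h3, shift, pointMap_comp, ← hι,
      pointMap_comp]
  · rw [pointMap_mul, pointMap_comp, pointMap_comp, h2, h4, shift, pointMap_comp, ← hι,
      pointMap_comp]

variable (k F₀) in
/-- The part of the model regular at a place. -/
abbrev regularPart (Q' : Place κ F') : Subalgebra k (O ⊗[k] F₀) :=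
  Algebra.adjoin k ({z : O ⊗[k] F₀ | ∃ (o : O) (u : F₀),
    algebraMap F₀ F' u ∈ Q'.toValuationSubring ∧ z = o ⊗ₜ[k] u})

omit [IsProper f] [AlgebraicGeometry.IsIntegral A] in
theorem imagePoint_pointMap {R S : Type u} [CommRing R] [IsLocalRing R] [Field S] [Algebra K R]
    [Algebra K S] (j : R →ₐ[K] S) [IsLocalHom j] (x : SchemeHomOver (specStr K R) f) :
    imagePoint (pointMap f j x).1 = x.1 (closedPoint R) := by
  show x.1 (Spec.map (CommRingCat.ofHom j.toRingHom) (closedPoint S)) = _
  congr 1
  have : IsLocalHom j.toRingHom := ⟨fun a ha => IsLocalHom.map_nonunit (f := j) a ha⟩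
  exact IsLocalRing.comap_closedPoint j.toRingHom

omit [IsIntegral A] in
/-- The point at a place of a point with values in the valuation ring. -/
private theorem atPlace_pointMap_val {R : Type u} [CommRing R] [Algebra K R]
    [IsScalarTower K L F] (Q : Place L F) (j : R →ₐ[K] F)
    (hj : ∀ r, j r ∈ Q.toValuationSubring) (x : SchemeHomOver (specStr K R) f) :
    (atPlace f Q (pointMap f j x)).1 = Spec.map (CommRingCat.ofHom
      (j.toRingHom.codRestrict Q.toValuationSubring hj)) ≫ x.1 := by
  let := placeAlgebra (K := K) Q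
  have : IsScalarTower K Q.toValuationSubring F :=
    IsScalarTower.of_algebraMap_eq fun a => IsScalarTower.algebraMap_apply K L F a
  let jQ : R →ₐ[K] Q.toValuationSubring :=
    { j.toRingHom.codRestrict Q.toValuationSubring hj with
      commutes' := fun a => Subtype.ext
        ((j.commutes a).trans (IsScalarTower.algebraMap_apply K L F a)) }
  have h : atPlace f Q (pointMap f j x) = pointMap f jQ x :=
    (exists_pointMap_eq (R := Q.toValuationSubring) f _).unique
      (Subtype.ext (atPlace_spec f Q _)) (by rw [pointMap_comp]; rfl)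
  exact congrArg Subtype.val h

omit [IsIntegral A] in
/-- The centre of a point with values in the valuation ring generalises its closed point. -/
private theorem centreAt_pointMap_specializes {R : Type u} [CommRing R] [IsLocalRing R]
    [Algebra K R] [IsScalarTower K L F] (Q : Place L F) (j : R →ₐ[K] F)
    (hj : ∀ r, j r ∈ Q.toValuationSubring) (x : SchemeHomOver (specStr K R) f) :
    centreAt f Q (pointMap f j x) ⤳ x.1 (closedPoint R) := by
  rw [centreAt, atPlace_pointMap_val Q j hj x]
  exact (specializes_closedPoint _).map x.1.continuous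

omit [IsIntegral A] in
/-- The centre of a point with values in the valuation ring by a local map is its closed point. -/
private theorem centreAt_pointMap_eq {R : Type u} [CommRing R] [IsLocalRing R]
    [Algebra K R] [IsScalarTower K L F] (Q : Place L F) (j : R →ₐ[K] F)
    (hj : ∀ r, j r ∈ Q.toValuationSubring)
    (hloc : IsLocalHom (j.toRingHom.codRestrict Q.toValuationSubring hj))
    (x : SchemeHomOver (specStr K R) f) :
    centreAt f Q (pointMap f j x) = x.1 (closedPoint R) := by
  rw [centreAt, atPlace_pointMap_val Q j hj x]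
  exact congrArg x.1 (IsLocalRing.comap_closedPoint _)

omit [IsConstExtension k κ F₀ F'] [IsScalarTower k (↥O) L] in
/-- The regular part of the model reduces into the valuation ring of the place. -/
private theorem redMap_mem_of_mem_regularPart (Q' : Place κ F') {s : O ⊗[k] F₀}
    (hs : s ∈ regularPart (O := O) k F₀ Q') : redMap F' ρ s ∈ Q'.toValuationSubring := by
  induction hs using Algebra.adjoin_induction with
  | mem z hz =>
    obtain ⟨o, u, hu, rfl⟩ := hz
    rw [redMap_tmul]
    exact mul_mem (Q'.algebraMap_mem' _) hu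
  | algebraMap r =>
    rw [AlgHom.commutes, IsScalarTower.algebraMap_apply k κ F']
    exact Q'.algebraMap_mem' _
  | add a c _ _ ha hc => rw [map_add]; exact add_mem ha hc
  | mul a c _ _ ha hc => rw [map_mul]; exact mul_mem ha hc

omit [Algebra k κ] [Algebra k F'] [IsScalarTower k κ F'] [IsScalarTower k F₀ F']
  [IsConstExtension k κ F₀ F'] in
omit [IsConstExtension k L F₀ F] in
/-- The regular part of the model takes values in the valuation rings of the places above. -/
private theorem genMap_mem_of_mem_regularPart {Q' : Place κ F'} (Q : Place L F)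
    (h : ∀ u : F₀, algebraMap F₀ F' u ∈ Q'.toValuationSubring →
      algebraMap F₀ F u ∈ Q.toValuationSubring)
    {s : O ⊗[k] F₀} (hs : s ∈ regularPart (O := O) k F₀ Q') :
    genMap F s ∈ Q.toValuationSubring := by
  induction hs using Algebra.adjoin_induction with
  | mem z hz =>
    obtain ⟨o, u, hu, rfl⟩ := hz
    rw [genMap_tmul]
    exact mul_mem (Q.algebraMap_mem' _) (h u hu)
  | algebraMap r =>
    rw [AlgHom.commutes, IsScalarTower.algebraMap_apply k L F]
    exact Q.algebraMap_mem' _
  | add a c _ _ ha hc => rw [map_add]; exact add_mem ha hc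
  | mul a c _ _ ha hc => rw [map_mul]; exact mul_mem ha hc

omit [IsProper f] [IsConstExtension k κ F₀ F'] in
/-- The translates have specialising images, and values at them are compatible with reduction. -/
private theorem specializes_reduces_shift (c₁ : SchemeHomOver (specStr K O) f) :
    imagePoint (shift G k F ι₀ (pointMap f
      ((IsScalarTower.toAlgHom k O L).restrictScalars K) c₁)).1 ⤳
        imagePoint (shift G k F' ι₀ (pointMap f (ρ.toHom.restrictScalars K) c₁)).1 ∧
      ∀ (e : (A.functionField)ˣ)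
        (he : e ∈ unitsAt (imagePoint (shift G k F ι₀ (pointMap f
          ((IsScalarTower.toAlgHom k O L).restrictScalars K) c₁)).1))
        (he' : e ∈ unitsAt (imagePoint (shift G k F' ι₀
          (pointMap f (ρ.toHom.restrictScalars K) c₁)).1)),
        Reduces (F₀ := F₀) F F' ρ (valueAt _ ⟨e, he⟩ : F) (valueAt _ ⟨e, he'⟩ : F') := by
  set ψ := shift G k F ι₀ (pointMap f ((IsScalarTower.toAlgHom k O L).restrictScalars K) c₁)
  set ψ' := shift G k F' ι₀ (pointMap f (ρ.toHom.restrictScalars K) c₁)
  obtain ⟨R, _, _, _, jS, jF, jR, hloc, hjF, hjR, hfrac⟩ :=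
    exists_localModel (genMap (k := k) (L := L) (F₀ := F₀) (O := O) F)
        genMap_injective (redMap F' ρ)
  let : Algebra K R := ((algebraMap k R).comp (algebraMap K k)).toAlgebra
  have : IsScalarTower K k R := IsScalarTower.of_algebraMap_eq' rfl
  obtain ⟨y, hyF, hyR⟩ := exists_modelPoint G ρ ι₀ ι₀ (AlgHom.id K F₀)
    (Subtype.ext (by simp [pointMap_val])) c₁
    ((Algebra.TensorProduct.includeRight : F₀ →ₐ[k] O ⊗[k] F₀).restrictScalars K)
    ((Algebra.TensorProduct.includeLeft : O →ₐ[k] O ⊗[k] F₀).restrictScalars K)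
    ((genMap (k := k) (L := L) F).restrictScalars K) ((redMap F' ρ).restrictScalars K)
    (AlgHom.ext fun u => by simp) (AlgHom.ext fun u => by simp)
    (AlgHom.ext fun o => by simp [constHom]) (AlgHom.ext fun o => by simp [constHom])
  set x := pointMap f (jS.restrictScalars K) y
  have hxF : pointMap f (jF.restrictScalars K) x = ψ := by
    rw [← hjF] at hyF
    exact (pointMap_comp f _ _ y).trans hyF
  have hxR : pointMap f (jR.restrictScalars K) x = ψ' := by
    rw [← hjR] at hyR
    exact (pointMap_comp f _ _ y).trans hyR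
  have : IsLocalHom (jR.restrictScalars K) := ⟨fun a ha => hloc.map_nonunit a ha⟩
  have hξ : imagePoint ψ'.1 = x.1 (closedPoint R) :=
    (congrArg (fun y : SchemeHomOver (specStr K F') f => imagePoint y.1) hxR).symm.trans
      (imagePoint_pointMap _ x)
  have hsp : imagePoint ψ.1 ⤳ x.1 (closedPoint R) := by
    have h : imagePoint (pointMap f (jF.restrictScalars K) x).1 ⤳ x.1 (closedPoint R) :=
      (specializes_closedPoint _).map x.1.continuous
    exact (congrArg (fun y : SchemeHomOver (specStr K F) f => imagePoint y.1) hxF) ▸ h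
  refine ⟨hξ ▸ hsp, fun e he he' => ?_⟩
  obtain ⟨w, hw⟩ := mem_unitsAt.mp (hξ ▸ he' : e ∈ unitsAt (x.1 (closedPoint R)))
  obtain ⟨a, b, hb, hab⟩ := hfrac (Scheme.stalkClosedPointTo x.1 w)
  refine ⟨a, b, hb.ne_zero, ?_, ?_⟩
  · rw [valueAt_regular ψ.1 (CommRingCat.ofHom (jF.restrictScalars K).toRingHom) x.1
      (congrArg Subtype.val hxF) ⟨e, he⟩ w hw, ← hjF, AlgHom.comp_apply, AlgHom.comp_apply, ← hab,
      map_mul]
    rfl
  · rw [valueAt_regular ψ'.1 (CommRingCat.ofHom (jR.restrictScalars K).toRingHom) x.1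
      (congrArg Subtype.val hxR) ⟨e, he'⟩ w hw, ← hjR, AlgHom.comp_apply, AlgHom.comp_apply, ← hab,
      map_mul]
    rfl

omit [AlgebraicGeometry.IsIntegral A] [IsConstExtension k L F₀ F] [IsConstExtension k κ F₀ F'] in
/-- A point of the regular part of the model at a place specialising both translates. -/
private theorem exists_regularPartPoint (c₁ : SchemeHomOver (specStr K O) f) (Q' : Place κ F') :
    ∃ y : SchemeHomOver (specStr K (regularPart (O := O) k F₀ Q')) f,
      pointMap f (((genMap F).comp (regularPart (O := O) k F₀ Q').val).restrictScalars K) y =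
        shift G k F ι₀ (pointMap f ((IsScalarTower.toAlgHom k O L).restrictScalars K) c₁) ∧
      pointMap f (((redMap F' ρ).comp (regularPart (O := O) k F₀ Q').val).restrictScalars K) y =
        shift G k F' ι₀ (pointMap f (ρ.toHom.restrictScalars K) c₁) := by
  let R₀ : ValuationSubring F₀ := Q'.toValuationSubring.comap (algebraMap F₀ F')
  have hkR₀ : ∀ a : k, algebraMap k F₀ a ∈ R₀ := fun a => by
    show algebraMap F₀ F' (algebraMap k F₀ a) ∈ Q'.toValuationSubring
    rw [← IsScalarTower.algebraMap_apply, IsScalarTower.algebraMap_apply k κ F']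
    exact Q'.algebraMap_mem' _
  let : Algebra K R₀ := (((algebraMap k F₀).codRestrict R₀.toSubring hkR₀).comp
    (algebraMap K k)).toAlgebra
  have : IsScalarTower K R₀ F₀ :=
    IsScalarTower.of_algebraMap_eq fun a => IsScalarTower.algebraMap_apply K k F₀ a
  obtain ⟨ι₁, hι₁⟩ := (exists_pointMap_eq (R := R₀) f ι₀).exists
  set S := regularPart (O := O) k F₀ Q'
  let incR : R₀ →ₐ[K] S :=
    { toFun := fun u => ⟨(1 : O) ⊗ₜ[k] (u : F₀), Algebra.subset_adjoin ⟨1, u, u.2, rfl⟩⟩
      map_one' := rfl
      map_mul' := fun a b => Subtype.ext (by simp)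
      map_zero' := Subtype.ext (by simp)
      map_add' := fun a b => Subtype.ext (TensorProduct.tmul_add _ _ _)
      commutes' := fun a => Subtype.ext (by
        show (1 : O) ⊗ₜ[k] algebraMap k F₀ (algebraMap K k a) = algebraMap K (O ⊗[k] F₀) a
        rw [IsScalarTower.algebraMap_apply K k (O ⊗[k] F₀)]
        exact (Algebra.TensorProduct.includeRight.commutes _)) }
  let incO : O →ₐ[k] S :=
    (Algebra.TensorProduct.includeLeft : O →ₐ[k] O ⊗[k] F₀).codRestrict S fun o =>
      Algebra.subset_adjoin ⟨o, 1, by rw [map_one]; exact one_mem _, rfl⟩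
  exact exists_modelPoint G ρ ι₀ ι₁ (IsScalarTower.toAlgHom K R₀ F₀) hι₁ c₁ incR
    (incO.restrictScalars K) _ _
    (AlgHom.ext fun u => by
      show genMap F ((1 : O) ⊗ₜ[k] (u : F₀)) = algebraMap F₀ F (u : F₀)
      simp)
    (AlgHom.ext fun u => by
      show redMap F' ρ ((1 : O) ⊗ₜ[k] (u : F₀)) = algebraMap F₀ F' (u : F₀)
      simp)
    (AlgHom.ext fun o => by
      show genMap F (o ⊗ₜ[k] (1 : F₀)) = algebraMap L F o
      simp)
    (AlgHom.ext fun o => by
      show redMap F' ρ (o ⊗ₜ[k] (1 : F₀)) = algebraMap κ F' (ρ.toHom o)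
      simp)

/-- A local model at a place, whose closed point is the centre of the reduced translate. -/
private theorem exists_placeModel [IsScalarTower K κ F'] (c₁ : SchemeHomOver (specStr K O) f)
    (Q' : Place κ F') :
    ∃ (R : Type u) (_ : CommRing R) (_ : IsLocalRing R) (_ : Algebra K R) (jF : R →ₐ[K] F)
      (x : SchemeHomOver (specStr K R) f),
      pointMap f jF x =
        shift G k F ι₀ (pointMap f ((IsScalarTower.toAlgHom k O L).restrictScalars K) c₁) ∧
      centreAt f Q' (shift G k F' ι₀ (pointMap f (ρ.toHom.restrictScalars K) c₁)) =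
        x.1 (closedPoint R) ∧
      ∀ r, ∃ a ∈ regularPart (O := O) k F₀ Q', ∃ b ∈ regularPart (O := O) k F₀ Q',
        redMap F' ρ b ≠ 0 ∧ Q'.ord (redMap F' ρ b) = 0 ∧ jF r * genMap F b = genMap F a := by
  let S := regularPart (O := O) k F₀ Q'
  obtain ⟨y, hyF, hyR⟩ := exists_regularPartPoint G ρ ι₀ (F := F) c₁ Q'
  let := placeAlgebra (K := k) Q'
  have : IsScalarTower k Q'.toValuationSubring F' := IsScalarTower.of_algebraMap_eq fun a =>
    IsScalarTower.algebraMap_apply k κ F' a
  let g : S →ₐ[k] Q'.toValuationSubring :=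
    { ((redMap F' ρ).toRingHom.comp S.val.toRingHom).codRestrict Q'.toValuationSubring.toSubring
        (fun s => redMap_mem_of_mem_regularPart ρ Q' s.2) with
      commutes' := fun a => Subtype.ext (((redMap F' ρ).comp S.val).commutes a |>.trans
        (IsScalarTower.algebraMap_apply k κ F' a)) }
  obtain ⟨R, _, _, _, jS, jF, jR, hloc, hjF, hjR, hfrac⟩ :=
    exists_localModel (k := k) (S := ↥S) (R' := ↥Q'.toValuationSubring) ((genMap F).comp S.val)
        (genMap_injective.comp Subtype.val_injective) g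
  let : Algebra K R := ((algebraMap k R).comp (algebraMap K k)).toAlgebra
  have : IsScalarTower K k R := IsScalarTower.of_algebraMap_eq' rfl
  refine ⟨R, inferInstance, inferInstance, inferInstance, jF.restrictScalars K,
    pointMap f (jS.restrictScalars K) y, ?_, ?_, fun r => ?_⟩
  · rw [pointMap_comp, ← hyF, ← hjF]; rfl
  · let j' : R →ₐ[K] F' :=
      ((IsScalarTower.toAlgHom k Q'.toValuationSubring F').comp jR).restrictScalars K
    have h : pointMap f j' (pointMap f (jS.restrictScalars K) y) =
        shift G k F' ι₀ (pointMap f (ρ.toHom.restrictScalars K) c₁) := by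
      rw [← hyR, pointMap_comp]
      congr 1
      exact AlgHom.ext fun s => congrArg Subtype.val (DFunLike.congr_fun hjR s)
    rw [← h]
    exact centreAt_pointMap_eq Q' j' (fun r => (jR r).2)
      ⟨fun r hr => hloc.map_nonunit r hr⟩ _
  · obtain ⟨a, b, hb, hab⟩ := hfrac r
    refine ⟨a, a.2, b, b.2, fun h => hb.ne_zero (Subtype.ext h), Q'.ord_coe_unit hb.unit, ?_⟩
    have h := congrArg jF hab
    rwa [map_mul, ← AlgHom.comp_apply jF, ← AlgHom.comp_apply jF, hjF] at h

/-- The centre of a translate at a place above generalises that of the reduced translate. -/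
private theorem centreAt_shift_specializes [IsScalarTower K L F] [IsScalarTower K κ F']
    (c₁ : SchemeHomOver (specStr K O) f)
    (Q' : Place κ F') (Q : Place L F)
    (h1 : ∀ u : F₀, algebraMap F₀ F' u ∈ Q'.toValuationSubring →
      algebraMap F₀ F u ∈ Q.toValuationSubring)
    (h2 : ∀ b ∈ regularPart (O := O) k F₀ Q', redMap F' ρ b ≠ 0 →
      Q'.ord (redMap F' ρ b) = 0 → Q.ord (genMap F b) = 0) :
    centreAt f Q (shift G k F ι₀ (pointMap f
      ((IsScalarTower.toAlgHom k O L).restrictScalars K) c₁)) ⤳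
        centreAt f Q' (shift G k F' ι₀ (pointMap f (ρ.toHom.restrictScalars K) c₁)) := by
  obtain ⟨R, _, _, _, jF, x, hxF, hxR, hfrac⟩ := exists_placeModel G ρ ι₀ (F := F) c₁ Q'
  rw [hxR, ← hxF]
  refine centreAt_pointMap_specializes Q jF (fun r => ?_) x
  obtain ⟨a, ha, b, hbS, hb, hob, hab⟩ := hfrac r
  have hb0 : genMap F b ≠ 0 := fun h => hb (by
    rw [(map_eq_zero_iff _ genMap_injective).mp h, map_zero])
  rw [(eq_mul_inv_iff_mul_eq₀ hb0).mpr hab]
  exact mul_mem (genMap_mem_of_mem_regularPart Q h1 ha)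
    (FFBasic.mem_of_ord_nonneg _ (by rw [Q.ord_inv, h2 _ hbS hb hob, neg_zero]))

variable [IsFunctionField k F₀] [IsFunctionField L F] [IsFunctionField κ F']
  [IsScalarTower K L F] [IsScalarTower K κ F']

omit [IsFunctionField k F₀] in
/-- One translate: a representative whose pullbacks are compatible with specialisation. -/
theorem exists_rep_specialise [CompactSpace A] (c₁ : SchemeHomOver (specStr K O) f)
    (D : CDivClass A) :
    ∃ (M : Divisor L F) (M' : Divisor κ F'),
      (QuotientAddGroup.mk M : Pic L F) = Multiplicative.toAdd (pullPic f (shift G k F ι₀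
        (pointMap f ((IsScalarTower.toAlgHom k O L).restrictScalars K) c₁)) D) ∧
      (QuotientAddGroup.mk M' : Pic κ F') = Multiplicative.toAdd (pullPic f (shift G k F' ι₀
        (pointMap f (ρ.toHom.restrictScalars K) c₁)) D) ∧
      ∀ Q' : Place κ F', ∃ (v : F) (v' : F'), v' ≠ 0 ∧ Reduces (F₀ := F₀) F F' ρ v v' ∧
        M' Q' = Q'.ord v' ∧
        ∀ Q : Place L F,
          (∀ u : F₀, algebraMap F₀ F' u ∈ Q'.toValuationSubring →
            algebraMap F₀ F u ∈ Q.toValuationSubring) →
          (∀ b ∈ regularPart (O := O) k F₀ Q', redMap F' ρ b ≠ 0 → Q'.ord (redMap F' ρ b) = 0 →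
            Q.ord (genMap F b) = 0) → M Q = Q.ord v := by
  classical
  set ψ := shift G k F ι₀ (pointMap f ((IsScalarTower.toAlgHom k O L).restrictScalars K) c₁)
  set ψ' := shift G k F' ι₀ (pointMap f (ρ.toHom.restrictScalars K) c₁)
  -- the translates specialise; choose a representative trivial at the reduced one
  obtain ⟨hsp, hred⟩ := specializes_reduces_shift G ρ ι₀ (F := F) (F' := F') c₁
  obtain ⟨D₀, rfl⟩ := QuotientGroup.mk_surjective D
  obtain ⟨h₀, hh₀⟩ := exists_trivialAt D₀ (imagePoint ψ'.1)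
  set D₁ := D₀ * principal h₀
  have hcls : (QuotientGroup.mk D₀ : CDivClass A) = QuotientGroup.mk D₁ := by
    rw [QuotientGroup.mk_mul]
    exact ((congrArg ((QuotientGroup.mk D₀ : CDivClass A) * ·)
      ((QuotientGroup.eq_one_iff (principal h₀)).mpr ⟨h₀, rfl⟩)).trans (mul_one _)).symm
  have hD : D₁ ∈ trivialAt (imagePoint ψ.1) := trivialAt_mono hsp hh₀
  refine ⟨pullDiv f ψ ⟨D₁, hD⟩, pullDiv f ψ' ⟨D₁, hh₀⟩,
    by rw [hcls, pullPic_mk f ψ ⟨D₁, hD⟩]; rfl, by rw [hcls, pullPic_mk f ψ' ⟨D₁, hh₀⟩]; rfl,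
    fun Q' => ?_⟩
  -- both orders are read off from a local equation at the centre of `Q'`
  obtain ⟨e, he⟩ := exists_localEq D₁ (centreAt f Q' ψ')
  have he' : e ∈ unitsAt (imagePoint ψ'.1) :=
    mem_unitsAt_of_trivialAt hh₀ (specializes_centreAt f Q' ψ') he
  have he₀ : e ∈ unitsAt (imagePoint ψ.1) := unitsAt_mono hsp he'
  refine ⟨valueAt ψ.1 ⟨e, he₀⟩, valueAt ψ'.1 ⟨e, he'⟩, Units.ne_zero _, hred e he₀ he', ?_,
    fun Q h1 h2 => ?_⟩
  · rw [pullDiv_apply]
    exact pullOrd_eq_of_specializes f ψ' ⟨D₁, hh₀⟩ Q' specializes_rfl ⟨e, he'⟩ he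
  · rw [pullDiv_apply]
    exact pullOrd_eq_of_specializes f ψ ⟨D₁, hD⟩ Q
      (centreAt_shift_specializes G ρ ι₀ c₁ Q' Q h1 h2) ⟨e, he₀⟩ he

omit [IsConstExtension k κ F₀ F'] [IsFunctionField k F₀] [IsFunctionField L F]
  [IsFunctionField κ F'] in
theorem Reduces.zpow {φ : F} {φ' : F'} (h : Reduces (F₀ := F₀) F F' ρ φ φ') (h0 : φ' ≠ 0)
    (n : ℤ) : Reduces (F₀ := F₀) F F' ρ (φ ^ n) (φ' ^ n) := by
  rcases n with n | n
  · simpa using h.pow n
  · simpa [zpow_negSucc, inv_pow] using (h.inv h0).pow (n + 1)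

/-- **Specialisation of the pullback of a class along a family of translates of a curve.** -/
theorem exists_specialise [CompactSpace A] [IsAlgClosed k] [IsAlgClosed L] [IsAlgClosed κ]
    {α : Type} [Fintype α] (c₁ : α → SchemeHomOver (specStr K O) f)
    (ε : α → ℤ) (D : CDivClass A) :
    ∃ (M : Divisor L F) (M' : Divisor κ F'),
      (QuotientAddGroup.mk M : Pic L F) = ∑ i, ε i • Multiplicative.toAdd (pullPic f (shift G k F ι₀
        (pointMap f ((IsScalarTower.toAlgHom k O L).restrictScalars K) (c₁ i))) D) ∧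
      (QuotientAddGroup.mk M' : Pic κ F') = ∑ i,
          ε i • Multiplicative.toAdd (pullPic f (shift G k F' ι₀
        (pointMap f (ρ.toHom.restrictScalars K) (c₁ i))) D) ∧
      ∀ (n : ℤ) (E : Divisor k F₀) (φ : F) (φ' : F'), Reduces (F₀ := F₀) F F' ρ φ φ' →
        φ ∈ riemannRochSpace (n • M + mapDiv L F E) →
          φ' ∈ riemannRochSpace (n • M' + mapDiv κ F' E) := by
  classical
  choose M M' hM hM' hloc using fun i => exists_rep_specialise G ρ ι₀ (F := F) (F' := F') (c₁ i) D
  refine ⟨∑ i, ε i • M i, ∑ i, ε i • M' i, ?_, ?_, fun n E φ φ' hr hφ => ?_⟩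
  · simp only [← hM]
    exact map_sum (QuotientAddGroup.mk' (Divisor.principal (K := L) (F := F))) _ _ |>.trans
      (Finset.sum_congr rfl fun i _ => map_zsmul _ _ _)
  · simp only [← hM']
    exact map_sum (QuotientAddGroup.mk' (Divisor.principal (K := κ) (F := F'))) _ _ |>.trans
      (Finset.sum_congr rfl fun i _ => map_zsmul _ _ _)
  refine mem_riemannRochSpace_iff.2 fun Q' => ?_
  rcases eq_or_ne φ' 0 with h0 | h0
  · exact Or.inl h0
  right
  choose v v' hv0 hvr hvQ' hvQ using fun i => hloc i Q'
  have hv : ∀ i, v i ≠ 0 := fun i h => hv0 i ((hvr i).unique (h ▸ Reduces.zero))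
  have hφ0 : φ ≠ 0 := fun h => h0 (hr.unique (h ▸ Reduces.zero))
  have key := ord_ge_of_reduces (F := F) (F' := F') E Q'
    (hr.mul (Reduces.prod Finset.univ fun i _ => (hvr i).zpow ρ (hv0 i) (n * ε i)))
    (mul_ne_zero h0 (Finset.prod_ne_zero_iff.mpr fun i _ => zpow_ne_zero _ (hv0 i)))
    fun Q h1 h2 => by
      have h3 := (mem_riemannRochSpace_iff.1 hφ Q).resolve_left hφ0
      rw [Q.ord_mul hφ0 (Finset.prod_ne_zero_iff.mpr fun i _ => zpow_ne_zero _ (hv i)),
        FFBasic.ord_prod _ _ _ fun i _ => zpow_ne_zero _ (hv i)]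
      simp only [Finsupp.add_apply, Finsupp.finsetSum_apply, Finsupp.smul_apply, smul_eq_mul,
        hvQ _ Q h1 h2, Finset.mul_sum] at h3
      simp only [Q.ord_zpow, mul_assoc] at h3 ⊢
      linarith
  rw [Q'.ord_mul h0 (Finset.prod_ne_zero_iff.mpr fun i _ => zpow_ne_zero _ (hv0 i)),
    FFBasic.ord_prod _ _ _ fun i _ => zpow_ne_zero _ (hv0 i)] at key
  simp only [Place.ord_zpow] at key
  simp only [Finsupp.add_apply, Finsupp.finsetSum_apply, Finsupp.smul_apply, smul_eq_mul, hvQ',
    Finset.mul_sum, mul_assoc] at key ⊢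
  linarith

end FLTAgent.AbelianTorsion
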