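import Mathlib
import Fermat.Agent.AbelianTorsion.Specialise
import Fermat.Agent.AbelianTorsion.Residue
import Fermat.Agent.Jacobian.ConstExtTensor

/-!
# Rigidity of the pullback of a class along translates of a curve

`quadPic_eq_zero`: for an independent pair of points the second difference `quadPic` of the
translates of a curve vanishes in the divisor classes, by specialising at valuations.
-/

set_option autoImplicit false

noncomputable section

universe u

open CategoryTheory CategoryTheory.Limits AlgebraicGeometry NeronModelInfra GoodReductionJacobian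
open IsLocalRing AlgebraicCurve
open FLTAgent.FFBasic (IsFunctionField)
open FLTAgent.FFRiemannRoch (ell divOf divOf_apply)
open FLTAgent.Jacobian FLTAgent.Jacobian.ConstExt

namespace FLTAgent.AbelianTorsion

variable {K : Type u} [Field K] {A : Scheme.{u}} {f : A ⟶ Spec (CommRingCat.of K)} [IsProper f]
  [IsIntegral A] [CompactSpace A] (G : RelativeGroupLaw K f)

omit [IsIntegral A] [CompactSpace A] [IsProper f] in
theorem pointMap_one {R S : Type u} [CommRing R] [CommRing S] [Algebra K R] [Algebra K S]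
    (j : R →ₐ[K] S) : pointMap f j (G.one (specStr K R)) = G.one (specStr K S) :=
  G.one_natural _ _ _ _

variable {k L F₀ F : Type u} [Field k] [Field L] [Field F₀] [Field F]
  [Algebra k L] [Algebra k F₀] [Algebra L F] [Algebra F₀ F] [Algebra k F] [IsScalarTower k L F]
  [IsScalarTower k F₀ F] [Algebra K k] [Algebra K L] [IsScalarTower K k L] [Algebra K F₀]
  [IsScalarTower K k F₀] [Algebra K F] [IsScalarTower K k F] [IsScalarTower K L F]
  [IsFunctionField L F]

variable (k F) in
/-- The class of the translate of the curve by `c`. -/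
def shiftPic (ι₀ : SchemeHomOver (specStr K F₀) f) (D : CDivClass A)
    (c : SchemeHomOver (specStr K L) f) : Pic L F :=
  Multiplicative.toAdd (pullPic f (shift G k F ι₀ c) D)

variable (k F) in
/-- The second difference of the translates. -/
def quadPic (ι₀ : SchemeHomOver (specStr K F₀) f) (D : CDivClass A)
    (a b : SchemeHomOver (specStr K L) f) : Pic L F :=
  shiftPic G k F ι₀ D (G.mul _ a b) - shiftPic G k F ι₀ D a - shiftPic G k F ι₀ D b
    + shiftPic G k F ι₀ D (G.one _)

theorem quadPic_one_right (ι₀ : SchemeHomOver (specStr K F₀) f) (D : CDivClass A)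
    (a : SchemeHomOver (specStr K L) f) : quadPic G k F ι₀ D a (G.one _) = 0 := by
  rw [quadPic, G.mul_one]; abel

theorem quadPic_one_left (ι₀ : SchemeHomOver (specStr K F₀) f) (D : CDivClass A)
    (b : SchemeHomOver (specStr K L) f) : quadPic G k F ι₀ D (G.one _) b = 0 := by
  rw [quadPic, G.one_mul]; abel

theorem mk_divOf (z : F) (hz : z ≠ 0) :
    (QuotientAddGroup.mk (divOf (K := L) z) : Pic L F) = 0 :=
  (QuotientAddGroup.eq_zero_iff _).mpr ⟨z, hz, fun v => by rw [divOf_apply]⟩

theorem exists_eq_add_divOf {M M' : Divisor L F}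
    (h : (QuotientAddGroup.mk M : Pic L F) = QuotientAddGroup.mk M') :
    ∃ z : F, z ≠ 0 ∧ M' = M + divOf z := by
  obtain ⟨z, hz, hzv⟩ := QuotientAddGroup.eq.mp h
  refine ⟨z, hz, Finsupp.ext fun v => ?_⟩
  rw [Finsupp.add_apply, divOf_apply, ← hzv v, Finsupp.add_apply, Finsupp.neg_apply]
  ring

section AtValuation

variable {κ F' : Type u} [Field κ] [Field F'] [Algebra k κ] [Algebra κ F'] [Algebra F₀ F']
  [Algebra k F'] [IsScalarTower k κ F'] [IsScalarTower k F₀ F']
  [IsConstExtension k L F₀ F] [IsConstExtension k κ F₀ F']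
  [IsFunctionField k F₀] [IsFunctionField κ F'] [IsAlgClosed k] [IsAlgClosed L] [IsAlgClosed κ]
  [Algebra K κ] [IsScalarTower K k κ] [Algebra K F'] [IsScalarTower K k F'] [IsScalarTower K κ F']
  {O : ValuationSubring L} [Algebra k O] [IsScalarTower k O L] [Algebra K O] [IsScalarTower K k O]
  (ρ : ResidueMap k O κ) (ι₀ : SchemeHomOver (specStr K F₀) f) (D : CDivClass A)
  (a₁ b₁ : SchemeHomOver (specStr K O) f)

/-- The restriction of a point to the generic point. -/
abbrev genPt (c₁ : SchemeHomOver (specStr K O) f) : SchemeHomOver (specStr K L) f :=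
  pointMap f ((IsScalarTower.toAlgHom k O L).restrictScalars K) c₁

/-- The reduction of a point. -/
abbrev redPt (c₁ : SchemeHomOver (specStr K O) f) : SchemeHomOver (specStr K κ) f :=
  pointMap f (ρ.toHom.restrictScalars K) c₁

theorem exists_specialise_quad
    (hbar : quadPic G k F' ι₀ D (redPt ρ a₁) (redPt ρ b₁) = 0) :
    ∃ (M : Divisor L F) (z : F'), z ≠ 0 ∧
      (QuotientAddGroup.mk M : Pic L F) =
        quadPic G k F ι₀ D (genPt (k := k) a₁) (genPt (k := k) b₁) ∧
      ∀ (n : ℤ) (E : Divisor k F₀) (φ : F) (φ' : F'), Reduces (F₀ := F₀) F F' ρ φ φ' →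
        φ ∈ riemannRochSpace (n • M + mapDiv L F E) →
          φ' ∈ riemannRochSpace (n • divOf z + mapDiv κ F' E) := by
  obtain ⟨M, M', hM, hM', h⟩ := exists_specialise G ρ ι₀ (F := F) (F' := F')
    ![G.mul _ a₁ b₁, a₁, b₁, G.one _] ![(1 : ℤ), -1, -1, 1] D
  have hsum : ∀ {M : Type u} [AddCommGroup M] (w x y v : M),
      w - x - y + v = (1 : ℤ) • w + (-1 : ℤ) • x + (-1 : ℤ) • y + (1 : ℤ) • v := fun w x y v => by
    simp [sub_eq_add_neg]
  have h0 : (QuotientAddGroup.mk M' : Pic κ F') = QuotientAddGroup.mk (0 : Divisor κ F') := by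
    rw [hM', QuotientAddGroup.mk_zero, ← hbar, quadPic, hsum]
    simp [Fin.sum_univ_four, shiftPic, redPt, pointMap_mul, pointMap_one]
  obtain ⟨z, hz, hz'⟩ := exists_eq_add_divOf h0.symm
  refine ⟨M, z, hz, ?_, ?_⟩
  · rw [hM, quadPic, hsum]
    simp [Fin.sum_univ_four, shiftPic, genPt, pointMap_mul, pointMap_one]
  · rw [zero_add] at hz'
    rw [← hz']
    exact h

theorem degree_eq_zero_of_quad
    (hbar : quadPic G k F' ι₀ D (redPt ρ a₁) (redPt ρ b₁) = 0) (M₁ : Divisor L F)
    (hM₁ : (QuotientAddGroup.mk M₁ : Pic L F) =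
      quadPic G k F ι₀ D (genPt (k := k) a₁) (genPt (k := k) b₁)) :
    Divisor.degree M₁ = 0 := by
  obtain ⟨M, z, hz, hM, h⟩ := exists_specialise_quad G ρ ι₀ D a₁ b₁ (F := F) (F' := F') hbar
  obtain ⟨P₀⟩ := FFBasic.nonempty_place (K := k) (F := F₀)
  set E : Divisor k F₀ := Finsupp.single P₀ (2 * (genusFF k F₀ : ℤ)) with hE
  have hdeg : Divisor.degree E = 2 * genusFF k F₀ := by
    rw [hE, Divisor.degree_single, FFBasic.place_deg_eq_one, Nat.cast_one, mul_one]
  have key : ∀ n : ℤ, n * Divisor.degree M ≤ 0 := by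
    intro n
    have h1 := finrank_le_of_reduces (F₀ := F₀) ρ (riemannRochSpace (n • M + mapDiv L F E))
      (riemannRochSpace (n • divOf z + mapDiv κ F' E)) fun φ hφ φ' hr => h n E φ φ' hr hφ
    have h2 := FFRiemannRoch.ell_ge (n • M + mapDiv L F E)
    have h3 : ell κ F' (n • divOf z + mapDiv κ F' E) = ell k F₀ E := by
      have : n • divOf (K := κ) z = divOf (z ^ n) := Finsupp.ext fun v => by
        simp [divOf_apply, Place.ord_zpow]
      rw [this, add_comm, FFRiemannRoch.ell_add_divOf _ (zpow_ne_zero _ hz),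
        ConstExt.ell_mapDiv]
    have h4 := FFRiemannRoch.ell_eq_of_lt (D := E) (by rw [hdeg]; omega)
    rw [map_add, map_zsmul, smul_eq_mul, degree_mapDiv, hdeg,
      ConstExt.genusFF_eq k L F₀ F] at h2
    rw [hdeg] at h4
    have h5 : (ell L F (n • M + mapDiv L F E) : ℤ) ≤ ell κ F' (n • divOf z + mapDiv κ F' E) := by
      exact_mod_cast h1
    rw [h3] at h5
    omega
  obtain ⟨w, hw, rfl⟩ := exists_eq_add_divOf (hM.trans hM₁.symm)
  have e1 := key 1
  have e2 := key (-1)
  rw [map_add, FFRiemannRoch.degree_divOf]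
  omega

/-- The linear system attached to the unique effective divisor specialises into the fixed one. -/
theorem mem_of_reduces (hbar : quadPic G k F' ι₀ D (redPt ρ a₁) (redPt ρ b₁) = 0)
    (P N : Divisor k F₀) (hP : ell k F₀ P = 1) (hP0 : 0 ≤ P) (Q : Divisor L F) (hQ0 : 0 ≤ Q)
    (hQ : (QuotientAddGroup.mk Q : Pic L F) =
      quadPic G k F ι₀ D (genPt (k := k) a₁) (genPt (k := k) b₁) +
        QuotientAddGroup.mk (mapDiv L F P))
    {w : F} {w' : F'} (hw : w ∈ riemannRochSpace (mapDiv L F N - Q))
    (hr : Reduces (F₀ := F₀) F F' ρ w w') : w' ∈ riemannRochSpace (mapDiv κ F' (N - P)) := by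
  obtain ⟨M, z, hz, hM, h⟩ := exists_specialise_quad G ρ ι₀ D a₁ b₁ (F := F) (F' := F') hbar
  obtain ⟨u, hu, huQ⟩ := exists_eq_add_divOf (M := M + mapDiv L F P) (M' := Q) (by
    rw [hQ, QuotientAddGroup.mk_add, hM])
  obtain ⟨l, u', hl, hu', hur⟩ := exists_smul_reduces (F₀ := F₀) (F' := F') ρ hu
  have hl' : algebraMap L F l ≠ 0 := (_root_.map_ne_zero _).mpr hl
  have hordu : ∀ v : Place L F, v.ord (algebraMap L F l * u) = v.ord u := fun v => by
    rw [v.ord_mul hl' hu, FFBasic.ord_algebraMap, zero_add]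
  have huM : algebraMap L F l * u ∈ riemannRochSpace ((1 : ℤ) • M + mapDiv L F P) :=
    mem_riemannRochSpace_iff.2 fun v => Or.inr (by
      have h1 : (0 : ℤ) ≤ Q v := hQ0 v
      rw [huQ, Finsupp.add_apply, divOf_apply] at h1
      rw [hordu, one_smul]
      linarith)
  have h1 := h 1 P _ u' hur huM
  -- `u' * z` is constant
  have hc : ∀ v : Place κ F', v.ord u' + v.ord z = 0 := by
    have hmem : u' * z ∈ riemannRochSpace (mapDiv κ F' P) := mem_riemannRochSpace_iff.2 fun v =>
      Or.inr (by
        have h2 := (mem_riemannRochSpace_iff.1 h1 v).resolve_left hu'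
        rw [Finsupp.add_apply, one_smul, divOf_apply] at h2
        rw [v.ord_mul hu' hz]
        linarith)
    have h1m : (1 : F') ∈ riemannRochSpace (mapDiv κ F' P) := mem_riemannRochSpace_iff.2 fun v =>
      Or.inr (by
        rw [v.ord_one]
        have := (ConstExt.degree_mapDiv (K := κ) (F := F') P)
        rcases exists_extPlace_eq_or_isGeneric (K₀ := k) (F₀ := F₀) v with ⟨P', rfl⟩ | hgen
        · rw [mapDiv_apply_extPlace]
          have h3 : (0 : ℤ) ≤ P P' := hP0 P'
          linarith
        · rw [mapDiv_apply_of_isGeneric _ hgen]; norm_num)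
    have hfr : Module.finrank κ (riemannRochSpace (mapDiv κ F' P)) = 1 := by
      show ell κ F' (mapDiv κ F' P) = 1
      rw [ConstExt.ell_mapDiv, hP]
    obtain ⟨c, hc⟩ := (finrank_eq_one_iff_of_nonzero' (⟨1, h1m⟩ : riemannRochSpace (mapDiv κ F' P))
      (fun h => one_ne_zero (congrArg Subtype.val h))).mp hfr ⟨_, hmem⟩
    have hc' : u' * z = algebraMap κ F' c := by
      have h := congrArg Subtype.val hc
      simp only [SetLike.val_smul, Algebra.smul_def, mul_one] at h
      exact h.symm
    intro v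
    rw [← v.ord_mul hu' hz, hc', FFBasic.ord_algebraMap]
  rcases eq_or_ne w' 0 with rfl | hw'
  · exact zero_mem _
  have hw0 : w ≠ 0 := fun hw0 => hw' (hr.unique (hw0 ▸ Reduces.zero))
  have hquot : w * (algebraMap L F l * u)⁻¹ ∈
      riemannRochSpace ((-1 : ℤ) • M + mapDiv L F (N - P)) := by
    refine mem_riemannRochSpace_iff.2 fun v => Or.inr ?_
    have h2 := (mem_riemannRochSpace_iff.1 hw v).resolve_left hw0
    rw [Finsupp.sub_apply, huQ] at h2
    rw [v.ord_mul hw0 (inv_ne_zero (mul_ne_zero hl' hu)), v.ord_inv, hordu, map_sub]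
    simp only [Finsupp.add_apply, Finsupp.sub_apply, Finsupp.smul_apply, smul_eq_mul, divOf_apply]
      at h2 ⊢
    linarith
  have h2 := h (-1) (N - P) _ _ (hr.mul (hur.inv hu')) hquot
  refine mem_riemannRochSpace_iff.2 fun v => Or.inr ?_
  have h3 := (mem_riemannRochSpace_iff.1 h2 v).resolve_left (mul_ne_zero hw' (inv_ne_zero hu'))
  have h4 := hc v
  rw [v.ord_mul hw' (inv_ne_zero hu'), v.ord_inv] at h3
  simp only [Finsupp.add_apply, Finsupp.smul_apply, smul_eq_mul, divOf_apply] at h3
  linarith

end AtValuation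

variable [IsConstExtension k L F₀ F] [IsFunctionField k F₀] [IsAlgClosed k] [IsAlgClosed L]

omit [AlgebraicGeometry.IsIntegral A] [CompactSpace ↥A] [IsAlgClosed L] in
/-- Points defined on a subalgebra extend to valuation rings containing it. -/
theorem eq_pointMap_of_subalgebra {k' : Type u} [Field k'] [Algebra k' L] [Algebra K k']
    [IsScalarTower K k' L] (R : Subalgebra k' L) (χ : R →ₐ[k'] k') {κ : Type u} [Field κ]
    [Algebra K κ] {O : ValuationSubring L} [Algebra K O] [IsScalarTower K O L]
    (res : O →ₐ[K] κ) (hres : ∀ x : O, ¬IsUnit x → res x = 0)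
    (hRO : ∀ r : R, (r : L) ∈ O ∧ (r : L) - algebraMap k' L (χ r) ∈ O.nonunits)
    (xR : SchemeHomOver (specStr K R) f)
    (hx0 : pointMap f (χ.restrictScalars K) xR = G.one _)
    (x₁ : SchemeHomOver (specStr K O) f)
    (hx₁ : pointMap f (IsScalarTower.toAlgHom K O L) x₁ = pointMap f (R.val.restrictScalars K) xR) :
    pointMap f res x₁ = G.one _ := by
  have hk' : ∀ a : k', algebraMap k' L a ∈ O := fun a => (hRO (algebraMap k' R a)).1
  let toO : k' →ₐ[K] O :=
    { (algebraMap k' L).codRestrict O.toSubring hk' with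
      commutes' := fun a => Subtype.ext (by
        show algebraMap k' L (algebraMap K k' a) = ((algebraMap K O a : O) : L)
        rw [← IsScalarTower.algebraMap_apply, IsScalarTower.algebraMap_apply K O L]
        rfl) }
  let i : R →ₐ[K] O :=
    { (R.val.toRingHom).codRestrict O.toSubring (fun r => (hRO r).1) with
      commutes' := fun a => Subtype.ext (by
        show ((algebraMap K R a : R) : L) = ((algebraMap K O a : O) : L)
        rw [IsScalarTower.algebraMap_apply K k' R]
        show algebraMap k' L (algebraMap K k' a) = _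
        rw [← IsScalarTower.algebraMap_apply, IsScalarTower.algebraMap_apply K O L]
        rfl) }
  have h1 : x₁ = pointMap f i xR := by
    refine (exists_pointMap_eq (R := O) f _).unique hx₁ ?_
    rw [pointMap_comp]
    rfl
  have h2 : res.comp i = (res.comp toO).comp (χ.restrictScalars K) := AlgHom.ext fun r => by
    obtain ⟨hm, hu⟩ := (ValuationSubring.mem_nonunits_iff_exists_mem_maximalIdeal (A := O)).mp
      (hRO r).2
    have h := hres ⟨_, hm⟩ ((IsLocalRing.mem_maximalIdeal _).mp hu)
    have h3 : (⟨_, hm⟩ : O) = i r - toO (χ r) := Subtype.ext rfl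
    rw [h3, map_sub, sub_eq_zero] at h
    exact h
  rw [h1, pointMap_comp, h2, ← pointMap_comp, hx0, pointMap_one]

/-- What is algebraic over a subalgebra of an algebraically closed subfield lies in it. -/
theorem mem_range_of_isAlgebraic_subalgebra {k L kb : Type u} [Field k] [Field L] [Field kb]
    [IsAlgClosed kb] [Algebra k L] [Algebra kb L] (R : Subalgebra k L)
    (hR : ∀ r : R, (r : L) ∈ Set.range (algebraMap kb L)) {c : L} (hc : IsAlgebraic R c) :
    c ∈ Set.range (algebraMap kb L) := by
  obtain ⟨p, hp0, hp⟩ := hc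
  choose g hg using hR
  have hinj := (algebraMap kb L).injective
  let h : R →+* kb :=
    { toFun := g
      map_one' := hinj (by rw [hg, map_one]; rfl)
      map_mul' := fun r r' => hinj (by rw [map_mul, hg, hg, hg]; rfl)
      map_zero' := hinj (by rw [hg, map_zero]; rfl)
      map_add' := fun r r' => hinj (by rw [map_add, hg, hg, hg]; rfl) }
  have hcomp : (algebraMap kb L).comp h = algebraMap R L := RingHom.ext hg
  have halg : IsAlgebraic kb c := by
    refine ⟨p.map h, (Polynomial.map_ne_zero_iff ?_).mpr hp0, ?_⟩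
    · intro r r' hrr'
      refine Subtype.ext ?_
      have := congrArg (algebraMap kb L) hrr'
      rwa [show h r = g r from rfl, show h r' = g r' from rfl, hg, hg] at this
    · rw [Polynomial.aeval_def, Polynomial.eval₂_map, hcomp, ← Polynomial.aeval_def]
      exact hp
  have := IntermediateField.adjoin.finiteDimensional halg.isIntegral
  have : Algebra.IsIntegral kb (IntermediateField.adjoin kb {c}) := Algebra.IsIntegral.of_finite _ _
  obtain ⟨t, ht⟩ := (IsAlgClosed.algebraMap_bijective_of_isIntegral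
    (k := kb) (K := IntermediateField.adjoin kb {c})).2
      ⟨_, IntermediateField.mem_adjoin_simple_self kb _⟩
  exact ⟨t, congrArg Subtype.val ht⟩

/-- The relations used in the proof of rigidity, at one valuation. -/
theorem rigid_at_valuation (ι₀ : SchemeHomOver (specStr K F₀) f) (D : CDivClass A)
    (a b : SchemeHomOver (specStr K L) f) (O : ValuationSubring L)
    (hk : ∀ x : k, algebraMap k L x ∈ O)
    (hbar : ∀ (κ : Type u) [Field κ] [Algebra K κ] [Algebra K O] [IsScalarTower K O L]
      (res : O →ₐ[K] κ), (∀ x : O, ¬IsUnit x → res x = 0) →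
      ∀ a₁ b₁ : SchemeHomOver (specStr K O) f,
        pointMap f (IsScalarTower.toAlgHom K O L) a₁ = a →
        pointMap f (IsScalarTower.toAlgHom K O L) b₁ = b →
        pointMap f res a₁ = G.one _ ∨ pointMap f res b₁ = G.one _) :
    (∀ M : Divisor L F, (QuotientAddGroup.mk M : Pic L F) = quadPic G k F ι₀ D a b →
      Divisor.degree M = 0) ∧
    ∀ (P N : Divisor k F₀), ell k F₀ P = 1 → 0 ≤ P → ∀ Q : Divisor L F, 0 ≤ Q →
      (QuotientAddGroup.mk Q : Pic L F) =
        quadPic G k F ι₀ D a b + QuotientAddGroup.mk (mapDiv L F P) →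
      ∀ (m n : ℕ) (e : Fin m → F₀) (j : Fin n → F₀),
        Submodule.span k (Set.range e) = riemannRochSpace (N - P) →
        LinearIndependent k (Sum.elim e j) →
        ∀ (x : Fin m → L) (y : Fin n → L),
          (∑ i, x i • algebraMap F₀ F (e i) + ∑ l, y l • algebraMap F₀ F (j l)) ∈
            riemannRochSpace (mapDiv L F N - Q) →
          (∀ i, x i ∈ O) → (∀ l, y l ∈ O) → ∀ l, y l ∈ O.nonunits := by
  let : Algebra k O := ((algebraMap k L).codRestrict O.toSubring hk).toAlgebra
  have : IsScalarTower k O L := IsScalarTower.of_algebraMap_eq fun _ => rfl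
  let : Algebra K O := ((algebraMap k O).comp (algebraMap K k)).toAlgebra
  have : IsScalarTower K k O := IsScalarTower.of_algebraMap_eq' rfl
  have : IsScalarTower K O L :=
    IsScalarTower.of_algebraMap_eq fun x => IsScalarTower.algebraMap_apply K k L x
  let κ := IsLocalRing.ResidueField O
  let : Algebra k κ := ((IsLocalRing.residue O).comp (algebraMap k O)).toAlgebra
  let : Algebra K κ := ((algebraMap k κ).comp (algebraMap K k)).toAlgebra
  have : IsScalarTower K k κ := IsScalarTower.of_algebraMap_eq' rfl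
  have : IsAlgClosed κ := FFBasic.isAlgClosed_residueField O
  let ρ : ResidueMap k O κ :=
    { toHom := { IsLocalRing.residue O with commutes' := fun _ => rfl }
      eq_zero_iff := fun x => (IsLocalRing.residue_eq_zero_iff x).trans
        (IsLocalRing.mem_maximalIdeal x) }
  obtain ⟨F', _, _, _, _, _, _, _, _⟩ := ConstExt.exists_constExt.{u, u} k κ F₀
  let : Algebra K F' := ((algebraMap k F').comp (algebraMap K k)).toAlgebra
  have : IsScalarTower K k F' := IsScalarTower.of_algebraMap_eq' rfl
  have : IsScalarTower K κ F' := IsScalarTower.of_algebraMap_eq fun x =>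
    (IsScalarTower.algebraMap_apply k κ F' (algebraMap K k x))
  obtain ⟨a₁, ha₁⟩ := (exists_pointMap_eq (R := O) f a).exists
  obtain ⟨b₁, hb₁⟩ := (exists_pointMap_eq (R := O) f b).exists
  have hgen : (IsScalarTower.toAlgHom k O L).restrictScalars K = IsScalarTower.toAlgHom K O L :=
    AlgHom.ext fun _ => rfl
  have hquad : quadPic G k F' ι₀ D (redPt ρ a₁) (redPt ρ b₁) = 0 := by
    rcases hbar κ (ρ.toHom.restrictScalars K)
        (fun x hx => (ρ.eq_zero_iff x).mpr hx) a₁ b₁ ha₁ hb₁ with h | h
    · show quadPic G k F' ι₀ D (pointMap f _ a₁) _ = 0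
      rw [h, quadPic_one_left]
    · show quadPic G k F' ι₀ D _ (pointMap f _ b₁) = 0
      rw [h, quadPic_one_right]
  have hga : genPt (k := k) a₁ = a := by rw [genPt, hgen]; exact ha₁
  have hgb : genPt (k := k) b₁ = b := by rw [genPt, hgen]; exact hb₁
  refine ⟨fun M hM => degree_eq_zero_of_quad G ρ ι₀ D a₁ b₁ hquad M
    (by rw [hga, hgb]; exact hM), ?_⟩
  intro P N hP hP0 Q hQ0 hQ m n e j he hind x y hw hxO hyO
  classical
  have hc : ∀ i ∈ (Finset.univ : Finset (Fin m ⊕ Fin n)), Sum.elim x y i ∈ O := fun i _ => by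
    cases i with
    | inl i => exact hxO i
    | inr l => exact hyO l
  obtain ⟨c, hr, hcρ⟩ := exists_reduces_sum (F := F) (F' := F') ρ Finset.univ (Sum.elim e j)
    (Sum.elim x y) hc
  rw [Fintype.sum_sum_type, Fintype.sum_sum_type] at hr
  have hmem := mem_of_reduces G ρ ι₀ D a₁ b₁ (F := F) (F' := F') hquad P N hP hP0 Q hQ0
    (by rw [hga, hgb]; exact hQ) hw hr
  rw [← ConstExt.spanMap_eq κ F' (N - P)] at hmem
  have hsub : Submodule.span κ (algebraMap F₀ F' '' (riemannRochSpace (N - P) : Set F₀)) ≤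
      Submodule.span κ (Set.range fun i => algebraMap F₀ F' (e i)) := by
    refine Submodule.span_le.mpr ?_
    rintro _ ⟨u, hu, rfl⟩
    rw [SetLike.mem_coe, ← he] at hu
    obtain ⟨d, rfl⟩ := (Submodule.mem_span_range_iff_exists_fun k).mp hu
    rw [map_sum]
    refine Submodule.sum_mem _ fun i _ => ?_
    rw [Algebra.smul_def, map_mul, ← IsScalarTower.algebraMap_apply,
      IsScalarTower.algebraMap_apply k κ F', ← Algebra.smul_def]
    exact Submodule.smul_mem _ _ (Submodule.subset_span ⟨i, rfl⟩)
  obtain ⟨d, hd⟩ := (Submodule.mem_span_range_iff_exists_fun κ).mp (hsub hmem)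
  have hzero := Fintype.linearIndependent_iff.mp
    (ConstExt.linearIndependent_map (K := κ) (F := F') hind)
    (Sum.elim (fun i => c (Sum.inl i) - d i) fun l => c (Sum.inr l)) (by
      rw [Fintype.sum_sum_type]
      simp only [Sum.elim_inl, Sum.elim_inr, sub_smul, Finset.sum_sub_distrib] at hd ⊢
      rw [hd]
      abel)
  intro l
  have h0 := hzero (Sum.inr l)
  rw [Sum.elim_inr, hcρ _ (Finset.mem_univ _), ρ.eq_zero_iff] at h0
  exact ValuationSubring.mem_nonunits_iff_exists_mem_maximalIdeal.mpr
    ⟨hyO l, (IsLocalRing.mem_maximalIdeal _).mpr h0⟩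

omit [IsFunctionField L F] [IsConstExtension k L F₀ F] [IsFunctionField k F₀] [IsAlgClosed k]
  [IsAlgClosed L] in
/-- The span over `L` of the image of a span over `k` is spanned by the images of the generators. -/
private theorem span_image_span_le {ι : Type*} [Fintype ι] (e : ι → F₀) :
    Submodule.span L (algebraMap F₀ F '' (Submodule.span k (Set.range e) : Set F₀)) ≤
      Submodule.span L (Set.range fun i => algebraMap F₀ F (e i)) := by
  refine Submodule.span_le.mpr ?_
  rintro _ ⟨v, hv, rfl⟩
  obtain ⟨d, rfl⟩ := (Submodule.mem_span_range_iff_exists_fun k).mp hv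
  rw [map_sum]
  refine Submodule.sum_mem _ fun i _ => ?_
  rw [Algebra.smul_def, map_mul, ← IsScalarTower.algebraMap_apply,
    IsScalarTower.algebraMap_apply k L F, ← Algebra.smul_def]
  exact Submodule.smul_mem _ _ (Submodule.subset_span ⟨i, rfl⟩)

/-- A class of degree zero moved by a divisor of degree `g` has an effective representative. -/
private theorem exists_effective_rep {c : Pic L F} {M : Divisor L F}
    (hM : (QuotientAddGroup.mk M : Pic L F) = c) (hMdeg : Divisor.degree M = 0) {P : Divisor k F₀}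
    (hPdeg : Divisor.degree P = genusFF k F₀) :
    ∃ Q : Divisor L F, 0 ≤ Q ∧ Divisor.degree Q = genusFF k F₀ ∧
      (QuotientAddGroup.mk Q : Pic L F) = c + QuotientAddGroup.mk (mapDiv L F P) := by
  obtain ⟨u, hu, hQ0⟩ := FFRiemannRoch.exists_effective_of_genus_le (D := M + mapDiv L F P) (by
    rw [map_add, hMdeg, degree_mapDiv, hPdeg, ConstExt.genusFF_eq k L F₀ F, zero_add])
  refine ⟨_, hQ0, ?_, ?_⟩
  · rw [map_add, map_add, FFRiemannRoch.degree_divOf, hMdeg, degree_mapDiv, hPdeg,
      zero_add, zero_add]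
  · rw [QuotientAddGroup.mk_add, QuotientAddGroup.mk_add, mk_divOf u hu, zero_add, hM]

omit [IsAlgClosed k] in
/-- A basis of `L(B)` extends to one of `L(N)` for `B ≤ N`. -/
private theorem exists_adapted_bases {B N : Divisor k F₀} (hBN' : B ≤ N) :
    ∃ (n : ℕ) (e : Fin (Module.finrank k (riemannRochSpace B)) → F₀) (j : Fin n → F₀),
      Submodule.span k (Set.range e) = riemannRochSpace B ∧
      LinearIndependent k (Sum.elim e j) ∧
      riemannRochSpace N = Submodule.span k (Set.range (Sum.elim e j)) := by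
  obtain ⟨C, hC⟩ := Submodule.exists_isCompl (riemannRochSpace B)
  set J : Submodule k F₀ := riemannRochSpace N ⊓ C
  have : FiniteDimensional k J := Submodule.finiteDimensional_of_le inf_le_left
  have hBN : riemannRochSpace B ≤ riemannRochSpace N := FFBasic.riemannRochSpace_mono hBN'
  set eb := Module.finBasis k (riemannRochSpace B)
  set jb := Module.finBasis k J
  set e := fun i => (eb i : F₀)
  set j := fun l => (jb l : F₀)
  have he : Submodule.span k (Set.range e) = riemannRochSpace B := by
    rw [show e = (riemannRochSpace B).subtype ∘ eb from rfl, Set.range_comp, ← Submodule.map_span,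
      eb.span_eq, Submodule.map_top, Submodule.range_subtype]
  have hj : Submodule.span k (Set.range j) = J := by
    rw [show j = J.subtype ∘ jb from rfl, Set.range_comp, ← Submodule.map_span,
      jb.span_eq, Submodule.map_top, Submodule.range_subtype]
  have hind : LinearIndependent k (Sum.elim e j) := by
    refine (eb.linearIndependent.map' _ (Submodule.ker_subtype _)).sum_type
      (jb.linearIndependent.map' _ (Submodule.ker_subtype _)) ?_
    show Disjoint (Submodule.span k (Set.range e)) (Submodule.span k (Set.range j))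
    rw [he, hj]
    exact hC.disjoint.mono_right inf_le_right
  have hV : riemannRochSpace N = Submodule.span k (Set.range (Sum.elim e j)) := by
    rw [Set.Sum.elim_range, Submodule.span_union, he, hj]
    refine le_antisymm ?_ (sup_le hBN inf_le_left)
    intro v hv
    obtain ⟨v₁, hv₁, v₂, hv₂, rfl⟩ := Submodule.mem_sup.mp
      (show v ∈ riemannRochSpace B ⊔ C by rw [hC.sup_eq_top]; trivial)
    have hv₂N : v₂ ∈ riemannRochSpace N := by simpa using sub_mem hv (hBN hv₁)
    exact Submodule.add_mem_sup hv₁ ⟨hv₂N, hv₂⟩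
  exact ⟨_, e, j, he, hind, hV⟩

omit [IsFunctionField L F] [IsAlgClosed L] in
/-- A rigid system has no member whose largest moving coordinate dominates the fixed ones. -/
private theorem false_of_pivot {m n : ℕ} {e : Fin m → F₀} {j : Fin n → F₀} {W : Submodule L F}
    {O : ValuationSubring L}
    (hrig : ∀ (x : Fin m → L) (y : Fin n → L),
      (∑ i, x i • algebraMap F₀ F (e i) + ∑ l, y l • algebraMap F₀ F (j l)) ∈ W →
        (∀ i, x i ∈ O) → (∀ l, y l ∈ O) → ∀ l, y l ∈ O.nonunits)
    {x : Fin m → L} {y : Fin n → L}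
    (hw : (∑ i, x i • algebraMap F₀ F (e i) + ∑ l, y l • algebraMap F₀ F (j l)) ∈ W)
    {p : Fin n} (hp0 : y p ≠ 0) (hpmax : ∀ l ∈ Finset.univ, y l / y p ∈ O)
    (hx : ∀ i, (y p)⁻¹ * x i ∈ O) : False := by
  have hmem := W.smul_mem (y p)⁻¹ hw
  rw [smul_add, Finset.smul_sum, Finset.smul_sum] at hmem
  simp only [smul_smul] at hmem
  have := hrig _ _ hmem hx (fun i => by simpa [inv_mul_eq_div] using hpmax i (Finset.mem_univ _)) p
  rw [inv_mul_cancel₀ hp0, ValuationSubring.mem_nonunits_iff, map_one] at this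
  exact lt_irrefl _ this

omit [IsFunctionField L F] [IsAlgClosed L] in
/-- In a rigid system integral fixed coordinates force integral moving ones. -/
private theorem mem_of_rigid {m n : ℕ} {e : Fin m → F₀} {j : Fin n → F₀} {W : Submodule L F}
    {O : ValuationSubring L}
    (hrig : ∀ (x : Fin m → L) (y : Fin n → L),
      (∑ i, x i • algebraMap F₀ F (e i) + ∑ l, y l • algebraMap F₀ F (j l)) ∈ W →
        (∀ i, x i ∈ O) → (∀ l, y l ∈ O) → ∀ l, y l ∈ O.nonunits)
    {x : Fin m → L} {y : Fin n → L}
    (hw : (∑ i, x i • algebraMap F₀ F (e i) + ∑ l, y l • algebraMap F₀ F (j l)) ∈ W)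
    (hx : ∀ i, x i ∈ O) : ∀ l, y l ∈ O := by
  intro l
  by_contra hl
  obtain ⟨p, -, hp0, hpmax⟩ := exists_pivot (O := O) Finset.univ y
    ⟨l, Finset.mem_univ _, fun h => hl (h ▸ O.zero_mem)⟩
  refine false_of_pivot hrig hw hp0 hpmax fun i => mul_mem ?_ (hx i)
  rcases O.mem_or_inv_mem (y p) with h | h
  · exact absurd
      (by simpa [div_mul_cancel₀, hp0] using mul_mem (hpmax l (Finset.mem_univ _)) h) hl
  · exact h

omit [IsFunctionField L F] [IsFunctionField k F₀] [IsAlgClosed k] [IsAlgClosed L] in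
/-- A rigid system of dimension at least that of the fixed part has any fixed coordinates. -/
private theorem exists_add_mem_of_rigid {m n : ℕ} {e : Fin m → F₀} {j : Fin n → F₀}
    (hind : LinearIndependent k (Sum.elim e j)) {W : Submodule L F}
    (hspan : W ≤ Submodule.span L (Set.range fun i => algebraMap F₀ F (Sum.elim e j i)))
    (hdim : m ≤ Module.finrank L W) {O : ValuationSubring L}
    (hrig : ∀ (x : Fin m → L) (y : Fin n → L),
      (∑ i, x i • algebraMap F₀ F (e i) + ∑ l, y l • algebraMap F₀ F (j l)) ∈ W →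
        (∀ i, x i ∈ O) → (∀ l, y l ∈ O) → ∀ l, y l ∈ O.nonunits)
    (x : Fin m → L) : ∃ y : Fin n → L,
      (∑ i, x i • algebraMap F₀ F (e i) + ∑ l, y l • algebraMap F₀ F (j l)) ∈ W := by
  let X : (Fin m → L) →ₗ[L] F := Fintype.linearCombination L fun i => algebraMap F₀ F (e i)
  let Y : (Fin n → L) →ₗ[L] F := Fintype.linearCombination L fun l => algebraMap F₀ F (j l)
  set Wc := W.comap (X.coprod Y)
  have hindL : LinearIndependent L fun i => algebraMap F₀ F (Sum.elim e j i) :=
    ConstExt.linearIndependent_map hind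
  have hXY : Function.Injective (X.coprod Y) := by
    rw [injective_iff_map_eq_zero]
    rintro ⟨x, y⟩ h
    have h' := Fintype.linearIndependent_iff.mp hindL (Sum.elim x y) (by
      rw [Fintype.sum_sum_type]
      simpa [X, Y, Fintype.linearCombination_apply] using h)
    exact Prod.ext (funext fun i => h' (Sum.inl i)) (funext fun l => h' (Sum.inr l))
  have hrange : W ≤ LinearMap.range (X.coprod Y) := fun w hw => by
    obtain ⟨d, rfl⟩ := (Submodule.mem_span_range_iff_exists_fun L).mp (hspan hw)
    exact ⟨(fun i => d (Sum.inl i), fun l => d (Sum.inr l)),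
      by simp [X, Y, Fintype.linearCombination_apply, Fintype.sum_sum_type]⟩
  have hWc : Module.finrank L Wc = Module.finrank L W := by
    rw [(Submodule.equivMapOfInjective _ hXY Wc).finrank_eq, Submodule.map_comap_eq,
      inf_eq_right.mpr hrange]
  let π : Wc →ₗ[L] (Fin m → L) := (LinearMap.fst L _ _).comp Wc.subtype
  have hmemWc : ∀ z : Wc, (∑ i, z.1.1 i • algebraMap F₀ F (e i) +
      ∑ l, z.1.2 l • algebraMap F₀ F (j l)) ∈ W := fun z => by
    have h : (X.coprod Y) z.1 ∈ W := z.2
    simpa [X, Y, Fintype.linearCombination_apply] using h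
  have hπ : Function.Injective π := by
    rw [injective_iff_map_eq_zero]
    intro z hz
    by_contra hne
    obtain ⟨l, hl⟩ : ∃ l, z.1.2 l ≠ 0 := by
      by_contra hall
      push Not at hall
      exact hne (Subtype.ext (Prod.ext hz (funext hall)))
    obtain ⟨p, -, hp0, hpmax⟩ := exists_pivot (O := O) Finset.univ z.1.2 ⟨l, Finset.mem_univ _, hl⟩
    exact false_of_pivot hrig (hmemWc z) hp0 hpmax fun i => by
      rw [show z.1.1 i = 0 from congrFun hz i, mul_zero]; exact O.zero_mem
  have : FiniteDimensional L Wc := FiniteDimensional.of_injective π hπ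
  obtain ⟨z, hz⟩ := (LinearMap.injective_iff_surjective_of_finrank_eq_finrank (f := π)
    (le_antisymm (LinearMap.finrank_le_finrank_of_injective hπ)
      (by rwa [Module.finrank_fin_fun, hWc]))).mp hπ x
  refine ⟨z.1.2, ?_⟩
  rw [← hz]
  exact hmemWc z

omit [IsAlgClosed L] in
/-- A nonunit of a valuation ring coming from a subfield inside the ring vanishes. -/
private theorem eq_zero_of_mem_range_of_nonunit {kb : Type u} [Field kb] [Algebra kb L]
    {O : ValuationSubring L} (hO : ∀ t : kb, algebraMap kb L t ∈ O) {c : L}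
    (hc : c ∈ Set.range (algebraMap kb L)) (hnon : c ∈ O.nonunits) : c = 0 := by
  obtain ⟨t, rfl⟩ := hc
  by_contra hne
  have ht0 : t ≠ 0 := fun h => hne (by rw [h, map_zero])
  rw [ValuationSubring.mem_nonunits_iff] at hnon
  have h2 := (O.valuation_le_one_iff _).mpr (hO t⁻¹)
  rw [map_inv₀, map_inv₀] at h2
  exact absurd h2 (not_le.mpr ((one_lt_inv₀ (zero_lt_iff.mpr ((map_ne_zero _).mpr
    ((_root_.map_ne_zero _).mpr ht0)))).mpr hnon))

/-- **Rigidity.** The second difference of the translates of a curve vanishes for an independent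
pair of points. -/
theorem quadPic_eq_zero {kb : Type u} [Field kb] [IsAlgClosed kb] [Algebra k kb] [Algebra kb L]
    [IsScalarTower k kb L] [Algebra K kb] [IsScalarTower K k kb] [IsScalarTower K kb L]
    (ι₀ : SchemeHomOver (specStr K F₀) f) (D : CDivClass A)
    (a b : SchemeHomOver (specStr K L) f)
    (Rb : Subalgebra k L) (hRb : ∀ r : Rb, (r : L) ∈ Set.range (algebraMap kb L))
    (χb : Rb →ₐ[k] k) (bR : SchemeHomOver (specStr K Rb) f)
    (hb : pointMap f (Rb.val.restrictScalars K) bR = b)
    (hb0 : pointMap f (χb.restrictScalars K) bR = G.one _)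
    (Ra : Subalgebra kb L) (χa : Ra →ₐ[kb] kb) (aR : SchemeHomOver (specStr K Ra) f)
    (ha : pointMap f (Ra.val.restrictScalars K) aR = a)
    (ha0 : pointMap f (χa.restrictScalars K) aR = G.one _) :
    quadPic G k F ι₀ D a b = 0 := by
  classical
  -- at valuations centred on `χb` the point `b` reduces to zero, at those centred on `χa`, `a`
  have atb := fun O (hk : ∀ x : k, algebraMap k L x ∈ O)
      (hO : ∀ r : Rb, (r : L) ∈ O ∧ (r : L) - algebraMap k L (χb r) ∈ O.nonunits) =>
    rigid_at_valuation G (F := F) ι₀ D a b O hk fun κ _ _ _ _ res hres a₁ b₁ _ hb₁ => Or.inr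
      (eq_pointMap_of_subalgebra G Rb χb res hres hO bR hb0 b₁ (hb₁.trans hb.symm))
  obtain ⟨Ob, hObk, hOb⟩ := exists_valuation_centred Rb χb
  obtain ⟨Oa, hOak, hOa⟩ := exists_valuation_centred Ra χa
  have hkOa : ∀ x : k, algebraMap k L x ∈ Oa := fun x => by
    rw [IsScalarTower.algebraMap_apply k kb L]; exact hOak _
  have ata := rigid_at_valuation G (F := F) ι₀ D a b Oa hkOa
    fun κ _ _ _ _ res hres a₁ b₁ ha₁ _ => Or.inl
      (eq_pointMap_of_subalgebra G Ra χa res hres hOa aR ha0 a₁ (ha₁.trans ha.symm))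
  -- a nonspecial effective divisor
  obtain ⟨T, hT, -, -, hPell⟩ := FFRiemannRoch.exists_nonspecial_effective (K := k) (F := F₀) ∅
  set P : Divisor k F₀ := ∑ v ∈ T, Finsupp.single v 1
  have hP0 : (0 : Divisor k F₀) ≤ P :=
    Finset.sum_nonneg fun v _ => FFRiemannRoch.single_nonneg v zero_le_one
  have hPdeg : Divisor.degree P = genusFF k F₀ := by
    simp [P, map_sum, FFRiemannRoch.deg_eq_one, hT]
  obtain ⟨P₀⟩ := FFBasic.nonempty_place (K := k) (F := F₀)
  set B : Divisor k F₀ := Finsupp.single P₀ (2 * (genusFF k F₀ : ℤ)) with hB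
  have hBdeg : Divisor.degree B = 2 * genusFF k F₀ := by
    rw [hB, Divisor.degree_single, FFBasic.place_deg_eq_one, Nat.cast_one, mul_one]
  set N := B + P
  have hNP : N - P = B := add_sub_cancel_right B P
  obtain ⟨M, hM⟩ := QuotientAddGroup.mk_surjective (quadPic G k F ι₀ D a b)
  obtain ⟨Q, hQ0, hQdeg, hQ⟩ :=
    exists_effective_rep hM ((atb Ob hObk hOb).1 M hM) (P := P) hPdeg
  obtain ⟨n, e, j, he, hind, hV⟩ := exists_adapted_bases (B := B) (N := N)
    (le_add_of_nonneg_right hP0)
  -- the linear system of `Q`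
  set W := riemannRochSpace (mapDiv L F N - Q)
  have hspan : W ≤ Submodule.span L (Set.range fun i => algebraMap F₀ F (Sum.elim e j i)) := by
    refine (FFBasic.riemannRochSpace_mono (sub_le_self _ hQ0)).trans ?_
    rw [← ConstExt.spanMap_eq L F N, hV]
    exact span_image_span_le _
  have hdim : Module.finrank k (riemannRochSpace B) ≤ Module.finrank L W := by
    have h1 := FFRiemannRoch.ell_ge (mapDiv L F N - Q)
    have h2 := FFRiemannRoch.ell_eq_of_lt (D := B) (by rw [hBdeg]; omega)
    rw [map_sub, degree_mapDiv, hQdeg, map_add, hBdeg, hPdeg, ConstExt.genusFF_eq k L F₀ F] at h1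
    rw [hBdeg] at h2
    show ell k F₀ B ≤ ell L F (mapDiv L F N - Q)
    omega
  have rigid := fun O hk hO => (atb O hk hO).2 P N hPell hP0 Q hQ0 hQ _ _ e j
    (by rw [hNP]; exact he) hind
  -- the fixed part lies in `W`
  have hfix : ∀ i, algebraMap F₀ F (e i) ∈ W := by
    intro i
    obtain ⟨y, hmem⟩ := exists_add_mem_of_rigid hind hspan hdim (rigid Ob hObk hOb) (Pi.single i 1)
    have hxO : ∀ O : ValuationSubring L, ∀ i', (Pi.single i 1 : _ → L) i' ∈ O := fun O i' => by
      rcases eq_or_ne i' i with rfl | h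
      · rw [Pi.single_eq_same]; exact O.one_mem
      · rw [Pi.single_eq_of_ne h]; exact O.zero_mem
    have hc : ∀ l, y l ∈ Set.range (algebraMap kb L) := fun l => by
      obtain ⟨p, hp0, hp⟩ := exists_relation_of_forall_mem Rb χb (y l)
        fun O hk hR => mem_of_rigid (rigid O hk hR) hmem (hxO O) l
      exact mem_range_of_isAlgebraic_subalgebra Rb hRb ⟨p, hp0, hp⟩
    have hyO : ∀ l, y l ∈ Oa := fun l => by
      obtain ⟨t, ht⟩ := hc l; rw [← ht]; exact hOak t
    have hy0 : ∀ l, y l = 0 := fun l => eq_zero_of_mem_range_of_nonunit hOak (hc l)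
      (ata.2 P N hPell hP0 Q hQ0 hQ _ _ e j (by rw [hNP]; exact he) hind _ _ hmem (hxO Oa) hyO l)
    simpa [hy0, Pi.single_apply, ite_smul, Finset.sum_ite_eq'] using hmem
  have hBW : riemannRochSpace (mapDiv L F B) ≤ W := by
    rw [← ConstExt.spanMap_eq L F B, ← he]
    exact (span_image_span_le e).trans (Submodule.span_le.mpr (Set.range_subset_iff.mpr hfix))
  have hle : Q ≤ mapDiv L F P := by
    intro v
    obtain ⟨g, hg, hg0, hgord⟩ := FFRiemannRoch.exists_ord_eq_neg_of_two_mul_le
      (D := mapDiv L F B) v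
      (by rw [degree_mapDiv, hBdeg, ConstExt.genusFF_eq k L F₀ F])
    have h1 := (mem_riemannRochSpace_iff.1 (hBW hg) v).resolve_left hg0
    rw [hgord, Finsupp.sub_apply, map_add, Finsupp.add_apply] at h1
    linarith
  have hQP : Q = mapDiv L F P :=
    FFRiemannRoch.eq_of_le_of_degree_le hle (by rw [hQdeg, degree_mapDiv, hPdeg])
  rwa [hQP, eq_comm, add_eq_right] at hQ

end FLTAgent.AbelianTorsion
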