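import Mathlib
import Fermat.Agent.AbelianTorsion.Rigidity

/-!
# Subalgebras centred at sections

`exists_centred`: a rational section of an integral scheme gives a subalgebra of the field of a
generic point with a rational point. Used in `Parallelogram`.
-/

set_option autoImplicit false

noncomputable section

universe u

open CategoryTheory CategoryTheory.Limits AlgebraicGeometry NeronModelInfra GoodReductionJacobian
open IsLocalRing

namespace FLTAgent.AbelianTorsion

variable {K : Type u} [Field K] {A : Scheme.{u}} {f : A ⟶ Spec (CommRingCat.of K)}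

/-- A rational section of an integral scheme gives a subalgebra of the field of a generic point
with a rational point. -/
theorem exists_centred {k' L : Type u} [Field k'] [Field L] [Algebra K k'] [Algebra k' L]
    [Algebra K L] [IsScalarTower K k' L] {Y : Scheme.{u}} [IsIntegral Y] (p : Y ⟶ A)
    (q : Y ⟶ Spec (CommRingCat.of k')) (hpq : p ≫ f = q ≫ specStr K k')
    (η : Spec (CommRingCat.of L) ⟶ Y) (hη : η ≫ q = Spec.map (CommRingCat.ofHom (algebraMap k' L)))
    (hgen : imagePoint η = genericPoint Y) (s : Spec (CommRingCat.of k') ⟶ Y) (hs : s ≫ q = 𝟙 _) :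
    ∃ (R : Subalgebra k' L) (χ : R →ₐ[k'] k') (xR : SchemeHomOver (specStr K R) f),
      (pointMap f (R.val.restrictScalars K) xR).1 = η ≫ p ∧
      (pointMap f (χ.restrictScalars K) xR).1 = s ≫ p := by
  set z := s (closedPoint k')
  have hsp : η (closedPoint L) ⤳ z := by
    show imagePoint η ⤳ z
    rw [hgen]; exact (genericPoint_spec Y).specializes trivial
  let φ : CommRingCat.of k' ⟶ Y.presheaf.stalk z := Spec.preimage (Y.fromSpecStalk z ≫ q)
  have hφ : Spec.map φ = Y.fromSpecStalk z ≫ q := Spec.map_preimage _
  have hzgen : genericPoint Y ⤳ z := (genericPoint_spec Y).specializes trivial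
  have hgsp : η (closedPoint L) ⤳ genericPoint Y := by
    show imagePoint η ⤳ _; rw [hgen]
  let g₀ : Y.functionField ⟶ CommRingCat.of L :=
    Y.presheaf.stalkSpecializes hgsp ≫ Scheme.stalkClosedPointTo η
  let g : Y.presheaf.stalk z ⟶ CommRingCat.of L := Y.presheaf.stalkSpecializes hzgen ≫ g₀
  have hg : Spec.map g ≫ Y.fromSpecStalk z = η := by
    show Spec.map (Y.presheaf.stalkSpecializes hzgen ≫
      Y.presheaf.stalkSpecializes hgsp ≫ Scheme.stalkClosedPointTo η) ≫ Y.fromSpecStalk z = η
    rw [Spec.map_comp, Spec.map_comp, Category.assoc, Category.assoc,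
      Scheme.SpecMap_stalkSpecializes_fromSpecStalk, Scheme.SpecMap_stalkSpecializes_fromSpecStalk,
      Scheme.Spec_stalkClosedPointTo_fromSpecStalk]
  have hχ0 : Spec.map (Scheme.stalkClosedPointTo s) ≫ Y.fromSpecStalk z = s :=
    Scheme.Spec_stalkClosedPointTo_fromSpecStalk s
  have hinj : Function.Injective g :=
    (g₀.hom.injective).comp (IsFractionRing.injective (Y.presheaf.stalk z) Y.functionField)
  have hgφ : ∀ x : k', g (φ x) = algebraMap k' L x := fun x => by
    have h : Spec.map (φ ≫ g) = Spec.map (CommRingCat.ofHom (algebraMap k' L)) := by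
      rw [Spec.map_comp, hφ, ← Category.assoc, hg, hη]
    exact DFunLike.congr_fun (congrArg CommRingCat.Hom.hom (Spec.map_injective h)) x
  have hχφ : ∀ x : k', Scheme.stalkClosedPointTo s (φ x) = x := fun x => by
    have h : Spec.map (φ ≫ Scheme.stalkClosedPointTo s) = Spec.map (𝟙 _) := by
      rw [Spec.map_comp, hφ, ← Category.assoc, hχ0, hs, Spec.map_id]
    exact DFunLike.congr_fun (congrArg CommRingCat.Hom.hom (Spec.map_injective h)) x
  let : Algebra k' (Y.presheaf.stalk z) := φ.hom.toAlgebra
  let gA : Y.presheaf.stalk z →ₐ[k'] L := { g.hom with commutes' := hgφ }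
  let e := AlgEquiv.ofInjective gA hinj
  let χA : Y.presheaf.stalk z →ₐ[k'] k' :=
    { (Scheme.stalkClosedPointTo s).hom with commutes' := hχφ }
  let eC : Y.presheaf.stalk z ⟶ CommRingCat.of gA.range := CommRingCat.ofHom e.toAlgHom.toRingHom
  refine ⟨gA.range, χA.comp e.symm.toAlgHom, ⟨Spec.map eC ≫ Y.fromSpecStalk z ≫ p, ?_⟩, ?_, ?_⟩
  · rw [Category.assoc, Category.assoc, hpq, ← Category.assoc (Y.fromSpecStalk z), ← hφ,
      ← Spec.map_comp, ← Spec.map_comp]
    congr 1
    ext x
    show ((e (φ (algebraMap K k' x))) : L) = _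
    rw [show e (φ (algebraMap K k' x)) = algebraMap k' gA.range
      (algebraMap K k' x) from e.commutes _]
    exact congrArg Subtype.val (IsScalarTower.algebraMap_apply K k' gA.range x).symm
  · rw [pointMap_val, ← Category.assoc, ← Spec.map_comp]
    have h : eC ≫ CommRingCat.ofHom (gA.range.val.restrictScalars K).toRingHom = g := by
      ext x; rfl
    rw [h, ← Category.assoc, hg]
  · rw [pointMap_val, ← Category.assoc, ← Spec.map_comp]
    have h : eC ≫ CommRingCat.ofHom ((χA.comp e.symm.toAlgHom).restrictScalars K).toRingHom =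
        Scheme.stalkClosedPointTo s := by
      ext x
      show χA (e.symm (e x)) = _
      rw [e.symm_apply_apply]
      rfl
    rw [h, ← Category.assoc, hχ0]

end FLTAgent.AbelianTorsion
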