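import Mathlib
import Fermat.Agent.AbelianTorsion.Variety
import Fermat.Agent.FFBasic.CurveOver

/-!
# The function field of a smooth variety

`essFiniteType_trdeg_functionField`: the function field is finitely generated, of transcendence
degree the relative dimension.
-/

set_option autoImplicit false

noncomputable section

universe u

open CategoryTheory CategoryTheory.Limits AlgebraicGeometry IsLocalRing

namespace FLTAgent.AbelianTorsion

variable {K : Type u} [Field K] [IsAlgClosed K] {X : Scheme.{u}} [IsIntegral X]
  (f : X ⟶ Spec (CommRingCat.of K)) {g : ℕ} [hf : SmoothOfRelativeDimension g f]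

include hf in
/-- The function field is finitely generated, of transcendence degree the relative dimension. -/
theorem essFiniteType_trdeg_functionField :
    letI := stalkAlgebra f (genericPoint X)
    Algebra.EssFiniteType K X.functionField ∧ Algebra.trdeg K X.functionField = g := by
  obtain ⟨V, hV, hxV, hstd⟩ := exists_standardSmooth_chart f (g := g) (genericPoint X)
  have : Nonempty V := ⟨⟨_, hxV⟩⟩
  let := stalkAlgebra f (genericPoint X)
  let : Algebra K Γ(X, V) := (baseRingHom f V).hom.toAlgebra
  have : Algebra.IsStandardSmoothOfRelativeDimension g K Γ(X, V) := hstd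
  have : Algebra.IsStandardSmooth K Γ(X, V) :=
    Algebra.IsStandardSmoothOfRelativeDimension.isStandardSmooth g
  have := functionField_isFractionRing_of_isAffineOpen X V hV
  have : IsScalarTower K Γ(X, V) X.functionField :=
    IsScalarTower.of_algebraMap_eq'
      (congrArg CommRingCat.Hom.hom (germ_baseRingHom f (genericPoint X) hxV)).symm
  have : Algebra.EssFiniteType Γ(X, V) X.functionField :=
    Algebra.EssFiniteType.of_isLocalization _ (nonZeroDivisors Γ(X, V))
  have hess : Algebra.EssFiniteType K X.functionField :=
    Algebra.EssFiniteType.comp K Γ(X, V) X.functionField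
  refine ⟨hess, ?_⟩
  have : Algebra.FormallyEtale Γ(X, V) X.functionField :=
    Algebra.FormallyEtale.of_isLocalization (nonZeroDivisors Γ(X, V))
  have hfin : Module.finrank Γ(X, V) Ω[Γ(X, V)⁄K] = g :=
    Module.finrank_eq_of_rank_eq
      (Algebra.IsStandardSmoothOfRelativeDimension.rank_kaehlerDifferential g)
  let b := ((Module.finBasisOfFinrankEq Γ(X, V) Ω[Γ(X, V)⁄K] hfin).baseChange X.functionField).map
    (KaehlerDifferential.tensorKaehlerEquivOfFormallyEtale K Γ(X, V) X.functionField)
  obtain ⟨s, hs, hsep⟩ :=
    exists_isTranscendenceBasis_and_isSeparable_of_perfectField K X.functionField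
  have : Algebra.IsSeparable
      (IntermediateField.adjoin K (Set.range ((↑) : s → X.functionField))) X.functionField := by
    rwa [show Set.range ((↑) : s → X.functionField) = (s : Set X.functionField) from
      Subtype.range_coe]
  have h1 := (FFBasic.kaehler_free_finrank_of_separating hs).2
  rw [Module.finrank_eq_card_basis b, Fintype.card_fin, Fintype.card_coe] at h1
  rw [← hs.cardinalMk_eq_trdeg, Cardinal.mk_coe_finset, ← h1]

end FLTAgent.AbelianTorsion
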