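import Mathlib
import Fermat.Agent.AbelianTorsion.SeesawNorm
import Fermat.Agent.AbelianTorsion.FunctionFieldDim

/-!
# A curve through the generic point with a branch at the origin

`exists_curve` produces a function field with algebraically closed constants, a generic point
with values in it and a place centred at the origin. Used in `Parallelogram`.
-/

set_option autoImplicit false

noncomputable section

universe u

open CategoryTheory CategoryTheory.Limits AlgebraicGeometry NeronModelInfra GoodReductionJacobian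
open IsLocalRing AlgebraicCurve
open FLTAgent.FFBasic (IsFunctionField)

namespace FLTAgent.AbelianTorsion

section Form

variable {K : Type u} [Field K] {O : Type u} [CommRing O] [IsLocalRing O] [Algebra K O] {g : ℕ}
  {x : Fin g → O} (hx : IsParameterSystem (K := K) x) [Algebra.FormallySmooth K O]

include hx

theorem aeval_notMem_of_isHomogeneous {d : ℕ} {Q : MvPolynomial (Fin g) K}
    (hQ : Q.IsHomogeneous d) (h0 : Q ≠ 0) :
    MvPolynomial.aeval x Q ∉ maximalIdeal O ^ (d + 1) := by
  intro h
  have h1 : hx.truncMap (d + 1) (Ideal.Quotient.mk _ Q) = hx.truncMap (d + 1) 0 := by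
    rw [hx.truncMap_mk, map_zero, Ideal.Quotient.eq_zero_iff_mem]; exact h
  have h2 := hx.truncMap_injective (d + 1) h1
  rw [Ideal.Quotient.eq_zero_iff_mem, MvPolynomial.mem_pow_idealOfVars_iff'] at h2
  refine h0 (MvPolynomial.ext _ _ fun v => ?_)
  rw [MvPolynomial.coeff_zero]
  by_cases hv : Finsupp.degree v = d
  · exact h2 v (by omega)
  · exact hQ.coeff_eq_zero hv

omit [Algebra.FormallySmooth K O] in
theorem aeval_mem_of_isHomogeneous {d : ℕ} {Q : MvPolynomial (Fin g) K} (hQ : Q.IsHomogeneous d) :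
    MvPolynomial.aeval x Q ∈ maximalIdeal O ^ d := by
  refine hx.idealOfVars_pow_le d ((MvPolynomial.mem_pow_idealOfVars_iff' d Q).mpr fun v hv => ?_)
  exact hQ.coeff_eq_zero (by omega)

theorem algebraicIndependent_parameters : AlgebraicIndependent K x := by
  rw [algebraicIndependent_iff]
  intro p hp
  refine MvPolynomial.ext _ _ fun v => ?_
  rw [MvPolynomial.coeff_zero]
  have h1 : hx.truncMap (Finsupp.degree v + 1) (Ideal.Quotient.mk _ p) =
      hx.truncMap (Finsupp.degree v + 1) 0 := by
    rw [hx.truncMap_mk, map_zero, hp, map_zero]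
  have h2 := hx.truncMap_injective (Finsupp.degree v + 1) h1
  rw [Ideal.Quotient.eq_zero_iff_mem, MvPolynomial.mem_pow_idealOfVars_iff'] at h2
  exact h2 v (by omega)

/-- A valuation on an extension dominating the parameters with all ratios of forms of equal
degree regular. -/
theorem exists_valuation_forms {Ω : Type u} [Field Ω] [Algebra K Ω] (j : O →ₐ[K] Ω)
    (hj : Function.Injective j) (i₀ : Fin g) :
    ∃ V : ValuationSubring Ω,
      (∀ a ∈ maximalIdeal O, j a ∈ V.nonunits) ∧ (∀ o, j o ∈ V) ∧
      ∀ y ∈ IntermediateField.adjoin K (Set.range fun i => j (x i) / j (x i₀)), y ∈ V := by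
  classical
  set X := fun Q : MvPolynomial (Fin g) K => j (MvPolynomial.aeval x Q) with hX
  have hne : ∀ {d} {Q : MvPolynomial (Fin g) K}, Q.IsHomogeneous d → Q ≠ 0 → X Q ≠ 0 := by
    intro d Q hQ h0 h
    refine aeval_notMem_of_isHomogeneous hx hQ h0 ?_
    rw [show MvPolynomial.aeval x Q = 0 from hj (h.trans (map_zero j).symm)]
    exact zero_mem _
  let T : Subring Ω :=
    { carrier := {y | ∃ (d : ℕ) (a : O) (Q : MvPolynomial (Fin g) K), a ∈ maximalIdeal O ^ d ∧
        Q.IsHomogeneous d ∧ Q ≠ 0 ∧ y * X Q = j a}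
      mul_mem' := by
        rintro y z ⟨d, a, Q, ha, hQ, hQ0, hy⟩ ⟨e, b, R, hb, hR, hR0, hz⟩
        refine ⟨d + e, a * b, Q * R, by rw [pow_add]; exact Ideal.mul_mem_mul ha hb, hQ.mul hR,
          mul_ne_zero hQ0 hR0, ?_⟩
        simp only [X, map_mul] at hy hz ⊢
        rw [← hy, ← hz]; ring
      one_mem' := ⟨0, 1, 1, by simp, MvPolynomial.isHomogeneous_one _ _, one_ne_zero, by simp [X]⟩
      add_mem' := by
        rintro y z ⟨d, a, Q, ha, hQ, hQ0, hy⟩ ⟨e, b, R, hb, hR, hR0, hz⟩
        refine ⟨d + e, a * MvPolynomial.aeval x R + b * MvPolynomial.aeval x Q, Q * R, ?_,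
          hQ.mul hR, mul_ne_zero hQ0 hR0, ?_⟩
        · refine add_mem ?_ ?_
          · rw [pow_add]; exact Ideal.mul_mem_mul ha (aeval_mem_of_isHomogeneous hx hR)
          · rw [pow_add, mul_comm (maximalIdeal O ^ d)]
            exact Ideal.mul_mem_mul hb (aeval_mem_of_isHomogeneous hx hQ)
        · simp only [X, map_mul, map_add] at hy hz ⊢
          rw [← hy, ← hz]; ring
      zero_mem' := ⟨0, 0, 1, by simp, MvPolynomial.isHomogeneous_one _ _, one_ne_zero, by simp [X]⟩
      neg_mem' := by
        rintro y ⟨d, a, Q, ha, hQ, hQ0, hy⟩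
        exact ⟨d, -a, Q, neg_mem ha, hQ, hQ0, by rw [neg_mul, hy, map_neg]⟩ }
  have hOT : ∀ o : O, j o ∈ T := fun o =>
    ⟨0, o, 1, by simp, MvPolynomial.isHomogeneous_one _ _, one_ne_zero, by simp [X]⟩
  -- ratios of forms of equal degree make a field inside `T`
  let U : IntermediateField K Ω :=
    { carrier := {y | ∃ (d : ℕ) (P Q : MvPolynomial (Fin g) K), P.IsHomogeneous d ∧
        Q.IsHomogeneous d ∧ Q ≠ 0 ∧ y * X Q = X P}
      mul_mem' := by
        rintro y z ⟨d, P, Q, hP, hQ, hQ0, hy⟩ ⟨e, S, R, hS, hR, hR0, hz⟩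
        refine ⟨d + e, P * S, Q * R, hP.mul hS, hQ.mul hR, mul_ne_zero hQ0 hR0, ?_⟩
        simp only [X, map_mul] at hy hz ⊢
        rw [← hy, ← hz]; ring
      one_mem' := ⟨0, 1, 1, MvPolynomial.isHomogeneous_one _ _, MvPolynomial.isHomogeneous_one _ _,
        one_ne_zero, by simp [X]⟩
      add_mem' := by
        rintro y z ⟨d, P, Q, hP, hQ, hQ0, hy⟩ ⟨e, S, R, hS, hR, hR0, hz⟩
        refine ⟨d + e, P * R + S * Q, Q * R, (hP.mul hR).add (by
          simpa [add_comm] using hS.mul hQ), hQ.mul hR, mul_ne_zero hQ0 hR0, ?_⟩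
        simp only [X, map_mul, map_add] at hy hz ⊢
        rw [← hy, ← hz]; ring
      zero_mem' := ⟨0, 0, 1, MvPolynomial.isHomogeneous_zero _ _ _,
        MvPolynomial.isHomogeneous_one _ _, one_ne_zero, by simp [X]⟩
      algebraMap_mem' := fun c => ⟨0, MvPolynomial.C c, 1, MvPolynomial.isHomogeneous_C _ _,
        MvPolynomial.isHomogeneous_one _ _, one_ne_zero, by simp [X]⟩
      inv_mem' := by
        rintro y ⟨d, P, Q, hP, hQ, hQ0, hy⟩
        rcases eq_or_ne y 0 with rfl | hy0
        · exact ⟨0, 0, 1, MvPolynomial.isHomogeneous_zero _ _ _,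
            MvPolynomial.isHomogeneous_one _ _, one_ne_zero, by simp [X]⟩
        refine ⟨d, Q, P, hQ, hP, fun h => ?_, ?_⟩
        · refine mul_ne_zero hy0 (hne hQ hQ0) ?_
          rw [hy, h]; simp [X]
        · rw [← hy, ← mul_assoc, inv_mul_cancel₀ hy0, one_mul] }
  have hUT : ∀ y ∈ U, y ∈ T := fun y ⟨d, P, Q, hP, hQ, hQ0, hy⟩ =>
    ⟨d, MvPolynomial.aeval x P, Q, aeval_mem_of_isHomogeneous hx hP, hQ, hQ0, hy⟩
  have htU : ∀ i, j (x i) / j (x i₀) ∈ U := by
    intro i
    refine ⟨1, MvPolynomial.X i, MvPolynomial.X i₀, MvPolynomial.isHomogeneous_X _ _,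
      MvPolynomial.isHomogeneous_X _ _, MvPolynomial.X_ne_zero _, ?_⟩
    simp only [X, MvPolynomial.aeval_X]
    exact div_mul_cancel₀ _ (by
      have := hne (MvPolynomial.isHomogeneous_X K i₀) (MvPolynomial.X_ne_zero _)
      simpa [X] using this)
  set x₀ : T := ⟨j (x i₀), hOT _⟩
  have hI : Ideal.span {x₀} ≠ ⊤ := by
    rw [Ne, Ideal.span_singleton_eq_top, isUnit_iff_exists_inv]
    rintro ⟨⟨y, d, a, Q, ha, hQ, hQ0, hy⟩, hxy⟩
    have h1 : j (x i₀) * y = 1 := congrArg Subtype.val hxy
    refine aeval_notMem_of_isHomogeneous hx hQ hQ0 ?_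
    rw [show MvPolynomial.aeval x Q = a * x i₀ from hj (by
      rw [map_mul, ← hy]
      show X Q = y * X Q * j (x i₀)
      rw [mul_comm y, mul_assoc, mul_comm y, h1, mul_one]), pow_succ]
    exact Ideal.mul_mem_mul ha (hx.span_eq ▸ Ideal.subset_span ⟨i₀, rfl⟩)
  obtain ⟨V, hTV, hIV⟩ := Ideal.image_subset_nonunits_valuationSubring _ hI
  have hx₀ : j (x i₀) ∈ V.nonunits := hIV ⟨x₀, Ideal.mem_span_singleton_self _, rfl⟩
  refine ⟨V, fun a ha => ?_, fun o => hTV (hOT o),
    fun y hy => hTV (hUT y (IntermediateField.adjoin_le_iff.mpr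
      (by rintro _ ⟨i, rfl⟩; exact htU i) hy))⟩
  rw [← hx.span_eq] at ha
  obtain ⟨c, rfl⟩ := Ideal.mem_span_range_iff_exists_fun.mp ha
  rw [map_sum]
  refine FFBasic.sum_mem_nonunits _ _ fun i _ => ?_
  rw [map_mul, ← div_mul_cancel₀ (j (x i)) (show j (x i₀) ≠ 0 by
    have := hne (MvPolynomial.isHomogeneous_X K i₀) (MvPolynomial.X_ne_zero _)
    simpa [X] using this), ← mul_assoc, mul_comm]
  exact FFBasic.mul_mem_nonunits hx₀ (mul_mem (hTV (hOT _)) (hTV (hUT _ (htU i))))

end Form

section Extensions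

variable {K E Ω : Type u} [Field K] [Field E] [Field Ω] [Algebra K E] [Algebra K Ω]

/-- A valuation ring containing a subfield contains its relative algebraic closure. -/
private theorem mem_of_mem_algebraicClosure (V : ValuationSubring Ω) {L : IntermediateField K Ω}
    (hL : ∀ a ∈ L, a ∈ V) {c : Ω} (hc : c ∈ algebraicClosure L Ω) : c ∈ V := by
  obtain ⟨p, hp, hp0⟩ := mem_algebraicClosure_iff'.mp hc
  let ψ : L →+* V := L.val.toRingHom.codRestrict V.toSubring fun a => hL a a.2
  have hint : IsIntegral V c := ⟨p.map ψ, hp.map ψ, by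
    rw [Polynomial.eval₂_map]
    exact hp0⟩
  obtain ⟨y, hy⟩ := IsIntegrallyClosed.isIntegral_iff.mp hint
  exact hy ▸ y.2

/-- An embedding maps into any subfield containing the images of generators. -/
private theorem algHom_mem_of_adjoin_eq_top (γ : E →ₐ[K] Ω) {S : Set E}
    (hS : IntermediateField.adjoin K S = ⊤) {L : IntermediateField K Ω} (h : γ '' S ⊆ L) (y : E) :
    γ y ∈ L := by
  have h1 : γ y ∈ (IntermediateField.adjoin K S).map γ := ⟨y, by rw [hS]; trivial, rfl⟩
  rw [IntermediateField.adjoin_map] at h1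
  exact IntermediateField.adjoin_le_iff.mpr h h1

/-- Integrality over a subfield is carried along an embedding into any field containing it. -/
private theorem isIntegral_map_of_le {k : Type u} [Field k] [Algebra k Ω] (γ : E →ₐ[K] Ω)
    {L : IntermediateField K E} {L' : IntermediateField k Ω} (hle : ∀ a ∈ L, γ a ∈ L') {y : E}
    (hy : IsIntegral L y) : IsIntegral L' (γ y) := by
  obtain ⟨p, hp, hp0⟩ := hy
  let ψ : L →+* L' := (γ.toRingHom.comp L.val.toRingHom).codRestrict L' fun a => hle a a.2
  refine ⟨p.map ψ, hp.map ψ, ?_⟩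
  rw [Polynomial.eval₂_map]
  exact (Polynomial.hom_eval₂ p _ γ.toRingHom y).symm.trans ((congrArg γ hp0).trans (map_zero γ))

/-- If the ratios of the generators to `γ (x i₀)` lie in `k`, then `k(γ (x i₀))` contains their
images. -/
private theorem algHom_mem_adjoin_of_ratios {ι : Type} (γ : E →ₐ[K] Ω) (x : ι → E) {i₀ : ι}
    (h0 : γ (x i₀) ≠ 0) {k : IntermediateField K Ω} (hk : ∀ i, γ (x i) / γ (x i₀) ∈ k) :
    ∀ a ∈ IntermediateField.adjoin K (Set.range x),
      γ a ∈ IntermediateField.adjoin k {γ (x i₀)} := by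
  intro a ha
  have hle : (IntermediateField.adjoin K (Set.range x)).map γ ≤
      (IntermediateField.adjoin k {γ (x i₀)}).restrictScalars K := by
    rw [IntermediateField.adjoin_map, IntermediateField.adjoin_le_iff]
    rintro _ ⟨_, ⟨i, rfl⟩, rfl⟩
    show γ (x i) ∈ IntermediateField.adjoin k {γ (x i₀)}
    rw [← div_mul_cancel₀ (γ (x i)) h0]
    exact mul_mem ((IntermediateField.adjoin k {γ (x i₀)}).algebraMap_mem (⟨_, hk i⟩ : k))
      (IntermediateField.subset_adjoin k {γ (x i₀)} rfl)
  exact hle ⟨a, ha, rfl⟩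

/-- Finitely many elements integral over `k(X₀)` generate a function field. -/
private theorem isFunctionField_adjoin {k : Type u} [Field k] [Algebra k Ω] {X₀ : Ω}
    (hX₀ : Transcendental k X₀) {S : Set Ω} (hS : S.Finite)
    (halg : ∀ y ∈ S, IsIntegral (IntermediateField.adjoin k {X₀}) y) :
    IsFunctionField k
      ((IntermediateField.adjoin (IntermediateField.adjoin k {X₀}) S).restrictScalars k) := by
  set kx := IntermediateField.adjoin k {X₀}
  set F₀ := (IntermediateField.adjoin kx S).restrictScalars k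
  have : FiniteDimensional kx (IntermediateField.adjoin kx S) := by
    have := hS.to_subtype
    exact IntermediateField.finiteDimensional_adjoin halg
  let X' : F₀ := ⟨X₀, IntermediateField.subset_adjoin_of_subset_left _
    (by intro a ha; exact ha) (IntermediateField.subset_adjoin k {X₀} rfl)⟩
  have htrX : Transcendental k X' := fun h =>
    hX₀ ((isAlgebraic_algHom_iff F₀.val F₀.val.injective).mpr h)
  refine ⟨X', htrX, ?_⟩
  let e : IntermediateField.adjoin k {X'} ≃ₐ[k] kx :=
    (IntermediateField.equivMap (IntermediateField.adjoin k {X'}) F₀.val).trans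
      (IntermediateField.equivOfEq
          (by rw [IntermediateField.adjoin_map, Set.image_singleton]; rfl))
  exact Module.Finite.of_equiv_equiv (B₁ := IntermediateField.adjoin kx S)
    e.symm.toRingEquiv (RingEquiv.refl F₀) (RingHom.ext fun a => Subtype.ext (by
      obtain ⟨b, rfl⟩ := e.surjective a
      show ((e.symm (e b) : F₀) : Ω) = ((e b : kx) : Ω)
      rw [e.symm_apply_apply]
      rfl))

omit [Field K] [Algebra K E] [Algebra K Ω] in
/-- A valuation ring with a nonzero nonunit in a subfield is nontrivial on it. -/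
private theorem comap_ne_top_of_mem_nonunits (V : ValuationSubring Ω) (φ : E →+* Ω) {x : E}
    (hx : φ x ∈ V.nonunits) (h0 : x ≠ 0) : V.comap φ ≠ ⊤ := by
  intro htop
  have h1 : φ x⁻¹ ∈ V := (htop ▸ ValuationSubring.mem_top _ : x⁻¹ ∈ V.comap φ)
  have h2 := FFBasic.mul_mem_nonunits hx h1
  rw [← map_mul, mul_inv_cancel₀ h0, map_one] at h2
  exact FFBasic.not_mem_nonunits_one V h2

end Extensions

variable {K : Type u} [Field K] [IsAlgClosed K] {A : Scheme.{u}}
  {f : A ⟶ Spec (CommRingCat.of K)} [IsIntegral A]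

omit [IsAlgClosed K] in
theorem fromSpecStalk_genericPoint_comp :
    letI := stalkAlgebra f (genericPoint A)
    A.fromSpecStalk (genericPoint A) ≫ f = specStr K A.functionField := by
  obtain ⟨_, ⟨U, hU', rfl⟩, hx, -⟩ :=
    A.isBasis_affineOpens.exists_subset_of_mem_open (Set.mem_univ (genericPoint A)) isOpen_univ
  have hU : IsAffineOpen U := hU'
  rw [← hU.fromSpecStalk_eq_fromSpecStalk hx, IsAffineOpen.fromSpecStalk, Category.assoc,
    fromSpec_comp f hU, ← Spec.map_comp, germ_baseRingHom f (genericPoint A) hx]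
  rfl

variable [IsProper f] (G : RelativeGroupLaw K f) {g : ℕ} [SmoothOfRelativeDimension g f]

omit [IsProper f] in
/-- A ring map out of the function field gives a point over the generic point. -/
private theorem imagePoint_specMap_generic {F₀ : Type u} [Field F₀]
    (γ₀ : A.functionField →+* F₀) :
    imagePoint (Spec.map (CommRingCat.ofHom γ₀) ≫ A.fromSpecStalk (genericPoint A)) =
      genericPoint A := by
  refine (Scheme.Hom.comp_apply _ _ _).trans ?_
  refine Eq.trans (congrArg _ ?_) Scheme.fromSpecStalk_closedPoint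
  have : Subsingleton (PrimeSpectrum A.functionField) := inferInstance
  exact Subsingleton.elim (α := PrimeSpectrum A.functionField) _ _

omit [IsProper f] in
/-- The values at the point given by a ring map are that map. -/
private theorem genValue_specMap_generic {F₀ : Type u} [Field F₀]
    (γ₀ : A.functionField →+* F₀) :
    genValue _ (imagePoint_specMap_generic γ₀) = γ₀ := by
  have h : CommRingCat.ofHom (genValue _ (imagePoint_specMap_generic γ₀)) =
      CommRingCat.ofHom γ₀ := by
    apply Spec.map_injective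
    rw [← cancel_mono (A.fromSpecStalk (genericPoint A)), specMap_genValue]
  exact congrArg CommRingCat.Hom.hom h

omit [IsAlgClosed K] in
/-- A generic point is centred at `z` at a place dominating the local ring of `z`. -/
private theorem centreAt_eq_of_dominates {k F₀ : Type u} [Field k] [Field F₀] [Algebra K k]
    [Algebra K F₀] [Algebra k F₀] [IsScalarTower K k F₀] (P : Place k F₀)
    (ι : SchemeHomOver (specStr K F₀) f) {γ₀ : A.functionField →+* F₀}
    (hι : ι.1 = Spec.map (CommRingCat.ofHom γ₀) ≫ A.fromSpecStalk (genericPoint A)) {z : A}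
    (hO : ∀ o, γ₀ (algebraMap (A.presheaf.stalk z) A.functionField o) ∈ P.toValuationSubring)
    (hm : ∀ a ∈ maximalIdeal (A.presheaf.stalk z), ∀ b ∈ P.toValuationSubring,
      γ₀ (algebraMap (A.presheaf.stalk z) A.functionField a) * b ≠ 1) :
    centreAt f P ι = z := by
  let := placeAlgebra (K := K) P
  let ψ : A.presheaf.stalk z →+* P.toValuationSubring :=
    (γ₀.comp (algebraMap _ A.functionField)).codRestrict P.toValuationSubring.toSubring hO
  have hpt : Spec.map (CommRingCat.ofHom (algebraMap P.toValuationSubring F₀)) ≫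
      (Spec.map (CommRingCat.ofHom ψ) ≫ A.fromSpecStalk z) = ι.1 := by
    rw [← Category.assoc, ← Spec.map_comp, hι]
    have hsp : genericPoint A ⤳ z := (genericPoint_spec A).specializes trivial
    refine (congrArg (· ≫ A.fromSpecStalk z) (Spec.map_comp (A.presheaf.stalkSpecializes hsp)
      (CommRingCat.ofHom γ₀))).trans ?_
    show (_ ≫ _) ≫ _ = Spec.map (CommRingCat.ofHom γ₀) ≫ _
    rw [Category.assoc, Scheme.SpecMap_stalkSpecializes_fromSpecStalk]
    rfl
  have : IsScalarTower K P.toValuationSubring F₀ :=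
    IsScalarTower.of_algebraMap_eq fun c => IsScalarTower.algebraMap_apply K k F₀ c
  have hover : (Spec.map (CommRingCat.ofHom ψ) ≫ A.fromSpecStalk z) ≫ f =
      specStr K P.toValuationSubring := by
    obtain ⟨φ, hφ⟩ : ∃ φ, Spec.map φ = (Spec.map (CommRingCat.ofHom ψ) ≫ A.fromSpecStalk z) ≫ f :=
      ⟨Spec.preimage _, Spec.map_preimage _⟩
    have hsq : Spec.map (CommRingCat.ofHom (algebraMap P.toValuationSubring F₀)) ≫ Spec.map φ =
        specStr K F₀ := by
      rw [hφ, ← Category.assoc, hpt, ι.2]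
    rw [← Spec.map_comp] at hsq
    rw [← hφ]
    congr 1
    refine CommRingCat.hom_ext (RingHom.ext fun c => Subtype.ext ?_)
    exact (DFunLike.congr_fun (congrArg CommRingCat.Hom.hom (Spec.map_injective hsq)) c).trans
      (IsScalarTower.algebraMap_apply K k F₀ c)
  have huniq := (exists_pointMap_eq (R := P.toValuationSubring) f ι).unique
    (show pointMap f (IsScalarTower.toAlgHom K P.toValuationSubring F₀) (atPlace f P ι) = ι from
      Subtype.ext (atPlace_spec f P ι))
    (y₂ := ⟨Spec.map (CommRingCat.ofHom ψ) ≫ A.fromSpecStalk z, hover⟩) (Subtype.ext hpt)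
  show (atPlace f P ι).1 _ = z
  rw [huniq]
  refine (Scheme.Hom.comp_apply _ _ _).trans ?_
  refine Eq.trans (congrArg _ ?_) Scheme.fromSpecStalk_closedPoint
  refine PrimeSpectrum.ext (Ideal.IsMaximal.eq_of_le (maximalIdeal.isMaximal _) ?_ ?_).symm
  · exact Ideal.IsPrime.ne_top (PrimeSpectrum.isPrime _)
  · intro a ha
    show ψ a ∈ maximalIdeal P.toValuationSubring
    rw [mem_maximalIdeal, mem_nonunits_iff]
    intro hu
    obtain ⟨b, hb⟩ := hu.exists_right_inv
    exact hm a ha b b.2 (congrArg Subtype.val hb)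

/-- A function field with algebraically closed constants, a generic point with values in it, and
a place centred at the origin. -/
theorem exists_curve (hg : 0 < g) :
    ∃ (k F₀ : Type u) (_ : Field k) (_ : IsAlgClosed k) (_ : Algebra K k) (_ : Field F₀)
      (_ : Algebra k F₀) (_ : Algebra K F₀) (_ : IsScalarTower K k F₀) (_ : IsFunctionField k F₀)
      (ι₀ : SchemeHomOver (specStr K F₀) f) (hgen : imagePoint ι₀.1 = genericPoint A)
      (P₀ : Place k F₀),
      (genValue ι₀.1 hgen).IsIntegral ∧
        centreAt f P₀ ι₀ = (G.one (𝟙 (Spec (CommRingCat.of K)))).1 (closedPoint K) := by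
  classical
  have := locallyOfFiniteType f (g := g)
  set z := (G.one (𝟙 (Spec (CommRingCat.of K)))).1 (closedPoint K) with hz
  have hzc : IsClosed {z} :=
    (pointEquivClosedPoint (K := K) f (G.one (𝟙 (Spec (CommRingCat.of K))))).2
  let := stalkAlgebra f (genericPoint A)
  let := stalkAlgebra f z
  obtain ⟨-, hsm, x, hx⟩ := exists_parameters f (g := g) z hzc
  have := hsm
  obtain ⟨hess, htr⟩ := essFiniteType_trdeg_functionField f (g := g)
  have := hess
  let Ω := AlgebraicClosure A.functionField
  let γ : A.functionField →ₐ[K] Ω := IsScalarTower.toAlgHom K A.functionField Ω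
  let oz : A.presheaf.stalk z →ₐ[K] A.functionField :=
    { algebraMap (A.presheaf.stalk z) A.functionField with
      commutes' := fun c => by
        show algebraMap _ A.functionField (A.presheaf.germ ⊤ z trivial (baseRingHom f ⊤ c)) =
          A.presheaf.germ ⊤ (genericPoint A) trivial (baseRingHom f ⊤ c)
        rw [RingHom.algebraMap_toAlgebra]
        exact TopCat.Presheaf.germ_stalkSpecializes_apply (F := A.presheaf) (U := ⊤) _ _ _ }
  have hozinj : Function.Injective oz := IsFractionRing.injective _ A.functionField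
  let i₀ : Fin g := ⟨0, hg⟩
  obtain ⟨V, hmV, hOV, htV⟩ := exists_valuation_forms hx (γ.comp oz)
    (γ.toRingHom.injective.comp hozinj) i₀
  let xK : Fin g → A.functionField := fun i => oz (x i)
  set k₀ := IntermediateField.adjoin K (Set.range fun i => γ (xK i) / γ (xK i₀))
  let k := (algebraicClosure k₀ Ω).restrictScalars K
  have : IsAlgClosed k := by
    have := algebraicClosure.isAlgClosure k₀ Ω
    exact (IsAlgClosure.isAlgClosed (R := k₀) (K := algebraicClosure k₀ Ω))
  have hkV : ∀ c : k, (c : Ω) ∈ V := fun c => mem_of_mem_algebraicClosure V htV c.2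
  set X₀ := γ (xK i₀)
  have hX₀n : X₀ ∈ V.nonunits := hmV _ (hx.span_eq ▸ Ideal.subset_span ⟨i₀, rfl⟩)
  have hind : AlgebraicIndependent K xK := (algebraicIndependent_parameters hx).map' hozinj
  have hX₀0 : X₀ ≠ 0 := (map_ne_zero γ).mpr (hind.ne_zero i₀)
  have hX₀ : Transcendental k X₀ :=
    FFBasic.transcendental_of_mem_nonunits (K := k) hkV hX₀n hX₀0
  obtain ⟨s, hs⟩ := IntermediateField.fg_top_iff.mpr hess
  let kx := IntermediateField.adjoin k {X₀}
  let F₀ := (IntermediateField.adjoin kx (γ '' (s : Set A.functionField))).restrictScalars k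
  have hγF : ∀ y, γ y ∈ F₀ :=
    algHom_mem_of_adjoin_eq_top γ hs (L := F₀.restrictScalars K)
      (IntermediateField.subset_adjoin _ _)
  let γ₀ : A.functionField →ₐ[K] F₀ :=
    { γ.toRingHom.codRestrict F₀ hγF with commutes' := fun c => Subtype.ext (γ.commutes c) }
  -- algebraicity over `k(x₀)`
  have hle := algHom_mem_adjoin_of_ratios γ xK hX₀0 (k := k) fun i =>
    IntermediateField.algebraMap_mem (algebraicClosure k₀ Ω)
      ⟨_, IntermediateField.subset_adjoin K _ ⟨i, rfl⟩⟩
  have := (hind.isTranscendenceBasis_of_lift_trdeg_le_of_finite (by simp [htr])).isAlgebraic_field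
  have hff : IsFunctionField k F₀ := by
    refine isFunctionField_adjoin hX₀ (s.finite_toSet.image _) ?_
    rintro _ ⟨y, -, rfl⟩
    exact isIntegral_map_of_le γ hle
      ((Algebra.IsAlgebraic.isAlgebraic
        (R := IntermediateField.adjoin K (Set.range xK)) y).isIntegral)
  let : Algebra K F₀ := F₀.toSubalgebra.algebra'
  let ι₀ : SchemeHomOver (specStr K F₀) f :=
    ⟨Spec.map (CommRingCat.ofHom γ₀.toRingHom) ≫ A.fromSpecStalk (genericPoint A), by
      rw [Category.assoc, fromSpecStalk_genericPoint_comp]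
      exact specMap_specStr γ₀⟩
  have hgen : imagePoint ι₀.1 = genericPoint A := imagePoint_specMap_generic γ₀.toRingHom
  have hval : genValue ι₀.1 hgen = γ₀.toRingHom := genValue_specMap_generic γ₀.toRingHom
  have := hff
  have hV₀ : ∀ a : k, algebraMap k F₀ a ∈ V.comap F₀.val.toRingHom := hkV
  let P₀ : Place k F₀ := FFBasic.placeOfValuationSubring _ hV₀
    (comap_ne_top_of_mem_nonunits V F₀.val.toRingHom (x := γ₀ (xK i₀)) hX₀n
      fun h => hX₀0 (congrArg Subtype.val h))
  have : IsScalarTower K k F₀ := IsScalarTower.of_algebraMap_eq fun _ => rfl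
  refine ⟨k, F₀, inferInstance, inferInstance, inferInstance, inferInstance, inferInstance,
    inferInstance, inferInstance, hff, ι₀, hgen, P₀, ?_, centreAt_eq_of_dominates P₀ ι₀
      (γ₀ := γ₀.toRingHom) rfl hOV fun a ha b hb h => ?_⟩
  · intro y
    rw [hval]
    obtain ⟨p, hp, hp0⟩ := (Algebra.IsAlgebraic.isAlgebraic (R := A.functionField)
      (y : Ω)).isIntegral
    refine ⟨p, hp, Subtype.val_injective ?_⟩
    exact (Polynomial.hom_eval₂ p _ F₀.val.toRingHom y).trans hp0
  · have h2 : (γ.comp oz) a * (b : Ω) ∈ V.nonunits :=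
      FFBasic.mul_mem_nonunits (hmV a ha) (show (b : Ω) ∈ V from hb)
    rw [show (γ.comp oz) a * (b : Ω) = 1 from congrArg Subtype.val h] at h2
    exact FFBasic.not_mem_nonunits_one V h2

end FLTAgent.AbelianTorsion
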