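import Mathlib
import Fermat.Agent.AbelianTorsion.Rigidity

/-!
# Relations among translates descend along extensions of the constants

`sum_shiftPic_descent`: a relation among translated classes that holds over an extension of the
constants already holds over the smaller field.
-/

set_option autoImplicit false

noncomputable section

universe u

open CategoryTheory CategoryTheory.Limits AlgebraicGeometry NeronModelInfra GoodReductionJacobian
open IsLocalRing AlgebraicCurve TensorProduct
open FLTAgent.FFBasic (IsFunctionField)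
open FLTAgent.FFRiemannRoch (ell divOf divOf_apply)
open FLTAgent.Jacobian FLTAgent.Jacobian.ConstExt

namespace FLTAgent.AbelianTorsion

/-- Extending the constants twice. -/
theorem isConstExtension_trans {k kb L F₀ Fb F : Type u} [Field k] [Field kb] [Field L] [Field F₀]
    [Field Fb] [Field F] [Algebra k kb] [Algebra kb L] [Algebra k L] [IsScalarTower k kb L]
    [Algebra k F₀] [Algebra kb Fb] [Algebra F₀ Fb] [Algebra k Fb] [IsScalarTower k kb Fb]
    [IsScalarTower k F₀ Fb] [IsConstExtension k kb F₀ Fb] [Algebra L F] [Algebra Fb F]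
    [Algebra kb F] [IsScalarTower kb L F] [IsScalarTower kb Fb F] [IsConstExtension kb L Fb F]
    [Algebra F₀ F] [IsScalarTower F₀ Fb F] [Algebra k F] [IsScalarTower k L F]
    [IsScalarTower k F₀ F] : IsConstExtension k L F₀ F where
  disjoint u hu := by
    have h := IsConstExtension.disjoint (K := L) (F := F) _
      (IsConstExtension.disjoint (K := kb) (F := Fb) u hu)
    simpa [← IsScalarTower.algebraMap_apply] using h
  adjoin_eq_top := by
    refine top_le_iff.mp fun z _ => ?_
    have h2 : z ∈ IntermediateField.adjoin L (Set.range (algebraMap Fb F)) := by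
      rw [IsConstExtension.adjoin_eq_top (K₀ := kb)]; trivial
    refine (IntermediateField.adjoin_le_iff.mpr ?_) h2
    rintro _ ⟨y, rfl⟩
    have h3 : y ∈ IntermediateField.adjoin kb (Set.range (algebraMap F₀ Fb)) := by
      rw [IsConstExtension.adjoin_eq_top (K₀ := k)]; trivial
    induction h3 using IntermediateField.adjoin_induction with
    | mem w hw =>
      obtain ⟨v, rfl⟩ := hw
      rw [SetLike.mem_coe, ← IsScalarTower.algebraMap_apply]
      exact IntermediateField.subset_adjoin _ _ ⟨v, rfl⟩
    | algebraMap r =>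
      rw [SetLike.mem_coe, ← IsScalarTower.algebraMap_apply, IsScalarTower.algebraMap_apply kb L F]
      exact IntermediateField.algebraMap_mem _ _
    | add a b _ _ ha hb => rw [map_add]; exact add_mem ha hb
    | inv a _ ha => rw [map_inv₀]; exact inv_mem ha
    | mul a b _ _ ha hb => rw [map_mul]; exact mul_mem ha hb

variable {K : Type u} [Field K] {A : Scheme.{u}} {f : A ⟶ Spec (CommRingCat.of K)} [IsProper f]
  [IsIntegral A] [CompactSpace A] (G : RelativeGroupLaw K f)

variable {k kb L F₀ Fb F : Type u} [Field k] [Field kb] [Field L] [Field F₀] [Field Fb] [Field F]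
  [Algebra k kb] [Algebra kb L] [Algebra k L] [IsScalarTower k kb L] [Algebra k F₀]
  [Algebra kb Fb] [Algebra F₀ Fb] [Algebra k Fb] [IsScalarTower k kb Fb] [IsScalarTower k F₀ Fb]
  [IsConstExtension k kb F₀ Fb] [Algebra L F] [Algebra Fb F] [Algebra kb F] [IsScalarTower kb L F]
  [IsScalarTower kb Fb F] [IsConstExtension kb L Fb F] [Algebra F₀ F] [IsScalarTower F₀ Fb F]
  [Algebra k F] [IsScalarTower k L F] [IsScalarTower k F₀ F] [IsConstExtension k L F₀ F]
  [IsFunctionField k F₀] [IsFunctionField kb Fb] [IsFunctionField L F]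
  [IsAlgClosed k] [IsAlgClosed kb] [IsAlgClosed L]
  [Algebra K k] [Algebra K kb] [IsScalarTower K k kb] [Algebra K L] [IsScalarTower K k L]
  [IsScalarTower K kb L] [Algebra K F₀] [IsScalarTower K k F₀] [Algebra K Fb] [IsScalarTower K k Fb]
  [IsScalarTower K kb Fb] [Algebra K F] [IsScalarTower K k F] [IsScalarTower K L F]

omit [IsAlgClosed k] in
/-- A relation among translates by points over `kb` holds over `kb` if it holds over `L`. -/
theorem sum_shiftPic_descent {α : Type} [Fintype α] (ι₀ : SchemeHomOver (specStr K F₀) f)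
    (D : CDivClass A) (ε : α → ℤ) (c : α → SchemeHomOver (specStr K kb) f)
    (h : ∑ i, ε i • shiftPic G k F ι₀ D (pointMap f (IsScalarTower.toAlgHom K kb L) (c i)) = 0) :
    ∑ i, ε i • shiftPic G k Fb ι₀ D (c i) = 0 := by
  classical
  let O : ValuationSubring kb := ⊤
  let : Algebra k O := ((algebraMap k kb).codRestrict O.toSubring fun _ => trivial).toAlgebra
  have : IsScalarTower k O kb := IsScalarTower.of_algebraMap_eq fun _ => rfl
  let : Algebra K O := ((algebraMap k O).comp (algebraMap K k)).toAlgebra
  have : IsScalarTower K k O := IsScalarTower.of_algebraMap_eq' rfl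
  let emb : O →ₐ[k] L := (IsScalarTower.toAlgHom k kb L).comp (IsScalarTower.toAlgHom k O kb)
  have hemb : Function.Injective emb :=
    (algebraMap kb L).injective.comp Subtype.val_injective
  let ρ : ResidueMap k O L :=
    { toHom := emb
      eq_zero_iff := fun x => by
        rw [map_eq_zero_iff emb hemb]
        refine ⟨fun hx => hx ▸ not_isUnit_zero, fun hx => ?_⟩
        by_contra hne
        have hne' : (x : kb) ≠ 0 := fun h => hne (Subtype.ext h)
        exact hx (IsUnit.of_mul_eq_one ⟨(x : kb)⁻¹, trivial⟩ (Subtype.ext (mul_inv_cancel₀ hne'))) }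
  have : IsScalarTower K O kb := IsScalarTower.of_algebraMap_eq fun x =>
    IsScalarTower.algebraMap_apply K k kb x
  let toO : kb →ₐ[K] O :=
    { (RingHom.id kb).codRestrict O.toSubring (fun _ => trivial) with
      commutes' := fun x => Subtype.ext (IsScalarTower.algebraMap_apply K O kb x) }
  choose M M' hM hM' hloc using fun i =>
    exists_rep_specialise G ρ ι₀ (F := Fb) (F' := F) (pointMap f toO (c i)) D
  have hgen : ∀ i, pointMap f ((IsScalarTower.toAlgHom k O kb).restrictScalars K)
      (pointMap f toO (c i)) = c i := fun i => by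
    refine Subtype.ext ?_
    rw [pointMap_comp, pointMap_val]
    conv_rhs => rw [← Category.id_comp (c i).1, ← Spec.map_id]
    rfl
  have hred : ∀ i, pointMap f (ρ.toHom.restrictScalars K) (pointMap f toO (c i)) =
      pointMap f (IsScalarTower.toAlgHom K kb L) (c i) := fun i => by
    rw [pointMap_comp]
    rfl
  have hmap : ∀ i, M' i = mapDiv L F (M i) := by
    intro i
    refine Finsupp.ext fun Q' => ?_
    obtain ⟨v, v', hv0, ⟨a, b, hb, hva, hva'⟩, hM'v, hMv⟩ := hloc i Q'
    have hcomp : ∀ z : O ⊗[k] F₀, redMap F ρ z = algebraMap Fb F (genMap Fb z) := by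
      intro z
      induction z using TensorProduct.induction_on with
      | zero => simp
      | add x y hx hy => rw [map_add, map_add, map_add, hx, hy]
      | tmul o w =>
        rw [genMap_tmul, redMap_tmul, map_mul, ← IsScalarTower.algebraMap_apply F₀ Fb F,
          ← IsScalarTower.algebraMap_apply kb Fb F, IsScalarTower.algebraMap_apply kb L F]
        rfl
    have hvv : v' = algebraMap Fb F v := by
      refine mul_right_cancel₀ hb ?_
      rw [hva', hcomp, hcomp, ← map_mul, hva]
    rcases exists_extPlace_eq_or_isGeneric (K₀ := kb) (F₀ := Fb) Q' with ⟨P, rfl⟩ | hgen'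
    · rw [mapDiv_apply_extPlace, hM'v, hvv, ord_extPlace,
        hMv P (fun w hw => ?_) fun b hbS hb0 hbQ => ?_]
      · rw [IsScalarTower.algebraMap_apply F₀ Fb F] at hw
        rcases eq_or_ne (algebraMap F₀ Fb w) 0 with h0 | h0
        · rw [h0]; exact zero_mem _
        · refine FFBasic.mem_of_ord_nonneg _ ?_
          have := FFBasic.ord_nonneg_of_mem _ hw
          rwa [ord_extPlace] at this
      · rw [hcomp, ord_extPlace] at hbQ
        exact hbQ
    · rw [mapDiv_apply_of_isGeneric _ hgen', hM'v, hvv, hgen']
  set N := ∑ i, ε i • M i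
  have hN : (QuotientAddGroup.mk N : Pic kb Fb) = ∑ i, ε i • shiftPic G k Fb ι₀ D (c i) := by
    refine (map_sum (QuotientAddGroup.mk' (Divisor.principal (K := kb) (F := Fb))) _ _).trans
      (Finset.sum_congr rfl fun i _ => ?_)
    rw [map_zsmul, shiftPic, ← hgen i, QuotientAddGroup.mk'_apply, hM i]
  have hN' : mapDiv L F N ∈ Divisor.principal (K := L) (F := F) := by
    rw [← QuotientAddGroup.eq_zero_iff, ← h]
    refine (congrArg _ (map_sum (mapDiv L F) _ _)).trans
      ((map_sum (QuotientAddGroup.mk' (Divisor.principal (K := L) (F := F))) _ _).trans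
        (Finset.sum_congr rfl fun i _ => ?_))
    rw [map_zsmul, map_zsmul, shiftPic, ← hred i, QuotientAddGroup.mk'_apply, ← hmap i, hM' i]
  have hdeg : Divisor.degree N = 0 := by
    obtain ⟨z, hz, hzv⟩ := hN'
    have : mapDiv L F N = divOf z := Finsupp.ext fun v => by rw [divOf_apply, hzv v]
    rw [← degree_mapDiv (K := L) (F := F), this, FFRiemannRoch.degree_divOf]
  rw [← hN, QuotientAddGroup.eq_zero_iff, FFRiemannRoch.mem_principal_iff_ell_pos hdeg,
    ← ConstExt.ell_mapDiv L F, ← FFRiemannRoch.mem_principal_iff_ell_pos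
      (by rw [degree_mapDiv, hdeg])]
  exact hN'

end FLTAgent.AbelianTorsion
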