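import Mathlib
import Fermat.Agent.AbelianTorsion.Curve
import Fermat.Agent.AbelianTorsion.Centred
import Fermat.Agent.AbelianTorsion.Descent

/-!
# Translates of a curve by a generic point and by its inverse

`shiftPic_add_shiftPic_inv`: the translates of a curve by a generic point and by its inverse add up
to twice the curve in divisor classes. Used for the square.
-/

set_option autoImplicit false

noncomputable section

universe u

open CategoryTheory CategoryTheory.Limits AlgebraicGeometry NeronModelInfra GoodReductionJacobian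
open IsLocalRing AlgebraicCurve
open FLTAgent.FFBasic (IsFunctionField)
open FLTAgent.Jacobian FLTAgent.Jacobian.ConstExt

namespace FLTAgent.AbelianTorsion

variable {K : Type u} [Field K] {A : Scheme.{u}} {f : A ⟶ Spec (CommRingCat.of K)}
  (G : RelativeGroupLaw K f)

theorem pointMap_inv (hc : G.IsCommutative) {R S : Type u} [CommRing R] [CommRing S] [Algebra K R]
    [Algebra K S] (j : R →ₐ[K] S) (x : SchemeHomOver (specStr K R) f) :
    pointMap f j (G.inv _ x) = G.inv _ (pointMap f j x) := by
  let := pointCommGroup G hc (specStr K S)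
  have h : pointMap f j (G.inv _ x) * pointMap f j x = 1 := by
    show G.mul _ _ _ = G.one _
    rw [← pointMap_mul, G.inv_mul_cancel, pointMap_one]
  exact eq_inv_of_mul_eq_one_left h

variable [IsAlgClosed K] [IsProper f] [IsIntegral A] [CompactSpace A]

/-- The sum of the translates by a generic point and by its inverse is twice the curve. -/
theorem shiftPic_add_shiftPic_inv (hc : G.IsCommutative) {k F₀ kb Fb : Type u} [Field k]
    [IsAlgClosed k] [Algebra K k] [Field F₀] [Algebra k F₀] [Algebra K F₀] [IsScalarTower K k F₀]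
    [IsFunctionField k F₀] [Field kb] [IsAlgClosed kb] [Algebra k kb] [Algebra K kb]
    [IsScalarTower K k kb] [Field Fb] [Algebra kb Fb] [Algebra F₀ Fb] [Algebra k Fb]
    [IsScalarTower k kb Fb] [IsScalarTower k F₀ Fb] [IsConstExtension k kb F₀ Fb] [Algebra K Fb]
    [IsScalarTower K k Fb] [IsScalarTower K kb Fb] [IsFunctionField kb Fb]
    [IsIntegral (pullback f (specStr K k))]
    (η : Spec (CommRingCat.of kb) ⟶ pullback f (specStr K k))
    (hη : η ≫ pullback.snd f (specStr K k) = Spec.map (CommRingCat.ofHom (algebraMap k kb)))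
    (hgen : imagePoint η = genericPoint ↥(pullback f (specStr K k)))
    (ι₀ : SchemeHomOver (specStr K F₀) f) (D : CDivClass A)
    (b : SchemeHomOver (specStr K kb) f) (hb : b.1 = η ≫ pullback.fst f (specStr K k)) :
    shiftPic G k Fb ι₀ D b + shiftPic G k Fb ι₀ D (G.inv _ b) -
      (2 : ℤ) • shiftPic G k Fb ι₀ D (G.one _) = 0 := by
  classical
  -- a generic point of the variety over `kb`
  let fk := specStr K kb
  have : IsIntegral (pullback f fk) := isIntegral_pullback f fk
  let := stalkAlgebra (pullback.snd f fk) (genericPoint ↥(pullback f fk))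
  let L := AlgebraicClosure (pullback f fk).functionField
  let : Algebra k L := ((algebraMap kb L).comp (algebraMap k kb)).toAlgebra
  have : IsScalarTower k kb L := IsScalarTower.of_algebraMap_eq' rfl
  let : Algebra K L := ((algebraMap kb L).comp (algebraMap K kb)).toAlgebra
  have : IsScalarTower K kb L := IsScalarTower.of_algebraMap_eq' rfl
  have : IsScalarTower K k L := IsScalarTower.of_algebraMap_eq fun x => by
    show algebraMap kb L (algebraMap K kb x) = algebraMap kb L (algebraMap k kb (algebraMap K k x))
    rw [← IsScalarTower.algebraMap_apply K k kb]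
  obtain ⟨F, _, _, _, _, _, _, hce, hffF⟩ := exists_constExt kb L Fb
  have := hce
  have := hffF
  let : Algebra F₀ F := ((algebraMap Fb F).comp (algebraMap F₀ Fb)).toAlgebra
  have : IsScalarTower F₀ Fb F := IsScalarTower.of_algebraMap_eq' rfl
  let : Algebra k F := ((algebraMap L F).comp (algebraMap k L)).toAlgebra
  have : IsScalarTower k L F := IsScalarTower.of_algebraMap_eq' rfl
  have hkbF : ∀ x : kb, algebraMap L F (algebraMap kb L x) = algebraMap Fb F (algebraMap kb Fb x) :=
    fun x => by
      rw [← IsScalarTower.algebraMap_apply kb L F, ← IsScalarTower.algebraMap_apply kb Fb F]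
  have : IsScalarTower k F₀ F := IsScalarTower.of_algebraMap_eq fun x => by
    show algebraMap L F (algebraMap kb L (algebraMap k kb x)) =
      algebraMap Fb F (algebraMap F₀ Fb (algebraMap k F₀ x))
    rw [hkbF, ← IsScalarTower.algebraMap_apply k kb Fb, ← IsScalarTower.algebraMap_apply k F₀ Fb]
  have : IsConstExtension k L F₀ F :=
    isConstExtension_trans (k := k) (kb := kb) (L := L) (F₀ := F₀) (Fb := Fb) (F := F)
  let : Algebra K F := ((algebraMap L F).comp (algebraMap K L)).toAlgebra
  have : IsScalarTower K L F := IsScalarTower.of_algebraMap_eq' rfl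
  have : IsScalarTower K k F := IsScalarTower.of_algebraMap_eq fun x => by
    show algebraMap L F (algebraMap K L x) = algebraMap L F (algebraMap k L (algebraMap K k x))
    rw [← IsScalarTower.algebraMap_apply K k L]
  let η' : Spec (CommRingCat.of L) ⟶ pullback f fk :=
    Spec.map (CommRingCat.ofHom (algebraMap (pullback f fk).functionField L)) ≫
      (pullback f fk).fromSpecStalk (genericPoint ↥(pullback f fk))
  have hη' : η' ≫ pullback.snd f fk = Spec.map (CommRingCat.ofHom (algebraMap kb L)) := by
    rw [Category.assoc, fromSpecStalk_genericPoint_comp (K := kb) (f := pullback.snd f fk),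
      ← Spec.map_comp, ← CommRingCat.ofHom_comp, ← IsScalarTower.algebraMap_eq]
  have hgen' : imagePoint η' = genericPoint ↥(pullback f fk) := by
    refine (Scheme.Hom.comp_apply _ _ _).trans (Eq.trans (congrArg _ ?_)
      Scheme.fromSpecStalk_closedPoint)
    exact Subsingleton.elim (α := PrimeSpectrum (pullback f fk).functionField) _ _
  have hover : (η' ≫ pullback.fst f fk) ≫ f = specStr K L := by
    rw [Category.assoc, pullback.condition, ← Category.assoc, hη']
    exact specMap_specStr (IsScalarTower.toAlgHom K kb L)
  let a : SchemeHomOver (specStr K L) f := ⟨η' ≫ pullback.fst f fk, hover⟩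
  let bL := pointMap f (IsScalarTower.toAlgHom K kb L) b
  -- sections
  have hcond : pullback.fst f fk ≫ f = pullback.snd f fk ≫ specStr K kb := pullback.condition
  have hsec : ∀ c : SchemeHomOver (specStr K kb) f,
      ∃ (R : Subalgebra kb L) (χ : R →ₐ[kb] kb) (xR : SchemeHomOver (specStr K R) f),
        pointMap f (R.val.restrictScalars K) xR = a ∧ pointMap f (χ.restrictScalars K) xR = c := by
    intro c
    obtain ⟨R, χ, xR, h1, h2⟩ := exists_centred (f := f) (pullback.fst f fk) (pullback.snd f fk)
      hcond η' hη' hgen' (pullback.lift c.1 (𝟙 _) (by rw [c.2, Category.id_comp]))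
      (pullback.lift_snd _ _ _)
    exact ⟨R, χ, xR, Subtype.ext h1, Subtype.ext (h2.trans (pullback.lift_fst _ _ _))⟩
  obtain ⟨Ra, χa, aR, ha, ha0⟩ := hsec (G.one _)
  obtain ⟨Ra', χa', aR₁, ha₁, ha₁0⟩ := hsec (G.inv _ b)
  let aR' := G.mul _ aR₁ (pointMap f ((Algebra.ofId kb Ra').restrictScalars K) b)
  have ha' : pointMap f (Ra'.val.restrictScalars K) aR' = G.mul _ a bL := by
    rw [pointMap_mul, ha₁, pointMap_comp]
    rfl
  have ha'0 : pointMap f (χa'.restrictScalars K) aR' = G.one _ := by
    rw [pointMap_mul, ha₁0, pointMap_comp]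
    conv_lhs =>
      arg 4
      rw [show (χa'.restrictScalars K).comp ((Algebra.ofId kb Ra').restrictScalars K) =
        AlgHom.id K kb
        from AlgHom.ext fun x => χa'.commutes x]
    have hid : pointMap f (AlgHom.id K kb) b = b := by
      refine Subtype.ext ?_
      rw [pointMap_val]
      exact (congrArg (· ≫ b.1) (Spec.map_id (CommRingCat.of kb))).trans (Category.id_comp _)
    rw [hid]
    exact G.inv_mul_cancel _ b
  -- the point `b` is centred at the origin over `k`
  obtain ⟨R, χ, xR, h1, h2⟩ := exists_centred (f := f) (pullback.fst f (specStr K k))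
    (pullback.snd f (specStr K k)) pullback.condition η hη hgen
    (pullback.lift (G.one (specStr K k)).1 (𝟙 _) (by rw [(G.one _).2, Category.id_comp]))
    (pullback.lift_snd _ _ _)
  let emb : kb →ₐ[k] L := IsScalarTower.toAlgHom k kb L
  let Rb : Subalgebra k L := R.map emb
  let e : R ≃ₐ[k] Rb := Subalgebra.equivMapOfInjective R emb (algebraMap kb L).injective
  let χb : Rb →ₐ[k] k := χ.comp e.symm.toAlgHom
  have hRb : ∀ r : Rb, (r : L) ∈ Set.range (algebraMap kb L) := by
    rintro ⟨_, r, -, rfl⟩; exact ⟨r, rfl⟩
  let bR := pointMap f (e.toAlgHom.restrictScalars K) xR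
  have hbR : pointMap f (Rb.val.restrictScalars K) bR = bL := by
    have hx : pointMap f (R.val.restrictScalars K) xR = b := Subtype.ext (h1.trans hb.symm)
    show _ = pointMap f _ b
    rw [← hx, pointMap_comp, pointMap_comp]
    congr 1
  have hbR0 : pointMap f (χb.restrictScalars K) bR = G.one _ := by
    rw [pointMap_comp, show (χb.restrictScalars K).comp (e.toAlgHom.restrictScalars K) =
      χ.restrictScalars K from AlgHom.ext fun x => congrArg χ (e.symm_apply_apply x)]
    exact Subtype.ext (h2.trans (pullback.lift_fst _ _ _))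
  have q1 := quadPic_eq_zero G (F := F) (kb := kb) ι₀ D a bL Rb hRb χb bR hbR hbR0 Ra χa aR ha ha0
  have q2 := quadPic_eq_zero G (F := F) (kb := kb) ι₀ D (G.mul _ a bL) (G.inv _ bL) Rb hRb χb
    (G.inv _ bR) (by rw [pointMap_inv G hc, hbR]) (by
      rw [pointMap_inv G hc, hbR0]
      let := pointCommGroup G hc (specStr K k)
      exact inv_one) Ra' χa' aR' ha' ha'0
  have hcancel : G.mul _ (G.mul _ a bL) (G.inv _ bL) = a := by
    let := pointCommGroup G hc (specStr K L)
    exact mul_inv_cancel_right a bL
  rw [quadPic] at q1 q2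
  rw [hcancel] at q2
  have hL : shiftPic G k F ι₀ D bL + shiftPic G k F ι₀ D (G.inv _ bL) -
      (2 : ℤ) • shiftPic G k F ι₀ D (G.one _) = 0 := by
    have := congrArg₂ (· + ·) q1 q2
    simp only [zero_add] at this
    rw [← neg_eq_zero, ← this]
    abel
  -- descend
  have hdesc := sum_shiftPic_descent G (L := L) (F := F) (Fb := Fb) ι₀ D ![(1 : ℤ), 1, -2]
    ![b, G.inv _ b, G.one _] (by
      simp only [Fin.sum_univ_three, Matrix.cons_val_zero, Matrix.cons_val_one, Matrix.cons_val,
        one_smul, neg_smul, ← sub_eq_add_neg, pointMap_inv G hc, pointMap_one]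
      exact hL)
  simpa [Fin.sum_univ_three, sub_eq_add_neg, neg_smul] using hdesc

end FLTAgent.AbelianTorsion
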