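import Mathlib
import Fermat.Agent.AbelianTorsion.SeesawNorm
import Fermat.Agent.FFBasic.AdjoinFrac

/-!
# Triviality of pulled back classes on affine curves

`pullClass_prod_eq_one`: a relation among classes pulled back to a function field gives one on an
affine curve whose coordinate ring (`extendedHom`) is cut out by its places.
-/

set_option autoImplicit false

noncomputable section

universe u

open CategoryTheory CategoryTheory.Limits AlgebraicGeometry NeronModelInfra GoodReductionJacobian
open IsLocalRing AlgebraicCurve TensorProduct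
open scoped IsMulCommutative
open FLTAgent.FFBasic (IsFunctionField)
open FLTAgent.FFRiemannRoch (divOf divOf_apply)
open FLTAgent.Jacobian FLTAgent.Jacobian.ConstExt

namespace FLTAgent.AbelianTorsion

section Curve

variable {K : Type u} [Field K] {A : Scheme.{u}} [IsIntegral A] {f : A ⟶ Spec (CommRingCat.of K)}
  [IsProper f] [CompactSpace A]
  {L F : Type u} [Field L] [Field F] [Algebra K L] [Algebra K F] [Algebra L F]
  [IsScalarTower K L F] [IsFunctionField L F]
  {R : Type u} [CommRing R] [IsDomain R] [Algebra R F] [IsFractionRing R F]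

omit [IsDomain R] in
/-- Poles away from a prime are cleared by a multiplier outside the prime. -/
theorem exists_mul_eq_algebraMap (hR : ∀ φ : F, (∀ Q : Place L F,
      (∀ r : R, algebraMap R F r ∈ Q.toValuationSubring) → 0 ≤ Q.ord φ) →
      φ ∈ Set.range (algebraMap R F))
    {m : F} (hm : m ≠ 0) (P : PrimeSpectrum R)
    (h : ∀ Q : Place L F, (∀ r : R, algebraMap R F r ∈ Q.toValuationSubring) → Q.ord m ≠ 0 →
      ∃ s : R, s ∉ P.asIdeal ∧ 0 < Q.ord (algebraMap R F s)) :
    ∃ a s : R, s ∉ P.asIdeal ∧ algebraMap R F a = algebraMap R F s * m := by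
  classical
  have hinj := IsFractionRing.injective R F
  have main : ∀ T : Finset (Place L F),
      (∀ Q ∈ T, (∀ r : R, algebraMap R F r ∈ Q.toValuationSubring) ∧ Q.ord m ≠ 0) →
      ∃ s : R, s ∉ P.asIdeal ∧ ∀ Q ∈ T, 0 ≤ Q.ord (algebraMap R F s) + Q.ord m := by
    intro T
    induction T using Finset.induction with
    | empty => exact fun _ => ⟨1, P.isPrime.one_notMem, by simp⟩
    | insert Q T hQT ih =>
      intro hT
      obtain ⟨t, ht, htQ⟩ := ih fun Q' hQ' => hT Q' (Finset.mem_insert_of_mem hQ')
      obtain ⟨hQR, hQ0⟩ := hT Q (Finset.mem_insert_self Q T)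
      obtain ⟨s, hs, hspos⟩ := h Q hQR hQ0
      have hsn : s ^ (Q.ord m).natAbs ∉ P.asIdeal :=
        fun hmem => hs (P.isPrime.mem_of_pow_mem _ hmem)
      have hne : ∀ r : R, r ∉ P.asIdeal → algebraMap R F r ≠ 0 := fun r hr => by
        rw [map_ne_zero_iff _ hinj]
        exact fun h => hr (h ▸ P.asIdeal.zero_mem)
      refine ⟨s ^ (Q.ord m).natAbs * t, fun hmem => (P.isPrime.mem_or_mem hmem).elim hsn ht, ?_⟩
      intro Q' hQ'
      rw [map_mul, Q'.ord_mul (hne _ hsn) (hne _ ht), map_pow, FFBasic.ord_pow]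
      have hR' := (hT Q' hQ').1
      have h1 := FFBasic.ord_nonneg_of_mem Q' (hR' s)
      rcases Finset.mem_insert.mp hQ' with rfl | hQ'T
      · have h2 := FFBasic.ord_nonneg_of_mem Q' (hR' t)
        have h3 : ((Q'.ord m).natAbs : ℤ) * 1 ≤
            ((Q'.ord m).natAbs : ℤ) * Q'.ord (algebraMap R F s) :=
          mul_le_mul_of_nonneg_left hspos (Int.natCast_nonneg _)
        omega
      · have h2 := htQ Q' hQ'T
        have h3 := mul_nonneg (Int.natCast_nonneg (Q.ord m).natAbs) h1
        omega
  have hfin : {Q : Place L F |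
      (∀ r : R, algebraMap R F r ∈ Q.toValuationSubring) ∧ Q.ord m ≠ 0}.Finite :=
    (FFBasic.finite_setOf_ord_ne_zero (K := L) m).subset fun Q hQ => hQ.2
  obtain ⟨s, hs, hsT⟩ := main hfin.toFinset fun Q hQ => hfin.mem_toFinset.mp hQ
  have hs0 : algebraMap R F s ≠ 0 := by
    rw [map_ne_zero_iff _ hinj]
    exact fun h => hs (h ▸ P.asIdeal.zero_mem)
  obtain ⟨a, ha⟩ := hR (algebraMap R F s * m) fun Q hQ => by
    rw [Q.ord_mul hs0 hm]
    by_cases hQ0 : Q.ord m = 0
    · have := FFBasic.ord_nonneg_of_mem Q (hQ s)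
      omega
    · exact hsT Q (hfin.mem_toFinset.mpr ⟨hQ, hQ0⟩)
  exact ⟨a, s, hs, ha⟩

/-- The fraction field lies over the generic point. -/
private theorem imagePoint_specMap_algebraMap :
    imagePoint (Spec.map (CommRingCat.ofHom (algebraMap R F))) =
      genericPoint (Spec (CommRingCat.of R)) := by
  rw [genericPoint_eq_bot_of_affine]
  refine PrimeSpectrum.ext ?_
  show Ideal.comap (algebraMap R F) (maximalIdeal F) = ⊥
  rw [isField_iff_maximalIdeal_eq.mp (Field.toIsField F), ← RingHom.ker_eq_comap_bot]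
  exact (RingHom.injective_iff_ker_eq_bot _).mp (IsFractionRing.injective R F)

/-- The value of a rational function on the affine curve in the function field. -/
private def fracValue (R F : Type u) [CommRing R] [IsDomain R] [Field F] [Algebra R F]
    [IsFractionRing R F] : (Spec (CommRingCat.of R)).functionField →+* F :=
  genValue (Spec.map (CommRingCat.ofHom (algebraMap R F))) imagePoint_specMap_algebraMap

/-- `fracValue` extends the inclusion of the coordinate ring. -/
private theorem fracValue_immFF (r : R) :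
    fracValue R F (immFF (𝟙 (Spec (CommRingCat.of R))) r) = algebraMap R F r := by
  let Z := Spec (CommRingCat.of R)
  let j : Spec (CommRingCat.of F) ⟶ Z := Spec.map (CommRingCat.ofHom (algebraMap R F))
  let i₁ : Spec (CommRingCat.of R) ⟶ Z := 𝟙 _
  have h : CommRingCat.ofHom (immFF i₁) ≫ CommRingCat.ofHom (fracValue R F) =
      CommRingCat.ofHom (algebraMap R F) := by
    apply Spec.map_injective
    rw [Spec.map_comp]
    refine Eq.trans ?_ (specMap_genValue j imagePoint_specMap_algebraMap)
    refine congrArg (Spec.map (CommRingCat.ofHom (fracValue R F)) ≫ ·) ?_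
    exact (Category.comp_id _).symm.trans (specMap_immFF i₁)
  exact DFunLike.congr_fun (congrArg CommRingCat.Hom.hom h) r

/-- Every element of the function field is the value of a rational function. -/
private theorem fracValue_surjective : Function.Surjective (fracValue R F) := by
  intro z
  obtain ⟨a, b, -, rfl⟩ := IsFractionRing.div_surjective (A := R) z
  exact ⟨immFF (𝟙 (Spec (CommRingCat.of R))) a / immFF (𝟙 (Spec (CommRingCat.of R))) b,
    by rw [map_div₀, fracValue_immFF, fracValue_immFF]⟩

omit [IsIntegral A] [CompactSpace A] in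
/-- A point extending to the affine curve has the image of the generic point as its image. -/
private theorem imagePoint_eq_genericPoint {ψ : Spec (CommRingCat.of F) ⟶ A}
    {φ : Spec (CommRingCat.of R) ⟶ A}
    (hψ : Spec.map (CommRingCat.ofHom (algebraMap R F)) ≫ φ = ψ) :
    imagePoint ψ = φ (genericPoint (Spec (CommRingCat.of R))) := by
  subst hψ
  rw [← imagePoint_specMap_algebraMap (F := F)]
  exact Scheme.Hom.comp_apply _ _ _

omit [CompactSpace A] in
/-- The pullback of a function to the affine curve has the same value at the point. -/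
private theorem fracValue_pullFunction {ψ : Spec (CommRingCat.of F) ⟶ A}
    {φ : Spec (CommRingCat.of R) ⟶ A}
    (hψ : Spec.map (CommRingCat.ofHom (algebraMap R F)) ≫ φ = ψ) {e : (A.functionField)ˣ}
    (hu : e ∈ unitsAt (φ (genericPoint (Spec (CommRingCat.of R)))))
    (hv : e ∈ unitsAt (imagePoint ψ)) :
    fracValue R F (pullFunction φ ⟨e, hu⟩ : (Spec (CommRingCat.of R)).functionField) =
      (valueAt ψ ⟨e, hv⟩ : F) := by
  let Z := Spec (CommRingCat.of R)
  let j : Spec (CommRingCat.of F) ⟶ Z := Spec.map (CommRingCat.ofHom (algebraMap R F))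
  have hbot : imagePoint j = genericPoint Z := imagePoint_specMap_algebraMap
  have hu' : e ∈ unitsAt (φ (j (closedPoint F))) := by
    show e ∈ unitsAt (φ (imagePoint j)); rw [hbot]; exact hu
  obtain ⟨w, hw⟩ := mem_unitsAt.mp hu'
  rw [pullFunction_regular φ ⟨e, hu⟩ (imagePoint j)
    (w : A.presheaf.stalk (φ (j (closedPoint F)))) hw]
  have hgenj : genericPoint Z ⤳ imagePoint j := (genericPoint_spec Z).specializes trivial
  have h2 : ∀ t : Z.presheaf.stalk (imagePoint j),
      fracValue R F (algebraMap _ Z.functionField t) = Scheme.stalkClosedPointTo j t := by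
    intro t
    show (Z.presheaf.stalkSpecializes (specializes_of_eq hbot) ≫ Scheme.stalkClosedPointTo j)
      (Z.presheaf.stalkSpecializes hgenj t) = _
    rw [← ConcreteCategory.comp_apply, TopCat.Presheaf.stalkSpecializes_comp_assoc,
      TopCat.Presheaf.stalkSpecializes_refl, Category.id_comp]
  rw [h2]
  subst hψ
  rw [valueAt_spec (j ≫ φ) ⟨e, hv⟩ (w : A.presheaf.stalk (φ (j (closedPoint F)))) hw,
    Scheme.stalkClosedPointTo_comp]
  rfl

omit [IsIntegral A] [CompactSpace A] [IsFunctionField L F] [IsDomain R] [IsFractionRing R F] in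
/-- The centre at a place generalises the images of the points the place generalises to. -/
private theorem centreAt_specializes_of_isUnit {x : SchemeHomOver (specStr K F) f}
    {φ : Spec (CommRingCat.of R) ⟶ A}
    (hφ : Spec.map (CommRingCat.ofHom (algebraMap R F)) ≫ φ = x.1) (q : PrimeSpectrum R)
    (Q : Place L F) (hQ : ∀ r : R, algebraMap R F r ∈ Q.toValuationSubring)
    (hq : ∀ r : R, r ∈ q.asIdeal ∨ IsUnit (⟨algebraMap R F r, hQ r⟩ : Q.toValuationSubring)) :
    centreAt f Q x ⤳ φ (show ↥(Spec (CommRingCat.of R)) from q) := by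
  let := placeAlgebra (K := K) Q
  have : IsScalarTower K Q.toValuationSubring F :=
    IsScalarTower.of_algebraMap_eq fun a => IsScalarTower.algebraMap_apply K L F a
  let toQ : R →+* Q.toValuationSubring := (algebraMap R F).codRestrict
    Q.toValuationSubring.toSubring hQ
  let cQ : PrimeSpectrum R := ⟨(maximalIdeal Q.toValuationSubring).comap toQ,
    Ideal.IsPrime.comap _⟩
  have hsp : (show ↥(Spec (CommRingCat.of R)) from cQ) ⤳ q := by
    refine (PrimeSpectrum.le_iff_specializes cQ q).mp fun r hr => ?_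
    rcases hq r with h | h
    · exact h
    · exact absurd h (mem_maximalIdeal _ |>.mp hr)
  have hgenQ : Spec.map (CommRingCat.ofHom (algebraMap Q.toValuationSubring F)) ≫
      (Spec.map (CommRingCat.ofHom toQ) ≫ φ) = x.1 := by
    rw [← Category.assoc, ← Spec.map_comp, ← hφ]
    rfl
  have hover : (Spec.map (CommRingCat.ofHom toQ) ≫ φ) ≫ f =
      specStr K Q.toValuationSubring := by
    obtain ⟨ψ, hψ⟩ : ∃ ψ, Spec.map ψ = (Spec.map (CommRingCat.ofHom toQ) ≫ φ) ≫ f :=
      ⟨Spec.preimage _, Spec.map_preimage _⟩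
    have hsq : Spec.map (CommRingCat.ofHom (algebraMap Q.toValuationSubring F)) ≫ Spec.map ψ =
        specStr K F := by
      rw [hψ, ← Category.assoc, hgenQ, x.2]
    rw [← Spec.map_comp] at hsq
    rw [← hψ]
    congr 1
    refine CommRingCat.hom_ext (RingHom.ext fun a => Subtype.ext ?_)
    exact (DFunLike.congr_fun (congrArg CommRingCat.Hom.hom (Spec.map_injective hsq)) a).trans
      (IsScalarTower.algebraMap_apply K L F a)
  have huniq := (exists_pointMap_eq (R := Q.toValuationSubring) f x).unique
    (show pointMap f (IsScalarTower.toAlgHom K Q.toValuationSubring F) (atPlace f Q x) = x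
      from Subtype.ext (atPlace_spec f Q x))
    (y₂ := ⟨Spec.map (CommRingCat.ofHom toQ) ≫ φ, hover⟩) (Subtype.ext hgenQ)
  have hcentre : centreAt f Q x = φ cQ := by
    show (atPlace f Q x).1 _ = _
    rw [huniq]
    exact Scheme.Hom.comp_apply _ _ _
  exact hcentre ▸ hsp.map φ.continuous

/-- A function is regular at a point if it has no zero or pole at the places centred there. -/
private theorem mem_regularAt_of_ord_eq_zero (hR : ∀ φ : F, (∀ Q : Place L F,
      (∀ r : R, algebraMap R F r ∈ Q.toValuationSubring) → 0 ≤ Q.ord φ) →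
      φ ∈ Set.range (algebraMap R F))
    (P : PrimeSpectrum R) {m : (Spec (CommRingCat.of R)).functionField} (hm0 : m ≠ 0)
    (hm : ∀ Q : Place L F, ∀ hQ : ∀ r : R, algebraMap R F r ∈ Q.toValuationSubring,
      (∀ r : R, r ∈ P.asIdeal ∨ IsUnit (⟨algebraMap R F r, hQ r⟩ : Q.toValuationSubring)) →
        Q.ord (fracValue R F m) = 0) :
    m ∈ regularAt (show ↥(Spec (CommRingCat.of R)) from P) := by
  let i₁ : Spec (CommRingCat.of R) ⟶ Spec (CommRingCat.of R) := 𝟙 _
  let S := {Q : Place L F |
    Q.ord (fracValue R F m) ≠ 0 ∧ ∀ r : R, algebraMap R F r ∈ Q.toValuationSubring}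
  have hsQ : ∀ Q : S, ∃ s : R, s ∉ P.asIdeal ∧ 0 < Q.1.ord (algebraMap R F s) := by
    intro Q
    by_contra hall
    push Not at hall
    refine Q.2.1 (hm Q.1 Q.2.2 fun r => ?_)
    by_cases hr : r ∈ P.asIdeal
    · exact Or.inl hr
    · right
      have h0 : algebraMap R F r ≠ 0 := by
        rw [map_ne_zero_iff _ (IsFractionRing.injective R F)]
        exact fun h => hr (h ▸ P.asIdeal.zero_mem)
      have h1 := hall r hr
      have h2 := FFBasic.ord_nonneg_of_mem Q.1 (Q.2.2 r)
      refine IsUnit.of_mul_eq_one ⟨(algebraMap R F r)⁻¹,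
        FFBasic.mem_of_ord_nonneg Q.1 (by rw [Q.1.ord_inv]; omega)⟩ (Subtype.ext ?_)
      exact mul_inv_cancel₀ h0
  obtain ⟨a, s', hs'P, ha⟩ := exists_mul_eq_algebraMap hR
    ((_root_.map_ne_zero (fracValue R F)).mpr hm0) P fun Q hQ hQ0 => hsQ ⟨Q, hQ0, hQ⟩
  refine (mem_regularAt_imm i₁ P m).mpr ⟨a, s', hs'P, ?_⟩
  apply (fracValue R F).injective
  rw [map_mul, fracValue_immFF, fracValue_immFF, ha, mul_comm]

omit [CompactSpace A] in
/-- The local equation at a point of a product of pulled back divisors. -/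
private theorem prod_pullback'_zpow_apply {Z : Scheme.{u}} [IsIntegral Z] {ι : Type} [Fintype ι]
    (n : ι → ℤ) (φ : ι → (Z ⟶ A)) (D : ι → cartier A)
    (hD : ∀ i, D i ∈ trivialAt (φ i (genericPoint Z))) (q : Z) (e : ι → (A.functionField)ˣ)
    (hu : ∀ i, e i ∈ unitsAt (φ i (genericPoint Z)))
    (he : ∀ i, (D i).1 (φ i q) = QuotientGroup.mk (e i)) :
    (∏ i, pullback' (φ i) ⟨D i, hD i⟩ ^ n i : cartier Z).1 q =
      QuotientGroup.mk (∏ i, pullFunction (φ i) ⟨e i, hu i⟩ ^ n i) := by
  rw [show (∏ i, pullback' (φ i) ⟨D i, hD i⟩ ^ n i : cartier Z).1 =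
      ∏ i, ((pullback' (φ i) ⟨D i, hD i⟩ ^ n i : cartier Z) : LocalEqs Z) from
    map_prod (cartier Z).subtype _ _, Finset.prod_apply, QuotientGroup.mk_prod]
  refine Finset.prod_congr rfl fun i _ => ?_
  rw [SubgroupClass.coe_zpow, Pi.pow_apply, pullback'_apply (φ i) ⟨D i, hD i⟩ q
    ⟨e i, hu i⟩ (he i), QuotientGroup.mk_zpow]

/-- A product of pulled back divisors is principal once it is so on the function field. -/
private theorem prod_pullback'_eq_principal (hR : ∀ φ : F, (∀ Q : Place L F,
      (∀ r : R, algebraMap R F r ∈ Q.toValuationSubring) → 0 ≤ Q.ord φ) →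
      φ ∈ Set.range (algebraMap R F))
    {ι : Type} [Fintype ι] (n : ι → ℤ) (D : ι → cartier A)
    (x : ι → SchemeHomOver (specStr K F) f) (φ : ι → (Spec (CommRingCat.of R) ⟶ A))
    (hφ : ∀ i, Spec.map (CommRingCat.ofHom (algebraMap R F)) ≫ φ i = (x i).1)
    (hD : ∀ i, D i ∈ trivialAt (imagePoint (x i).1))
    (hD' : ∀ i, D i ∈ trivialAt (φ i (genericPoint (Spec (CommRingCat.of R)))))
    (z : ((Spec (CommRingCat.of R)).functionField)ˣ)
    (hz : ∀ Q : Place L F,
      (∑ i, n i • pullDiv f (x i) ⟨D i, hD i⟩) Q = Q.ord (fracValue R F z)) :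
    ∏ i, pullback' (φ i) ⟨D i, hD' i⟩ ^ n i = principal z := by
  classical
  refine Subtype.ext (funext fun q => ?_)
  choose e he using fun i => exists_localEq (D i) (φ i q)
  have hu : ∀ i, e i ∈ unitsAt (φ i (genericPoint (Spec (CommRingCat.of R)))) := fun i =>
    mem_unitsAt_of_trivialAt (hD' i)
      (((genericPoint_spec (Spec (CommRingCat.of R))).specializes trivial).map (φ i).continuous)
      (he i)
  rw [prod_pullback'_zpow_apply n φ D hD' q e hu he, principal_apply, QuotientGroup.eq]
  set E := ∏ i, pullFunction (φ i) ⟨e i, hu i⟩ ^ n i with hE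
  have hux : ∀ i, e i ∈ unitsAt (imagePoint (x i).1) := fun i =>
    (imagePoint_eq_genericPoint (hφ i)).symm ▸ hu i
  have hEv : fracValue R F E = ∏ i, (valueAt (x i).1 ⟨e i, hux i⟩ : F) ^ n i := by
    rw [hE, Units.coe_prod, map_prod]
    refine Finset.prod_congr rfl fun i _ => ?_
    rw [Units.val_zpow_eq_zpow_val, map_zpow₀, fracValue_pullFunction (hφ i) (hu i) (hux i)]
  -- the places at `q` do not see the quotient
  have hord : ∀ Q : Place L F, ∀ hQ : ∀ r : R, algebraMap R F r ∈ Q.toValuationSubring,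
      (∀ r : R, r ∈ PrimeSpectrum.asIdeal (show PrimeSpectrum R from q) ∨ IsUnit
        (⟨algebraMap R F r, hQ r⟩ : Q.toValuationSubring)) →
      Q.ord (fracValue R F ((z : (Spec (CommRingCat.of R)).functionField) * ↑E⁻¹)) = 0 := by
    intro Q hQ hq
    have hzQ : Q.ord (fracValue R F z) = Q.ord (fracValue R F E) := by
      rw [← hz Q, hEv, FFBasic.ord_prod Q _ _ (fun i _ => zpow_ne_zero _ (Units.ne_zero _)),
        Finsupp.finsetSum_apply]
      refine Finset.sum_congr rfl fun i _ => ?_
      rw [Q.ord_zpow, Finsupp.smul_apply, pullDiv_apply, smul_eq_mul,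
        pullOrd_eq_of_specializes f (x i) ⟨D i, hD i⟩ Q (z := φ i q)
          (centreAt_specializes_of_isUnit (hφ i) q Q hQ hq) ⟨e i, hux i⟩ (he i)]
    rw [map_mul, map_units_inv, Q.ord_mul ((_root_.map_ne_zero _).mpr z.ne_zero)
      (inv_ne_zero ((_root_.map_ne_zero _).mpr E.ne_zero)), Q.ord_inv, hzQ, add_neg_cancel]
  refine (mem_unitsAt_iff_regularAt q _).mpr
    ⟨mem_regularAt_of_ord_eq_zero hR q (Units.ne_zero _) fun Q hQ h => ?_,
    mem_regularAt_of_ord_eq_zero hR q (Units.ne_zero _) fun Q hQ h => ?_⟩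
  · have h0 := hord Q hQ h
    rw [Units.val_mul, mul_comm]
    exact h0
  · have h0 := hord Q hQ h
    rw [Units.val_inv_eq_inv_val, map_inv₀, Units.val_mul, mul_comm, Q.ord_inv]
    exact neg_eq_zero.mpr h0

/-- A relation among pulled back classes on a function field gives a relation on an affine curve
whose coordinate ring is cut out by its places. -/
theorem pullClass_prod_eq_one (hR : ∀ φ : F, (∀ Q : Place L F,
      (∀ r : R, algebraMap R F r ∈ Q.toValuationSubring) → 0 ≤ Q.ord φ) →
      φ ∈ Set.range (algebraMap R F))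
    {ι : Type} [Fintype ι] (n : ι → ℤ) (c : ι → CDivClass A)
    (x : ι → SchemeHomOver (specStr K F) f) (φ : ι → (Spec (CommRingCat.of R) ⟶ A))
    (hφ : ∀ i, Spec.map (CommRingCat.ofHom (algebraMap R F)) ≫ φ i = (x i).1)
    (hsum : ∑ i, n i • Multiplicative.toAdd (pullPic (L := L) f (x i) (c i)) = 0) :
    ∏ i, pullClass (φ i) (c i) ^ n i = 1 := by
  classical
  -- representatives trivial at the images
  have hex : ∀ i, ∃ D : cartier A, D ∈ trivialAt (imagePoint (x i).1) ∧
    QuotientGroup.mk D = c i := by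
    intro i
    obtain ⟨D, hD⟩ := classMap_surjective (imagePoint (x i).1) (c i)
    exact ⟨D.1, D.2, hD⟩
  choose D hD hDc using hex
  have hD' : ∀ i, D i ∈ trivialAt (φ i (genericPoint (Spec (CommRingCat.of R)))) := fun i =>
    imagePoint_eq_genericPoint (hφ i) ▸ hD i
  -- their combination is the divisor of a function, which comes from the curve
  have hMp : (QuotientAddGroup.mk (∑ i, n i • pullDiv f (x i) ⟨D i, hD i⟩) : Pic L F) = 0 := by
    rw [← hsum]
    refine (map_sum (QuotientAddGroup.mk' (Divisor.principal (K := L) (F := F))) _ _).trans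
      (Finset.sum_congr rfl fun i _ => ?_)
    rw [map_zsmul, ← hDc i, pullPic_mk f (x i) ⟨D i, hD i⟩]
    rfl
  obtain ⟨z, hz, hzM⟩ := (QuotientAddGroup.eq_zero_iff _).mp hMp
  obtain ⟨z₀, rfl⟩ := fracValue_surjective (R := R) z
  let zu : ((Spec (CommRingCat.of R)).functionField)ˣ :=
    Units.mk0 z₀ fun h => hz (by rw [h, map_zero])
  have h1 : (QuotientGroup.mk (∏ i, pullback' (φ i) ⟨D i, hD' i⟩ ^ n i) :
      CDivClass (Spec (CommRingCat.of R))) = 1 :=
    (QuotientGroup.eq_one_iff _).mpr
      ⟨zu, (prod_pullback'_eq_principal hR n D x φ hφ hD hD' zu hzM).symm⟩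
  rw [← h1]
  refine Eq.trans ?_ (map_prod (QuotientGroup.mk'
    (principal (X := Spec (CommRingCat.of R))).range) _ _).symm
  refine Finset.prod_congr rfl fun i _ => ?_
  rw [map_zpow, ← hDc i]
  exact congrArg (· ^ n i) (pullClass_mk (φ i) ⟨D i, hD' i⟩)

end Curve

section Tensor

variable {k kb F₀ F : Type u} [Field k] [Field kb] [Field F₀] [Field F] [Algebra k kb]
    [Algebra k F₀]
  [Algebra kb F] [Algebra F₀ F] [Algebra k F] [IsScalarTower k kb F] [IsScalarTower k F₀ F]
  [IsConstExtension k kb F₀ F] [IsFunctionField k F₀] [IsFunctionField kb F] [IsAlgClosed k]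
  [IsAlgClosed kb] (P₀ : Place k F₀)

/-- The coordinate ring of the extended neighbourhood of a place, inside the extended field. -/
def extendedHom : P₀.toValuationSubring ⊗[k] kb →ₐ[k] F :=
  Algebra.TensorProduct.lift
    ((IsScalarTower.toAlgHom k F₀ F).comp (IsScalarTower.toAlgHom k P₀.toValuationSubring F₀))
    (IsScalarTower.toAlgHom k kb F) fun _ _ => Commute.all _ _

omit [IsFunctionField k F₀] [IsFunctionField kb F] [IsAlgClosed k] [IsAlgClosed kb] in
theorem extendedHom_injective : Function.Injective (extendedHom (kb := kb) (F := F) P₀) := by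
  classical
  let β := Module.Free.chooseBasis k P₀.toValuationSubring
  have hind : LinearIndependent kb fun t => algebraMap F₀ F (β t : F₀) :=
    ConstExt.linearIndependent_map (β.linearIndependent.map'
      (IsScalarTower.toAlgHom k P₀.toValuationSubring F₀).toLinearMap
      (LinearMap.ker_eq_bot.mpr Subtype.val_injective))
  rw [injective_iff_map_eq_zero]
  intro z hz
  let e := TensorProduct.equivFinsuppOfBasisLeft (N := kb) β
  have key : ∀ z, extendedHom (kb := kb) (F := F) P₀ z =
      Finsupp.linearCombination kb (fun t => algebraMap F₀ F (β t : F₀)) (e z) := by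
    intro z
    induction z using TensorProduct.induction_on with
    | zero => simp
    | add a b ha hb => rw [map_add, map_add, map_add, ha, hb]
    | tmul o c =>
      rw [show e (o ⊗ₜ[k] c) = (β.repr o).mapRange (fun r => r • c) (zero_smul k c) from
        Finsupp.ext fun t => by
          rw [Finsupp.mapRange_apply]
          exact TensorProduct.equivFinsuppOfBasisLeft_apply_tmul_apply β o c t,
        Finsupp.linearCombination_apply, Finsupp.sum_mapRange_index (by simp)]
      conv_lhs => rw [← β.linearCombination_repr o]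
      rw [Finsupp.linearCombination_apply]
      simp only [extendedHom, Algebra.TensorProduct.lift_tmul, map_finsuppSum, AlgHom.coe_comp,
        Function.comp_apply, IsScalarTower.coe_toAlgHom', Finsupp.sum_mul]
      refine Finsupp.sum_congr fun t _ => ?_
      rw [Algebra.smul_def, Algebra.smul_def (((β.repr o) t) • c), Algebra.smul_def, map_mul,
        map_mul, map_mul, ← IsScalarTower.algebraMap_apply k kb F,
        ← IsScalarTower.algebraMap_apply k P₀.toValuationSubring F₀,
        ← IsScalarTower.algebraMap_apply k F₀ F]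
      show _ = _ * algebraMap F₀ F ((β t : P₀.toValuationSubring) : F₀)
      rw [show algebraMap P₀.toValuationSubring F₀ (β t) =
        ((β t : P₀.toValuationSubring) : F₀) from rfl]
      ring
  refine e.injective ?_
  rw [map_zero]
  exact linearIndependent_iff.mp hind _ ((key z).symm.trans hz)

/-- The coordinate ring is cut out by its places. -/
theorem mem_range_extendedHom {φ : F} (h : ∀ Q : Place kb F,
    (∀ r, extendedHom (kb := kb) (F := F) P₀ r ∈ Q.toValuationSubring) → 0 ≤ Q.ord φ) :
    φ ∈ Set.range (extendedHom (kb := kb) (F := F) P₀) := by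
  classical
  rcases eq_or_ne φ 0 with rfl | hφ0
  · exact ⟨0, map_zero _⟩
  have hcont : ∀ Q : Place kb F, (∀ o : P₀.toValuationSubring,
      algebraMap F₀ F (o : F₀) ∈ Q.toValuationSubring) →
      ∀ r, extendedHom (kb := kb) (F := F) P₀ r ∈ Q.toValuationSubring := by
    intro Q hQ r
    induction r using TensorProduct.induction_on with
    | zero => rw [map_zero]; exact zero_mem _
    | add a b ha hb => rw [map_add]; exact add_mem ha hb
    | tmul o c =>
      rw [extendedHom, Algebra.TensorProduct.lift_tmul]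
      exact mul_mem (hQ o) (Q.algebraMap_mem' c)
  have hP₀ : 0 ≤ (extPlace kb F P₀).ord φ :=
    h _ (hcont _ fun o => mem_extPlace P₀ o.2)
  set E : Divisor k F₀ :=
    Finsupp.comapDomain (extPlace kb F) (FFBasic.divPos (-FFBasic.divFun (K := kb) φ))
      (extPlace_injective (K := kb) (F := F)).injOn with hE
  have hEP : E P₀ = 0 := by
    rw [hE, Finsupp.comapDomain_apply, FFBasic.divPos_apply, Finsupp.neg_apply,
      FFBasic.divFun_apply]
    omega
  have hmem : φ ∈ riemannRochSpace (mapDiv kb F E) := by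
    refine mem_riemannRochSpace_iff.2 fun Q => Or.inr ?_
    rcases exists_extPlace_eq_or_isGeneric (K₀ := k) (F₀ := F₀) Q with ⟨P, rfl⟩ | hQ
    · rw [mapDiv_apply_extPlace, hE, Finsupp.comapDomain_apply, FFBasic.divPos_apply,
        Finsupp.neg_apply, FFBasic.divFun_apply]
      omega
    · rw [mapDiv_apply_of_isGeneric _ hQ, neg_zero]
      exact h Q (hcont Q fun o => FFBasic.mem_of_ord_nonneg Q (hQ _).ge)
  rw [← ConstExt.spanMap_eq kb F E] at hmem
  have hle : Submodule.span kb (algebraMap F₀ F '' (riemannRochSpace E : Set F₀)) ≤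
      Submodule.span kb (algebraMap F₀ F '' (P₀.toValuationSubring : Set F₀)) := by
    refine Submodule.span_mono (Set.image_mono fun v hv => ?_)
    rcases eq_or_ne v 0 with rfl | hv0
    · exact zero_mem _
    · refine FFBasic.mem_of_ord_nonneg P₀ ?_
      have := (mem_riemannRochSpace_iff.1 hv P₀).resolve_left hv0
      omega
  suffices key : ∀ x ∈ Submodule.span kb (algebraMap F₀ F '' (P₀.toValuationSubring : Set F₀)),
      x ∈ Set.range (extendedHom (kb := kb) (F := F) P₀) from key φ (hle hmem)
  intro x hx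
  induction hx using Submodule.span_induction with
  | mem x hx =>
    obtain ⟨v, hv, rfl⟩ := hx
    exact ⟨(⟨v, hv⟩ : P₀.toValuationSubring) ⊗ₜ[k] (1 : kb), by
      rw [extendedHom, Algebra.TensorProduct.lift_tmul, map_one, mul_one]; rfl⟩
  | zero => exact ⟨0, map_zero _⟩
  | add x y _ _ hx hy =>
    obtain ⟨a, rfl⟩ := hx
    obtain ⟨b, rfl⟩ := hy
    exact ⟨a + b, map_add _ _ _⟩
  | smul c x _ hx =>
    obtain ⟨a, rfl⟩ := hx
    exact ⟨((1 : P₀.toValuationSubring) ⊗ₜ[k] c) * a, by
      rw [map_mul]
      show extendedHom (kb := kb) (F := F) P₀ ((1 : P₀.toValuationSubring) ⊗ₜ[k] c) * _ = _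
      simp [extendedHom, Algebra.smul_def]⟩

omit [IsFunctionField k F₀] [IsFunctionField kb F] [IsAlgClosed k] [IsAlgClosed kb] in
/-- The extended field is the fraction field of the coordinate ring. -/
theorem exists_fraction_extendedHom (z : F) :
    ∃ a b : P₀.toValuationSubring ⊗[k] kb, extendedHom (kb := kb) (F := F) P₀ b ≠ 0 ∧
      z * extendedHom (kb := kb) (F := F) P₀ b = extendedHom P₀ a := by
  set ψ := extendedHom (kb := kb) (F := F) P₀
  have hz : z ∈ IntermediateField.adjoin kb (Set.range (algebraMap F₀ F)) := by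
    rw [IsConstExtension.adjoin_eq_top (K₀ := k)]; trivial
  refine FFBasic.exists_mul_eq_of_mem_adjoin (ψ : P₀.toValuationSubring ⊗[k] kb →+* F)
    (fun c => ?_) (fun w hw => ?_) hz
  · refine ⟨(1 : P₀.toValuationSubring) ⊗ₜ[k] c, 1, by rw [map_one]; exact one_ne_zero, ?_⟩
    simp [ψ, extendedHom]
  · obtain ⟨v, rfl⟩ := hw
    obtain ⟨a, b, hb, rfl⟩ := IsFractionRing.div_surjective (A := P₀.toValuationSubring) v
    have hb0 : algebraMap P₀.toValuationSubring F₀ b ≠ 0 :=
      IsFractionRing.to_map_ne_zero_of_mem_nonZeroDivisors hb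
    refine ⟨a ⊗ₜ[k] (1 : kb), b ⊗ₜ[k] (1 : kb), ?_, ?_⟩
    · simp only [ψ, RingHom.coe_coe, extendedHom, Algebra.TensorProduct.lift_tmul, map_one,
        mul_one]
      exact ((_root_.map_ne_zero (algebraMap F₀ F)).mpr hb0)
    · simp only [ψ, RingHom.coe_coe, extendedHom, Algebra.TensorProduct.lift_tmul, map_one,
        mul_one]
      show algebraMap F₀ F _ * algebraMap F₀ F (algebraMap P₀.toValuationSubring F₀ b) =
        algebraMap F₀ F (algebraMap P₀.toValuationSubring F₀ a)
      rw [← map_mul, div_mul_cancel₀ _ hb0]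

end Tensor

end FLTAgent.AbelianTorsion
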