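import Mathlib
import Fermat.Agent.AbelianTorsion.SeesawNorm

/-!
# The seesaw principle up to torsion, for a factorial second factor

`exists_pow_eq_one_of_seesaw`: a class that is trivial over an algebraic extension of the generic
point of a factorial second factor and on one section is torsion.
-/

set_option autoImplicit false

noncomputable section

universe u

open CategoryTheory CategoryTheory.Limits AlgebraicGeometry TensorProduct

namespace FLTAgent.AbelianTorsion

section Factorial

variable {O S : Type*} [CommRing O] [IsDomain O] [CommRing S] [IsDomain S] (φ : O →+* S)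
  (hφ : ∀ p, Prime p → Prime (φ p)) (hrefl : ∀ p, Prime p → ∀ x, φ p ∣ φ x → p ∣ x)

include hφ

theorem associated_map_of_mul_eq [UniqueFactorizationMonoid O] (n : O) :
    n ≠ 0 → ∀ a b : S, a * b = φ n → ∃ t : O, t ≠ 0 ∧ Associated a (φ t) := by
  induction n using UniqueFactorizationMonoid.induction_on_prime with
  | h₁ => exact fun h => absurd rfl h
  | h₂ n hn =>
    intro _ a b hab
    exact ⟨1, one_ne_zero, by
      rw [map_one, associated_one_iff_isUnit]
      exact isUnit_of_mul_isUnit_left (hab ▸ hn.map φ)⟩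
  | h₃ n p hn hp ih =>
    intro _ a b hab
    rw [map_mul] at hab
    have hpp := hφ p hp
    rcases hpp.dvd_or_dvd (Dvd.intro _ hab.symm : φ p ∣ a * b) with ⟨a', rfl⟩ | ⟨b', rfl⟩
    · rw [mul_assoc] at hab
      obtain ⟨t, ht, hat⟩ := ih hn a' b (mul_left_cancel₀ hpp.ne_zero hab)
      exact ⟨p * t, mul_ne_zero hp.ne_zero ht, by rw [map_mul]; exact hat.mul_left _⟩
    · rw [mul_left_comm] at hab
      exact ih hn a b' (mul_left_cancel₀ hpp.ne_zero hab)

include hrefl

omit [IsDomain O] [IsDomain S] hφ in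
theorem isUnit_of_associated_map [UniqueFactorizationMonoid O]
    (hinj : Function.Injective φ) {x y : O}
    (hxy : IsRelPrime x y) (h : Associated (φ x) (φ y)) : IsUnit x := by
  rcases eq_or_ne x 0 with rfl | hx
  · rw [map_zero] at h
    have hy : y = 0 := hinj (by rw [map_zero]; exact (associated_zero_iff_eq_zero _).mp h.symm)
    exact hxy (dvd_refl _) (by rw [hy])
  by_contra hu
  obtain ⟨p, hp, hpx⟩ := WfDvdMonoid.exists_irreducible_factor hu hx
  have hp' := UniqueFactorizationMonoid.irreducible_iff_prime.mp hp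
  exact hp.not_isUnit (hxy hpx (hrefl p hp' y ((map_dvd φ hpx).trans h.dvd)))

end Factorial

variable {K : Type u} [Field K] [IsAlgClosed K] {X Y : Scheme.{u}}
  (fX : X ⟶ Spec (CommRingCat.of K)) (fY : Y ⟶ Spec (CommRingCat.of K)) [IsIntegral X]
  [IsIntegral Y] [IsIntegral (pullback fX fY)]

section Chart

variable {B C : Type u} [CommRing B] [CommRing C] [IsDomain B] [IsDomain C] [Algebra K B]
  [Algebra K C]

omit [IsDomain C] in
theorem isPrime_map_includeRight (q : Ideal C) [q.IsPrime] :
    (q.map (Algebra.TensorProduct.includeRight : C →ₐ[K] B ⊗[K] C)).IsPrime ∧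
    (q.map (Algebra.TensorProduct.includeRight : C →ₐ[K] B ⊗[K] C)).comap
      (Algebra.TensorProduct.includeRight : C →ₐ[K] B ⊗[K] C) = q ∧
    (q.map (Algebra.TensorProduct.includeRight : C →ₐ[K] B ⊗[K] C)).comap
      (Algebra.TensorProduct.includeLeftRingHom : B →+* B ⊗[K] C) = ⊥ := by
  have := isDomain_tensor K B (C ⧸ q)
  let ψ := Algebra.TensorProduct.map (AlgHom.id K B) (Ideal.Quotient.mkₐ K q)
  have hker : RingHom.ker ψ =
      q.map (Algebra.TensorProduct.includeRight : C →ₐ[K] B ⊗[K] C) := by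
    show RingHom.ker (Algebra.TensorProduct.map (AlgHom.id K B) (Ideal.Quotient.mkₐ K q)) = _
    rw [Algebra.TensorProduct.lTensor_ker _ Ideal.Quotient.mk_surjective]
    congr 1
    exact Ideal.Quotient.mkₐ_ker K q
  rw [← hker]
  refine ⟨RingHom.ker_isPrime _, Ideal.ext fun c => ?_, Ideal.ext fun x => ?_⟩
  · rw [Ideal.mem_comap, RingHom.mem_ker, ← Ideal.Quotient.eq_zero_iff_mem]
    show ψ ((1 : B) ⊗ₜ[K] c) = 0 ↔ _
    rw [Algebra.TensorProduct.map_tmul]
    exact map_eq_zero_iff (Algebra.TensorProduct.includeRight : C ⧸ q →ₐ[K] B ⊗[K] (C ⧸ q))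
      (Algebra.TensorProduct.includeRight_injective (algebraMap K B).injective)
  · rw [Ideal.mem_comap, RingHom.mem_ker, Ideal.mem_bot]
    show ψ (x ⊗ₜ[K] (1 : C)) = 0 ↔ _
    rw [Algebra.TensorProduct.map_tmul, map_one]
    exact map_eq_zero_iff (Algebra.TensorProduct.includeLeft : B →ₐ[K] B ⊗[K] (C ⧸ q))
      (Algebra.TensorProduct.includeLeft_injective (algebraMap K (C ⧸ q)).injective)

variable (a : Spec (CommRingCat.of B) ⟶ X) (b : Spec (CommRingCat.of C) ⟶ Y) [IsOpenImmersion a]
  [IsOpenImmersion b] (ha : a ≫ fX = specStr K B) (hb : b ≫ fY = specStr K C)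

omit [AlgebraicGeometry.IsIntegral Y] [AlgebraicGeometry.IsIntegral (pullback fX fY)] [IsDomain C] in
include ha hb in
theorem exists_fibre_generic (y : Y) (hy : y ∈ Set.range b) :
    ∃ ξ : ↥(pullback fX fY), pullback.snd fX fY ξ = y ∧ pullback.fst fX fY ξ = genericPoint X ∧
      ∀ w, pullback.snd fX fY w = y → pullback.fst fX fY w ∈ Set.range a → ξ ⤳ w := by
  obtain ⟨Q, rfl⟩ := hy
  have : (PrimeSpectrum.asIdeal Q).IsPrime := PrimeSpectrum.isPrime Q
  obtain ⟨h1, h2, h3⟩ := isPrime_map_includeRight (K := K) (B := B) (PrimeSpectrum.asIdeal Q)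
  refine ⟨chartMap fX fY a b ha hb ⟨_, h1⟩, ?_, ?_, ?_⟩
  · exact (snd_chartMap_apply fX fY a b ha hb _).trans (congrArg b (PrimeSpectrum.ext h2))
  · refine (Scheme.Hom.comp_apply _ _ _).symm.trans ?_
    rw [chartMap_fst]
    exact (Scheme.Hom.comp_apply _ _ _).trans ((imm_eq_genericPoint_iff a _).mpr h3)
  · intro w hw hwa
    obtain ⟨P, rfl⟩ : ∃ P : PrimeSpectrum (CommRingCat.of (B ⊗[K] C)),
        chartMap fX fY a b ha hb P = w := by
      show w ∈ Set.range (chartMap fX fY a b ha hb)
      rw [range_chartMap]; exact ⟨hwa, Q, hw.symm⟩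
    refine Specializes.map ?_ (chartMap fX fY a b ha hb).continuous
    refine (PrimeSpectrum.le_iff_specializes (⟨_, h1⟩ : PrimeSpectrum (B ⊗[K] C)) P).mp ?_
    show _ ≤ PrimeSpectrum.asIdeal P
    rw [Ideal.map_le_iff_le_comap]
    exact le_of_eq (congrArg PrimeSpectrum.asIdeal (b.isOpenEmbedding.injective
      ((snd_chartMap_apply fX fY a b ha hb P).symm.trans hw))).symm

variable [IsDomain (B ⊗[K] C)]

omit [IsAlgClosed K] [IsDomain B] in
theorem sndFF_chart (c : C) :
    sndFF fX fY (immFF b c) = immFF (chartMap fX fY a b ha hb) ((1 : B) ⊗ₜ[K] c) :=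
  immFF_map b (chartMap fX fY a b ha hb) (pullback.snd fX fY) _
    (chartMap_snd fX fY a b ha hb) (snd_genericPoint fX fY) c

/-- The map of local rings of the projection, read in a chart. -/
theorem exists_localHom (P : PrimeSpectrum (CommRingCat.of (B ⊗[K] C))) :
    ∃ (Q : PrimeSpectrum (CommRingCat.of C))
      (φ : Y.presheaf.stalk (b Q) →+* (pullback fX fY).presheaf.stalk (chartMap fX fY a b ha hb P)),
      pullback.snd fX fY (chartMap fX fY a b ha hb P) = b Q ∧
      (∀ c : C, c ∈ Q.asIdeal ↔ (1 : B) ⊗ₜ[K] c ∈ P.asIdeal) ∧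
      (∀ x, algebraMap _ (pullback fX fY).functionField (φ x) =
        sndFF fX fY (algebraMap _ Y.functionField x)) ∧
      (∀ p, Prime p → Prime (φ p)) ∧ ∀ p, Prime p → ∀ x, φ p ∣ φ x → p ∣ x := by
  set Q : PrimeSpectrum (CommRingCat.of C) := PrimeSpectrum.comap
    (Algebra.TensorProduct.includeRight : C →ₐ[K] B ⊗[K] C).toRingHom P with hQ
  set i := chartMap fX fY a b ha hb
  let algC : Algebra C (Y.presheaf.stalk (b Q)) := (immHom b Q).hom.toAlgebra
  have : IsLocalization.AtPrime (Y.presheaf.stalk (b Q)) Q.asIdeal := isLocalization_immHom b Q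
  let algR : Algebra (B ⊗[K] C) ((pullback fX fY).presheaf.stalk (i P)) :=
    (immHom i P).hom.toAlgebra
  have : IsLocalization.AtPrime ((pullback fX fY).presheaf.stalk (i P)) P.asIdeal :=
    isLocalization_immHom i P
  let inr : C →+* B ⊗[K] C := (Algebra.TensorProduct.includeRight : C →ₐ[K] B ⊗[K] C).toRingHom
  have hunit : ∀ c : Q.asIdeal.primeCompl,
      IsUnit ((algebraMap (B ⊗[K] C) ((pullback fX fY).presheaf.stalk (i P))).comp inr (c : C)) :=
    fun c => IsLocalization.map_units ((pullback fX fY).presheaf.stalk (i P))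
      (⟨inr (c : C), c.2⟩ : P.asIdeal.primeCompl)
  let φ : Y.presheaf.stalk (b Q) →+* (pullback fX fY).presheaf.stalk (i P) :=
    IsLocalization.lift (M := Q.asIdeal.primeCompl) hunit
  have hφC : ∀ c : C, φ (algebraMap C _ c) = algebraMap (B ⊗[K] C) _ (inr c) := fun c =>
    IsLocalization.lift_eq hunit c
  refine ⟨Q, φ, snd_chartMap_apply fX fY a b ha hb P, fun c => Iff.rfl, fun x => ?_, ?_⟩
  · obtain ⟨⟨c, s⟩, hcs⟩ := IsLocalization.surj Q.asIdeal.primeCompl x
    have hR : ∀ c : C, algebraMap _ (pullback fX fY).functionField (φ (algebraMap C _ c)) =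
        sndFF fX fY (algebraMap (Y.presheaf.stalk (b Q)) Y.functionField (algebraMap C _ c)) := by
      intro c
      rw [hφC]
      show algebraMap _ _ (immHom i P (inr c)) =
        sndFF fX fY (algebraMap _ _ (immHom b Q c))
      rw [algebraMap_immHom_eq i P, algebraMap_immHom_eq b Q, sndFF_chart fX fY a b ha hb]
      rfl
    have h1 := congrArg (fun z => algebraMap _ (pullback fX fY).functionField (φ z)) hcs
    have h2 := congrArg (fun z => sndFF fX fY
      (algebraMap (Y.presheaf.stalk (b Q)) Y.functionField z)) hcs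
    simp only [map_mul] at h1 h2
    rw [hR, hR] at h1
    refine mul_right_cancel₀ ?_ (h1.trans h2.symm)
    rw [Ne, map_eq_zero_iff _ (sndFF fX fY).injective,
      map_eq_zero_iff _ (IsFractionRing.injective _ _)]
    exact (IsLocalization.map_units (Y.presheaf.stalk (b Q)) s).ne_zero
  · have main : ∀ p, Prime p → Prime (φ p) ∧ ∀ x, φ p ∣ φ x → p ∣ x := by
      intro p hp
      obtain ⟨⟨c, s⟩, hcs⟩ := IsLocalization.surj Q.asIdeal.primeCompl p
      have hpc : Associated p (algebraMap C _ c) :=
        ⟨(IsLocalization.map_units (Y.presheaf.stalk (b Q)) s).unit, hcs⟩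
      set 𝔭 := (Ideal.span {p}).comap (algebraMap C (Y.presheaf.stalk (b Q)))
      have : (Ideal.span {p}).IsPrime := (Ideal.span_singleton_prime hp.ne_zero).mpr hp
      have : 𝔭.IsPrime := Ideal.IsPrime.comap _
      obtain ⟨hP1, hP1r, -⟩ := isPrime_map_includeRight (K := K) (B := B) 𝔭
      set P1 := 𝔭.map (Algebra.TensorProduct.includeRight : C →ₐ[K] B ⊗[K] C)
      have hle : 𝔭 ≤ Q.asIdeal := by
        intro x hx
        by_contra hxQ
        exact hp.not_isUnit (isUnit_of_dvd_unit (Ideal.mem_span_singleton.mp hx)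
          (IsLocalization.map_units (Y.presheaf.stalk (b Q)) (⟨x, hxQ⟩ : Q.asIdeal.primeCompl)))
      have hP1P : P1 ≤ P.asIdeal := Ideal.map_le_iff_le_comap.mpr hle
      have hd : Disjoint (P.asIdeal.primeCompl : Set (B ⊗[K] C)) P1 :=
        Set.disjoint_left.mpr fun z hz hz1 => hz (hP1P hz1)
      have hspan : P1.map (algebraMap (B ⊗[K] C) ((pullback fX fY).presheaf.stalk (i P))) =
          Ideal.span {φ p} := by
        have hP1map : P1.map (algebraMap (B ⊗[K] C) ((pullback fX fY).presheaf.stalk (i P))) =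
            (𝔭.map (algebraMap C (Y.presheaf.stalk (b Q)))).map φ := by
          rw [Ideal.map_map]
          show Ideal.map _ (Ideal.map inr 𝔭) = _
          rw [Ideal.map_map]
          congr 1
          exact RingHom.ext fun c => (hφC c).symm
        rw [hP1map, IsLocalization.map_under Q.asIdeal.primeCompl, Ideal.map_span,
          Set.image_singleton]
      have hprime : (Ideal.span {φ p}).IsPrime :=
        hspan ▸ IsLocalization.isPrime_of_isPrime_disjoint P.asIdeal.primeCompl _ P1 hP1 hd
      have hinj : φ p ≠ 0 := by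
        rw [← mul_ne_zero_iff_right
          ((IsLocalization.map_units (Y.presheaf.stalk (b Q)) s).map φ).ne_zero,
              ← map_mul, hcs, hφC,
          map_ne_zero_iff _ (IsLocalization.injective _
            (Ideal.primeCompl_le_nonZeroDivisors P.asIdeal)),
          map_ne_zero_iff inr
            (Algebra.TensorProduct.includeRight_injective (algebraMap K B).injective)]
        intro hc0
        have hc0' : c = 0 := hc0
        exact hp.ne_zero (hpc.eq_zero_iff.mpr (by rw [hc0', map_zero]))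
      refine ⟨(Ideal.span_singleton_prime hinj).mp hprime, fun x hx => ?_⟩
      obtain ⟨⟨c', s'⟩, hcs'⟩ := IsLocalization.surj Q.asIdeal.primeCompl x
      have h1 : algebraMap (B ⊗[K] C) ((pullback fX fY).presheaf.stalk (i P)) (inr c') ∈
          P1.map (algebraMap (B ⊗[K] C) ((pullback fX fY).presheaf.stalk (i P))) := by
        rw [hspan, Ideal.mem_span_singleton, ← hφC, ← hcs', map_mul]
        exact hx.mul_right _
      have h2 : inr c' ∈ (P1.map (algebraMap (B ⊗[K] C)
          ((pullback fX fY).presheaf.stalk (i P)))).comap (algebraMap (B ⊗[K] C) _) := h1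
      rw [← Ideal.under_def, IsLocalization.under_map_of_isPrime_disjoint P.asIdeal.primeCompl _
        hP1 hd] at h2
      have h3 : c' ∈ 𝔭 := hP1r ▸ h2
      have h4 : p ∣ algebraMap C (Y.presheaf.stalk (b Q)) c' := Ideal.mem_span_singleton.mp h3
      rw [← hcs'] at h4
      exact (hp.dvd_or_dvd h4).resolve_right fun hs =>
        hp.not_isUnit (isUnit_of_dvd_unit hs (IsLocalization.map_units _ s'))
    exact ⟨fun p hp => (main p hp).1, fun p hp => (main p hp).2⟩

end Chart

variable (hY : ∀ y : Y, ∃ _ : IsDomain (Y.presheaf.stalk y),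
  UniqueFactorizationMonoid (Y.presheaf.stalk y))

include hY

/-- A function on the second factor is a unit on the product only where it is a unit. -/
theorem mem_unitsAt_of_sndFF (w : ↥(pullback fX fY)) (t : (Y.functionField)ˣ)
    (h : Units.map (sndFF fX fY).toMonoidHom t ∈ unitsAt w) :
    t ∈ unitsAt (pullback.snd fX fY w) := by
  obtain ⟨B, _, _, _, a, _, ha, hwa⟩ := exists_affine_chart fX (pullback.fst fX fY w)
  obtain ⟨C, _, _, _, b, _, hb, hwb⟩ := exists_affine_chart fY (pullback.snd fX fY w)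
  have := isDomain_tensor K B C
  obtain ⟨P, rfl⟩ : ∃ P : PrimeSpectrum (CommRingCat.of (B ⊗[K] C)),
      chartMap fX fY a b ha hb P = w := by
    show w ∈ Set.range (chartMap fX fY a b ha hb)
    rw [range_chartMap]; exact ⟨hwa, hwb⟩
  obtain ⟨Q, φ, hq, -, hcompat, hprime, hrefl⟩ := exists_localHom fX fY a b ha hb P
  obtain ⟨_, hufd⟩ := hY (b Q)
  have := hufd
  obtain ⟨w', hw'⟩ := mem_unitsAt.mp h
  obtain ⟨x, y, hxy, ht⟩ := IsFractionRing.exists_reduced_fraction (A := Y.presheaf.stalk (b Q))
    (K := Y.functionField) (t : Y.functionField)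
  rw [IsFractionRing.mk'_eq_div] at ht
  have hy0 : algebraMap (Y.presheaf.stalk (b Q)) Y.functionField y ≠ 0 :=
    IsFractionRing.to_map_ne_zero_of_mem_nonZeroDivisors y.2
  have hinj : Function.Injective φ := fun u v huv => by
    have h := congrArg (algebraMap _ (pullback fX fY).functionField) huv
    rw [hcompat, hcompat] at h
    exact IsFractionRing.injective _ _ ((sndFF fX fY).injective h)
  have hassoc : Associated (φ y) (φ x) := ⟨w', by
    apply IsFractionRing.injective _ (pullback fX fY).functionField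
    rw [map_mul, hcompat, hcompat, hw']
    show _ * sndFF fX fY (t : Y.functionField) = _
    rw [← map_mul, ← ht, mul_div_cancel₀ _ hy0]⟩
  have hux := isUnit_of_associated_map φ hrefl hinj hxy hassoc.symm
  have huy := isUnit_of_associated_map φ hrefl hinj hxy.symm hassoc
  rw [hq]
  refine mem_unitsAt.mpr ⟨hux.unit * huy.unit⁻¹, ?_⟩
  rw [← ht, Units.val_mul, map_mul, IsUnit.unit_spec, map_units_inv, IsUnit.unit_spec,
    div_eq_mul_inv]

/-- A function that is invertible over the generic point of the second factor is locally a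
function on the second factor. -/
theorem exists_sndFF_eq (w : ↥(pullback fX fY)) (e : ((pullback fX fY).functionField)ˣ)
    (he : ∀ w', w' ⤳ w → pullback.snd fX fY w' = genericPoint Y → e ∈ unitsAt w') :
    ∃ t : (Y.functionField)ˣ, e * (Units.map (sndFF fX fY).toMonoidHom t)⁻¹ ∈ unitsAt w := by
  obtain ⟨B, _, _, _, a, _, ha, hwa⟩ := exists_affine_chart fX (pullback.fst fX fY w)
  obtain ⟨C, _, _, _, b, _, hb, hwb⟩ := exists_affine_chart fY (pullback.snd fX fY w)
  have := isDomain_tensor K B C
  obtain ⟨P, rfl⟩ : ∃ P : PrimeSpectrum (CommRingCat.of (B ⊗[K] C)),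
      chartMap fX fY a b ha hb P = w := by
    show w ∈ Set.range (chartMap fX fY a b ha hb)
    rw [range_chartMap]; exact ⟨hwa, hwb⟩
  obtain ⟨Q, φ, hq, hQP, hcompat, hprime, -⟩ := exists_localHom fX fY a b ha hb P
  obtain ⟨_, hufd⟩ := hY (b Q)
  have := hufd
  have hden : ∀ m : (pullback fX fY).functionField,
      (∀ w', w' ⤳ (chartMap fX fY a b ha hb) P → pullback.snd fX fY w' = genericPoint Y →
      m ∈ regularAt w') →
      ∃ c : C, c ≠ 0 ∧ sndFF fX fY (immFF b c) * m ∈ regularAt ((chartMap fX fY a b ha hb) P) := by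
    intro m hm
    let J : Ideal (B ⊗[K] C) :=
      { carrier := {r | immFF (chartMap fX fY a b ha hb) r *
          m ∈ (immFF (chartMap fX fY a b ha hb)).range}
        add_mem' := fun {x y} hx hy => by
          rw [Set.mem_ofPred_eq, map_add, add_mul]; exact add_mem hx hy
        zero_mem' := by rw [Set.mem_ofPred_eq, map_zero, zero_mul]; exact zero_mem _
        smul_mem' := fun r x hx => by
          rw [Set.mem_ofPred_eq, smul_eq_mul, map_mul, mul_assoc]
          exact mul_mem ⟨r, rfl⟩ hx }
    let T : Submonoid (B ⊗[K] C) :=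
      (nonZeroDivisors C).map (Algebra.TensorProduct.includeRight : C →ₐ[K] B ⊗[K] C) ⊔
        P.asIdeal.primeCompl
    by_cases hd : Disjoint (J : Set (B ⊗[K] C)) T
    · exfalso
      obtain ⟨P', hP', hJP', hd'⟩ := Ideal.exists_le_prime_disjoint J T hd
      have hP'P : P' ≤ P.asIdeal := fun z hz => by
        by_contra hzP
        exact Set.disjoint_left.mp hd' hz
          ((le_sup_right : P.asIdeal.primeCompl ≤ T) hzP)
      let P₁ : PrimeSpectrum (CommRingCat.of (B ⊗[K] C)) := ⟨P', hP'⟩
      have hgenY : pullback.snd fX fY ((chartMap fX fY a b ha hb) P₁) = genericPoint Y := by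
        refine (snd_chartMap_apply fX fY a b ha hb P₁).trans ((imm_eq_genericPoint_iff b _).mpr ?_)
        rw [eq_bot_iff]
        intro c hc
        rw [Ideal.mem_bot]
        by_contra hc0
        exact Set.disjoint_left.mp hd' hc
          ((le_sup_left : _ ≤ T) ⟨c, mem_nonZeroDivisors_of_ne_zero hc0, rfl⟩)
      have hsp : (chartMap fX fY a b ha hb) P₁ ⤳ (chartMap fX fY a b ha hb) P :=
        ((PrimeSpectrum.le_iff_specializes P₁ P).mp hP'P).map (chartMap fX fY a b ha hb).continuous
      obtain ⟨x, y, hy, hxy⟩ := (mem_regularAt_imm (chartMap fX fY a b ha hb) P₁ m).mp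
        (hm _ hsp hgenY)
      exact hy (hJP' ⟨x, by rw [mul_comm, hxy]⟩)
    · obtain ⟨z, hzJ, hzT⟩ := Set.not_disjoint_iff.mp hd
      obtain ⟨_, ⟨c, hc, rfl⟩, s, hs, rfl⟩ := Submonoid.mem_sup.mp hzT
      obtain ⟨x, hx⟩ := hzJ
      refine ⟨c, nonZeroDivisors.ne_zero hc, (mem_regularAt_imm (chartMap fX fY a b ha hb) P _).mpr
        ⟨x, s, hs, ?_⟩⟩
      rw [hx, map_mul, sndFF_chart fX fY a b ha hb, mul_right_comm]
      rfl
  obtain ⟨c, hc, x, hx⟩ := hden e fun w' h h' =>
    ((mem_unitsAt_iff_regularAt w' e).mp (he w' h h')).1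
  obtain ⟨c', hc', x', hx'⟩ := hden (↑e⁻¹ : (pullback fX fY).functionField) fun w' h h' =>
    ((mem_unitsAt_iff_regularAt w' e).mp (he w' h h')).2
  have hcc : ∀ c : C, algebraMap _ Y.functionField (immHom b Q c) = immFF b c :=
    fun c => algebraMap_immHom_eq b Q c
  have hn : immHom b Q c * immHom b Q c' ≠ 0 := fun h => by
    have := congrArg (algebraMap _ Y.functionField) h
    rw [map_mul, hcc, hcc, map_zero, mul_eq_zero, map_eq_zero_iff _ (immFF_injective b),
      map_eq_zero_iff _ (immFF_injective b)] at this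
    exact this.elim hc hc'
  obtain ⟨t, ht, u, hu⟩ := associated_map_of_mul_eq φ hprime (immHom b Q c *
    immHom b Q c') hn x x' (by
    apply IsFractionRing.injective _ (pullback fX fY).functionField
    rw [map_mul, hx, hx', hcompat, map_mul, map_mul, hcc, hcc]
    rw [mul_mul_mul_comm, Units.mul_inv, mul_one])
  have ht0 : algebraMap _ Y.functionField t ≠ 0 :=
    (map_ne_zero_iff _ (IsFractionRing.injective _ _)).mpr ht
  refine ⟨Units.mk0 (algebraMap _ Y.functionField t / immFF b c)
    (div_ne_zero ht0 ((map_ne_zero_iff _ (immFF_injective b)).mpr hc)),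
    mem_unitsAt.mpr ⟨u⁻¹, ?_⟩⟩
  rw [Units.val_mul, Units.val_inv_eq_inv_val, Units.coe_map]
  show _ = (e : (pullback fX fY).functionField) *
    (sndFF fX fY (algebraMap _ Y.functionField t / immFF b c))⁻¹
  have hφt : algebraMap _ (pullback fX fY).functionField x *
      algebraMap _ (pullback fX fY).functionField
          (u : (pullback fX fY).presheaf.stalk ((chartMap fX fY a b ha hb) P)) =
      sndFF fX fY (algebraMap _ Y.functionField t) := by
    rw [← map_mul, hu, hcompat]
  have hu0 : algebraMap _ (pullback fX fY).functionField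
      (u : (pullback fX fY).presheaf.stalk ((chartMap fX fY a b ha hb) P)) ≠ 0 :=
    (map_ne_zero_iff _ (IsFractionRing.injective _ _)).mpr u.ne_zero
  rw [hx] at hφt
  have hc0 : sndFF fX fY (immFF b c) ≠ 0 := by
    rw [map_ne_zero, map_ne_zero_iff _ (immFF_injective b)]; exact hc
  have he0 : (e : (pullback fX fY).functionField) ≠ 0 := e.ne_zero
  rw [map_units_inv, map_div₀, ← hφt]
  field_simp

/-- **Seesaw.** A class that is trivial over an algebraic extension of the generic point of a
factorial second factor and on one section is torsion. -/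
theorem exists_pow_eq_one_of_seesaw {E : Type u} [Field E] [Algebra K E]
    (j : Spec (CommRingCat.of E) ⟶ Y) (hjE : j ≫ fY = specStr K E)
    [IsIntegral (pullback fX (specStr K E))]
    (hj : imagePoint j = genericPoint Y) (halg : (genValue j hj).IsIntegral)
    (s : Y ⟶ pullback fX fY) (hs : s ≫ pullback.snd fX fY = 𝟙 Y) (c : CDivClass (pullback fX fY))
    (hπ : pullClass (prodPoint fX fY j hjE) c = 1) (hsc : pullClass s c = 1) :
    ∃ d : ℕ, 0 < d ∧ c ^ d = 1 := by
  obtain ⟨D, rfl⟩ := QuotientGroup.mk_surjective c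
  obtain ⟨d, h, hd, hD'⟩ := exists_pow_eq_over_generic fX fY j hjE hj halg D hπ
  set D' := D ^ d * principal h
  have hmk : (QuotientGroup.mk D' : CDivClass (pullback fX fY)) = QuotientGroup.mk D ^ d := by
    have h1 : (QuotientGroup.mk (principal h) : CDivClass (pullback fX fY)) = 1 :=
      (QuotientGroup.eq_one_iff _).mpr ⟨h, rfl⟩
    rw [QuotientGroup.mk_mul, h1, mul_one, QuotientGroup.mk_pow]
  refine ⟨d, hd, ?_⟩
  rw [← hmk]
  set q := pullback.snd fX fY
  have hqs : ∀ y, q (s y) = y := fun y => by rw [← Scheme.Hom.comp_apply, hs]; rfl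
  have hsη : D' ∈ trivialAt (s (genericPoint Y)) := hD' _ (hqs _)
  set d' := pullback' s ⟨D', hsη⟩
  have hqη : d' ∈ trivialAt (q (genericPoint ↥(pullback fX fY))) := by
    rw [show q (genericPoint ↥(pullback fX fY)) = genericPoint Y from snd_genericPoint fX fY]
    exact trivialAt_genericPoint d'
  -- local equations come from the second factor
  have hloc : ∀ w, ∃ t : (Y.functionField)ˣ,
      D'.1 w = QuotientGroup.mk (Units.map (sndFF fX fY).toMonoidHom t) := by
    intro w
    obtain ⟨e, he⟩ := exists_localEq D' w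
    obtain ⟨t, ht⟩ := exists_sndFF_eq fX fY hY w e fun w' hw' hwY =>
      (QuotientGroup.eq_one_iff e).mp ((eq_mk_of_specializes D' hw' he).symm.trans (hD' w' hwY))
    refine ⟨t, ?_⟩
    rw [he, QuotientGroup.eq]
    simpa [mul_comm, mul_inv_rev] using (unitsAt w).inv_mem ht
  -- the equation depends only on the point of the second factor
  have hconst : ∀ w w' t t', q w = q w' →
      D'.1 w = QuotientGroup.mk (Units.map (sndFF fX fY).toMonoidHom t) →
      D'.1 w' = QuotientGroup.mk (Units.map (sndFF fX fY).toMonoidHom t') →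
      t⁻¹ * t' ∈ unitsAt (q w) := by
    intro w w' t t' hww ht ht'
    obtain ⟨C, _, _, _, b, _, hb, hwb⟩ := exists_affine_chart fY (q w)
    obtain ⟨B, _, _, _, a, _, ha, hwa⟩ := exists_affine_chart fX (pullback.fst fX fY w)
    obtain ⟨B', _, _, _, a', _, ha', hwa'⟩ := exists_affine_chart fX (pullback.fst fX fY w')
    obtain ⟨ξ, hξq, hξp, hξ⟩ := exists_fibre_generic fX fY a b ha hb (q w) hwb
    obtain ⟨ξ', hξ'q, -, hξ'⟩ := exists_fibre_generic fX fY a' b ha' hb (q w) hwb
    have hξa' : pullback.fst fX fY ξ ∈ Set.range a' := by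
      rw [hξp]
      obtain ⟨P, hP⟩ := hwa'
      exact ⟨genericPoint (Spec (CommRingCat.of B')), genericPoint_eq_of_isOpenImmersion a'⟩
    have h1 : ξ' ⤳ w := (hξ' ξ hξq hξa').trans (hξ w rfl hwa)
    have h2 : ξ' ⤳ w' := hξ' w' hww.symm hwa'
    have h3 := (eq_mk_of_specializes D' h1 ht).symm.trans (eq_mk_of_specializes D' h2 ht')
    rw [QuotientGroup.eq, ← map_inv, ← map_mul] at h3
    have h4 := mem_unitsAt_of_sndFF fX fY hY ξ' _ h3
    rwa [show q w = pullback.snd fX fY ξ' from hξ'q.symm]
  have hD : pullback' q ⟨d', hqη⟩ = D' := by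
    refine Subtype.ext (funext fun w => ?_)
    obtain ⟨t, ht⟩ := hloc w
    obtain ⟨t', ht'⟩ := hloc (s (q w))
    have huY : t' ∈ unitsAt (q (genericPoint ↥(pullback fX fY))) := by
      rw [show q (genericPoint ↥(pullback fX fY)) = genericPoint Y from snd_genericPoint fX fY]
      exact unitsAt_genericPoint t'
    have hu' : Units.map (sndFF fX fY).toMonoidHom t' ∈ unitsAt (s (genericPoint Y)) :=
      mem_unitsAt_of_trivialAt hsη
        (((genericPoint_spec Y).specializes trivial).map s.continuous) ht'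
    have hd'w : d'.1 (q w) = QuotientGroup.mk t' := by
      rw [show d'.1 (q w) = QuotientGroup.mk (pullFunction s ⟨_, hu'⟩) from
        pullback'_apply s ⟨D', hsη⟩ (q w) ⟨_, hu'⟩ ht']
      congr 1
      refine Units.ext ?_
      obtain ⟨v, hv⟩ := mem_unitsAt.mp hu'
      rw [pullFunction_spec s ⟨_, hu'⟩ (v : (pullback fX fY).presheaf.stalk
        (s (genericPoint Y))) hv]
      obtain ⟨t₀, ht₀⟩ := mem_unitsAt.mp (show t' ∈ unitsAt (q (s (genericPoint Y))) by
        rw [hqs]; exact unitsAt_genericPoint t')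
      have hveq : (v : (pullback fX fY).presheaf.stalk (s (genericPoint Y))) =
          q.stalkMap (s (genericPoint Y)) (t₀ : Y.presheaf.stalk (q (s (genericPoint Y)))) := by
        apply IsFractionRing.injective _ (pullback fX fY).functionField
        rw [hv]
        have hq0 : t' ∈ unitsAt (q (genericPoint ↥(pullback fX fY))) := huY
        rw [← pullFunction_regular q ⟨t', hq0⟩ (s (genericPoint Y)) _ ht₀,
          pullFunction_eq_functionFieldMap q (snd_genericPoint fX fY)]
        rfl
      have hu0 : t' ∈ unitsAt ((s ≫ q) (genericPoint Y)) := by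
        rw [hs]; exact unitsAt_genericPoint t'
      have h1 := pullFunction_spec (s ≫ q) ⟨t', hu0⟩
        (t₀ : Y.presheaf.stalk (q (s (genericPoint Y)))) ht₀
      rw [pullFunction_eq_functionFieldMap (s ≫ q) (by rw [hs]; rfl)] at h1
      rw [hveq]
      refine (DFunLike.congr_fun (congrArg CommRingCat.Hom.hom
        (Scheme.Hom.stalkMap_comp s q (genericPoint Y)))
        (t₀ : Y.presheaf.stalk (q (s (genericPoint Y))))).symm.trans (h1.symm.trans ?_)
      have hid : ∀ (ψ : Y ⟶ Y) (hψ : ψ (genericPoint Y) = genericPoint Y), ψ = 𝟙 Y →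
          ∀ z : Y.functionField, functionFieldMap ψ hψ z = z := by
        rintro ψ hψ rfl z
        rw [functionFieldMap, Scheme.Hom.stalkMap_id]
        refine Eq.trans ?_ (show (Y.presheaf.stalkSpecializes (specializes_of_eq (rfl :
          genericPoint Y = genericPoint Y))) z = z from ?_)
        · rfl
        exact DFunLike.congr_fun (congrArg CommRingCat.Hom.hom
          (Y.presheaf.stalkSpecializes_refl (genericPoint Y))) z
      exact hid _ _ hs _
    rw [pullback'_apply q ⟨d', hqη⟩ w ⟨t', huY⟩ hd'w, ht, QuotientGroup.eq]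
    rw [show pullFunction q ⟨t', huY⟩ = Units.map (sndFF fX fY).toMonoidHom t' from
      Units.ext (pullFunction_eq_functionFieldMap q (snd_genericPoint fX fY) _),
          ← map_inv, ← map_mul]
    have h5 := hconst w (s (q w)) t t' (hqs _).symm ht ht'
    have h6 : pullFunction q ⟨t'⁻¹ * t, (unitsAt _).mul_mem ((unitsAt _).inv_mem huY) (by
        rw [show q (genericPoint ↥(pullback fX fY)) = genericPoint Y from snd_genericPoint fX fY]
        exact unitsAt_genericPoint t)⟩ ∈ unitsAt w :=
      pullFunction_mem_unitsAt q _ w (by simpa [mul_comm] using (unitsAt (q w)).inv_mem h5)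
    rwa [show pullFunction q ⟨t'⁻¹ * t, _⟩ = Units.map (sndFF fX fY).toMonoidHom (t'⁻¹ * t) from
      Units.ext (pullFunction_eq_functionFieldMap q (snd_genericPoint fX fY) _)] at h6
  rw [← hD, ← pullClass_mk q ⟨d', hqη⟩]
  show pullClass q (QuotientGroup.mk d') = 1
  rw [show d' = pullback' s ⟨D', hsη⟩ from rfl, ← pullClass_mk s ⟨D', hsη⟩]
  show pullClass q (pullClass s (QuotientGroup.mk D')) = 1
  rw [hmk, map_pow, hsc, one_pow, map_one]

end FLTAgent.AbelianTorsion
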