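import Mathlib
import Fermat.Agent.AbelianTorsion.Seesaw
import Fermat.Agent.AbelianTorsion.Parallelogram
import Fermat.Agent.AbelianTorsion.PlaceCriterion

/-!
# The square: pullback of a symmetric class by multiplication

`exists_pullClass_nsmul`: up to a fixed torsion exponent multiplication by `m` multiplies a
symmetric class by `m ^ 2`, since the second difference `theta` is torsion.
-/

set_option autoImplicit false

noncomputable section

universe u

open CategoryTheory CategoryTheory.Limits AlgebraicGeometry NeronModelInfra GoodReductionJacobian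
open IsLocalRing AlgebraicCurve TensorProduct
open scoped IsMulCommutative
open FLTAgent.FFBasic (IsFunctionField)
open FLTAgent.Jacobian FLTAgent.Jacobian.ConstExt

namespace FLTAgent.AbelianTorsion

section Basic

variable {K : Type u} [Field K] {A : Scheme.{u}} {f : A ⟶ Spec (CommRingCat.of K)}
  (G : RelativeGroupLaw K f)

/-- The inversion morphism. -/
def invMap : A ⟶ A := (G.inv f RelativeGroupLaw.idPoint).1

theorem comp_inv_natural (hc : G.IsCommutative) {T T' : Scheme.{u}}
    (t : T ⟶ Spec (CommRingCat.of K)) (t' : T' ⟶ Spec (CommRingCat.of K)) (ψ : T' ⟶ T)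
    (hψ : ψ ≫ t = t') (x : SchemeHomOver t f) :
    schemeHomOverComp ψ hψ (G.inv t x) = G.inv t' (schemeHomOverComp ψ hψ x) := by
  let := pointCommGroup G hc t'
  have h : schemeHomOverComp ψ hψ (G.inv t x) * schemeHomOverComp ψ hψ x = 1 := by
    show G.mul _ _ _ = G.one _
    rw [← G.mul_natural t t' ψ hψ, G.inv_mul_cancel, G.one_natural t t' ψ hψ]
  exact eq_inv_of_mul_eq_one_left h

theorem inv_val (hc : G.IsCommutative) {T : Scheme.{u}} (t : T ⟶ Spec (CommRingCat.of K))
    (x : SchemeHomOver t f) : (G.inv t x).1 = x.1 ≫ invMap G := by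
  have h := congrArg Subtype.val (comp_inv_natural G hc f t x.1 x.2 RelativeGroupLaw.idPoint)
  have hx : schemeHomOverComp x.1 x.2 RelativeGroupLaw.idPoint = x :=
    Subtype.ext (Category.comp_id _)
  rw [hx] at h
  exact h.symm

/-- A class over a scheme with one point is trivial. -/
theorem cdivClass_eq_one_of_subsingleton {X : Scheme.{u}} [IsIntegral X] [Subsingleton X]
    (c : CDivClass X) : c = 1 := by
  obtain ⟨D, rfl⟩ := QuotientGroup.mk_surjective c
  obtain ⟨h, hh⟩ := exists_trivialAt D (genericPoint X)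
  refine (QuotientGroup.eq_one_iff _).mpr ⟨h⁻¹, Subtype.ext (funext fun x => ?_)⟩
  rw [principal_apply, Subsingleton.elim x (genericPoint X)]
  have h1 : D.1 (genericPoint X) * QuotientGroup.mk h = 1 := hh
  rw [QuotientGroup.mk_inv]
  exact (eq_inv_of_mul_eq_one_left h1).symm

variable [IsIntegral A]

/-- A class pulled back through the spectrum of a field is trivial. -/
theorem pullClass_specField {Z : Scheme.{u}} [IsIntegral Z] {E : Type u} [Field E]
    (a : Z ⟶ Spec (CommRingCat.of E)) (b : Spec (CommRingCat.of E) ⟶ A) (c : CDivClass A) :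
    pullClass (a ≫ b) c = 1 := by
  have : Subsingleton ↥(Spec (CommRingCat.of E)) :=
    inferInstanceAs (Subsingleton (PrimeSpectrum E))
  rw [pullClass_comp, cdivClass_eq_one_of_subsingleton (pullClass b c), map_one]

/-- The second difference in a pair of points. -/
def theta {Z : Scheme.{u}} [IsIntegral Z] (t : Z ⟶ Spec (CommRingCat.of K)) (c : CDivClass A)
    (u x : SchemeHomOver t f) : CDivClass Z :=
  pullClass (G.mul t u x).1 c * pullClass (G.mul t u (G.inv t x)).1 c /
    (pullClass u.1 c ^ 2 * pullClass x.1 c ^ 2)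

theorem pullClass_theta (hc : G.IsCommutative) {Z Z' : Scheme.{u}} [IsIntegral Z] [IsIntegral Z']
    (t : Z ⟶ Spec (CommRingCat.of K)) (t' : Z' ⟶ Spec (CommRingCat.of K)) (ψ : Z' ⟶ Z)
    (hψ : ψ ≫ t = t') (c : CDivClass A) (u x : SchemeHomOver t f) :
    pullClass ψ (theta G t c u x) =
      theta G t' c (schemeHomOverComp ψ hψ u) (schemeHomOverComp ψ hψ x) := by
  rw [theta, theta, map_div, map_mul, map_mul, map_pow, map_pow,
    ← pullClass_comp, ← pullClass_comp, ← pullClass_comp, ← pullClass_comp,
    ← comp_inv_natural G hc t t' ψ hψ x, ← G.mul_natural t t' ψ hψ, ← G.mul_natural t t' ψ hψ]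
  rfl

theorem pullClass_one {Z : Scheme.{u}} [IsIntegral Z] (t : Z ⟶ Spec (CommRingCat.of K))
    (c : CDivClass A) : pullClass (G.one t).1 c = 1 := by
  rw [← G.one_natural (𝟙 _) t t (Category.comp_id t)]
  exact pullClass_specField t _ c

/-- On the axis `x = 0` the second difference is trivial. -/
theorem theta_one_right (hc : G.IsCommutative) {Z : Scheme.{u}} [IsIntegral Z]
    (t : Z ⟶ Spec (CommRingCat.of K)) (c : CDivClass A) (u : SchemeHomOver t f) :
    theta G t c u (G.one t) = 1 := by
  have h : G.inv t (G.one t) = G.one t := by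
    let := pointCommGroup G hc t
    exact inv_one
  rw [theta, h, G.mul_one, pullClass_one, one_pow, mul_one, sq, div_self']

/-- On the axis `u = 0` the second difference of a symmetric class is trivial. -/
theorem theta_one_left (hc : G.IsCommutative) {Z : Scheme.{u}} [IsIntegral Z]
    (t : Z ⟶ Spec (CommRingCat.of K)) (c : CDivClass A) (hsym : pullClass (invMap G) c = c)
    (x : SchemeHomOver t f) : theta G t c (G.one t) x = 1 := by
  rw [theta, G.one_mul, G.one_mul, pullClass_one, one_pow, one_mul, inv_val G hc, pullClass_comp,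
    hsym, sq, div_self']

omit [AlgebraicGeometry.IsIntegral A] in
theorem fromSpecStalk_comp (z : A) :
    letI := stalkAlgebra f z
    A.fromSpecStalk z ≫ f = specStr K (A.presheaf.stalk z) := by
  obtain ⟨_, ⟨U, hU', rfl⟩, hx, -⟩ :=
    A.isBasis_affineOpens.exists_subset_of_mem_open (Set.mem_univ z) isOpen_univ
  have hU : IsAffineOpen U := hU'
  rw [← hU.fromSpecStalk_eq_fromSpecStalk hx, IsAffineOpen.fromSpecStalk, Category.assoc,
    fromSpec_comp f hU, ← Spec.map_comp, germ_baseRingHom f z hx]
  rfl

omit [AlgebraicGeometry.IsIntegral A] in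
/-- Points with values in a field centred at the same rational point are equal. -/
theorem eq_of_closedPoint_eq [IsAlgClosed K] {g : ℕ} [SmoothOfRelativeDimension g f] {E : Type u}
    [Field E] [Algebra K E] (z : A) (hz : IsClosed {z}) (x y : SchemeHomOver (specStr K E) f)
    (hx : x.1 (closedPoint E) = z) (hy : y.1 (closedPoint E) = z) : x = y := by
  let := stalkAlgebra f z
  obtain ⟨-, -, p, hp⟩ := exists_parameters f (g := g) z hz
  have main : ∀ x : SchemeHomOver (specStr K E) f, x.1 (closedPoint E) = z →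
      ∃ ψ : A.presheaf.stalk z →ₐ[K] E,
        Spec.map (CommRingCat.ofHom ψ.toRingHom) ≫ A.fromSpecStalk z = x.1 ∧
          ∀ a ∈ maximalIdeal (A.presheaf.stalk z), ψ a = 0 := by
    rintro ⟨x, hxK⟩ hxz
    obtain rfl := hxz
    let φ := Scheme.stalkClosedPointTo x
    have hφ : Spec.map φ ≫ A.fromSpecStalk _ = x := Scheme.Spec_stalkClosedPointTo_fromSpecStalk x
    have hK : CommRingCat.ofHom (algebraMap K (A.presheaf.stalk (x (closedPoint E)))) ≫ φ =
        CommRingCat.ofHom (algebraMap K E) := by
      apply Spec.map_injective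
      rw [Spec.map_comp]
      show Spec.map φ ≫ specStr K (A.presheaf.stalk (x (closedPoint E))) = specStr K E
      rw [← fromSpecStalk_comp (f := f) (x (closedPoint E)), ← Category.assoc, hφ, hxK]
    refine ⟨{ φ.hom with
        commutes' := fun c => DFunLike.congr_fun (congrArg CommRingCat.Hom.hom hK) c },
      hφ, fun a ha => ?_⟩
    by_contra hne
    exact (mem_maximalIdeal _).mp ha ((isUnit_map_iff φ.hom a).mp (Ne.isUnit hne))
  obtain ⟨ψx, hψx, hx0⟩ := main x hx
  obtain ⟨ψy, hψy, hy0⟩ := main y hy
  have : ψx = ψy := by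
    refine AlgHom.ext fun o => ?_
    obtain ⟨a, ha⟩ := hp.residue_surjective (residue _ o)
    have hm : o - algebraMap K _ a ∈ maximalIdeal (A.presheaf.stalk z) := by
      rw [← residue_eq_zero_iff, map_sub, sub_eq_zero, ← ha]
      rfl
    have h1 := hx0 _ hm
    have h2 := hy0 _ hm
    rw [map_sub, sub_eq_zero, AlgHom.commutes] at h1 h2
    rw [h1, h2]
  exact Subtype.ext (hψx.symm.trans (by rw [this, hψy]))

end Basic

variable {K : Type u} [Field K] [IsAlgClosed K] {A : Scheme.{u}}
  {f : A ⟶ Spec (CommRingCat.of K)} [IsIntegral A] [IsProper f] [CompactSpace A]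
  (G : RelativeGroupLaw K f) {g : ℕ} [hf : SmoothOfRelativeDimension g f]

include hf

omit [CompactSpace A] [AlgebraicGeometry.IsIntegral A] in
/-- A branch through the origin has a `k`-rational point, at which it passes through the
origin. -/
private theorem exists_section_atPlace_one {k F₀ : Type u} [Field k] [IsAlgClosed k] [Algebra K k]
    [Field F₀] [Algebra k F₀] [Algebra K F₀] [IsScalarTower K k F₀] [IsFunctionField k F₀]
    (ι₀ : SchemeHomOver (specStr K F₀) f) (P₀ : Place k F₀)
    (hP₀ : centreAt f P₀ ι₀ = (G.one (𝟙 (Spec (CommRingCat.of K)))).1 (closedPoint K)) :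
    ∃ s₀ : Spec (CommRingCat.of k) ⟶ Spec (CommRingCat.of P₀.toValuationSubring),
      s₀ ≫ specStr k P₀.toValuationSubring = 𝟙 _ ∧
        s₀ ≫ (atPlace f P₀ ι₀).1 = (G.one (specStr K k)).1 := by
  classical
  have := locallyOfFiniteType f (g := g)
  let O := P₀.toValuationSubring
  let : Algebra K O := placeAlgebra (K := K) P₀
  have : IsScalarTower K k O := IsScalarTower.of_algebraMap_eq' rfl
  let fX := specStr k O
  have hOk : fX ≫ specStr K k = specStr K O := specMap_specStr (IsScalarTower.toAlgHom K k O)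
  obtain ⟨χ⟩ : Nonempty (O →ₐ[k] k) := by
    have := FFBasic.place_finite_residueField P₀
    have hb : Function.Bijective (algebraMap k P₀.ResidueField) :=
      IsAlgClosed.algebraMap_bijective_of_isIntegral
    exact ⟨((AlgEquiv.ofBijective (Algebra.ofId k P₀.ResidueField) hb).symm.toAlgHom).comp
      (IsScalarTower.toAlgHom k O P₀.ResidueField)⟩
  let s₀ : Spec (CommRingCat.of k) ⟶ Spec (CommRingCat.of O) :=
    Spec.map (CommRingCat.ofHom χ.toRingHom)
  have hs₀ : s₀ ≫ fX = 𝟙 _ := by
    rw [← Spec.map_comp, ← CommRingCat.ofHom_comp, show χ.toRingHom.comp (algebraMap k O) =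
      RingHom.id k from χ.comp_algebraMap]
    exact Spec.map_id _
  have hs₀u : s₀ ≫ (atPlace f P₀ ι₀).1 = (G.one (specStr K k)).1 := by
    have hzc : IsClosed {(G.one (𝟙 (Spec (CommRingCat.of K)))).1 (closedPoint K)} :=
      (pointEquivClosedPoint (K := K) f (G.one (𝟙 (Spec (CommRingCat.of K))))).2
    let p : SchemeHomOver (specStr K k) f := ⟨s₀ ≫ (atPlace f P₀ ι₀).1, by
      rw [Category.assoc, (atPlace f P₀ ι₀).2]
      show s₀ ≫ specStr K O = _
      rw [← hOk, ← Category.assoc, hs₀, Category.id_comp]⟩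
    refine congrArg Subtype.val (eq_of_closedPoint_eq (g := g) _ hzc p (G.one _) ?_ ?_)
    · rw [← hP₀]
      refine (Scheme.Hom.comp_apply _ _ _).trans (congrArg _ ?_)
      refine PrimeSpectrum.ext (Ideal.ext fun a => ?_)
      show χ a ∈ maximalIdeal k ↔ a ∈ maximalIdeal O
      rw [mem_maximalIdeal, mem_maximalIdeal, mem_nonunits_iff, mem_nonunits_iff, not_iff_not]
      refine ⟨fun h => ?_, fun h => h.map χ⟩
      by_contra hna
      have hne : RingHom.ker χ.toRingHom ≠ ⊤ := RingHom.ker_ne_top _
      have hmax : (RingHom.ker χ.toRingHom).IsMaximal := RingHom.ker_isMaximal_of_surjective _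
        fun y => ⟨algebraMap k O y, χ.commutes y⟩
      have : a ∈ RingHom.ker χ.toRingHom := by
        rw [IsLocalRing.eq_maximalIdeal hmax, mem_maximalIdeal]; exact hna
      exact h.ne_zero this
    · rw [← G.one_natural (𝟙 _) (specStr K k) (specStr K k) (Category.comp_id _)]
      refine (Scheme.Hom.comp_apply _ _ _).trans (congrArg _ ?_)
      exact Subsingleton.elim (α := PrimeSpectrum K) _ _
  exact ⟨s₀, hs₀, hs₀u⟩

omit hf [IsAlgClosed K] [IsIntegral A] [IsProper f] [CompactSpace A] in
/-- An integral scheme over `k` has an algebraic geometric point over its generic point. -/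
private theorem exists_generic_geometric_point {k : Type u} [Field k] {Y : Scheme.{u}}
    [IsIntegral Y] (fY : Y ⟶ Spec (CommRingCat.of k)) :
    ∃ (kb : Type u) (_ : Field kb) (_ : IsAlgClosed kb) (_ : Algebra k kb)
      (η : Spec (CommRingCat.of kb) ⟶ Y),
      η ≫ fY = Spec.map (CommRingCat.ofHom (algebraMap k kb)) ∧
        ∃ hgen : imagePoint η = genericPoint Y, (genValue η hgen).IsIntegral := by
  let := stalkAlgebra fY (genericPoint Y)
  let kb := AlgebraicClosure Y.functionField
  let η : Spec (CommRingCat.of kb) ⟶ Y :=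
    Spec.map (CommRingCat.ofHom (algebraMap Y.functionField kb)) ≫ Y.fromSpecStalk (genericPoint Y)
  have hη : η ≫ fY = Spec.map (CommRingCat.ofHom (algebraMap k kb)) := by
    rw [Category.assoc, fromSpecStalk_genericPoint_comp (K := k) (f := fY), ← Spec.map_comp,
      ← CommRingCat.ofHom_comp, ← IsScalarTower.algebraMap_eq]
  have hgen : imagePoint η = genericPoint Y := by
    refine (Scheme.Hom.comp_apply _ _ _).trans (Eq.trans (congrArg _ ?_)
      Scheme.fromSpecStalk_closedPoint)
    exact Subsingleton.elim (α := PrimeSpectrum Y.functionField) _ _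
  have halg : (genValue η hgen).IsIntegral := by
    have hval : genValue η hgen = algebraMap Y.functionField kb := by
      have h : CommRingCat.ofHom (genValue η hgen) =
        CommRingCat.ofHom (algebraMap Y.functionField kb) := by
        apply Spec.map_injective
        rw [← cancel_mono (Y.fromSpecStalk (genericPoint Y)), specMap_genValue]
      exact congrArg CommRingCat.Hom.hom h
    rw [hval]
    exact fun y => Algebra.IsIntegral.isIntegral y
  exact ⟨kb, inferInstance, inferInstance, inferInstance, η, hη, hgen, halg⟩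

omit hf in
/-- Over a ring with function field `Fb`, the second difference of the branch and the generic
point vanishes, by the parallelogram relation. -/
private theorem theta_eq_one_of_generic (hc : G.IsCommutative) {k F₀ kb Fb : Type u} [Field k]
    [IsAlgClosed k] [Algebra K k] [Field F₀] [Algebra k F₀] [Algebra K F₀] [IsScalarTower K k F₀]
    [IsFunctionField k F₀] [Field kb] [IsAlgClosed kb] [Algebra k kb] [Algebra K kb]
    [IsScalarTower K k kb] [Field Fb] [Algebra kb Fb] [Algebra F₀ Fb] [Algebra k Fb]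
    [IsScalarTower k kb Fb] [IsScalarTower k F₀ Fb] [IsConstExtension k kb F₀ Fb] [Algebra K Fb]
    [IsScalarTower K k Fb] [IsScalarTower K kb Fb] [IsFunctionField kb Fb]
    [IsIntegral (pullback f (specStr K k))]
    {η : Spec (CommRingCat.of kb) ⟶ pullback f (specStr K k)}
    (hη : η ≫ pullback.snd f (specStr K k) = Spec.map (CommRingCat.ofHom (algebraMap k kb)))
    (hgen : imagePoint η = genericPoint ↥(pullback f (specStr K k)))
    (ι₀ : SchemeHomOver (specStr K F₀) f) (c : CDivClass A)
    {b : SchemeHomOver (specStr K kb) f} (hb : b.1 = η ≫ pullback.fst f (specStr K k))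
    {R : Type u} [CommRing R] [IsDomain R] [Algebra R Fb] [IsFractionRing R Fb]
    (hR : ∀ φ : Fb, (∀ Q : Place kb Fb,
      (∀ r : R, algebraMap R Fb r ∈ Q.toValuationSubring) → 0 ≤ Q.ord φ) →
      φ ∈ Set.range (algebraMap R Fb))
    {tR : Spec (CommRingCat.of R) ⟶ Spec (CommRingCat.of K)} (uR xR : SchemeHomOver tR f)
    (hju : Spec.map (CommRingCat.ofHom (algebraMap R Fb)) ≫ uR.1 =
      (pointMap f ((IsScalarTower.toAlgHom k F₀ Fb).restrictScalars K) ι₀).1)
    (hjx : Spec.map (CommRingCat.ofHom (algebraMap R Fb)) ≫ xR.1 =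
      (pointMap f (constHom K k kb Fb) b).1)
    (hxtriv : pullClass xR.1 c = 1) : theta G tR c uR xR = 1 := by
  let jF : Spec (CommRingCat.of Fb) ⟶ Spec (CommRingCat.of R) :=
    Spec.map (CommRingCat.ofHom (algebraMap R Fb))
  have hjt : jF ≫ tR = specStr K Fb := by
    rw [show tR = uR.1 ≫ f from uR.2.symm, ← Category.assoc, hju]
    exact (pointMap f ((IsScalarTower.toAlgHom k F₀ Fb).restrictScalars K) ι₀).2
  rw [theta, hxtriv, one_pow, mul_one]
  have hcu : schemeHomOverComp jF hjt uR = pointMap f
    ((IsScalarTower.toAlgHom k F₀ Fb).restrictScalars K) ι₀ :=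
    Subtype.ext hju
  have hcx : schemeHomOverComp jF hjt xR = pointMap f (constHom K k kb Fb) b := Subtype.ext hjx
  have hpar := shiftPic_add_shiftPic_inv G hc (kb := kb) (Fb := Fb) η hη hgen ι₀ c b hb
  have hshift1 : schemeHomOverComp jF hjt (G.mul tR uR xR) = shift G k Fb ι₀ b := by
    rw [G.mul_natural tR (specStr K Fb) jF hjt, hcu, hcx]
    rfl
  have hshift2 : schemeHomOverComp jF hjt (G.mul tR uR (G.inv tR xR)) =
      shift G k Fb ι₀ (G.inv _ b) := by
    rw [G.mul_natural tR (specStr K Fb) jF hjt, comp_inv_natural G hc tR _ jF hjt, hcu, hcx,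
      ← pointMap_inv G hc]
    rfl
  have hshift0 : schemeHomOverComp jF hjt uR = shift G k Fb ι₀ (G.one (specStr K kb)) := by
    rw [hcu, shift, pointMap_one, G.mul_one]
  let ys : Fin 3 → SchemeHomOver tR f := ![G.mul tR uR xR, G.mul tR uR (G.inv tR xR), uR]
  have hrel := pullClass_prod_eq_one (L := kb) (F := Fb) (R := R)
    hR ![(1 : ℤ), 1, -2]
    (fun _ => c) (fun i => schemeHomOverComp jF hjt (ys i)) (fun i => (ys i).1) (fun i => rfl) (by
      simp only [Fin.sum_univ_three, ys, Matrix.cons_val_zero, Matrix.cons_val_one,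
        Matrix.cons_val,
        one_smul, neg_smul, hshift1, hshift2]
      rw [hshift0, ← sub_eq_add_neg]
      exact hpar)
  simp only [Fin.prod_univ_three, ys, Matrix.cons_val_zero, Matrix.cons_val_one, Matrix.cons_val,
    zpow_one] at hrel
  rw [div_eq_mul_inv]
  exact hrel

omit hf in
/-- Over the generic point of the second factor, the second difference vanishes. -/
private theorem pullClass_prodPoint_theta (hc : G.IsCommutative) (c : CDivClass A)
    {k F₀ kb : Type u}
    [Field k] [IsAlgClosed k] [Algebra K k] [Field F₀] [Algebra k F₀] [Algebra K F₀]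
    [IsScalarTower K k F₀] [IsFunctionField k F₀] [Field kb] [IsAlgClosed kb] [Algebra k kb]
    (ι₀ : SchemeHomOver (specStr K F₀) f) (P₀ : Place k F₀)
    [IsIntegral (pullback f (specStr K k))]
    [IsIntegral (pullback (specStr k P₀.toValuationSubring) (pullback.snd f (specStr K k)))]
    [IsIntegral (pullback (specStr k P₀.toValuationSubring) (specStr k kb))]
    {η : Spec (CommRingCat.of kb) ⟶ pullback f (specStr K k)}
    (hη : η ≫ pullback.snd f (specStr K k) = Spec.map (CommRingCat.ofHom (algebraMap k kb)))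
    (hgen : imagePoint η = genericPoint ↥(pullback f (specStr K k)))
    {tZ : pullback (specStr k P₀.toValuationSubring) (pullback.snd f (specStr K k)) ⟶
      Spec (CommRingCat.of K)}
    (u x : SchemeHomOver tZ f) (hu : u.1 = pullback.fst _ _ ≫ (atPlace f P₀ ι₀).1)
    (hx : x.1 = pullback.snd _ _ ≫ pullback.fst f (specStr K k)) :
    pullClass (prodPoint (specStr k P₀.toValuationSubring) (pullback.snd f (specStr K k)) η hη)
      (theta G tZ c u x) = 1 := by
  classical
  let O := P₀.toValuationSubring
  let fX := specStr k O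
  let fY := pullback.snd f (specStr K k)
  have hcondY : pullback.fst f (specStr K k) ≫ f = fY ≫ specStr K k := pullback.condition
  let : Algebra K kb := ((algebraMap k kb).comp (algebraMap K k)).toAlgebra
  have : IsScalarTower K k kb := IsScalarTower.of_algebraMap_eq' rfl
  obtain ⟨Fb, _, _, _, _, _, _, hce, hff⟩ := exists_constExt k kb F₀
  have := hce
  have := hff
  let : Algebra K Fb := ((algebraMap k Fb).comp (algebraMap K k)).toAlgebra
  have : IsScalarTower K k Fb := IsScalarTower.of_algebraMap_eq' rfl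
  have : IsScalarTower K kb Fb := IsScalarTower.of_algebraMap_eq fun y => by
    show algebraMap k Fb (algebraMap K k y) = algebraMap kb Fb (algebraMap k kb (algebraMap K k y))
    rw [← IsScalarTower.algebraMap_apply k kb Fb]
  -- pass to the coordinate ring
  let R := O ⊗[k] kb
  have : IsDomain R := isDomain_tensor k O kb
  let ch : Spec (CommRingCat.of R) ⟶ pullback fX (specStr k kb) := (pullbackSpecIso k O kb).inv
  have : IsIso ch := inferInstanceAs (IsIso (pullbackSpecIso k O kb).inv)
  suffices h : pullClass (ch ≫ prodPoint fX fY η hη) (theta G tZ c u x) = 1 by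
    rw [pullClass_comp] at h
    have h2 := congrArg (pullClass (inv ch)) h
    rwa [← pullClass_comp, IsIso.inv_hom_id, pullClass_id, map_one] at h2
  let : Algebra R Fb := (extendedHom (kb := kb) (F := Fb) P₀).toRingHom.toAlgebra
  have : IsFractionRing R Fb := by
    have : FaithfulSMul R Fb :=
      (faithfulSMul_iff_algebraMap_injective R Fb).mpr
          (extendedHom_injective (kb := kb) (F := Fb) P₀)
    refine IsFractionRing.of_field R Fb fun z => ?_
    obtain ⟨a, b, hb, hab⟩ := exists_fraction_extendedHom (kb := kb) (F := Fb) P₀ z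
    exact ⟨a, b, (eq_div_iff hb).mpr hab⟩
  let jF : Spec (CommRingCat.of Fb) ⟶ Spec (CommRingCat.of R) :=
    Spec.map (CommRingCat.ofHom (algebraMap R Fb))
  let b : SchemeHomOver (specStr K kb) f := ⟨η ≫ pullback.fst f (specStr K k), by
    rw [Category.assoc, hcondY, ← Category.assoc, hη]
    exact specMap_specStr (IsScalarTower.toAlgHom K k kb)⟩
  let tR : Spec (CommRingCat.of R) ⟶ Spec (CommRingCat.of K) := (ch ≫ prodPoint fX fY η hη) ≫ tZ
  have hfst : (ch ≫ prodPoint fX fY η hη) ≫ pullback.fst fX fY =
      Spec.map (CommRingCat.ofHom (Algebra.TensorProduct.includeLeftRingHom : O →+* R)) := by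
    rw [Category.assoc, prodPoint, pullback.map, pullback.lift_fst, Category.comp_id]
    exact pullbackSpecIso_inv_fst k O kb
  have hsnd : (ch ≫ prodPoint fX fY η hη) ≫ pullback.snd fX fY =
      Spec.map (CommRingCat.ofHom (Algebra.TensorProduct.includeRight : kb →ₐ[k]
          R).toRingHom) ≫ η := by
    rw [Category.assoc, prodPoint, pullback.map, pullback.lift_snd, ← Category.assoc]
    exact congrArg (· ≫ η) (pullbackSpecIso_inv_snd k O kb)
  let uR := schemeHomOverComp (ch ≫ prodPoint fX fY η hη) (rfl : _ = tR) u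
  let xR := schemeHomOverComp (ch ≫ prodPoint fX fY η hη) (rfl : _ = tR) x
  have hju : jF ≫ uR.1 =
    (pointMap f ((IsScalarTower.toAlgHom k F₀ Fb).restrictScalars K) ι₀).1 := by
    show jF ≫ (ch ≫ prodPoint fX fY η hη) ≫ u.1 = _
    rw [hu]
    rw [← Category.assoc (ch ≫ prodPoint fX fY η hη), hfst, ← Category.assoc, ← Spec.map_comp,
      pointMap_val]
    conv_rhs => rw [← atPlace_spec f P₀ ι₀, ← Category.assoc, ← Spec.map_comp]
    congr 2
    refine CommRingCat.hom_ext (RingHom.ext fun o => ?_)
    show extendedHom (kb := kb) (F := Fb) P₀ (o ⊗ₜ[k] 1) = _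
    simp [extendedHom]
  have hjx : jF ≫ xR.1 = (pointMap f (constHom K k kb Fb) b).1 := by
    show jF ≫ (ch ≫ prodPoint fX fY η hη) ≫ x.1 = _
    rw [hx]
    rw [← Category.assoc (ch ≫ prodPoint fX fY η hη), hsnd, Category.assoc, pointMap_val,
      ← Category.assoc, ← Spec.map_comp]
    congr 2
    refine CommRingCat.hom_ext (RingHom.ext fun y => ?_)
    show extendedHom (kb := kb) (F := Fb) P₀ (1 ⊗ₜ[k] y) = _
    simp [extendedHom, constHom]
  rw [pullClass_theta G hc tZ tR _ rfl]
  refine theta_eq_one_of_generic G hc hη hgen ι₀ c (b := b) rfl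
    (fun φ hφ => mem_range_extendedHom (kb := kb) (F := Fb) P₀ hφ) uR xR hju hjx ?_
  show pullClass ((ch ≫ prodPoint fX fY η hη) ≫ x.1) c = 1
  rw [hx, ← Category.assoc, hsnd, Category.assoc]
  exact pullClass_specField _ _ c

/-- The second difference on the product of a variety with a branch of a curve is torsion. -/
theorem exists_theta_pow_curve (hc : G.IsCommutative) (c : CDivClass A)
    (hsym : pullClass (invMap G) c = c) {k F₀ : Type u} [Field k] [IsAlgClosed k] [Algebra K k]
    [Field F₀] [Algebra k F₀] [Algebra K F₀] [IsScalarTower K k F₀] [IsFunctionField k F₀]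
    (ι₀ : SchemeHomOver (specStr K F₀) f) (P₀ : Place k F₀)
    (hP₀ : centreAt f P₀ ι₀ = (G.one (𝟙 (Spec (CommRingCat.of K)))).1 (closedPoint K)) :
    ∃ (Z : Scheme.{u}) (_ : IsIntegral Z) (tZ : Z ⟶ Spec (CommRingCat.of K))
      (u x : SchemeHomOver tZ f)
      (ψ : pullback f (specStr K F₀) ⟶ Z) (d : ℕ), 0 < d ∧
      theta G tZ c u x ^ d = 1 ∧ ψ ≫ u.1 = pullback.snd f (specStr K F₀) ≫ ι₀.1 ∧
      ψ ≫ x.1 = pullback.fst f (specStr K F₀) := by
  classical
  have := locallyOfFiniteType f (g := g)
  let fY := pullback.snd f (specStr K k)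
  have : IsIntegral (pullback f (specStr K k)) := isIntegral_pullback f (specStr K k)
  have : SmoothOfRelativeDimension g fY := by
    have : MorphismProperty.IsStableUnderBaseChange.{u} (@SmoothOfRelativeDimension g) :=
      smoothOfRelativeDimension_isStableUnderBaseChange g
    exact MorphismProperty.of_isPullback (IsPullback.of_hasPullback f (specStr K k)) hf
  let O := P₀.toValuationSubring
  let : Algebra K O := placeAlgebra (K := K) P₀
  have : IsScalarTower K k O := IsScalarTower.of_algebraMap_eq' rfl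
  have : IsScalarTower K O F₀ :=
    IsScalarTower.of_algebraMap_eq fun a => IsScalarTower.algebraMap_apply K k F₀ a
  let fX := specStr k O
  have : IsIntegral (pullback fX fY) := isIntegral_pullback fX fY
  let Z := pullback fX fY
  let tZ : Z ⟶ Spec (CommRingCat.of K) := pullback.snd fX fY ≫ fY ≫ specStr K k
  have hcondY : pullback.fst f (specStr K k) ≫ f = fY ≫ specStr K k := pullback.condition
  have hOk : fX ≫ specStr K k = specStr K O := specMap_specStr (IsScalarTower.toAlgHom K k O)
  let u : SchemeHomOver tZ f := ⟨pullback.fst fX fY ≫ (atPlace f P₀ ι₀).1, by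
    rw [Category.assoc, (atPlace f P₀ ι₀).2]
    show _ ≫ specStr K O = _
    rw [← hOk, ← Category.assoc, pullback.condition, Category.assoc]⟩
  let x : SchemeHomOver tZ f := ⟨pullback.snd fX fY ≫ pullback.fst f (specStr K k), by
    rw [Category.assoc, hcondY]⟩
  obtain ⟨s₀, hs₀, hs₀u⟩ := exists_section_atPlace_one G (g := g) ι₀ P₀ hP₀
  let s : pullback f (specStr K k) ⟶ Z := pullback.lift (fY ≫ s₀) (𝟙 _) (by
    rw [Category.assoc, hs₀, Category.comp_id, Category.id_comp])
  have hsq : s ≫ pullback.snd fX fY = 𝟙 _ := pullback.lift_snd _ _ _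
  have hθs : pullClass s (theta G tZ c u x) = 1 := by
    rw [pullClass_theta G hc tZ (s ≫ tZ) s rfl]
    have hu : schemeHomOverComp s rfl u = G.one (s ≫ tZ) := by
      rw [← G.one_natural (specStr K k) (s ≫ tZ) fY
        (by rw [← Category.assoc s, hsq, Category.id_comp])]
      refine Subtype.ext ?_
      show s ≫ pullback.fst fX fY ≫ _ = fY ≫ _
      rw [← Category.assoc, pullback.lift_fst, Category.assoc, hs₀u]
    rw [hu]
    exact theta_one_left G hc _ c hsym _
  obtain ⟨kb, _, _, _, η, hη, hgen, halg⟩ := exists_generic_geometric_point fY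
  have : IsIntegral (pullback fX (specStr k kb)) := isIntegral_pullback fX (specStr k kb)
  have hπ : pullClass (prodPoint fX fY η hη) (theta G tZ c u x) = 1 :=
    pullClass_prodPoint_theta G hc c ι₀ P₀ hη hgen u x rfl rfl
  obtain ⟨d, hd, hθd⟩ := exists_pow_eq_one_of_seesaw fX fY (stalk_factorial fY (g := g)) η hη hgen
    halg s hsq (theta G tZ c u x) hπ hθs
  let ψ : pullback f (specStr K F₀) ⟶ Z :=
    pullback.lift (pullback.snd f (specStr K F₀) ≫ Spec.map (CommRingCat.ofHom (algebraMap O F₀)))
      (pullback.lift (pullback.fst f (specStr K F₀))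
        (pullback.snd f (specStr K F₀) ≫ Spec.map (CommRingCat.ofHom (algebraMap k F₀)))
        (by
          rw [pullback.condition, Category.assoc]
          congr 1
          exact (specMap_specStr (IsScalarTower.toAlgHom K k F₀)).symm))
      (by
        rw [pullback.lift_snd, Category.assoc]
        congr 1
        exact specMap_specStr (IsScalarTower.toAlgHom k O F₀))
  refine ⟨Z, inferInstance, tZ, u, x, ψ, d, hd, hθd, ?_, ?_⟩
  · show ψ ≫ pullback.fst fX fY ≫ _ = _
    rw [← Category.assoc, pullback.lift_fst, Category.assoc, atPlace_spec]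
  · show ψ ≫ pullback.snd fX fY ≫ _ = _
    rw [← Category.assoc, pullback.lift_snd, pullback.lift_fst]

/-- **The square.** Up to a fixed torsion exponent, multiplication by `m` multiplies a symmetric
class by `m ^ 2`. -/
theorem exists_pullClass_nsmul (hc : G.IsCommutative) (hg : 0 < g) (c : CDivClass A)
    (hsym : pullClass (invMap G) c = c) :
    ∃ r : ℕ, 0 < r ∧ ∀ m : ℕ, pullClass (G.schemeNsmul m) c ^ r = c ^ (r * m ^ 2) := by
  classical
  have := locallyOfFiniteType f (g := g)
  obtain ⟨k, F₀, _, _, _, _, _, _, _, _, ι₀, hgen, P₀, halg, hP₀⟩ :=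
    exists_curve (f := f) G (g := g) hg
  obtain ⟨Z, _, tZ, u, x, ψ, d₁, hd₁, hθ, hψu, hψx⟩ :=
    exists_theta_pow_curve G (g := g) hc c hsym ι₀ P₀ hP₀
  have : IsIntegral (pullback f f) := isIntegral_pullback f f
  have : IsIntegral (pullback f (specStr K F₀)) := isIntegral_pullback f (specStr K F₀)
  let t₂ : pullback f f ⟶ Spec (CommRingCat.of K) := pullback.fst f f ≫ f
  let u₂ : SchemeHomOver t₂ f := ⟨pullback.snd f f, pullback.condition.symm⟩
  let x₂ : SchemeHomOver t₂ f := ⟨pullback.fst f f, rfl⟩
  set π := prodPoint f f ι₀.1 ι₀.2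
  have hπ : pullClass π (theta G t₂ c u₂ x₂ ^ d₁) = 1 := by
    have ht : π ≫ t₂ = ψ ≫ tZ := by
      rw [← x.2, ← Category.assoc ψ, hψx, show t₂ = pullback.fst f f ≫ f from rfl, ← Category.assoc]
      congr 1
      exact (pullback.lift_fst _ _ _).trans (Category.comp_id _)
    rw [map_pow, pullClass_theta G hc t₂ (ψ ≫ tZ) π ht]
    have hu : schemeHomOverComp π ht u₂ = schemeHomOverComp ψ rfl u :=
      Subtype.ext ((pullback.lift_snd _ _ _).trans hψu.symm)
    have hx : schemeHomOverComp π ht x₂ = schemeHomOverComp ψ rfl x :=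
      Subtype.ext (((pullback.lift_fst _ _ _).trans (Category.comp_id _)).trans hψx.symm)
    rw [hu, hx, ← pullClass_theta G hc tZ (ψ ≫ tZ) ψ rfl, ← map_pow, hθ, map_one]
  let s₂ : A ⟶ pullback f f := pullback.lift (G.one f).1 (𝟙 A)
    (by rw [(G.one f).2, Category.id_comp])
  have hs₂ : pullClass s₂ (theta G t₂ c u₂ x₂ ^ d₁) = 1 := by
    have ht : s₂ ≫ t₂ = f := by
      rw [show t₂ = pullback.fst f f ≫ f from rfl, ← Category.assoc, pullback.lift_fst]
      exact (G.one f).2
    rw [map_pow, pullClass_theta G hc t₂ f s₂ ht,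
      show schemeHomOverComp s₂ ht x₂ = G.one f from Subtype.ext (pullback.lift_fst _ _ _),
      theta_one_right G hc, one_pow]
  obtain ⟨d₂, hd₂, hθ₂⟩ := exists_pow_eq_one_of_seesaw f f (stalk_factorial f (g := g))
    ι₀.1 ι₀.2 hgen
    halg s₂ (pullback.lift_snd _ _ _) _ hπ hs₂
  rw [← pow_mul] at hθ₂
  refine ⟨d₁ * d₂, Nat.mul_pos hd₁ hd₂, ?_⟩
  set r := d₁ * d₂
  -- recurrence
  have hstep : ∀ m : ℕ, pullClass (G.schemeNsmul (m + 2)) c ^ r *
    pullClass (G.schemeNsmul m) c ^ r =
      (pullClass (G.schemeNsmul (m + 1)) c ^ r) ^ 2 * (c ^ r) ^ 2 := by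
    intro m
    let v : SchemeHomOver f f := G.nsmul f (m + 1) RelativeGroupLaw.idPoint
    let s₃ : A ⟶ pullback f f := pullback.lift (𝟙 A) v.1 (by rw [v.2, Category.id_comp])
    have ht : s₃ ≫ t₂ = f := by
      rw [show t₂ = pullback.fst f f ≫ f from rfl, ← Category.assoc, pullback.lift_fst,
        Category.id_comp]
    have h := congrArg (pullClass s₃) hθ₂
    rw [map_pow, map_one, pullClass_theta G hc t₂ f s₃ ht,
      show schemeHomOverComp s₃ ht u₂ = v from Subtype.ext (pullback.lift_snd _ _ _),
      show schemeHomOverComp s₃ ht x₂ = RelativeGroupLaw.idPoint from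
        Subtype.ext (pullback.lift_fst _ _ _), theta, pullClass_id] at h
    have hminus : G.mul f v (G.inv f RelativeGroupLaw.idPoint) =
      G.nsmul f m RelativeGroupLaw.idPoint := by
      let := pointCommGroup G hc f
      exact mul_inv_cancel_right (G.nsmul f m RelativeGroupLaw.idPoint)
        (RelativeGroupLaw.idPoint : SchemeHomOver f f)
    rw [hminus, div_pow, div_eq_one, mul_pow, mul_pow, ← pow_mul, ← pow_mul, mul_comm 2 r, pow_mul,
      pow_mul] at h
    simp only [r, pow_mul] at h ⊢
    exact h
  have hzero : pullClass (G.schemeNsmul 0) c = 1 := pullClass_one G f c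
  have hone : pullClass (G.schemeNsmul 1) c = c := by
    rw [RelativeGroupLaw.schemeNsmul, G.nsmul_one_apply]
    exact pullClass_id c
  have main : ∀ m : ℕ, pullClass (G.schemeNsmul m) c ^ r = (c ^ r) ^ m ^ 2 ∧
      pullClass (G.schemeNsmul (m + 1)) c ^ r = (c ^ r) ^ (m + 1) ^ 2 := by
    intro m
    induction m with
    | zero => exact ⟨by simp [hzero], by rw [hone]; simp⟩
    | succ m ih =>
      refine ⟨ih.2, ?_⟩
      have h := hstep m
      rw [ih.1, ih.2, ← pow_mul (c ^ r), ← pow_add,
        show (m + 1) ^ 2 * 2 + 2 = (m + 1 + 1) ^ 2 + m ^ 2 by ring, pow_add] at h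
      exact mul_right_cancel h
  intro m
  rw [(main m).1, ← pow_mul]

end FLTAgent.AbelianTorsion
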