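import Mathlib
import Fermat.Agent.AbelianTorsion.Square
import Fermat.Agent.AbelianTorsion.Effective
import Fermat.Agent.AbelianTorsion.Kernel
import Fermat.Agent.AbelianTorsion.Polar
import Fermat.Agent.AbelianTorsion.Growth

/-!
# Torsion counting in positive dimension

A symmetric large divisor (`exists_symmetric_large`) and the growth bound on its pullbacks along
multiplication show that multiplication by `n` prime to the characteristic has degree `n ^ (2 * g)`,
so there are that many rational `n`-torsion points (`natCard_torsion_of_pos`).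
-/

set_option autoImplicit false

noncomputable section

universe u

open CategoryTheory CategoryTheory.Limits AlgebraicGeometry NeronModelInfra GoodReductionJacobian
open IsLocalRing AlgebraicCurve
open scoped IsMulCommutative
open FLTAgent.FFBasic (IsFunctionField)

namespace FLTAgent.AbelianTorsion

theorem le_of_pow_le_mul_pow {a b C : ℕ} (h : ∀ j, b ^ j ≤ C * a ^ j) : b ≤ a := by
  rcases Nat.eq_zero_or_pos a with ha | ha
  · simpa [ha] using h 1
  by_contra hlt
  push Not at hlt
  have key : ∀ j : ℕ, a ^ (j + 1) + (j + 1) * a ^ j ≤ b ^ (j + 1) := by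
    intro j
    induction j with
    | zero => simpa using (show a + 1 ≤ b by omega)
    | succ j ih =>
      have h1 : (a ^ (j + 1) + (j + 1) * a ^ j) * (a + 1) ≤ b ^ (j + 1) * b :=
        Nat.mul_le_mul ih (by omega)
      rw [← pow_succ b] at h1
      refine le_trans ?_ h1
      rw [pow_succ a (j + 1), pow_succ a j]
      nlinarith [Nat.zero_le ((j + 1) * a ^ j)]
  have h1 := key (C * a)
  have h2 := h (C * a + 1)
  have h3 : 0 < a ^ (C * a) := pow_pos ha _
  rw [pow_succ a (C * a)] at h1 h2
  nlinarith

theorem linearIndependent_mul_right {k F ι : Type*} [Field k] [Field F] [Algebra k F] {v : ι → F}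
    (hv : LinearIndependent k v) {c : F} (hc : c ≠ 0) : LinearIndependent k fun i => v i * c :=
  hv.map' (LinearMap.mulRight k c) (LinearMap.ker_eq_bot.mpr (mul_left_injective₀ hc))

theorem pullback'_id {X : Scheme.{u}} [IsIntegral X]
    (D : trivialAt ((𝟙 X : X ⟶ X) (genericPoint X))) : pullback' (𝟙 X) D = D.1 := by
  refine Subtype.ext (funext fun x => ?_)
  obtain ⟨e, he⟩ := exists_localEq D.1 x
  have hu : e ∈ unitsAt ((𝟙 X : X ⟶ X) (genericPoint X)) :=
    mem_unitsAt_of_trivialAt D.2 ((genericPoint_spec X).specializes trivial) he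
  rw [pullback'_apply (𝟙 X) D x ⟨e, hu⟩ he, he]
  congr 1
  refine Units.ext ?_
  have hid : ∀ (hψ : (𝟙 X : X ⟶ X) (genericPoint X) = genericPoint X) (z : X.functionField),
      functionFieldMap (𝟙 X) hψ z = z := fun hψ z => by
    unfold functionFieldMap
    rw [Scheme.Hom.stalkMap_id]
    refine Eq.trans ?_ (show (X.presheaf.stalkSpecializes (specializes_of_eq (rfl :
      genericPoint X = genericPoint X))) z = z from ?_)
    · rfl
    exact DFunLike.congr_fun (congrArg CommRingCat.Hom.hom
      (X.presheaf.stalkSpecializes_refl (genericPoint X))) z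
  rw [pullFunction_eq_functionFieldMap (𝟙 X) rfl]
  exact hid _ _

theorem pullback'_congr {X Y : Scheme.{u}} [IsIntegral X] [IsIntegral Y] {φ ψ : Y ⟶ X} (h : φ = ψ)
    (D : cartier X) (h1 : D ∈ trivialAt (φ (genericPoint Y)))
    (h2 : D ∈ trivialAt (ψ (genericPoint Y))) : pullback' φ ⟨D, h1⟩ = pullback' ψ ⟨D, h2⟩ := by
  subst h; rfl

variable {K : Type u} [Field K] [IsAlgClosed K] {A : Scheme.{u}}
  {f : A ⟶ Spec (CommRingCat.of K)} [IsIntegral A] [IsProper f] [CompactSpace A]
  (G : RelativeGroupLaw K f) {g : ℕ} [hf : SmoothOfRelativeDimension g f]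

omit [CompactSpace A] hf [IsAlgClosed K] [IsProper f] in
theorem functionFieldMap_algebraMap (φ : A ⟶ A) (hφ : φ ≫ f = f)
    (h : φ (genericPoint A) = genericPoint A) (c : K) :
    letI := stalkAlgebra f (genericPoint A)
    functionFieldMap φ h (algebraMap K A.functionField c) = algebraMap K A.functionField c := by
  let := stalkAlgebra f (genericPoint A)
  have key : CommRingCat.ofHom (algebraMap K A.functionField) ≫ functionFieldMap φ h =
      CommRingCat.ofHom (algebraMap K A.functionField) := by
    apply Spec.map_injective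
    rw [Spec.map_comp]
    show Spec.map (functionFieldMap φ h) ≫ specStr K A.functionField = specStr K A.functionField
    rw [← fromSpecStalk_genericPoint_comp (K := K) (f := f), ← Category.assoc,
      specMap_functionFieldMap, Category.assoc, hφ]
  exact DFunLike.congr_fun (congrArg CommRingCat.Hom.hom key) c

include G in
omit [CompactSpace A] in
/-- Multiplication by an integer prime to the characteristic is onto the rational points. -/
theorem nsmul_surjective (hc : G.IsCommutative) {g : ℕ} [SmoothOfRelativeDimension g f] {n : ℕ}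
    (hn : (n : K) ≠ 0) (y : SchemeHomOver (𝟙 (Spec (CommRingCat.of K))) f) :
    ∃ x, G.nsmul (𝟙 _) n x = y := by
  have := locallyOfFiniteType f (g := g)
  have := formallyUnramified_schemeNsmul G hc hn
  have := isFinite_schemeNsmul G hc hn
  let φ := G.schemeNsmul n
  have hgen := map_genericPoint f (g := g) φ (G.schemeNsmul_over n)
  have : JacobsonSpace A := LocallyOfFiniteType.jacobsonSpace f
  let pt := pointEquivClosedPoint (K := K) f
  have hrange : Set.range φ = Set.univ := by
    refine Set.eq_univ_of_univ_subset ?_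
    rw [← (genericPoint_spec A).def]
    exact closure_minimal (Set.singleton_subset_iff.mpr ⟨_, hgen⟩) φ.isClosedMap.isClosed_range
  obtain ⟨a₀, ha₀⟩ := hrange.symm.le (Set.mem_univ (pt y).1)
  obtain ⟨a, ha, hac⟩ := nonempty_inter_closedPoints (X := A) (Z := φ ⁻¹' {(pt y).1}) ⟨a₀, ha₀⟩
    ((pt y).2.preimage φ.continuous).isLocallyClosed
  refine ⟨pt.symm ⟨a, hac⟩, pt.injective (Subtype.ext ?_)⟩
  show (G.nsmul _ n (pt.symm ⟨a, hac⟩)).1 (closedPoint K) = _
  rw [← comp_schemeNsmul G _ n (pt.symm ⟨a, hac⟩)]
  refine (Scheme.Hom.comp_apply _ _ _).trans ?_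
  show φ (pt (pt.symm ⟨a, hac⟩)).1 = _
  rw [Equiv.apply_symm_apply]
  exact ha

include G in
omit [CompactSpace A] in
theorem natCard_torsion_pow (hc : G.IsCommutative) {g : ℕ} [SmoothOfRelativeDimension g f] {n : ℕ}
    (hn : (n : K) ≠ 0) (j : ℕ) :
    Nat.card {x : SchemeHomOver (𝟙 (Spec (CommRingCat.of K))) f //
        G.IsTorsionPoint (𝟙 (Spec (CommRingCat.of K))) (n ^ j) x} =
      Nat.card {x : SchemeHomOver (𝟙 (Spec (CommRingCat.of K))) f //
        G.IsTorsionPoint (𝟙 (Spec (CommRingCat.of K))) n x} ^ j := by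
  let := pointCommGroup G hc (𝟙 (Spec (CommRingCat.of K)))
  let P := SchemeHomOver (𝟙 (Spec (CommRingCat.of K))) f
  have hker : ∀ N : ℕ, Nat.card {x : P // G.IsTorsionPoint (𝟙 (Spec (CommRingCat.of K))) N x} =
      Nat.card (powMonoidHom (α := P) N).ker := by
    intro N
    refine Nat.card_congr (Equiv.subtypeEquivRight fun x => ?_)
    show G.nsmul _ N x = G.one _ ↔ x ^ N = 1
    rw [nsmul_eq_pow G hc]
    exact Iff.rfl
  rw [hker, hker]
  induction j with
  | zero =>
    rw [pow_zero, pow_zero, show (powMonoidHom (α := P) 1).ker = ⊥ from Subgroup.ext fun x => by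
      simp [MonoidHom.mem_ker, Subgroup.mem_bot]]
    simp
  | succ j ih =>
    let φ : (powMonoidHom (α := P) (n ^ (j + 1))).ker →* (powMonoidHom (α := P) (n ^ j)).ker :=
      ((powMonoidHom (α := P) n).comp (Subgroup.subtype _)).codRestrict _ fun x => by
        have hx : (x : P) ^ n ^ (j + 1) = 1 := x.2
        show ((x : P) ^ n) ^ n ^ j = 1
        rw [← pow_mul, ← pow_succ']
        exact hx
    have hφ : Function.Surjective φ := by
      rintro ⟨y, hy⟩
      obtain ⟨x, hx⟩ := nsmul_surjective G hc (g := g) hn y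
      rw [nsmul_eq_pow G hc] at hx
      refine ⟨⟨x, ?_⟩, Subtype.ext hx⟩
      show x ^ n ^ (j + 1) = 1
      rw [pow_succ', pow_mul]
      exact (congrArg (fun z => z ^ n ^ j) hx).trans hy
    let e : φ.ker ≃ (powMonoidHom (α := P) n).ker :=
      { toFun := fun x => ⟨x.1.1, congrArg Subtype.val x.2⟩
        invFun := fun x => ⟨⟨x.1, by
          have hx : (x : P) ^ n = 1 := x.2
          show (x : P) ^ n ^ (j + 1) = 1
          rw [pow_succ', pow_mul, hx, one_pow]⟩, Subtype.ext x.2⟩
        left_inv := fun _ => rfl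
        right_inv := fun _ => rfl }
    rw [Subgroup.card_eq_card_quotient_mul_card_subgroup φ.ker,
      Nat.card_congr (QuotientGroup.quotientKerEquivOfSurjective φ hφ).toEquiv,
      Nat.card_congr e, ih,
      pow_succ]

omit [IsProper f] [CompactSpace A] in
/-- An effective symmetric divisor which is large: its powers have linear systems of polynomial
growth of degree `g`. -/
theorem exists_symmetric_large (hc : G.IsCommutative) :
    ∃ D : cartier A, IsEffective D ∧
      pullClass (invMap G) (QuotientGroup.mk D) = (QuotientGroup.mk D : CDivClass A) ∧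
      ∀ k : ℕ, letI := stalkAlgebra f (genericPoint A)
        ∃ v : (Fin g → Fin (k + 1)) → A.functionField,
          LinearIndependent K v ∧ ∀ i, v i ∈ linSet (D ^ k) := by
  classical
  have := locallyOfFiniteType f (g := g)
  have : IsLocallyNoetherian A := LocallyOfFiniteType.isLocallyNoetherian f
  let := stalkAlgebra f (genericPoint A)
  have hinv : invMap G ≫ invMap G = 𝟙 A := by
    let := pointCommGroup G hc f
    have h := inv_val G hc f (G.inv f RelativeGroupLaw.idPoint)
    rw [show G.inv f (G.inv f RelativeGroupLaw.idPoint) = RelativeGroupLaw.idPoint from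
      inv_inv (RelativeGroupLaw.idPoint : SchemeHomOver f f)] at h
    exact h.symm
  have hinvgen : invMap G (genericPoint A) = genericPoint A := by
    have : IsIso (invMap G) := ⟨invMap G, hinv, hinv⟩
    exact genericPoint_eq_of_isOpenImmersion (invMap G)
  obtain ⟨z, hz⟩ : ∃ z : A, IsClosed {z} :=
    ⟨_, (pointEquivClosedPoint (K := K) f (G.one (𝟙 (Spec (CommRingCat.of K))))).2⟩
  let := stalkAlgebra f z
  obtain ⟨-, hsm, x, hx⟩ := exists_parameters f (g := g) z hz
  have := hsm
  let oz : A.presheaf.stalk z →ₐ[K] A.functionField :=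
    { algebraMap (A.presheaf.stalk z) A.functionField with
      commutes' := fun c => by
        show algebraMap _ A.functionField (A.presheaf.germ ⊤ z trivial (baseRingHom f ⊤ c)) =
          A.presheaf.germ ⊤ (genericPoint A) trivial (baseRingHom f ⊤ c)
        rw [RingHom.algebraMap_toAlgebra]
        exact TopCat.Presheaf.germ_stalkSpecializes_apply (F := A.presheaf) (U := ⊤) _ _ _ }
  let t : Fin g → A.functionField := fun i => oz (x i)
  have hind : AlgebraicIndependent K t :=
    (algebraicIndependent_parameters hx).map' (IsFractionRing.injective _ A.functionField)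
  choose P hP hPt using fun i => exists_effective_mem_linSet (stalk_factorial f (g := g)) (t i)
  set D₀ := ∏ i, P i with hD₀
  have hu : D₀ ∈ trivialAt (invMap G (genericPoint A)) := by
    rw [hinvgen]; exact trivialAt_genericPoint D₀
  have hD₀e : IsEffective D₀ :=
    Finset.prod_induction _ IsEffective (fun _ _ => IsEffective.mul) isEffective_one fun i _ => hP i
  have hD₀t : ∀ i, t i ∈ linSet (P i) := hPt
  refine ⟨D₀ * pullback' (invMap G) ⟨D₀, hu⟩, hD₀e.mul (hD₀e.pullback _ hinvgen ⟨D₀, hu⟩), ?_, ?_⟩
  · rw [QuotientGroup.mk_mul, ← pullClass_mk (invMap G) ⟨D₀, hu⟩, map_mul, ← pullClass_comp, hinv,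
      pullClass_id, mul_comm]
  · intro k
    refine ⟨fun v => ∏ i, t i ^ (v i : ℕ), ?_, fun v => ?_⟩
    · let ev : (Fin g → Fin (k + 1)) → (Fin g →₀ ℕ) := fun v =>
        Finsupp.equivFunOnFinite.symm fun i => (v i : ℕ)
      have hev : Function.Injective ev := fun v w h => funext fun i =>
        Fin.ext (DFunLike.congr_fun h i)
      have heq : (fun v : Fin g → Fin (k + 1) => ∏ i, t i ^ (v i : ℕ)) =
          (MvPolynomial.aeval t).toLinearMap ∘ (MvPolynomial.basisMonomials (Fin g) K) ∘ ev := by
        funext v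
        simp [ev, MvPolynomial.aeval_monomial, Finsupp.prod_fintype]
      rw [heq]
      exact ((MvPolynomial.basisMonomials (Fin g) K).linearIndependent.comp ev hev).map'
        (MvPolynomial.aeval t).toLinearMap (LinearMap.ker_eq_bot.mpr hind)
    · have h1 : ∀ i, t i ^ (v i : ℕ) ∈ linSet (P i ^ k) := by
        intro i
        obtain ⟨l, hl⟩ := Nat.exists_eq_add_of_le (Nat.lt_succ_iff.mp (v i).2)
        rw [show P i ^ k = P i ^ (v i : ℕ) * P i ^ l by rw [← pow_add, ← hl]]
        exact linSet_subset_mul ((hP i).pow l) (pow_mem_linSet (hD₀t i) _)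
      have h2 : ∏ i, t i ^ (v i : ℕ) ∈ linSet (D₀ ^ k) := by
        rw [hD₀, ← Finset.prod_pow]
        induction (Finset.univ : Finset (Fin g)) using Finset.induction with
        | empty => exact isEffective_iff.mp isEffective_one
        | insert i s hi ih =>
          rw [Finset.prod_insert hi, Finset.prod_insert hi]
          exact mul_mem_linSet (h1 i) ih
      rw [mul_pow]
      exact linSet_subset_mul ((hD₀e.pullback _ hinvgen ⟨D₀, hu⟩).pow k) h2

/-- Pullback of divisors along a map which fixes the generic point, on all divisors. -/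
private def pullHom (φ : A ⟶ A) (htriv : ∀ E : cartier A, E ∈ trivialAt (φ (genericPoint A))) :
    cartier A →* cartier A :=
  (pullback' φ).comp ((MonoidHom.id _).codRestrict _ htriv)

variable (g) in
/-- `deg` bounds linear systems pulled back along multiplication, up to the torsion count. -/
private def IsDegreeBound (deg : cartier A →* Multiplicative ℤ) : Prop :=
  letI := stalkAlgebra f (genericPoint A)
  ∀ {ι : Type} [Fintype ι] (E : cartier A) (N : ℕ) (_hN : (N : K) ≠ 0)
    (hEN : E ∈ trivialAt (G.schemeNsmul N (genericPoint A))) (v : ι → A.functionField),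
    LinearIndependent K v → (∀ i, v i ∈ linSet (pullback' (G.schemeNsmul N) ⟨E, hEN⟩)) →
    Fintype.card ι ≤ Nat.card {x : SchemeHomOver (𝟙 (Spec (CommRingCat.of K))) f //
      G.IsTorsionPoint (𝟙 (Spec (CommRingCat.of K))) N x} * ((deg E).toAdd.natAbs + 1) ^ g

/-- The degree on a generic curve through the origin bounds linear systems. -/
private theorem exists_isDegreeBound (hc : G.IsCommutative) (hg : 0 < g) :
    ∃ deg : cartier A →* Multiplicative ℤ, IsDegreeBound G g deg := by
  classical
  let := stalkAlgebra f (genericPoint A)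
  obtain ⟨k, F₀, _, _, _, _, _, _, _, _, ι₀, hgen, P₀, -, hP₀⟩ :=
    exists_curve (f := f) G (g := g) hg
  have htriv : ∀ E : cartier A, E ∈ trivialAt (imagePoint ι₀.1) := fun E => by
    rw [hgen]; exact trivialAt_genericPoint E
  let deg : cartier A →* Multiplicative ℤ :=
    (AddMonoidHom.toMultiplicative (Divisor.degree (K := k) (F := F₀))).comp
      ((pullDivHom (L := k) f ι₀).comp ((MonoidHom.id _).codRestrict _ htriv))
  have hdeg : ∀ E, Divisor.degree (pullDiv (L := k) f ι₀ ⟨E, htriv E⟩) = (deg E).toAdd :=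
    fun E => rfl
  refine ⟨deg, fun {ι} _ E N hN hEN v hv hmem => ?_⟩
  have h := card_le_of_linearIndependent G (g := g) hc ι₀ hgen P₀ hP₀ E hN hEN (htriv E)
    (Finset.univ.image v) (fun h hh => by
      obtain ⟨i, -, rfl⟩ := Finset.mem_image.mp hh
      exact hmem i) (by
      let e : ι ≃ (Finset.univ.image v : Finset A.functionField) :=
        Equiv.ofBijective (fun i => ⟨v i, Finset.mem_image_of_mem v (Finset.mem_univ i)⟩)
          ⟨fun i j hij => hv.injective (congrArg Subtype.val hij), fun ⟨a, ha⟩ => by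
            obtain ⟨i, -, rfl⟩ := Finset.mem_image.mp ha; exact ⟨i, rfl⟩⟩
      exact (linearIndependent_equiv e).mp hv)
  rw [Finset.card_image_of_injective _ hv.injective, Finset.card_univ, hdeg] at h
  exact h.trans (Nat.mul_le_mul_left _ (Nat.pow_le_pow_left (by omega) g))

omit [IsAlgClosed K] [IsIntegral A] [IsProper f] [CompactSpace A] in
/-- Only the origin is `1`-torsion. -/
private theorem natCard_torsion_one :
    Nat.card {x : SchemeHomOver (𝟙 (Spec (CommRingCat.of K))) f //
      G.IsTorsionPoint (𝟙 (Spec (CommRingCat.of K))) 1 x} = 1 := by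
  rw [Nat.card_eq_one_iff_unique]
  exact ⟨⟨fun a b => Subtype.ext (((G.isTorsionPoint_one_iff _ _).mp a.2).trans
    ((G.isTorsionPoint_one_iff _ _).mp b.2).symm)⟩, ⟨⟨G.one _, G.isTorsionPoint_unit _ 1⟩⟩⟩

omit [IsAlgClosed K] [IsProper f] [CompactSpace A] in
/-- A power of a symmetric divisor pulls back along multiplication by `m` to its `m ^ 2`-th power,
up to a principal divisor. -/
private theorem exists_pullHom_eq_mul_principal {D : cartier A} {r m : ℕ}
    (hsq : pullClass (G.schemeNsmul m) (QuotientGroup.mk D) ^ r =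
      (QuotientGroup.mk D : CDivClass A) ^ (r * m ^ 2))
    (htriv : ∀ E : cartier A, E ∈ trivialAt (G.schemeNsmul m (genericPoint A))) :
    ∃ ψ : (A.functionField)ˣ,
      pullHom (G.schemeNsmul m) htriv (D ^ r) = D ^ (r * m ^ 2) * principal ψ := by
  have h := hsq
  rw [show (QuotientGroup.mk D : CDivClass A) = QuotientGroup.mk (⟨D, htriv D⟩ : trivialAt _).1
    from rfl, pullClass_mk] at h
  have h' : (QuotientGroup.mk (pullHom (G.schemeNsmul m) htriv (D ^ r)) : CDivClass A) =
      QuotientGroup.mk (D ^ (r * m ^ 2)) := by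
    rw [map_pow, QuotientGroup.mk_pow, QuotientGroup.mk_pow]
    exact h
  obtain ⟨ψ, hψ⟩ := QuotientGroup.eq.mp h'.symm
  exact ⟨ψ, by rw [hψ, mul_inv_cancel_left]⟩

/-- Finitely many functions lie in the linear system of one divisor. -/
private theorem exists_forall_mem_linSet {X : Scheme.{u}} [IsIntegral X] [IsLocallyNoetherian X]
    (hX : ∀ x : X, ∃ _ : IsDomain (X.presheaf.stalk x),
      UniqueFactorizationMonoid (X.presheaf.stalk x))
    {κ : Type} [Fintype κ] (b : κ → X.functionField) :
    ∃ P : cartier X, ∀ i, b i ∈ linSet P := by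
  classical
  choose Q hQ hQb using fun i => exists_effective_mem_linSet hX (b i)
  refine ⟨∏ i, Q i, fun i => ?_⟩
  rw [← Finset.mul_prod_erase _ _ (Finset.mem_univ i)]
  exact linSet_subset_mul (Finset.prod_induction _ IsEffective (fun _ _ => IsEffective.mul)
    isEffective_one fun l _ => hQ l) (hQb i)

omit [IsAlgClosed K] [IsProper f] [CompactSpace A] in
/-- Products of pulled back independent functions with a family independent over the image of
the function field are independent over the ground field. -/
private theorem linearIndependent_map_mul (φ : A ⟶ A) (hφ : φ ≫ f = f)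
    (hgen : φ (genericPoint A) = genericPoint A) {κ ι : Type} [Fintype κ] [Fintype ι]
    {b : κ → A.functionField}
    (hb : letI : Algebra A.functionField (TargetField A) := (functionFieldMap φ hgen).hom.toAlgebra
      LinearIndependent (ι := κ) (M := TargetField A) A.functionField b)
    {v : ι → A.functionField}
    (hv : letI := stalkAlgebra f (genericPoint A); LinearIndependent K v) :
    letI := stalkAlgebra f (genericPoint A)
    LinearIndependent K fun p : κ × ι =>
      (functionFieldMap φ hgen).hom (v p.2) * b p.1 := by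
  let := stalkAlgebra f (genericPoint A)
  set ffm := (functionFieldMap φ hgen).hom
  let algφ : Algebra A.functionField (TargetField A) := ffm.toAlgebra
  rw [Fintype.linearIndependent_iff]
  intro a ha p
  have hffm : ∀ x : A.functionField, ∀ s : K, ffm (s • x) = s • ffm x := fun x s => by
    rw [Algebra.smul_def, Algebra.smul_def, map_mul]
    exact congrArg (· * ffm x) (functionFieldMap_algebraMap φ hφ hgen s)
  have hsum : ∑ l, (∑ i, a (l, i) • v i) • (show TargetField A from b l) = 0 := by
    refine Eq.trans ?_ ha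
    rw [Fintype.sum_prod_type]
    refine Finset.sum_congr rfl fun l _ => ?_
    show ffm (∑ i, a (l, i) • v i) * b l = ∑ i, a (l, i) • (ffm (v i) * b l)
    rw [map_sum, Finset.sum_mul]
    exact Finset.sum_congr rfl fun i _ => by rw [hffm, smul_mul_assoc]
  have h0 := Fintype.linearIndependent_iff.mp hb _ hsum p.1
  exact Fintype.linearIndependent_iff.mp hv _ h0 p.2

omit [IsAlgClosed K] [IsProper f] [CompactSpace A] hf in
/-- The fibre bound applied to the pulled back divisor bounds the torsion from below. -/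
private theorem mul_pow_le_natCard_torsion {deg : cartier A →* Multiplicative ℤ}
    (hdeg : IsDegreeBound G g deg) {D : cartier A} {r m : ℕ} (hr : 0 < r) (hm : (m : K) ≠ 0)
    (htriv : ∀ E : cartier A, E ∈ trivialAt (G.schemeNsmul m (genericPoint A)))
    {ψ : (A.functionField)ˣ}
    (hψ : pullHom (G.schemeNsmul m) htriv (D ^ r) = D ^ (r * m ^ 2) * principal ψ)
    (hlarge : ∀ k : ℕ, letI := stalkAlgebra f (genericPoint A)
      ∃ v : (Fin g → Fin (k + 1)) → A.functionField,
        LinearIndependent K v ∧ ∀ i, v i ∈ linSet (D ^ k)) :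
    (m ^ 2) ^ g ≤ ((deg D).toAdd.natAbs + 1) ^ g *
      Nat.card {x : SchemeHomOver (𝟙 (Spec (CommRingCat.of K))) f //
        G.IsTorsionPoint (𝟙 (Spec (CommRingCat.of K))) m x} := by
  let := stalkAlgebra f (genericPoint A)
  obtain ⟨v, hv, hvm⟩ := hlarge (r * m ^ 2)
  have h := hdeg (D ^ r) m hm (htriv _) _
    (linearIndependent_mul_right hv (Units.ne_zero ψ⁻¹)) fun i => by
      show _ ∈ linSet (pullHom (G.schemeNsmul m) htriv (D ^ r))
      rw [hψ]
      refine mul_mem_linSet_of_principal ψ⁻¹ ?_
      rw [mul_assoc, ← map_mul, mul_inv_cancel, map_one, mul_one]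
      exact hvm i
  rw [Fintype.card_fun, Fintype.card_fin, Fintype.card_fin, map_pow, toAdd_pow, nsmul_eq_mul,
    Int.natAbs_mul, Int.natAbs_natCast] at h
  have h1 := ((Nat.pow_le_pow_left (Nat.le_succ _) g).trans h).trans (Nat.mul_le_mul_left _
    (Nat.pow_le_pow_left (show r * (deg D).toAdd.natAbs + 1 ≤ r * ((deg D).toAdd.natAbs + 1) by
      rw [mul_add, mul_one]; omega) g))
  rw [mul_pow, mul_pow, mul_left_comm] at h1
  rw [mul_comm]
  exact Nat.le_of_mul_le_mul_left h1 (pow_pos hr g)

omit [CompactSpace A] in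
/-- Many functions with bounded poles on the source bound the torsion from above. -/
private theorem natCard_torsion_le_mul_pow (hc : G.IsCommutative)
    {deg : cartier A →* Multiplicative ℤ} (hdeg : IsDegreeBound G g deg) {D : cartier A} {r m : ℕ}
    (hr : 0 < r) (hm : (m : K) ≠ 0)
    (htriv : ∀ E : cartier A, E ∈ trivialAt (G.schemeNsmul m (genericPoint A)))
    {ψ : (A.functionField)ˣ}
    (hψ : pullHom (G.schemeNsmul m) htriv (D ^ r) = D ^ (r * m ^ 2) * principal ψ)
    (hlarge : ∀ k : ℕ, letI := stalkAlgebra f (genericPoint A)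
      ∃ v : (Fin g → Fin (k + 1)) → A.functionField,
        LinearIndependent K v ∧ ∀ i, v i ∈ linSet (D ^ k)) :
    Nat.card {x : SchemeHomOver (𝟙 (Spec (CommRingCat.of K))) f //
        G.IsTorsionPoint (𝟙 (Spec (CommRingCat.of K))) m x} ≤
      ((deg D).toAdd.natAbs + 1) ^ g * (m ^ 2) ^ g := by
  classical
  let := stalkAlgebra f (genericPoint A)
  set c := (deg D).toAdd.natAbs
  have := formallyUnramified_schemeNsmul G hc hm
  have := isFinite_schemeNsmul G hc hm
  set φ := G.schemeNsmul m
  have hφgen := map_genericPoint f (g := g) φ (G.schemeNsmul_over m)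
  set d := Nat.card {x : SchemeHomOver (𝟙 (Spec (CommRingCat.of K))) f //
    G.IsTorsionPoint (𝟙 (Spec (CommRingCat.of K))) m x}
  let algφ : Algebra A.functionField (TargetField A) := (functionFieldMap φ hφgen).hom.toAlgebra
  have hd : d = Module.finrank A.functionField (TargetField A) :=
    natCard_torsion_eq_degree G hc (g := g)
  rcases Nat.eq_zero_or_pos d with hd0 | hdpos
  · rw [hd0]; exact Nat.zero_le _
  have : Module.Finite A.functionField (TargetField A) :=
    Module.finite_of_finrank_pos (hd ▸ hdpos)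
  let be := Module.finBasis A.functionField (TargetField A)
  have : IsLocallyNoetherian A :=
    have := locallyOfFiniteType f (g := g)
    LocallyOfFiniteType.isLocallyNoetherian f
  let bf : Fin (Module.finrank A.functionField (TargetField A)) → A.functionField := fun i => be i
  obtain ⟨P, hP⟩ := exists_forall_mem_linSet (stalk_factorial f (g := g)) bf
  set cP := (deg P).toAdd.natAbs
  obtain ⟨v, hv, hvm⟩ := hlarge (r * (cP + 1))
  have h1id : G.schemeNsmul 1 = 𝟙 A := by
    rw [RelativeGroupLaw.schemeNsmul, G.nsmul_one_apply]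
  set E := D ^ (r * m ^ 2 * (cP + 1)) * P
  have hE1 : E ∈ trivialAt (G.schemeNsmul 1 (genericPoint A)) := by
    rw [h1id]; exact trivialAt_genericPoint E
  have h := hdeg E 1 (by rw [Nat.cast_one]; exact one_ne_zero) hE1 _
    (linearIndependent_mul_right
      (linearIndependent_map_mul φ (G.schemeNsmul_over m) hφgen (b := bf)
        be.linearIndependent hv)
      (Units.ne_zero (ψ ^ (cP + 1)))) fun p => by
      rw [pullback'_congr h1id E hE1 (trivialAt_genericPoint E), pullback'_id]
      refine mul_mem_linSet_of_principal _ ?_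
      show _ ∈ linSet (D ^ (r * m ^ 2 * (cP + 1)) * P * principal (ψ ^ (cP + 1)))
      rw [mul_right_comm, show D ^ (r * m ^ 2 * (cP + 1)) * principal (ψ ^ (cP + 1)) =
        pullHom φ htriv (D ^ (r * (cP + 1))) by
          rw [pow_mul D r, map_pow (pullHom φ htriv), hψ, mul_pow, ← pow_mul, map_pow]]
      exact mul_mem_linSet (functionFieldMap_mem_linSet φ hφgen ⟨_, htriv _⟩ (hvm p.2)) (hP _)
  rw [natCard_torsion_one, one_mul, Fintype.card_prod, Fintype.card_fin, ← hd, Fintype.card_fun,
    Fintype.card_fin, Fintype.card_fin] at h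
  have hdegE : (deg E).toAdd.natAbs ≤ r * m ^ 2 * (cP + 1) * c + cP := by
    rw [map_mul, toAdd_mul]
    exact (Int.natAbs_add_le _ _).trans
      (by rw [map_pow, toAdd_pow, nsmul_eq_mul, Int.natAbs_mul, Int.natAbs_natCast])
  have hm1 : 1 ≤ r * m ^ 2 := Nat.mul_pos hr
    (pow_pos (Nat.pos_of_ne_zero fun h0 => hm (by simp [h0])) 2)
  have h5 : cP + 1 ≤ r * m ^ 2 * (cP + 1) := Nat.le_mul_of_pos_left _ hm1
  have hup : (deg E).toAdd.natAbs + 1 ≤ r * (cP + 1) * ((c + 1) * m ^ 2) :=
    calc (deg E).toAdd.natAbs + 1 ≤ r * m ^ 2 * (cP + 1) * c + r * m ^ 2 * (cP + 1) := by omega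
      _ = r * (cP + 1) * ((c + 1) * m ^ 2) := by ring
  have h4 : d * (r * (cP + 1)) ^ g ≤ ((c + 1) * m ^ 2) ^ g * (r * (cP + 1)) ^ g := by
    rw [← mul_pow, mul_comm ((c + 1) * m ^ 2)]
    exact ((Nat.mul_le_mul_left _ (Nat.pow_le_pow_left (Nat.le_succ _) g)).trans h).trans
      (Nat.pow_le_pow_left hup g)
  rw [← mul_pow]
  exact Nat.le_of_mul_le_mul_right h4 (pow_pos (Nat.mul_pos hr (Nat.succ_pos _)) g)

/-- **Torsion counting** in positive dimension. -/
theorem natCard_torsion_of_pos (hc : G.IsCommutative) (hg : 0 < g) {n : ℕ} (hn : (n : K) ≠ 0) :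
    Nat.card {x : SchemeHomOver (𝟙 (Spec (CommRingCat.of K))) f //
        G.IsTorsionPoint (𝟙 (Spec (CommRingCat.of K))) n x} = n ^ (2 * g) := by
  classical
  have := locallyOfFiniteType f (g := g)
  have : IsLocallyNoetherian A := LocallyOfFiniteType.isLocallyNoetherian f
  obtain ⟨deg, hdeg⟩ := exists_isDegreeBound G (g := g) hc hg
  obtain ⟨D, -, hsym, hlarge⟩ := exists_symmetric_large G (g := g) hc
  obtain ⟨r, hr, hsq⟩ := exists_pullClass_nsmul G (g := g) hc hg (QuotientGroup.mk D) hsym
  -- bounds for one multiplication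
  set C := ((deg D).toAdd.natAbs + 1) ^ g
  have bounds : ∀ m : ℕ, (m : K) ≠ 0 →
      (m ^ 2) ^ g ≤ C * Nat.card {x : SchemeHomOver (𝟙 (Spec (CommRingCat.of K))) f //
          G.IsTorsionPoint (𝟙 (Spec (CommRingCat.of K))) m x} ∧
      Nat.card {x : SchemeHomOver (𝟙 (Spec (CommRingCat.of K))) f //
          G.IsTorsionPoint (𝟙 (Spec (CommRingCat.of K))) m x} ≤ C * (m ^ 2) ^ g := by
    intro m hm
    have := isFinite_schemeNsmul G hc hm
    have := formallyUnramified_schemeNsmul G hc hm
    have htriv : ∀ E : cartier A, E ∈ trivialAt (G.schemeNsmul m (genericPoint A)) := fun E => by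
      rw [map_genericPoint f (g := g) _ (G.schemeNsmul_over m)]; exact trivialAt_genericPoint E
    obtain ⟨ψ, hψ⟩ := exists_pullHom_eq_mul_principal G (hsq m) htriv
    exact ⟨mul_pow_le_natCard_torsion G hdeg hr hm htriv hψ hlarge,
      natCard_torsion_le_mul_pow G hc hdeg hr hm htriv hψ hlarge⟩
  -- powers of `n`
  have hnj : ∀ j : ℕ, ((n ^ j : ℕ) : K) ≠ 0 := fun j => by rw [Nat.cast_pow]; exact pow_ne_zero _ hn
  have hpowj : ∀ j : ℕ, ((n ^ j) ^ 2) ^ g = (n ^ (2 * g)) ^ j := fun j => by
    rw [← pow_mul, ← pow_mul, ← pow_mul]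
    congr 1
    ring
  refine le_antisymm (le_of_pow_le_mul_pow (C := C) fun j => ?_)
    (le_of_pow_le_mul_pow (C := C) fun j => ?_)
  · rw [← natCard_torsion_pow G hc (g := g) hn j, ← hpowj]
    exact (bounds (n ^ j) (hnj j)).2
  · rw [← natCard_torsion_pow G hc (g := g) hn j, ← hpowj]
    exact (bounds (n ^ j) (hnj j)).1

end FLTAgent.AbelianTorsion
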