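import Mathlib
import Fermat.Agent.AbelianTorsion.Assembly
import Fermat.Agent.AbelianTorsion.FunctionFieldDim

/-!
# Torsion of a zero-dimensional abelian variety

`natCard_torsion_dimZero`: a zero-dimensional abelian variety has exactly one torsion point,
because multiplication by an invertible integer has degree one.
-/

set_option autoImplicit false

noncomputable section

universe u

open CategoryTheory CategoryTheory.Limits AlgebraicGeometry NeronModelInfra GoodReductionJacobian

namespace FLTAgent.AbelianTorsion

variable {K : Type u} [Field K] [IsAlgClosed K] {A : Scheme.{u}}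
  {f : A ⟶ Spec (CommRingCat.of K)} [IsIntegral A] [IsProper f] [CompactSpace A]

omit [CompactSpace ↥A] in
/-- In dimension zero there is exactly one torsion point. -/
theorem natCard_torsion_dimZero (G : RelativeGroupLaw K f) [hf : SmoothOfRelativeDimension 0 f]
    (hc : G.IsCommutative) {n : ℕ} (hn : (n : K) ≠ 0) :
    Nat.card {x : SchemeHomOver (𝟙 (Spec (CommRingCat.of K))) f //
        G.IsTorsionPoint (𝟙 (Spec (CommRingCat.of K))) n x} = 1 := by
  have := formallyUnramified_schemeNsmul G hc hn
  have := isFinite_schemeNsmul G hc hn
  rw [natCard_torsion_eq_degree G hc (g := 0)]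
  set φ := G.schemeNsmul n
  have hφgen := map_genericPoint f (g := 0) φ (G.schemeNsmul_over n)
  let := stalkAlgebra f (genericPoint A)
  obtain ⟨-, htr⟩ := essFiniteType_trdeg_functionField f (g := 0)
  have : Algebra.IsAlgebraic K A.functionField :=
    trdeg_eq_zero_iff.mp (by exact_mod_cast htr)
  have hsurj : Function.Surjective (algebraMap K A.functionField) :=
    (IsAlgClosed.algebraMap_bijective_of_isIntegral (k := K) (K := A.functionField)).2
  set ffm := (functionFieldMap φ hφgen).hom
  let algφ : Algebra A.functionField (TargetField A) := ffm.toAlgebra
  have hsurj' : Function.Surjective (algebraMap A.functionField (TargetField A)) := fun y => by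
    obtain ⟨c, hc'⟩ := hsurj y
    exact ⟨algebraMap K A.functionField c,
      (functionFieldMap_algebraMap φ (G.schemeNsmul_over n) hφgen c).trans hc'⟩
  show Module.finrank A.functionField (TargetField A) = 1
  rw [← (AlgEquiv.ofBijective (Algebra.ofId A.functionField (TargetField A))
    ⟨(algebraMap A.functionField (TargetField A)).injective, hsurj'⟩).toLinearEquiv.finrank_eq]
  exact Module.finrank_self _

end FLTAgent.AbelianTorsion
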