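import Fermat.Agent.AbelianTorsion.Assembly
import Fermat.Agent.AbelianTorsion.DimZero

/-!
# The torsion of an abelian variety

An abelian variety of dimension `g` over an algebraically closed field has `n ^ (2 * g)` rational
`n`-torsion points for `n` invertible in the field (`natCard_torsion`).
-/

set_option autoImplicit false

universe u

open CategoryTheory AlgebraicGeometry NeronModelInfra GoodReductionJacobian

namespace FLTAgent.AbelianTorsion

/-- An abelian variety of dimension `g` has `n ^ (2 * g)` rational `n`-torsion points for `n`
prime to the characteristic. -/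
theorem natCard_torsion {K : Type u} [Field K] [IsAlgClosed K] {A : Scheme.{u}}
    {f : A ⟶ Spec (CommRingCat.of K)} (G : RelativeGroupLaw K f) (hc : G.IsCommutative)
    (hA : AbelianSchemePropertyBundle K f) (g : ℕ) [SmoothOfRelativeDimension g f] {n : ℕ}
    (hn : (n : K) ≠ 0) :
    Nat.card {x : SchemeHomOver (𝟙 (Spec (CommRingCat.of K))) f //
        G.IsTorsionPoint (𝟙 (Spec (CommRingCat.of K))) n x} = n ^ (2 * g) := by
  have := isIntegral_of_bundle f hA g
  have := hA.proper
  have : CompactSpace A := QuasiCompact.compactSpace_of_compactSpace f
  rcases Nat.eq_zero_or_pos g with rfl | hg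
  · rw [mul_zero, pow_zero]
    exact natCard_torsion_dimZero G hc hn
  exact natCard_torsion_of_pos G hc hg hn

end FLTAgent.AbelianTorsion
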